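import Fermat.Agent.Semistable.OneSide
import Fermat.Agent.GoodRed.Torsion

/-!
# The node system of two degeneracy reductions

Functions with poles pulled back from the lower level reduce to functions with controlled poles,
and their two reductions agree at every place where some function integral on the first component
acquires a pole that the lower level does not explain.
-/

set_option autoImplicit false
set_option linter.unusedSectionVars false

noncomputable section

open AlgebraicCurve Polynomial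

namespace FLTAgent.Semistable

open FLTAgent.GoodRed FLTAgent.GoodRed.RedDatum FLTAgent.FunctionField

section general

variable {K G : Type*} [Field K] [Field G] [Algebra K G] [IsFunctionField K G]

theorem ordGe_pow {v : Place K G} {z : G} {n : ℤ} (h : OrdGe v n z) (i : ℕ) :
    OrdGe v ((i : ℤ) * n) (z ^ i) := by
  rcases eq_or_ne z 0 with rfl | hz
  · rcases Nat.eq_zero_or_pos i with rfl | hi
    · simp only [Nat.cast_zero, zero_mul, pow_zero]
      exact ordGe_of_le_ord (by rw [v.ord_one])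
    · rw [zero_pow hi.ne']; exact ordGe_zero _
  refine ordGe_of_le_ord ?_
  rw [FunctionField.ord_pow]
  exact mul_le_mul_of_nonneg_left (h.le_ord hz) (Nat.cast_nonneg i)

/-- A root of a monic polynomial with small coefficients is small. -/
theorem ordGe_root {v : Place K G} {z : G} {N : ℤ} {P : G[X]} (hP : P.Monic)
    (h : ∀ i < P.natDegree, OrdGe v (-(((P.natDegree - i : ℕ) : ℤ) * N)) (P.coeff i))
    (hz : P.eval z = 0) : OrdGe v (-N) z := by
  rcases eq_or_ne z 0 with rfl | hz0
  · exact ordGe_zero _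
  refine ordGe_of_le_ord ?_
  by_contra hlt
  push Not at hlt
  set d := P.natDegree with hd
  rw [eval_eq_sum_range, ← hd, Finset.sum_range_succ, hd, hP.coeff_natDegree, one_mul, ← hd,
    add_eq_zero_iff_eq_neg] at hz
  have h1 : OrdGe v ((d : ℤ) * v.ord z + 1) (-z ^ d) := by
    rw [← hz]
    refine OrdGe.sum fun i hi => ?_
    have hi' : i < d := Finset.mem_range.1 hi
    refine ((h i hi').mul (ordGe_pow (ordGe_ord z) i)).mono ?_
    push_cast [Nat.cast_sub hi'.le]
    have : (1 : ℤ) ≤ (d : ℤ) - i := by omega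
    nlinarith
  have h2 := h1.neg
  rw [neg_neg] at h2
  have := h2.le_ord (pow_ne_zero _ hz0)
  rw [FunctionField.ord_pow] at this
  omega

end general

theorem coeff_charpoly_smul {R n : Type*} [CommRing R] [Fintype n] [DecidableEq n]
    (M : Matrix n n R) (c : R) (i : ℕ) :
    (c • M).charpoly.coeff i * c ^ i = c ^ Fintype.card n * M.charpoly.coeff i := by
  have h : (Polynomial.compRingHom (C c * X)) (c • M).charpoly =
      C c ^ Fintype.card n * M.charpoly := by
    rw [Matrix.charpoly, RingHom.map_det, Matrix.charpoly, ← Matrix.det_smul]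
    congr 1
    ext i j
    simp only [RingHom.mapMatrix_apply, Matrix.map_apply, Matrix.smul_apply, smul_eq_mul,
      Matrix.charmatrix_apply, coe_compRingHom_apply, sub_comp, mul_sub, C_mul]
    rcases eq_or_ne i j with rfl | hij
    · simp
    · simp [Matrix.diagonal_apply_ne _ hij]
  have h' := congrArg (fun p : R[X] => p.coeff i) h
  rwa [coe_compRingHom_apply, comp_C_mul_X_coeff, ← C_pow, coeff_C_mul] at h'

section charpoly

variable {L E F : Type*} [Field L] [Field E] [Algebra L E] [Field F] [Algebra L F] [Algebra E F]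
  [IsScalarTower L E F] [IsFunctionField L E] [IsFunctionField L F] [Module.Finite E F]

/-- The coefficients of the characteristic polynomial of a function with poles pulled back from
below. -/
theorem coeff_charpoly_mem_rr {G : Divisor L E} {f : F}
    (hf : f ∈ riemannRochSpace (Divisor.pullback F G)) (i : ℕ)
    (hi : i ≤ Module.finrank E F) :
    (Algebra.lmul E F f).charpoly.coeff i ∈
      riemannRochSpace ((Module.finrank E F - i) • G) := by
  classical
  refine mem_rr_iff.2 fun v => ?_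
  obtain ⟨A⟩ := exists_adapted (F' := F) v
  obtain ⟨s, hs0, hs⟩ := exists_ord_eq v (G v)
  set b := A.basis
  have hcard : Fintype.card (AdaptedIndex (F' := F) v) = Module.finrank E F :=
    (Module.finrank_eq_card_basis b).symm
  set M := Algebra.leftMulMatrix b f
  have hreg : ∀ i j, OrdGe v 0 ((s • M) i j) := by
    intro i j
    rw [Matrix.smul_apply, smul_eq_mul]
    have : s * M i j = b.repr (algebraMap E F s * f * b j) i := by
      rw [mul_assoc, ← Algebra.smul_def, map_smul, Finsupp.smul_apply, smul_eq_mul]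
      exact congrArg _ (Algebra.leftMulMatrix_eq_repr_mul b f i j)
    rw [this]
    refine A.ordGe_repr (fun w => ?_) i
    have hw := Place.mem_fiber.1 w.2
    have h1 : OrdGe w.1 ((w.1.ramificationIndex E : ℤ) * G v) (algebraMap E F s) :=
      ordGe_of_le_ord (by rw [Place.ord_restrict, hw, hs])
    have h2 := mem_rr_iff.1 hf w.1
    rw [Divisor.pullback_apply, hw] at h2
    have h3 := (h1.mul h2).mono (m := 0) (by omega)
    rw [A.basis_apply]
    simpa using h3.mul (A.ordGe_elem j w)
  have hcoeff : OrdGe v 0 ((s • M).charpoly.coeff i) := by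
    let M' : Matrix (AdaptedIndex (F' := F) v) (AdaptedIndex (F' := F) v) v.toValuationSubring :=
      Matrix.of fun i j => ⟨_, mem_iff_ordGe_zero.2 (hreg i j)⟩
    have hM' : M'.map v.toValuationSubring.subtype = s • M := rfl
    rw [← hM', Matrix.charpoly_map, coeff_map]
    exact mem_iff_ordGe_zero.1 (M'.charpoly.coeff i).2
  have hM : (Algebra.lmul E F f).charpoly = M.charpoly := by
    rw [← LinearMap.charpoly_toMatrix (Algebra.lmul E F f) b]
    rfl
  rw [hM]
  have key := coeff_charpoly_smul M s i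
  rw [hcard] at key
  have hsplit : s ^ Module.finrank E F = s ^ (Module.finrank E F - i) * s ^ i := by
    rw [← pow_add, Nat.sub_add_cancel hi]
  rw [hsplit, mul_assoc, mul_comm (s ^ i), ← mul_assoc] at key
  rw [mul_right_cancel₀ (pow_ne_zero i hs0) key] at hcoeff
  rcases eq_or_ne (M.charpoly.coeff i) 0 with h0 | h0
  · rw [h0]; exact ordGe_zero _
  refine ordGe_of_le_ord ?_
  have h4 := hcoeff.le_ord (mul_ne_zero (pow_ne_zero _ hs0) h0)
  rw [v.ord_mul (pow_ne_zero _ hs0) h0, FunctionField.ord_pow, hs] at h4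
  simp only [Finsupp.smul_apply, nsmul_eq_mul]
  omega

end charpoly

variable {L k : Type*} [Field L] [Field k] {A : ValuationSubring L} {π : A →+* k}
  {E F C : Type*} [Field E] [Algebra L E] [Field F] [Algebra L F] [Algebra E F]
  [IsScalarTower L E F] [Field C] [Algebra k C]
  [IsFunctionField L E] [IsFunctionField L F] [IsFunctionField k C] [IsAlgClosed L]
  [IsAlgClosed k] [Module.Finite E F]

omit [IsFunctionField k C] in
private theorem charpoly_map_coeff {q : ℕ} {DE : RedDatum A π E C} {G : Divisor L E} {f : F}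
    (hq : Module.finrank E F = q + 1) (hf : f ∈ riemannRochSpace (Divisor.pullback F G))
    {P : DE.V[X]} (hPE : P.map DE.V.subtype = (Algebra.lmul E F f).charpoly) {i : ℕ}
    (hi : i < q + 1) :
    (P.map DE.res).coeff i ∈ DE.redSpace (riemannRochSpace ((q + 1 - i) • G)) := by
  refine ⟨(P.coeff i : E), ?_, ?_⟩
  · have h := coeff_charpoly_mem_rr (L := L) hf i (by rw [hq]; omega)
    rw [← hPE, coeff_map, hq] at h
    exact h
  · rw [coeff_map]; exact red_iff.2 rfl

/-- Poles of the first reduction. -/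
theorem OneSide.red_mem_fst {DE : RedDatum A π E C} {D D' : RedDatum A π F C} {frob : C →ₐ[k] C}
    {q : ℕ} (hS : OneSide DE D D' frob q) (R : PlaceRed DE) {G : Divisor L E} {f : F} {a b : C}
    (hf : f ∈ riemannRochSpace (Divisor.pullback F G)) (ha : D.Red f a) (hb : D'.Red f b) :
    a ∈ riemannRochSpace (Finsupp.mapDomain R.r G) := by
  obtain ⟨P, hP, hdeg, hPE, hPa, -⟩ := hS.exists_charpoly ha hb
  refine mem_rr_iff.2 fun v => ordGe_root (P := P.map DE.res) (hP.map _) (fun i hi => ?_) ?_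
  · rw [hP.natDegree_map, hdeg] at hi ⊢
    have h := mem_rr_iff.1 (R.redSpace_le _ (charpoly_map_coeff hS.degree hf hPE hi)) v
    rwa [Finsupp.mapDomain_smul, Finsupp.smul_apply, nsmul_eq_mul] at h
  · simpa [aeval_def] using hPa

/-- Auxiliary divisors and crossings for a `OneSide`. -/
structure CrossData (DE : RedDatum A π E C) (D D' : RedDatum A π F C) (frob : C →ₐ[k] C) (q : ℕ)
    (ι : Type*) [Fintype ι] where
  side : OneSide DE D D' frob q
  hpow : ∀ z : C, ∃ w, frob w = z ^ q
  /-- the reduction of places below -/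
  R : PlaceRed DE
  /-- the map induced by `frob` on places -/
  frP : Place k C ≃ Place k C
  ord_frob : ∀ v z, v.ord (frob z) = (q : ℤ) * (frP v).ord z
  /-- genus below -/
  gE : ℤ
  /-- genus above -/
  g : ℤ
  /-- bound for Riemann-Roch -/
  c : ℕ
  hE : RRLarge L E gE c
  hC : RRLarge k C gE c
  hF : RRLarge L F g c
  /-- first auxiliary divisor -/
  G₁ : Divisor L E
  /-- second auxiliary divisor -/
  G₂ : Divisor L E
  G₁_nonneg : 0 ≤ G₁
  G₂_nonneg : 0 ≤ G₂
  deg_G₁ : 1 ≤ Divisor.degree G₁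
  deg_G₂ : 1 ≤ Divisor.degree G₂
  disj : ∀ v, Finsupp.mapDomain R.r G₁ v = 0 ∨ Finsupp.mapDomain R.r G₂ v = 0
  /-- the crossings -/
  x : ι → Place k C
  x_inj : Function.Injective x
  nonempty : Nonempty ι
  genus_le : g ≤ gE + gE + (Fintype.card ι : ℤ) - 1
  G₁_x : ∀ i, Finsupp.mapDomain R.r G₁ (x i) = 0
  G₂_x : ∀ i, Finsupp.mapDomain R.r G₂ (x i) = 0
  witness : ∀ i, ∃ G : Divisor L E, 0 ≤ G ∧ Finsupp.mapDomain R.r G (x i) = 0 ∧
    ∃ T ∈ riemannRochSpace (Divisor.pullback F G), ∃ z, D.Red T z ∧ (x i).ord z < 0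

namespace CrossData

variable {DE : RedDatum A π E C} {D D' : RedDatum A π F C} {frob : C →ₐ[k] C} {q : ℕ}
  {ι : Type*} [Fintype ι] (S : CrossData DE D D' frob q ι)

/-- Reduction of a divisor from below on the first component. -/
def red₁ (G : Divisor L E) : Divisor k C := Finsupp.mapDomain S.R.r G

/-- Reduction of a divisor from below on the second component. -/
def red₂ (G : Divisor L E) : Divisor k C := q • Finsupp.mapDomain S.frP.symm (S.red₁ G)

theorem red₂_apply (G : Divisor L E) (v : Place k C) :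
    S.red₂ G v = (q : ℤ) * S.red₁ G (S.frP v) := by
  rw [red₂, Finsupp.smul_apply, nsmul_eq_mul]
  conv_lhs => rw [← S.frP.symm_apply_apply v, Finsupp.mapDomain_apply S.frP.symm.injective]

theorem red₁_add (G H : Divisor L E) : S.red₁ (G + H) = S.red₁ G + S.red₁ H :=
  Finsupp.mapDomain_add

theorem red₁_nsmul (n : ℕ) (G : Divisor L E) : S.red₁ (n • G) = n • S.red₁ G :=
  map_nsmul (Finsupp.mapDomain.addMonoidHom S.R.r) n G

theorem ordGe_frob {v : Place k C} {n : ℤ} {z : C} (h : OrdGe (S.frP v) n z) :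
    OrdGe v ((q : ℤ) * n) (frob z) := by
  rcases eq_or_ne z 0 with rfl | hz
  · rw [map_zero]; exact ordGe_zero _
  refine ordGe_of_le_ord ?_
  rw [S.ord_frob]
  exact mul_le_mul_of_nonneg_left (h.le_ord hz) (Nat.cast_nonneg q)

/-- Poles of the two reductions. -/
theorem red_mem {G : Divisor L E} {f : F} {a b : C}
    (hf : f ∈ riemannRochSpace (Divisor.pullback F G)) (ha : D.Red f a) (hb : D'.Red f b) :
    a ∈ riemannRochSpace (S.red₁ G) ∧ b ∈ riemannRochSpace (S.red₂ G) := by
  obtain ⟨P, hP, hdeg, hPE, hPa, hPb⟩ := S.side.exists_charpoly ha hb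
  have hbound : ∀ i, i < q + 1 → (P.map DE.res).coeff i ∈
      riemannRochSpace (S.red₁ ((q + 1 - i) • G)) := fun i hi => by
    refine S.R.redSpace_le _ ⟨(P.coeff i : E), ?_, ?_⟩
    · have h := coeff_charpoly_mem_rr (L := L) hf i (by rw [S.side.degree]; omega)
      rw [← hPE, coeff_map, S.side.degree] at h
      exact h
    · rw [coeff_map]; exact red_iff.2 rfl
  constructor
  · refine mem_rr_iff.2 fun v => ordGe_root (P := P.map DE.res) (hP.map _) (fun i hi => ?_) ?_
    · rw [hP.natDegree_map, hdeg] at hi ⊢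
      have h := mem_rr_iff.1 (hbound i hi) v
      rwa [S.red₁_nsmul, Finsupp.smul_apply, nsmul_eq_mul] at h
    · simpa [aeval_def] using hPa
  · refine mem_rr_iff.2 fun v =>
      ordGe_root (P := (P.map DE.res).map frob.toRingHom) ((hP.map _).map _) (fun i hi => ?_) ?_
    · rw [(hP.map _).natDegree_map, hP.natDegree_map, hdeg] at hi ⊢
      have h := mem_rr_iff.1 (hbound i hi) (S.frP v)
      rw [S.red₁_nsmul, Finsupp.smul_apply, nsmul_eq_mul] at h
      rw [coeff_map, S.red₂_apply]
      exact (S.ordGe_frob h).mono (le_of_eq (by ring))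
    · rw [eval_map]; exact hPb

theorem red₂_symm_eq_zero {G : Divisor L E} {v : Place k C} (h : S.red₁ G v = 0) :
    S.red₂ G (S.frP.symm v) = 0 := by
  rw [S.red₂_apply, Equiv.apply_symm_apply, h, mul_zero]

theorem valAt_frob {v : Place k C} {z : C} (h : OrdGe (S.frP v) 0 z) :
    OrdGe v 0 (frob z) ∧ valAt v (frob z) = valAt (S.frP v) z := by
  refine ⟨by simpa using S.ordGe_frob h, valAt_eq ?_⟩
  rw [← frob.commutes, ← map_sub]
  have h1 := S.ordGe_frob (valAt_spec h)
  exact h1.mono (by have := S.side.prime.one_lt; omega)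

/-- The two reductions agree at a crossing. -/
theorem agree [CharP k q] {G : Divisor L E} (hG : 0 ≤ G) (i : ι) (hx : S.red₁ G (S.x i) = 0)
    {f : F} {a b : C} (hf : f ∈ riemannRochSpace (Divisor.pullback F G)) (ha : D.Red f a)
    (hb : D'.Red f b) : valAt (S.x i) a = valAt (S.frP.symm (S.x i)) b := by
  classical
  have hq : q.Prime := S.side.prime
  have : Fact q.Prime := ⟨hq⟩
  obtain ⟨haM, hbM⟩ := S.red_mem hf ha hb
  obtain ⟨w, hw⟩ := S.hpow b
  set G' := G + S.c • S.G₁ with hG'
  have hG'0 : 0 ≤ G' := add_nonneg hG (nsmul_nonneg S.G₁_nonneg _)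
  have hG'x : S.red₁ G' (S.x i) = 0 := by
    rw [hG', S.red₁_add, S.red₁_nsmul, Finsupp.add_apply, Finsupp.smul_apply, hx]
    simp [red₁, S.G₁_x i]
  have hdeg : (S.c : ℤ) ≤ Divisor.degree (q • G') := by
    have h1 : (S.c : ℤ) * 1 ≤ (S.c : ℤ) * Divisor.degree S.G₁ :=
      mul_le_mul_of_nonneg_left S.deg_G₁ (Nat.cast_nonneg _)
    have h2 := degree_nonneg (E := G) hG
    have h3 : (S.c : ℤ) ≤ Divisor.degree G' := by
      rw [hG', map_add, map_nsmul, nsmul_eq_mul]; omega
    rw [map_nsmul, nsmul_eq_mul]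
    have h4 : (1 : ℤ) ≤ q := by exact_mod_cast hq.one_lt.le
    nlinarith
  have hwM : w ∈ DE.redSpace (riemannRochSpace (q • G')) := by
    rw [S.R.redSpace_eq S.hE S.hC hdeg]
    refine mem_rr_iff.2 fun v => ?_
    rcases eq_or_ne w 0 with rfl | hw0
    · exact ordGe_zero _
    refine ordGe_of_le_ord ?_
    obtain ⟨v, rfl⟩ := S.frP.surjective v
    have h1 := ordGe_pow (mem_rr_iff.1 hbM v) q
    rw [← hw, S.red₂_apply] at h1
    have h2 := h1.le_ord ((map_ne_zero frob).2 hw0)
    rw [S.ord_frob] at h2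
    have h3 : S.red₁ (q • G') (S.frP v) = (q : ℤ) * S.red₁ G (S.frP v)
        + (q : ℤ) * ((S.c : ℤ) * S.red₁ S.G₁ (S.frP v)) := by
      rw [S.red₁_nsmul, hG', S.red₁_add, S.red₁_nsmul]
      simp only [Finsupp.smul_apply, Finsupp.add_apply, nsmul_eq_mul]
      ring
    change -(S.red₁ (q • G') (S.frP v)) ≤ _
    have h4 : (0 : ℤ) ≤ S.red₁ S.G₁ (S.frP v) := mapDomain_nonneg _ S.G₁_nonneg _
    have h5 : (1 : ℤ) ≤ q := by exact_mod_cast hq.one_lt.le
    rw [h3]
    have h6 := mul_nonneg (mul_nonneg (Nat.cast_nonneg (α := ℤ) q) (Nat.cast_nonneg (α := ℤ) S.c)) h4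
    nlinarith
  obtain ⟨cc, hcM, hcr⟩ := hwM
  set h := f ^ q - algebraMap E F cc with hh
  have hmem : h ∈ riemannRochSpace (Divisor.pullback F (q • G')) := by
    refine Submodule.sub_mem _ ?_ ?_
    · rw [map_nsmul]
      refine mem_rr_iff.2 fun v => ?_
      have hmono : Divisor.pullback F G ≤ Divisor.pullback F G' := by
        rw [hG', map_add]
        refine le_add_of_nonneg_right fun u => ?_
        rw [Divisor.pullback_apply]
        exact mul_nonneg (Nat.cast_nonneg _) (nsmul_nonneg S.G₁_nonneg _ _)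
      refine (ordGe_pow (mem_rr_iff.1 (riemannRochSpace_mono hmono hf) v) q).mono ?_
      rw [Finsupp.smul_apply, nsmul_eq_mul]
      linarith
    · refine mem_rr_iff.2 fun u => ?_
      rcases eq_or_ne cc 0 with rfl | hc0
      · rw [map_zero]; exact ordGe_zero _
      refine ordGe_of_le_ord ?_
      rw [Divisor.pullback_apply, u.ord_restrict, ← mul_neg]
      exact mul_le_mul_of_nonneg_left ((mem_rr_iff.1 hcM _).le_ord hc0) (Nat.cast_nonneg _)
  have hhr : D.Red h (a ^ q - w) := (ha.pow q).sub (S.side.red _ _ hcr)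
  have hhr' : D'.Red h 0 := by
    have := (hb.pow q).sub (S.side.red' _ _ hcr)
    rwa [hw, sub_self] at this
  -- the difference vanishes at the crossing
  have hax : OrdGe (S.x i) 0 a := regular_of_mem_rr hx haM
  have hby : OrdGe (S.frP.symm (S.x i)) 0 b :=
    regular_of_mem_rr (S.red₂_symm_eq_zero hx) hbM
  have hqx : S.red₁ (q • G') (S.x i) = 0 := by
    rw [S.red₁_nsmul, Finsupp.smul_apply, hG'x, smul_zero]
  have hwx : OrdGe (S.x i) 0 w := by
    refine regular_of_mem_rr hqx ?_
    exact S.R.redSpace_le _ ⟨cc, hcM, hcr⟩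
  obtain ⟨GT, hGT, hGTx, T, hT, z, hTr, hz⟩ := S.witness i
  by_contra hne
  have hqne : valAt (S.x i) (a ^ q - w) ≠ 0 := by
    have hv : valAt (S.frP.symm (S.x i)) (frob w) = valAt (S.x i) w := by
      rw [(S.valAt_frob (v := S.frP.symm (S.x i)) (by rwa [Equiv.apply_symm_apply])).2,
        Equiv.apply_symm_apply]
    rw [hw, (valAt_pow hby q).2] at hv
    rw [sub_eq_add_neg, valAt_add (valAt_pow hax q).1 hwx.neg, (valAt_pow hax q).2,
      show -w = (-1 : k) • w by simp, valAt_smul _ hwx, neg_one_mul, ← hv, ← sub_eq_add_neg,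
      sub_ne_zero]
    exact fun h' => hne (frobenius_inj k q (by simpa [frobenius_def] using h'))
  have hreg : OrdGe (S.x i) 0 (a ^ q - w) := (valAt_pow hax q).1.sub hwx
  have hord : (S.x i).ord (a ^ q - w) = 0 := by
    have h0 : a ^ q - w ≠ 0 := fun h0 => hqne (by rw [h0, valAt_zero])
    refine le_antisymm ?_ (hreg.le_ord h0)
    by_contra hpos
    exact hqne (valAt_eq (by
      rw [map_zero, sub_zero]; exact ordGe_of_le_ord (by omega)))
  obtain ⟨M, hM⟩ := exists_pow_mul_red_zero D' S.side.rankOne hhr' T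
  have hz' := (hhr.pow M).mul hTr
  have hmem' : h ^ M * T ∈ riemannRochSpace (Divisor.pullback F (M • (q • G') + GT)) := by
    rw [map_add, map_nsmul]
    refine mul_mem_rr (mem_rr_iff.2 fun v => ?_) hT
    refine (ordGe_pow (mem_rr_iff.1 hmem v) M).mono ?_
    rw [Finsupp.smul_apply, nsmul_eq_mul]
    linarith
  have hfin := regular_of_mem_rr (v := S.x i) (by
    rw [S.red₁_add, S.red₁_nsmul, Finsupp.add_apply, Finsupp.smul_apply, hqx, smul_zero, zero_add]
    exact hGTx) (S.red_mem hmem' hz' (hM M le_rfl)).1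
  have hz0 : z ≠ 0 := fun h0 => by rw [h0, Place.ord_zero] at hz; omega
  have hpow0 : (a ^ q - w) ^ M ≠ 0 := pow_ne_zero _ fun h0 => hqne (by rw [h0, valAt_zero])
  have := hfin.le_ord (mul_ne_zero hpow0 hz0)
  rw [(S.x i).ord_mul hpow0 hz0, FunctionField.ord_pow, hord] at this
  omega

theorem degree_red₁ (G : Divisor L E) : Divisor.degree (S.red₁ G) = Divisor.degree G :=
  degree_mapDomain _ _

theorem degree_red₂ (G : Divisor L E) : Divisor.degree (S.red₂ G) = q * Divisor.degree G := by
  rw [red₂, map_nsmul, degree_mapDomain, S.degree_red₁, nsmul_eq_mul]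

/-- The node system. -/
def nodeSystem [CharP k q] : NodeSystem D D' ι where
  x := S.x
  y i := S.frP.symm (S.x i)
  x_inj := S.x_inj
  y_inj := S.frP.symm.injective.comp S.x_inj
  nonempty := S.nonempty
  g := S.g
  g₁ := S.gE
  g₂ := S.gE
  c := S.c
  hL := S.hF
  hk := S.hC
  hk' := S.hC
  genus_le := S.genus_le
  B₁ := Divisor.pullback F S.G₁
  B₂ := Divisor.pullback F S.G₂
  B₁_nonneg u := by
    rw [Divisor.pullback_apply]; exact mul_nonneg (Nat.cast_nonneg _) (S.G₁_nonneg _)
  B₂_nonneg u := by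
    rw [Divisor.pullback_apply]; exact mul_nonneg (Nat.cast_nonneg _) (S.G₂_nonneg _)
  B_disj u := by
    have h0 : ∀ {G : Divisor L E}, 0 ≤ G → ∀ P, Finsupp.mapDomain S.R.r G (S.R.r P) = 0 →
        G P = 0 := fun {G} hG P h =>
      le_antisymm (h ▸ mapDomain_le_apply S.R.r (fun a _ => hG a) P rfl) (hG P)
    simp only [Divisor.pullback_apply]
    exact (S.disj (S.R.r (u.restrict E))).imp (fun h => by rw [h0 S.G₁_nonneg _ h, mul_zero])
      fun h => by rw [h0 S.G₂_nonneg _ h, mul_zero]
  p₁ := S.red₁ S.G₁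
  p₂ := S.red₁ S.G₂
  q₁ := S.red₂ S.G₁
  q₂ := S.red₂ S.G₂
  p₁_nonneg := mapDomain_nonneg _ S.G₁_nonneg
  p₂_nonneg := mapDomain_nonneg _ S.G₂_nonneg
  q₁_nonneg := nsmul_nonneg (mapDomain_nonneg _ (mapDomain_nonneg _ S.G₁_nonneg)) _
  q₂_nonneg := nsmul_nonneg (mapDomain_nonneg _ (mapDomain_nonneg _ S.G₂_nonneg)) _
  p_disj := S.disj
  q_disj v := by
    simp only [red₂_apply]
    exact (S.disj (S.frP v)).imp (fun h => by rw [show S.red₁ S.G₁ _ = 0 from h, mul_zero])
      fun h => by rw [show S.red₁ S.G₂ _ = 0 from h, mul_zero]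
  p₁_x := S.G₁_x
  p₂_x := S.G₂_x
  q₁_y i := S.red₂_symm_eq_zero (S.G₁_x i)
  q₂_y i := S.red₂_symm_eq_zero (S.G₂_x i)
  deg_p₁ := by rw [S.degree_red₁]; exact S.deg_G₁
  deg_p₂ := by rw [S.degree_red₁]; exact S.deg_G₂
  deg_q₁ := by
    rw [S.degree_red₂]; nlinarith [S.deg_G₁, show (1 : ℤ) ≤ q by exact_mod_cast S.side.prime.one_lt.le]
  deg_q₂ := by
    rw [S.degree_red₂]; nlinarith [S.deg_G₂, show (1 : ℤ) ≤ q by exact_mod_cast S.side.prime.one_lt.le]
  deg₁ := by
    rw [S.degree_red₁, S.degree_red₂, Divisor.degree_pullback, S.side.degree]; push_cast; linarith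
  deg₂ := by
    rw [S.degree_red₁, S.degree_red₂, Divisor.degree_pullback, S.side.degree]; push_cast; linarith
  red_mem n₁ n₂ f a b hf ha hb := by
    have h := S.red_mem (G := n₁ • S.G₁ + n₂ • S.G₂)
      (by rwa [map_add, map_nsmul, map_nsmul]) ha hb
    simpa [red₂, red₁_add, red₁_nsmul, Finsupp.mapDomain_add, smul_comm q,
      ← Finsupp.mapDomain.addMonoidHom_apply] using h
  agree n₁ n₂ f a b hf ha hb i :=
    S.agree (G := n₁ • S.G₁ + n₂ • S.G₂)
      (add_nonneg (nsmul_nonneg S.G₁_nonneg _) (nsmul_nonneg S.G₂_nonneg _)) i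
      (by simp [red₁_add, red₁_nsmul, show S.red₁ S.G₁ (S.x i) = 0 from S.G₁_x i,
        show S.red₁ S.G₂ (S.x i) = 0 from S.G₂_x i])
      (by rwa [map_add, map_nsmul, map_nsmul]) ha hb

end CrossData

end FLTAgent.Semistable
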