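import Fermat.Agent.Semistable.TorsionInj
import Fermat.Prelude.Def_AlgebraicCurve_BaseChangeGalois

/-!
# Semilinear automorphisms of a node system

Automorphisms compatible with both reductions move jumps through their action on the crossings
and on the constants.
-/

set_option autoImplicit false
set_option linter.unusedSectionVars false

noncomputable section

open AlgebraicCurve

namespace FLTAgent.Semistable

open FLTAgent.GoodRed FLTAgent.GoodRed.RedDatum FLTAgent.FunctionField SemilinearAut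

section general

variable {K G : Type*} [Field K] [Field G] [Algebra K G] [IsFunctionField K G]

theorem divisorOf_toRingAut (s : SemilinearAut K G) (f : G) :
    divisorOf (K := K) (toRingAut s f) = s • divisorOf f := by
  ext v
  obtain ⟨w, rfl⟩ : ∃ w, s • w = v := ⟨s⁻¹ • v, smul_inv_smul s v⟩
  rw [divisor_smul_apply_smul, divisorOf_apply, divisorOf_apply]
  exact ord_smul s w f

theorem toRingAut_mem_rr (s : SemilinearAut K G) {X : Divisor K G} {f : G}
    (hf : f ∈ riemannRochSpace X) : toRingAut s f ∈ riemannRochSpace (s • X) := by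
  refine mem_rr_iff.2 fun v => ?_
  obtain ⟨w, rfl⟩ : ∃ w, s • w = v := ⟨s⁻¹ • v, smul_inv_smul s v⟩
  rw [divisor_smul_apply_smul]
  rcases eq_or_ne f 0 with rfl | hf0
  · rw [map_zero]; exact ordGe_zero _
  refine ordGe_of_le_ord ?_
  have := (mem_rr_iff.1 hf w).le_ord hf0
  rwa [show (s • w).ord (toRingAut s f) = w.ord f from ord_smul s w f]

end general

variable {L k : Type*} [Field L] [Field k] {A : ValuationSubring L} {π : A →+* k}
  {F C C' : Type*} [Field F] [Algebra L F] [Field C] [Algebra k C] [Field C'] [Algebra k C']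
  [IsFunctionField L F] [IsFunctionField k C] [IsFunctionField k C'] [IsAlgClosed L]
  [IsAlgClosed k] {D : RedDatum A π F C} {D' : RedDatum A π F C'} {ι : Type*} [Fintype ι]

namespace NodeSystem

/-- A semilinear automorphism of `F` compatible with both reductions. -/
structure NodeAut (N : NodeSystem D D' ι) where
  /-- the automorphism -/
  s : SemilinearAut L F
  val_eq : ∀ a : L, A.valuation (baseAut s a) = A.valuation a
  /-- its action on the residue constants -/
  τ : k ≃+* k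
  τ_red : ∀ a a' : A, (a' : L) = baseAut s a → π a' = τ (π a)
  /-- its action on the first residue field -/
  σb : C ≃+* C
  /-- its action on the second residue field -/
  σb' : C' ≃+* C'
  red : ∀ y z, D.Red y z → D.Red (toRingAut s y) (σb z)
  red' : ∀ y z, D'.Red y z → D'.Red (toRingAut s y) (σb' z)
  B₁_fix : s • N.B₁ = N.B₁
  B₂_fix : s • N.B₂ = N.B₂
  /-- its action on the crossings -/
  perm : ι → ι
  val_x : ∀ i a, OrdGe (N.x i) 0 a → valAt (N.x (perm i)) (σb a) = τ (valAt (N.x i) a)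
  val_y : ∀ i b, OrdGe (N.y i) 0 b → valAt (N.y (perm i)) (σb' b) = τ (valAt (N.y i) b)

variable {N : NodeSystem D D' ι}

namespace NodeAut

variable (T : NodeAut N)

theorem mem_A {a : L} (ha : a ∈ A) : baseAut T.s a ∈ A := by
  rw [← A.valuation_le_one_iff, T.val_eq, A.valuation_le_one_iff]
  exact ha

theorem σb_algebraMap (t : k) : T.σb (algebraMap k C t) = algebraMap k C (T.τ t) := by
  obtain ⟨a, rfl⟩ := D.isResidue.surj t
  have h := T.red _ _ (red_algebraMap (D := D) a)
  rw [SemilinearAut.commutes] at h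
  rw [← T.τ_red a ⟨_, T.mem_A a.2⟩ rfl]
  exact h.unique (red_algebraMap (D := D) ⟨_, T.mem_A a.2⟩)

theorem σb'_algebraMap (t : k) : T.σb' (algebraMap k C' t) = algebraMap k C' (T.τ t) := by
  obtain ⟨a, rfl⟩ := D'.isResidue.surj t
  have h := T.red' _ _ (red_algebraMap (D := D') a)
  rw [SemilinearAut.commutes] at h
  rw [← T.τ_red a ⟨_, T.mem_A a.2⟩ rfl]
  exact h.unique (red_algebraMap (D := D') ⟨_, T.mem_A a.2⟩)

theorem Bd_fix (n₁ n₂ : ℕ) : T.s • N.Bd n₁ n₂ = N.Bd n₁ n₂ := by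
  rw [Bd, smul_add, smul_comm, smul_comm T.s, T.B₁_fix, T.B₂_fix]

theorem isFlat_smul {m : ℕ} {X : Divisor L F} (h : IsFlat (D := D) (D' := D') m X) :
    IsFlat (D := D) (D' := D') m (T.s • X) := by
  obtain ⟨hX, f, hf, hdiv, t, t', ht, ht', hr, hr'⟩ := h
  refine ⟨by rw [SemilinearAut.degree_smul, hX], toRingAut T.s f,
    (map_ne_zero _).2 hf, by rw [divisorOf_toRingAut, hdiv, smul_comm], T.τ t, T.τ t',
    (map_ne_zero _).2 ht, (map_ne_zero _).2 ht', ?_, ?_⟩
  · rw [← T.σb_algebraMap]; exact T.red _ _ hr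
  · rw [← T.σb'_algebraMap]; exact T.red' _ _ hr'

/-- The jump of the image of a class. -/
theorem jump_smul {X : Divisor L F} {ζ ξ : ι → k} (hζ : N.HasJump X ζ)
    (hξ : N.HasJump (T.s • X) ξ) (i : ι) : ξ (T.perm i) = T.τ (ζ i) := by
  set b := N.c + Fintype.card ι + 1
  have hb : N.Big b 0 := by simp [Big, b]
  obtain ⟨p, hp, hpt⟩ := N.exists_mem_nspace ζ hb 1
  have hp₀ := hp
  rw [← hζ b 0 hb] at hp
  obtain ⟨f, hf, hr, hr'⟩ := hp
  have hmem : (T.σb p.1, T.σb' p.2) ∈ N.nspace ξ b 0 := by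
    rw [← hξ b 0 hb]
    refine ⟨toRingAut T.s f, ?_, T.red _ _ hr, T.red' _ _ hr'⟩
    have := toRingAut_mem_rr T.s hf
    rwa [smul_add, T.Bd_fix] at this
  have e := hmem.2.2 (T.perm i)
  rw [T.val_x i _ (regular_of_mem_rr (N.Pd_x _ _ i) hp₀.1),
    T.val_y i _ (regular_of_mem_rr (N.Qd_y _ _ i) hp₀.2.1), hp₀.2.2 i, hpt] at e
  simpa using e.symm

theorem regular_σb {i : ι} {a : C} (ha : OrdGe (N.x i) 0 a) :
    OrdGe (N.x (T.perm i)) 0 (T.σb a) := by
  by_contra h
  have e := T.val_x i a ha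
  have e' := T.val_x i _ (ha.add (ordGe_algebraMap 1))
  have h' : ¬OrdGe (N.x (T.perm i)) 0 (T.σb (a + algebraMap k C 1)) := fun h2 => h (by
    rw [map_add, T.σb_algebraMap] at h2
    simpa using h2.sub (ordGe_algebraMap (T.τ 1)))
  rw [valAt, dif_neg h] at e
  rw [valAt, dif_neg h', valAt_add ha (ordGe_algebraMap 1), valAt_algebraMap, map_add, ← e,
    map_one, zero_add] at e'
  exact zero_ne_one e'

theorem regular_σb' {i : ι} {b : C'} (hb : OrdGe (N.y i) 0 b) :
    OrdGe (N.y (T.perm i)) 0 (T.σb' b) := by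
  by_contra h
  have e := T.val_y i b hb
  have e' := T.val_y i _ (hb.add (ordGe_algebraMap 1))
  have h' : ¬OrdGe (N.y (T.perm i)) 0 (T.σb' (b + algebraMap k C' 1)) := fun h2 => h (by
    rw [map_add, T.σb'_algebraMap] at h2
    simpa using h2.sub (ordGe_algebraMap (T.τ 1)))
  rw [valAt, dif_neg h] at e
  rw [valAt, dif_neg h', valAt_add hb (ordGe_algebraMap 1), valAt_algebraMap, map_add, ← e,
    map_one, zero_add] at e'
  exact zero_ne_one e'

/-- The product of two automorphisms. -/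
def comp (S : NodeAut N) : NodeAut N where
  s := T.s * S.s
  val_eq a := by rw [SemilinearAut.baseAut_mul, RingAut.mul_apply, T.val_eq, S.val_eq]
  τ := S.τ.trans T.τ
  τ_red a a' h := by
    rw [SemilinearAut.baseAut_mul, RingAut.mul_apply] at h
    rw [T.τ_red ⟨_, S.mem_A a.2⟩ a' h, S.τ_red a ⟨_, S.mem_A a.2⟩ rfl]
    rfl
  σb := S.σb.trans T.σb
  σb' := S.σb'.trans T.σb'
  red y z h := T.red _ _ (S.red _ _ h)
  red' y z h := T.red' _ _ (S.red' _ _ h)
  B₁_fix := by rw [mul_smul, S.B₁_fix, T.B₁_fix]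
  B₂_fix := by rw [mul_smul, S.B₂_fix, T.B₂_fix]
  perm := T.perm ∘ S.perm
  val_x i a ha := by
    simp only [RingEquiv.trans_apply, Function.comp_apply]
    rw [T.val_x _ _ (S.regular_σb ha), S.val_x i a ha]
  val_y i b hb := by
    simp only [RingEquiv.trans_apply, Function.comp_apply]
    rw [T.val_y _ _ (S.regular_σb' hb), S.val_y i b hb]

/-- An automorphism acting trivially on both reductions. -/
def IsInertial : Prop :=
  (∀ t, T.τ t = t) ∧ (∀ z, T.σb z = z) ∧ (∀ z, T.σb' z = z) ∧ ∀ i, T.perm i = i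

theorem exists_red_div {B : Type*} [Field B] [Algebra k B] (E : RedDatum A π F B)
    (σ : B ≃+* B) (hE : ∀ y z, E.Red y z → E.Red (toRingAut T.s y) (σ z))
    (hσ : ∀ z, σ z = z) {g : F} (hg : g ≠ 0) :
    ∃ t : k, t ≠ 0 ∧ E.Red (toRingAut T.s g / g) (algebraMap k B t) := by
  obtain ⟨c, z, hc, hz, hr⟩ := E.exists_scale hg
  have hr' := hE _ _ hr
  rw [hσ] at hr'
  have hd := hr'.div hr hz
  rw [div_self hz] at hd
  have hs0 : baseAut T.s c ≠ 0 := (map_ne_zero _).2 hc
  have hval : A.valuation (c / baseAut T.s c) = 1 := by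
    rw [map_div₀, T.val_eq, div_self ((map_ne_zero A.valuation).2 hc)]
  set u : A := ⟨c / baseAut T.s c, (A.valuation_le_one_iff _).1 hval.le⟩ with hu
  refine ⟨π u, (E.isResidue.ne_zero_iff u).2 hval, ?_⟩
  have hres := (red_algebraMap (D := E) u).mul hd
  rw [mul_one] at hres
  convert hres using 1
  rw [Algebra.smul_def, map_mul, SemilinearAut.commutes, hu]
  have h1 : algebraMap L F c ≠ 0 := (map_ne_zero _).2 hc
  have h2 : algebraMap L F (baseAut T.s c) ≠ 0 := (map_ne_zero _).2 hs0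
  simp only [map_div₀]
  field_simp

/-- For inertia, `(s - 1)` makes a torsion class flat. -/
theorem isFlat_smul_sub (hT : T.IsInertial) {m : ℕ} {X : Divisor L F}
    (hX : Divisor.degree X = 0) {g : F} (hg : g ≠ 0) (hdiv : divisorOf g = m • X) :
    IsFlat (D := D) (D' := D') m (T.s • X - X) := by
  obtain ⟨t, ht, hr⟩ := T.exists_red_div D T.σb T.red hT.2.1 hg
  obtain ⟨t', ht', hr'⟩ := T.exists_red_div D' T.σb' T.red' hT.2.2.1 hg
  refine ⟨by rw [map_sub, SemilinearAut.degree_smul, hX, sub_zero], toRingAut T.s g / g,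
    div_ne_zero ((map_ne_zero _).2 hg) hg, ?_, t, t', ht, ht', hr, hr'⟩
  rw [div_eq_mul_inv, divisorOf_mul ((map_ne_zero _).2 hg) (inv_ne_zero hg), divisorOf_inv,
    divisorOf_toRingAut, hdiv, smul_sub, smul_comm T.s, ← sub_eq_add_neg]

variable (hA : IsRankOne A) (hA0 : ∃ ϖ : L, ϖ ≠ 0 ∧ ϖ ∈ A.nonunits)
include hA hA0

/-- An automorphism fixing the crossings and raising constants to a power `Q` is `Q` on flat
classes. -/
theorem smul_sub_nsmul_principal {Q : ℕ} (hperm : ∀ i, T.perm i = i)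
    (hQ : ∀ t, T.τ t = t ^ Q) {m : ℕ} (hm : (m : k) ≠ 0) {X : Divisor L F}
    (h : IsFlat (D := D) (D' := D') m X) :
    ∃ f : F, f ≠ 0 ∧ T.s • X - Q • X = divisorOf f := by
  have hm0 : 0 < m := Nat.pos_of_ne_zero fun h0 => hm (by rw [h0, Nat.cast_zero])
  obtain ⟨ζ, hζ, hζ0⟩ := IsFlat.exists_hasJump N hm0 h
  obtain ⟨hQf, hQj⟩ := HasJump.nsmul_eq N hm0 h hζ Q
  have hsf := T.isFlat_smul h
  obtain ⟨ξ, hξ, -⟩ := IsFlat.exists_hasJump N hm0 hsf
  have hξeq : ξ = ζ ^ Q := funext fun i => by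
    have := T.jump_smul hζ hξ i
    rwa [hperm, hQ] at this
  have hj := HasJump.sub_eq N hm0 hsf hQf hξ hQj
  rw [hξeq, show (ζ ^ Q) / (ζ ^ Q) = 1 from funext fun i =>
    div_self (pow_ne_zero Q (hζ0 i))] at hj
  exact N.principal_of_jump_one hA hA0 hm (by
    simpa [sub_eq_add_neg] using hsf.add hQf.neg) hj

/-- Inertia fixes flat classes. -/
theorem smul_sub_principal (hT : T.IsInertial) {m : ℕ} (hm : (m : k) ≠ 0) {X : Divisor L F}
    (h : IsFlat (D := D) (D' := D') m X) : ∃ f : F, f ≠ 0 ∧ T.s • X - X = divisorOf f := by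
  simpa using T.smul_sub_nsmul_principal hA hA0 (Q := 1) hT.2.2.2
    (fun t => by rw [hT.1, pow_one]) hm h

/-- Inertia is unipotent of echelon two on torsion prime to the residue characteristic. -/
theorem smul_smul_sub_principal (S : NodeAut N) (hT : T.IsInertial) (hS : S.IsInertial) {m : ℕ}
    (hm : (m : k) ≠ 0) {X : Divisor L F} (hX : Divisor.degree X = 0) {g : F} (hg : g ≠ 0)
    (hdiv : divisorOf g = m • X) :
    ∃ f : F, f ≠ 0 ∧ T.s • (S.s • X - X) - (S.s • X - X) = divisorOf f :=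
  T.smul_sub_principal hA hA0 hT hm (S.isFlat_smul_sub hS hX hg hdiv)

end NodeAut

end NodeSystem

end FLTAgent.Semistable
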