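import Fermat.Agent.Semistable.GaloisSeries
import Fermat.Agent.Semistable.Galois
import Fermat.Agent.Semistable.CrossData

/-!
# The automorphism of the node system of level `M q` given by the decomposition group

For crossing data of level `M q` along the first degeneracy map, whose crossings are all crossings
and whose auxiliary divisors are fixed by the Galois group, every element of the decomposition
group gives a `NodeAut`; for inertia it is inertial.
-/

set_option autoImplicit false
set_option linter.style.haveILetI false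
set_option linter.unusedSectionVars false
set_option synthInstance.maxHeartbeats 100000

noncomputable section

open ModularCurve AlgebraicCurve IsLocalRing

namespace FLTAgent.Semistable

open FLTAgent.GoodRed FLTAgent.GoodRed.RedDatum FLTAgent.Hecke FLTAgent.FunctionField

local notation "Qbar" => AlgebraicClosure ℚ

local instance (priority := high) instAlgebraLaurentSubLevelAut {K : Type*} [Field K]
    (F : IntermediateField K (LaurentSeries K)) : Algebra K F :=
  SubalgebraClass.toAlgebra F

variable {M : ℕ} [NeZero M] {q : ℕ} [Fact q.Prime]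

local instance instNeZeroLevelAut : NeZero q := ⟨(Fact.out : q.Prime).ne_zero⟩
local instance instAlgebraLevelAut : Algebra (MF Qbar M) (MF Qbar (M * q)) :=
  algebraAlong (alphaMap Qbar M q)
local instance instScalarTowerLevelAut : IsScalarTower Qbar (MF Qbar M) (MF Qbar (M * q)) :=
  isScalarTower_along (alphaMap Qbar M q)
local instance instFiniteLevelAut : Module.Finite (MF Qbar M) (MF Qbar (M * q)) := finite_alongAlpha M (q := q)

variable {A : ValuationSubring (AlgebraicClosure ℚ)} {hA : A.LiesOverPrime q} {hqM : ¬ q ∣ M}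
  [CharP (ResidueField A) q] [IsAlgClosed (ResidueField A)]
  [IsFunctionField (ResidueField A) (modularFunctionFieldFullC (ResidueField A) M)]
  {ι : Type*} [Fintype ι]
  (X : CrossData (x0Datum A hA M hqM) (redInf A hA M hqM) (redZero A hA M hqM)
    (frobC (K := ResidueField A) q M) q ι)

theorem levelAut_pullback_fix {G : Divisor Qbar (MF Qbar M)} (σ : Qbar ≃ₐ[ℚ] Qbar)
    (hG : arithmeticGalois (L := Qbar) (modularFunctionFieldFull M) σ • G = G) :
    arithmeticGalois (L := Qbar) (modularFunctionFieldFull (M * q)) σ •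
      Divisor.pullback (MF Qbar (M * q)) G = Divisor.pullback (MF Qbar (M * q)) G := by
  haveI := (levelFacts Qbar).principal (M * q)
  have h : M * 1 ∣ M * q := by rw [mul_one]; exact dvd_mul_right M q
  have h1 := pullbackAlong_smul (degMap Qbar 1 h) ((levelFacts Qbar).integral 1 h)
    (intertwines_degMap 1 h σ) G
  rw [hG] at h1
  exact h1.symm

variable {X}

theorem exists_crossing_image (hx : Set.range X.x = crossingSet A hA hqM)
    (g : A.decompositionSubgroup ℚ) (i : ι) :
    ∃ j, X.x j = fullCAut M (residueAut g) • X.x i := by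
  have h : fullCAut M (residueAut g) • X.x i ∈ Set.range X.x := by
    rw [hx]
    exact crossingSet_galois hqM hA g (hx ▸ Set.mem_range_self i)
  exact h

theorem fullCAut_frobK_comm (τ : ResidueField A ≃+* ResidueField A) :
    fullCAut M τ * fullCAut M (frobK (K := ResidueField A) q) = fullCAut M (frobK (K := ResidueField A) q) * fullCAut M τ := by
  rw [← fullCAut_mul, ← fullCAut_mul]
  congr 1
  refine RingEquiv.ext fun t => ?_
  rw [RingAut.mul_apply, RingAut.mul_apply, frobK_apply, frobK_apply, map_pow]

theorem frP_symm_eq (hfr : X.frP = frPlace q M)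
    (v : Place (ResidueField A) (modularFunctionFieldFullC (ResidueField A) M)) :
    X.frP.symm v = (fullCAut M (frobK (K := ResidueField A) q))⁻¹ • v := by
  rw [hfr]
  rfl

/-- The action of an element of the decomposition group on the node system. -/
def levelAut (hfr : X.frP = frPlace q M) (hx : Set.range X.x = crossingSet A hA hqM)
    (hG₁ : ∀ σ : Qbar ≃ₐ[ℚ] Qbar, arithmeticGalois (L := Qbar) (modularFunctionFieldFull M) σ • X.G₁ = X.G₁)
    (hG₂ : ∀ σ : Qbar ≃ₐ[ℚ] Qbar, arithmeticGalois (L := Qbar) (modularFunctionFieldFull M) σ • X.G₂ = X.G₂)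
    (g : A.decompositionSubgroup ℚ) : NodeSystem.NodeAut X.nodeSystem where
  s := arithmeticGalois (L := Qbar) (modularFunctionFieldFull (M * q)) (g : Qbar ≃ₐ[ℚ] Qbar)
  val_eq a := by
    rw [baseAut_arithmeticGalois]
    exact valuation_decomposition g a
  τ := residueAut g
  τ_red a a' h := by
    rw [residueAut_residue]
    exact congrArg (residue A) (Subtype.ext h)
  σb := SemilinearAut.toRingAut (fullCAut M (residueAut g))
  σb' := SemilinearAut.toRingAut (fullCAut M (residueAut g))
  red _ _ h := redInf_galois hqM hA g h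
  red' _ _ h := redZero_galois hqM hA g h
  B₁_fix := levelAut_pullback_fix (g : Qbar ≃ₐ[ℚ] Qbar) (hG₁ g)
  B₂_fix := levelAut_pullback_fix (g : Qbar ≃ₐ[ℚ] Qbar) (hG₂ g)
  perm i := (exists_crossing_image hx g i).choose
  val_x i a ha := by
    show valAt (X.x _) _ = _
    rw [(exists_crossing_image hx g i).choose_spec]
    exact (valAt_semilinear _ ha).trans (by rw [baseAut_fullCAut])
  val_y i b hb := by
    show valAt (X.frP.symm (X.x _)) _ = residueAut g (valAt (X.frP.symm (X.x i)) b)
    have hb' : OrdGe (X.frP.symm (X.x i)) 0 b := hb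
    rw [(exists_crossing_image hx g i).choose_spec, frP_symm_eq hfr, frP_symm_eq hfr, ← mul_smul,
      ← (Commute.inv_right (fullCAut_frobK_comm (residueAut g))).eq, mul_smul,
      ← frP_symm_eq hfr, valAt_semilinear _ hb', baseAut_fullCAut]

variable (hfr : X.frP = frPlace q M) (hx : Set.range X.x = crossingSet A hA hqM)
  (hG₁ : ∀ σ : Qbar ≃ₐ[ℚ] Qbar, arithmeticGalois (L := Qbar) (modularFunctionFieldFull M) σ • X.G₁ = X.G₁)
  (hG₂ : ∀ σ : Qbar ≃ₐ[ℚ] Qbar, arithmeticGalois (L := Qbar) (modularFunctionFieldFull M) σ • X.G₂ = X.G₂)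

theorem levelAut_s (g : A.decompositionSubgroup ℚ) :
    (levelAut hfr hx hG₁ hG₂ g).s =
      arithmeticGalois (L := Qbar) (modularFunctionFieldFull (M * q)) (g : Qbar ≃ₐ[ℚ] Qbar) := rfl

theorem levelAut_τ (g : A.decompositionSubgroup ℚ) :
    (levelAut hfr hx hG₁ hG₂ g).τ = residueAut g := rfl

theorem levelAut_σb (g : A.decompositionSubgroup ℚ) :
    (levelAut hfr hx hG₁ hG₂ g).σb = SemilinearAut.toRingAut (fullCAut M (residueAut g)) ∧
      (levelAut hfr hx hG₁ hG₂ g).σb' = SemilinearAut.toRingAut (fullCAut M (residueAut g)) :=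
  ⟨rfl, rfl⟩

theorem x_levelAut_perm (g : A.decompositionSubgroup ℚ) (i : ι) :
    X.x ((levelAut hfr hx hG₁ hG₂ g).perm i) = fullCAut M (residueAut g) • X.x i :=
  (exists_crossing_image hx g i).choose_spec

include hfr hx hG₁ hG₂ in
/-- Inertia acts on the node system by inertial automorphisms. -/
theorem exists_inertial_nodeAut {σ : Qbar ≃ₐ[ℚ] Qbar} (hσ : σ ∈ A.inertiaSubgroupIn ℚ) :
    ∃ T : NodeSystem.NodeAut X.nodeSystem,
      T.s = arithmeticGalois (L := Qbar) (modularFunctionFieldFull (M * q)) σ ∧ T.IsInertial := by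
  obtain ⟨g, hg, rfl⟩ := Subgroup.mem_map.1 hσ
  have hr : residueAut g = RingEquiv.refl (ResidueField A) :=
    RingEquiv.ext fun r => RingEquiv.congr_fun (MonoidHom.mem_ker.1 hg) r
  refine ⟨levelAut hfr hx hG₁ hG₂ g, rfl, fun t => ?_, fun z => ?_, fun z => ?_, fun i => ?_⟩
  · rw [levelAut_τ, hr]; rfl
  · rw [(levelAut_σb hfr hx hG₁ hG₂ g).1, hr, fullCAut_refl]; rfl
  · rw [(levelAut_σb hfr hx hG₁ hG₂ g).2, hr, fullCAut_refl]; rfl
  · exact X.x_inj ((x_levelAut_perm hfr hx hG₁ hG₂ g i).trans (by rw [hr, fullCAut_refl, one_smul]))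

end FLTAgent.Semistable
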