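import Fermat.Agent.Semistable.PTorsPrincipal
import Fermat.Agent.Semistable.Galois

/-!
# Inertia on flat classes killed by the residue characteristic

If the function of a flat class killed by `p` is a `p`-th power modulo `p ^ 2` on both components,
then inertia acts on the class through the cyclotomic character.
-/

set_option autoImplicit false
set_option linter.unusedSectionVars false

noncomputable section

open AlgebraicCurve AlgebraicCurve.SemilinearAut

namespace FLTAgent.Semistable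

open FLTAgent.GoodRed FLTAgent.GoodRed.RedDatum FLTAgent.FunctionField

theorem PTors.pow_mem_rr {K G : Type*} [Field K] [Field G] [Algebra K G] [IsFunctionField K G]
    {P : Divisor K G} {u : G} (hu : u ∈ riemannRochSpace P) (m : ℕ) :
    u ^ m ∈ riemannRochSpace (m • P) := by
  induction m with
  | zero => rw [pow_zero, zero_smul]; exact one_mem_rr le_rfl
  | succ m ih => rw [pow_succ, succ_nsmul]; exact mul_mem_rr ih hu

theorem PTors.divisorOf_pow {K G : Type*} [Field K] [Field G] [Algebra K G] [IsFunctionField K G]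
    {g : G} (m : ℕ) : divisorOf (K := K) (g ^ m) = m • divisorOf (K := K) g :=
  Finsupp.ext fun v => by simp [FunctionField.ord_pow]

theorem Close.pow_one_add_smul {L k F C : Type*} [Field L] [Field k] {A : ValuationSubring L}
    {π : A →+* k} [Field F] [Algebra L F] [Field C] [Algebra k C] {D : RedDatum A π F C} {c : A}
    {w : F} (hw : w ∈ D.V) (m : ℕ) :
    Close D (c * c) ((1 + (c : L) • w) ^ m) (1 + (c : L) • ((m : F) * w)) := by
  induction m with
  | zero => simp only [pow_zero, Nat.cast_zero, zero_mul, smul_zero, add_zero]; exact Close.refl 1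
  | succ m ih =>
    rw [pow_succ]
    refine (ih.mul_right (add_mem (one_mem _) (PTors.smul_mem D c hw))).trans
      ⟨(m : F) * w * w, mul_mem (mul_mem (natCast_mem _ m) hw) hw, ?_⟩
    simp only [Algebra.smul_def, MulMemClass.coe_mul, map_mul]
    push_cast
    ring

universe w

namespace NodeSystem.NodeAut

variable {L k : Type*} [Field L] [Field k] {A : ValuationSubring L} {π : A →+* k}
  {F : Type*} {C C' : Type w} [Field F] [Algebra L F] [Field C] [Algebra k C] [Field C']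
  [Algebra k C'] [IsFunctionField L F] [IsFunctionField k C] [IsFunctionField k C']
  [IsAlgClosed L] [IsAlgClosed k] {D : RedDatum A π F C} {D' : RedDatum A π F C'} {ι : Type*}
  [Fintype ι] {N : NodeSystem D D' ι} (T : NodeAut N) {p : ℕ} [CharP k p] {ζ : A}

/-- The image under `σ + m` of an approximate root at the threshold lies above it. -/
theorem exists_isStart (hT : T.IsInertial) (hp : p.Prime) (hζ : IsPrimitiveRoot ζ p)
    (hpL : (p : L) ≠ 0) {χ : ℕ} (hχ : baseAut T.s (ζ : L) = (ζ : L) ^ χ) {B X : Divisor L F}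
    (hB : T.s • B = B) {g : F} {n : ℕ} {u : F}
    (hu : u ∈ riemannRochSpace (n • B + X)) (hur : D.Red u 1) (hur' : D'.Red u 1)
    (hc : Close D (PTors.thr p ζ) (u ^ p * g) 1) (hc' : Close D' (PTors.thr p ζ) (u ^ p * g) 1) :
    ∃ (E : A) (n' : ℕ), (E : L) ∈ A.nonunits ∧
      IsStart D D' p ζ B (T.s • X + ((p - 1) * χ) • X)
        (toRingAut T.s g * g ^ ((p - 1) * χ)) E n' := by
  set σ := toRingAut T.s
  set m := (p - 1) * χ with hm
  have hπ := D.isResidue
  set c₀ := PTors.thr p ζ with hc₀def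
  have hc₀ : (c₀ : L) ≠ 0 := PTors.thr_ne_zero hp hζ hpL
  have hc₀n : (c₀ : L) ∈ A.nonunits := PTors.thr_mem_nonunits hπ
  set κ : A := ∑ j ∈ Finset.range χ, ζ ^ j with hκ
  have hσc : baseAut T.s (c₀ : L) = (c₀ : L) * κ := by
    rw [hc₀def, hκ, PTors.thr]
    push_cast
    rw [map_mul, map_natCast, map_sub, map_one, hχ, mul_assoc, mul_comm ((ζ : L) - 1), geom_sum_mul]
  obtain ⟨w₁, hw₁, e₁⟩ := hc
  obtain ⟨w₁', hw₁', e₁'⟩ := hc'
  obtain rfl : w₁ = w₁' := smul_right_injective F hc₀ (e₁.symm.trans e₁')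
  have hP : u ^ p * g = 1 + (c₀ : L) • w₁ := by rw [← e₁]; ring
  set Y := (c₀ : L)⁻¹ • ((σ u * u ^ m) ^ p * (σ g * g ^ m) - 1) with hY
  have hYeq : (σ u * u ^ m) ^ p * (σ g * g ^ m) - 1 = (c₀ : L) • Y := by
    rw [hY, smul_inv_smul₀ hc₀]
  have side : ∀ {C₁ : Type w} [Field C₁] [Algebra k C₁] (D₁ : RedDatum A π F C₁)
      (τ₁ : C₁ ≃+* C₁), (∀ y z, D₁.Red y z → D₁.Red (σ y) (τ₁ z)) → (∀ z, τ₁ z = z) →
      w₁ ∈ D₁.V → D₁.Red Y 0 := by
    intro C₁ _ _ D₁ τ₁ hred hid hwV
    obtain ⟨a, ha⟩ := exists_red hwV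
    have hσw : D₁.Red (σ w₁) a := by simpa [hid] using hred _ _ ha
    have hσP : σ (u ^ p * g) = 1 + (c₀ : L) • ((κ : L) • σ w₁) := by
      rw [hP, map_add, map_one, Algebra.smul_def, map_mul, SemilinearAut.commutes, hσc,
        Algebra.smul_def, Algebra.smul_def, map_mul, mul_assoc]
    have h1 : Close D₁ (c₀ * c₀) ((σ u * u ^ m) ^ p * (σ g * g ^ m))
        (1 + (c₀ : L) • ((κ : L) • σ w₁ + (m : F) * w₁)) := by
      have e : (σ u * u ^ m) ^ p * (σ g * g ^ m) = σ (u ^ p * g) * (u ^ p * g) ^ m := by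
        rw [map_mul, map_pow, mul_pow (σ u), mul_pow (u ^ p), ← pow_mul, mul_comm m p, pow_mul]
        ring
      rw [e, hσP, hP]
      refine ((Close.pow_one_add_smul hwV m).mul_left ?_).trans
        ⟨((κ : L) • σ w₁) * ((m : F) * w₁), mul_mem (PTors.smul_mem D₁ κ hσw.mem)
          (mul_mem (natCast_mem _ m) hwV), ?_⟩
      · exact add_mem (one_mem _) (PTors.smul_mem D₁ c₀ (PTors.smul_mem D₁ κ hσw.mem))
      · simp only [Algebra.smul_def, MulMemClass.coe_mul, map_mul]
        ring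
    have hres : D₁.Red ((κ : L) • σ w₁ + (m : F) * w₁) 0 := by
      have h2 := (red_smul κ hσw).add (red_smul (m : A) ha)
      rw [hκ, PTors.residue_geom_sum hp hζ, ← add_smul, map_natCast, hm, ← Nat.cast_add,
        show χ + (p - 1) * χ = p * χ by
          rw [← one_add_mul, Nat.add_sub_cancel' hp.one_lt.le],
        Nat.cast_mul p χ, CharP.cast_eq_zero k p, zero_mul, zero_smul] at h2
      convert h2 using 2
      rw [Algebra.smul_def ((m : A) : L), SubringClass.coe_natCast, map_natCast]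
    have h3 := h1.sub (Close.refl 1)
    rw [hYeq, add_sub_cancel_left] at h3
    exact (Close.cancel hc₀ h3).red hc₀n hres
  have hY₁ := side D T.σb T.red hT.2.1 hw₁
  have hY₁' := side D' T.σb' T.red' hT.2.2.1 hw₁'
  obtain ⟨E₁, hE₁, hcl₁⟩ := exists_close_zero D hc₀n hY₁
  obtain ⟨E₂, hE₂, hcl₂⟩ := exists_close_zero D' hc₀n hY₁'
  obtain ⟨E, hE, -, hEs⟩ := PTors.exists_common_dvd (Finset.univ : Finset Bool)
    (fun i => bif i then E₁ else E₂) hc₀n (fun i _ => by cases i <;> assumption)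
  refine ⟨E, n + m * n, hE, σ u * u ^ m, ?_, ?_, ?_, ?_, ?_⟩
  · have h := mul_mem_rr (toRingAut_mem_rr T.s hu) (PTors.pow_mem_rr hu m)
    convert h using 2
    rw [smul_add, smul_comm T.s, hB, smul_add m, ← mul_nsmul', add_add_add_comm, ← add_nsmul]
  · simpa [hT.2.1] using (T.red _ _ hur).mul (hur.pow m)
  · simpa [hT.2.2.1] using (T.red' _ _ hur').mul (hur'.pow m)
  · have h := ((hcl₁.mono (hEs true (Finset.mem_univ _))).smul_left c₀)
    rw [smul_zero, ← hYeq] at h
    simpa using h.add (Close.refl (1 : F))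
  · have h := ((hcl₂.mono (hEs false (Finset.mem_univ _))).smul_left c₀)
    rw [smul_zero, ← hYeq] at h
    simpa using h.add (Close.refl (1 : F))

variable (hA : IsRankOne A) (hA0 : ∃ ϖ : L, ϖ ≠ 0 ∧ ϖ ∈ A.nonunits)
include hA hA0

/-- Inertia acts by the cyclotomic character on a normalised class. -/
theorem smul_sub_nsmul_of_approx (hT : T.IsInertial) (hp : p.Prime) (hζ : IsPrimitiveRoot ζ p)
    (hpL : (p : L) ≠ 0) {χ : ℕ} (hχ : baseAut T.s (ζ : L) = (ζ : L) ^ χ) {X : Divisor L F}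
    (hX : Divisor.degree X = 0) {g hh : F} (hgr : D.Red g 1) (hgr' : D'.Red g 1)
    (hdiv : divisorOf g = p • X) (hhr : D.Red hh 1) (hhr' : D'.Red hh 1)
    (hc : Close D ((p : A) ^ 2) g (hh ^ p)) (hc' : Close D' ((p : A) ^ 2) g (hh ^ p)) :
    ∃ h : F, h ≠ 0 ∧ T.s • X - χ • X = divisorOf h := by
  classical
  have : Fact p.Prime := ⟨hp⟩
  have hg0 : g ≠ 0 := hgr.ne_zero one_ne_zero
  have hone : ∀ {Y : Divisor L F} {f : F}, D.Red f 1 → D'.Red f 1 → divisorOf f = p • Y →
      Divisor.degree Y = 0 → N.HasJump Y 1 := fun {Y f} h h' hd hY => by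
    obtain ⟨ξ, hξ, hpow⟩ := N.exists_hasJump hp.pos hY (h.ne_zero one_ne_zero) hd one_ne_zero
      one_ne_zero (by rwa [map_one]) (by rwa [map_one])
    obtain rfl : ξ = 1 := funext fun i => frobenius_inj k p (by
      simpa [frobenius_def] using hpow i)
    exact hξ
  have hj := hone hgr hgr' hdiv hX
  set b := N.c + Fintype.card ι + 1
  obtain ⟨u₁, hu₁, r₁, r₁', c₁, c₁'⟩ := N.exists_threshold hp hζ hpL hgr hgr' hdiv hj hhr hhr' hc
    hc' (n₁ := b) (n₂ := 0) (by simp [Big, b])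
  obtain ⟨u₂, hu₂, r₂, r₂', c₂, c₂'⟩ := N.exists_threshold hp hζ hpL hgr hgr' hdiv hj hhr hhr' hc
    hc' (n₁ := 0) (n₂ := b) (by simp [Big, b])
  simp only [Bd, zero_smul, add_zero, zero_add] at hu₁ hu₂
  obtain ⟨E₁, n₁, hE₁, s₁⟩ := T.exists_isStart hT hp hζ hpL hχ T.B₁_fix hu₁ r₁ r₁' c₁ c₁'
  obtain ⟨E₂, n₂, hE₂, s₂⟩ := T.exists_isStart hT hp hζ hpL hχ T.B₂_fix hu₂ r₂ r₂' c₂ c₂'
  obtain ⟨E, hE, -, hEs⟩ := PTors.exists_common_dvd (Finset.univ : Finset Bool)
    (fun i => bif i then E₁ else E₂) hE₁ (fun i _ => by cases i <;> assumption)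
  set m := (p - 1) * χ
  set z := T.s • X + m • X
  set gz := toRingAut T.s g * g ^ m
  have hzr : D.Red gz 1 := by simpa [hT.2.1] using (T.red _ _ hgr).mul (hgr.pow m)
  have hzr' : D'.Red gz 1 := by simpa [hT.2.2.1] using (T.red' _ _ hgr').mul (hgr'.pow m)
  have hzdeg : Divisor.degree z = 0 := by
    rw [map_add, SemilinearAut.degree_smul, map_nsmul, hX, smul_zero, add_zero]
  have hzdiv : divisorOf gz = p • z := by
    rw [divisorOf_mul ((map_ne_zero _).2 hg0) (pow_ne_zero _ hg0), divisorOf_toRingAut,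
      PTors.divisorOf_pow, hdiv, smul_add p, smul_comm T.s, smul_comm m]
  have weaken : ∀ {B : Divisor L F} {E' : A} {n : ℕ}, E ∣ E' →
      IsStart D D' p ζ B z gz E' n → IsStart D D' p ζ B z gz E n :=
    fun {B E' n} hd ⟨u, hu, a, a', c, c'⟩ =>
      ⟨u, hu, a, a', c.mono (mul_dvd_mul_left _ hd), c'.mono (mul_dvd_mul_left _ hd)⟩
  obtain ⟨h, hh0, hzh⟩ := N.principal_of_isStart hA hA0 hp hζ hpL hzdeg hzr hzr' hzdiv
    (hone hzr hzr' hzdiv hzdeg) hE (weaken (hEs true (Finset.mem_univ _)) s₁)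
    (weaken (hEs false (Finset.mem_univ _)) s₂)
  refine ⟨h * (g ^ χ)⁻¹, mul_ne_zero hh0 (inv_ne_zero (pow_ne_zero _ hg0)), ?_⟩
  rw [divisorOf_mul hh0 (inv_ne_zero (pow_ne_zero _ hg0)), divisorOf_inv, PTors.divisorOf_pow,
    hdiv, ← hzh, ← mul_nsmul', show χ * p = χ + m by
      rw [← one_add_mul, Nat.add_sub_cancel' hp.one_lt.le, mul_comm],
    add_nsmul]
  simp only [z]
  abel

end NodeSystem.NodeAut

end FLTAgent.Semistable
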