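import Fermat.Agent.Semistable.CountSmall
import Fermat.Agent.GoodRed.X0All

/-!
# There are at least `(q - 1) ψ(M) / 12` crossings
-/

set_option autoImplicit false
set_option linter.style.haveILetI false
set_option linter.unusedSectionVars false
set_option synthInstance.maxHeartbeats 100000

noncomputable section

open ModularCurve AlgebraicCurve IsLocalRing Polynomial
open scoped IntermediateField

namespace FLTAgent.Semistable

open FLTAgent.GoodRed FLTAgent.GoodRed.RedDatum FLTAgent.GoodRed.SmallPrime FLTAgent.Hecke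
  FLTAgent.FunctionField FLTAgent.Genus FLTAgent.Igusa

local notation "Qbar" => AlgebraicClosure ℚ

section coords

variable {K : Type*} [Field K] {E : IntermediateField K (LaurentSeries K)} {j t : E}

/-- The polynomial `P` with `j t³ = P(t)`. -/
abbrev numThree (K : Type*) [Field K] : K[X] := (X + C 27) * (X + C 243) ^ 3

/-- The polynomial `P` with `j t² = P(t)`. -/
abbrev numTwo (K : Type*) [Field K] : K[X] := (X + C 256) ^ 3

theorem natDegree_numThree : (numThree K).natDegree = 4 := by
  rw [numThree, natDegree_mul (X_add_C_ne_zero _) (pow_ne_zero 3 (X_add_C_ne_zero _)),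
    natDegree_pow, natDegree_X_add_C, natDegree_X_add_C]

theorem natDegree_numTwo : (numTwo K).natDegree = 3 := by
  rw [numTwo, natDegree_pow, natDegree_X_add_C]

theorem degree_lt_numThree : (X ^ 3 : K[X]).natDegree < (numThree K).natDegree := by
  rw [natDegree_numThree, natDegree_X_pow]; norm_num

theorem degree_lt_numTwo : (X ^ 2 : K[X]).natDegree < (numTwo K).natDegree := by
  rw [natDegree_numTwo, natDegree_X_pow]; norm_num

theorem isCoprime_numThree (h27 : (27 : K) ≠ 0) (h243 : (243 : K) ≠ 0) :
    IsCoprime (numThree K) (X ^ 3) :=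
  ((isCoprime_X_add_C_X h27).mul_left (isCoprime_X_add_C_X h243).pow_left).pow_right

theorem isCoprime_numTwo (h256 : (256 : K) ≠ 0) : IsCoprime (numTwo K) (X ^ 2) :=
  (isCoprime_X_add_C_X h256).pow

theorem equation_three (hj : (j : LaurentSeries K) = jqModC K)
    (ht : (t : LaurentSeries K) = coeffMap (Int.castRingHom K) hauptThree) :
    j * aeval t (X ^ 3 : K[X]) = aeval t (numThree K) := equation_of_coe (by
  rw [hj, ht]
  simp only [numThree, map_mul, map_pow, map_add, aeval_X, map_ofNat]
  exact hauptThree_equation_map _)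

theorem equation_two (hj : (j : LaurentSeries K) = jqModC K)
    (ht : (t : LaurentSeries K) = coeffMap (Int.castRingHom K) hauptTwo) :
    j * aeval t (X ^ 2 : K[X]) = aeval t (numTwo K) := equation_of_coe (by
  rw [hj, ht]
  simp only [numTwo, map_pow, map_add, aeval_X, map_ofNat]
  exact hauptTwo_equation_map _)

theorem ord_eq_of_three [CharZero K] (h : j * aeval t (X ^ 3 : K[X]) = aeval t (numThree K))
    {v : Place K E} (hpos : 0 < v.ord (t - algebraMap K E (-27))) :
    v.ord j = v.ord (t - algebraMap K E (-27)) := by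
  refine ord_eq_of_factor (b := -243) (i := 3) (l := 3) (by norm_num) (by norm_num) ?_ hpos
  simp only [numThree, map_mul, map_pow, map_add, aeval_X, aeval_C] at h
  rw [h, map_neg, map_neg, sub_neg_eq_add, sub_neg_eq_add]

theorem ord_eq_of_two [CharZero K] (h : j * aeval t (X ^ 2 : K[X]) = aeval t (numTwo K))
    {v : Place K E} (hpos : 0 < v.ord (t - algebraMap K E (-64))) :
    v.ord (j - algebraMap K E 1728) = v.ord (t - algebraMap K E (-64)) := by
  refine ord_eq_of_factor (b := 512) (i := 2) (l := 2) (by norm_num) (by norm_num) ?_ hpos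
  simp only [numTwo, map_pow, map_add, aeval_X, map_ofNat] at h
  simp only [map_neg, map_ofNat, sub_neg_eq_add]
  linear_combination h

end coords

variable {M q : ℕ} [NeZero M] [Fact q.Prime]

local instance : NeZero q := ⟨(Fact.out : q.Prime).ne_zero⟩

variable {A : ValuationSubring (AlgebraicClosure ℚ)} (hA : A.LiesOverPrime q)
  [CharP (ResidueField A) q] [IsAlgClosed (ResidueField A)] (hqM : ¬ q ∣ M)
  [IsFunctionField (ResidueField A) (modularFunctionFieldFullC (ResidueField A) M)]

theorem mem_MF_of_intToRat {z : LaurentSeries ℤ}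
    (hz : intToRat z ∈ modularFunctionFieldFull M) : iotaL A (intA A z) ∈ MF Qbar M :=
  mem_bar_of_intToRat A M hz

include hqM in
/-- An integral series of level `M` with its reduction. -/
theorem exists_hauptCoord {z : LaurentSeries ℤ} (hz : intToRat z ∈ modularFunctionFieldFull M) :
    ∃ (t : MF Qbar M) (tb : modularFunctionFieldFullC (ResidueField A) M),
      (x0Datum A hA M hqM).Red t tb ∧
      (t : LaurentSeries Qbar) = coeffMap (Int.castRingHom Qbar) z ∧
      (tb : LaurentSeries (ResidueField A)) =
        coeffMap (Int.castRingHom (ResidueField A)) z :=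
  ⟨⟨_, mem_MF_of_intToRat (A := A) hz⟩, ⟨_, mem_fullC_of_intToRat A hA M hqM hz⟩,
    (x0Basis A hA M hqM).red_of_series (isResidueMap_residue A) rfl rfl, iotaL_intA A z,
    residue_intA A z⟩

variable (R : PlaceRed (x0Datum A hA M hqM))
  {g c : ℤ} (hL : RRLarge Qbar (MF Qbar M) g c)
  (hk : RRLarge (ResidueField A) (modularFunctionFieldFullC (ResidueField A) M) g c)
include hL hk

set_option maxHeartbeats 3200000 in
-- the statement mentions several large fields
theorem card_crossings_two (hq : q = 2) (hM : 3 ∣ M) (h3 : nuThree M = 0) :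
    (dedekindPsi M : ℤ) ≤ 12 * ((crossingSet_finite hA hqM R).toFinset.card : ℤ) := by
  obtain ⟨t, tb, ht, htc, htbc⟩ := exists_hauptCoord hA hqM (intToRat_hauptThree_mem hM)
  have h27 : (27 : ResidueField A) ≠ 0 := by
    exact_mod_cast natCast_residue_ne_zero hA (show ¬ q ∣ 27 by rw [hq]; norm_num)
  have h243 : (243 : ResidueField A) ≠ 0 := by
    exact_mod_cast natCast_residue_ne_zero hA (show ¬ q ∣ 243 by rw [hq]; norm_num)
  have heu : euler (tb : LaurentSeries (ResidueField A)) = -(tb : LaurentSeries (ResidueField A)) := by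
    rw [htbc]
    exact euler_hauptThree_map (by rw [← hq]; exact CharP.cast_eq_zero _ q)
  have heq := equation_three (coe_x0Jb A hA M hqM) htbc
  have hjt := equation_three (j := jMF Qbar M) (jMF_coe Qbar M) htc
  have hal : ((-27 : A) : Qbar) = -27 := by
    show A.subtype (-27) = -27
    rw [map_neg, map_ofNat]
  have hab : residue A (-27) = (-27 : ResidueField A) := by rw [map_neg, map_ofNat]
  have hw : ∀ e i : ℤ, (i = 0 ∨ i = 1) → (3 : ℤ) ≤ e →
      ((q - 1 : ℕ) : ℤ) * (e - 1) ≤ 2 * i → e ≤ 3 * i := by
    rw [hq]; intro e i hi he h; norm_num at h; omega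
  have h := card_crossings_coord hA hqM R hL hk ht heu (isCoprime_numThree h27 h243)
    degree_lt_numThree heq (-27 : A) hal hab (neg_ne_zero.2 h27)
    (by rw [eval_pow, eval_X]; exact pow_ne_zero _ (neg_ne_zero.2 h27))
    (fun v hv => ord_nonneg_of_equation degree_lt_numThree (pow_ne_zero 3 X_ne_zero) hjt hv)
    (fun v _ hpos => by
      have hf := ord_eq_of_three hjt hpos
      rw [← hf] at hpos ⊢
      exact (ord_jMF_eq_three h3 hpos).ge)
    3 hw (by norm_num)
  rw [natDegree_numThree] at h
  push_cast at h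
  linarith

set_option maxHeartbeats 3200000 in
-- the statement mentions several large fields
theorem card_crossings_three (hq : q = 3) (hM : 2 ∣ M) (h2 : nuTwo M = 0) :
    (dedekindPsi M : ℤ) ≤ 6 * ((crossingSet_finite hA hqM R).toFinset.card : ℤ) := by
  obtain ⟨t, tb, ht, htc, htbc⟩ := exists_hauptCoord hA hqM (intToRat_hauptTwo_mem hM)
  have h256 : (256 : ResidueField A) ≠ 0 := by
    exact_mod_cast natCast_residue_ne_zero hA (show ¬ q ∣ 256 by rw [hq]; norm_num)
  have h64 : (64 : ResidueField A) ≠ 0 := by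
    exact_mod_cast natCast_residue_ne_zero hA (show ¬ q ∣ 64 by rw [hq]; norm_num)
  have heu : euler (tb : LaurentSeries (ResidueField A)) = -(tb : LaurentSeries (ResidueField A)) := by
    rw [htbc]
    exact euler_hauptTwo_map (by rw [← hq]; exact CharP.cast_eq_zero _ q)
  have heq := equation_two (coe_x0Jb A hA M hqM) htbc
  have hjt := equation_two (j := jMF Qbar M) (jMF_coe Qbar M) htc
  have hal : ((-64 : A) : Qbar) = -64 := by
    show A.subtype (-64) = -64
    rw [map_neg, map_ofNat]
  have hab : residue A (-64) = (-64 : ResidueField A) := by rw [map_neg, map_ofNat]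
  have hw : ∀ e i : ℤ, (i = 0 ∨ i = 1) → (2 : ℤ) ≤ e →
      ((q - 1 : ℕ) : ℤ) * (e - 1) ≤ 2 * i → e ≤ 2 * i := by
    rw [hq]; intro e i hi he h; norm_num at h; omega
  have h := card_crossings_coord hA hqM R hL hk ht heu (isCoprime_numTwo h256)
    degree_lt_numTwo heq (-64 : A) hal hab (neg_ne_zero.2 h64)
    (by rw [eval_pow, eval_X]; exact pow_ne_zero _ (neg_ne_zero.2 h64))
    (fun v hv => ord_nonneg_of_equation degree_lt_numTwo (pow_ne_zero 2 X_ne_zero) hjt hv)
    (fun v _ hpos => by
      have hf := ord_eq_of_two hjt hpos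
      rw [← hf] at hpos ⊢
      exact (ord_jMF_eq_two h2 hpos).ge)
    2 hw (by norm_num)
  rw [natDegree_numTwo] at h
  push_cast at h
  linarith

/-- At least `(q - 1) ψ(M) / 12` crossings. -/
theorem card_crossings (h2 : nuTwo M = 0) (h3 : nuThree M = 0) (hq2 : q = 2 → 3 ∣ M)
    (hq3 : q = 3 → 2 ∣ M) :
    ((q - 1 : ℕ) : ℤ) * dedekindPsi M ≤
      12 * ((crossingSet_finite hA hqM R).toFinset.card : ℤ) := by
  have hqp : q.Prime := Fact.out
  by_cases h5 : 5 ≤ q
  · exact card_crossings_large hA hqM R hL hk h5 h2 h3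
  rcases (show q = 2 ∨ q = 3 ∨ q = 4 by have := hqp.two_le; omega) with h | h | h
  · have := card_crossings_two hA hqM R hL hk h (hq2 h) h3
    subst h
    norm_num
    linarith
  · have := card_crossings_three hA hqM R hL hk h (hq3 h) h2
    subst h
    norm_num
    linarith
  · exact absurd (h ▸ hqp) (by decide)

omit hL hk

include hA hqM in
omit R in
/-- At least `(q - 1) ψ(M) / 12` crossings, with nothing assumed of the reduction of places. -/
theorem mul_psi_le_card_crossingSet (h2 : nuTwo M = 0) (h3 : nuThree M = 0)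
    (hq2 : q = 2 → 3 ∣ M) (hq3 : q = 3 → 2 ∣ M) :
    (q - 1) * dedekindPsi M ≤ 12 * (crossingSet A hA hqM).ncard := by
  obtain ⟨g, c, hL, hk⟩ := exists_rrLarge_x0 A hA M hqM
  obtain ⟨R⟩ := exists_placeRed_x0 A hA M hqM
  have h := card_crossings hA hqM R hL hk h2 h3 hq2 hq3
  rw [Set.ncard_eq_toFinset_card _ (crossingSet_finite hA hqM R)]
  exact_mod_cast h

end FLTAgent.Semistable
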