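import Fermat.Agent.Semistable.Crossing

/-!
# The crossings form a finite set of supersingular places

At a crossing the values of rational functions are fixed by the `q^2`-th power; in particular
there are finitely many.  At every place off the cusps `(dπ)^(q-1)` has at most a double pole, and
a pole only at a crossing.
-/

set_option autoImplicit false
set_option linter.style.haveILetI false
set_option linter.unusedSectionVars false
set_option synthInstance.maxHeartbeats 100000

noncomputable section

open ModularCurve AlgebraicCurve IsLocalRing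

namespace FLTAgent.Semistable

open FLTAgent.GoodRed FLTAgent.GoodRed.RedDatum FLTAgent.Hecke FLTAgent.FunctionField FLTAgent.Genus

local notation "Qbar" => AlgebraicClosure ℚ

local instance (priority := high) instAlgebraLaurentSubCrossingSet {K : Type*} [Field K]
    (F : IntermediateField K (LaurentSeries K)) : Algebra K F :=
  SubalgebraClass.toAlgebra F

section values

variable {k C : Type*} [Field k] [Field C] [Algebra k C] [IsFunctionField k C] {q : ℕ}
  [Fact q.Prime] [CharP k q] {x : Place k C} {u T : C} {a : k}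

theorem sub_pow_eq (u : C) (a : k) : u - u ^ (q ^ 2) =
    ((u - algebraMap k C a) - (u - algebraMap k C a) ^ (q ^ 2)) +
      algebraMap k C (a - a ^ (q ^ 2)) := by
  haveI : CharP C q := charP_of_injective_ringHom (algebraMap k C).injective q
  rw [sub_pow_char_pow, map_sub, map_pow]
  ring

/-- Poles of `T` with `T (u - u^(q²))` regular force the value of `u` to be fixed by `q²`. -/
theorem pow_eq_of_mul_regular (hTu : OrdGe x 0 (T * (u - u ^ (q ^ 2)))) (hT : ¬ OrdGe x 0 T)
    (hu : OrdGe x 1 (u - algebraMap k C a)) : a ^ (q ^ 2) = a := by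
  by_contra ha
  have hne : a - a ^ (q ^ 2) ≠ 0 := sub_ne_zero.2 (Ne.symm ha)
  have hne' : algebraMap k C (a - a ^ (q ^ 2)) ≠ 0 := (map_ne_zero _).2 hne
  have h0 : x.ord (algebraMap k C (a - a ^ (q ^ 2))) = 0 :=
    ord_eq_zero_of_isAlgebraic (isAlgebraic_algebraMap _)
  have hsmall : OrdGe x 1 ((u - algebraMap k C a) - (u - algebraMap k C a) ^ (q ^ 2)) := by
    refine hu.sub ((ordGe_pow hu (q ^ 2)).mono ?_)
    have : 0 < q ^ 2 := pow_pos (Fact.out : q.Prime).pos 2
    omega
  obtain ⟨hs, hord⟩ := ord_add_eq_left hne' (hsmall.mono (le_of_eq (by rw [h0]; rfl)))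
  rw [add_comm, ← sub_pow_eq] at hs hord
  rcases eq_or_ne T 0 with rfl | hT0
  · exact hT (ordGe_zero _)
  refine hT (ordGe_of_le_ord ?_)
  have h := hTu.le_ord (mul_ne_zero hT0 hs)
  rw [x.ord_mul hT0 hs, hord, h0] at h
  omega

/-- A uniformiser with value fixed by `q²` allows at most a simple pole. -/
theorem ordGe_neg_one (hTu : OrdGe x 0 (T * (u - u ^ (q ^ 2))))
    (hu : x.ord (u - algebraMap k C a) = 1) (ha : a ^ (q ^ 2) = a) : OrdGe x (-1) T := by
  set p := u - algebraMap k C a
  have hp : p ≠ 0 := fun h => by rw [h, Place.ord_zero] at hu; omega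
  have he : u - u ^ (q ^ 2) = p + -p ^ (q ^ 2) := by
    rw [sub_pow_eq u a, ha, sub_self, map_zero, add_zero, sub_eq_add_neg]
  have hq2 : 1 < q ^ 2 := Nat.one_lt_pow two_ne_zero (Fact.out : q.Prime).one_lt
  obtain ⟨hs, hord⟩ := ord_add_eq_left hp (g := -p ^ (q ^ 2))
    ((ordGe_pow (ordGe_of_le_ord (n := 1) hu.ge) (q ^ 2)).neg.mono (by rw [hu]; omega))
  rw [he] at hTu
  rcases eq_or_ne T 0 with rfl | hT0
  · exact ordGe_zero _
  refine ordGe_of_le_ord ?_
  have h := hTu.le_ord (mul_ne_zero hT0 hs)
  rw [x.ord_mul hT0 hs, hord, hu] at h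
  omega

end values

/-- `(du)^(q-1)` in a field of series. -/
theorem exists_deriv_pow_series {K : Type*} [Field K] {C : IntermediateField K (LaurentSeries K)}
    [IsFunctionField K C] {q : ℕ} [Fact q.Prime] (f : C →ₐ[K] C) (frP : Place K C → Place K C)
    (hord : ∀ v z, v.ord (f z) = (q : ℤ) * (frP v).ord z)
    (hdeg : Module.finrank C (Frb f) = q) (hf : ∀ z : C, euler (f z : LaurentSeries K) = 0)
    {x : Place K C} {u g T : C} {a : K} (hu : x.ord (u - algebraMap K C a) = 1)
    (hg : euler (g : LaurentSeries K) ≠ 0) (hT : OrdGe x (-1) T)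
    (hid : euler (T : LaurentSeries K) = euler (u : LaurentSeries K) ^ q -
      (u : LaurentSeries K) ^ (q - 1) * euler (u : LaurentSeries K)) :
    ∃ p d : C, x.ord p = 1 ∧ (d : LaurentSeries K) = euler (p : LaurentSeries K) ^ (q - 1) ∧
      OrdGe x (-2) d ∧ (OrdGe x 0 T → OrdGe x 0 d) := by
  have hc : euler ((algebraMap K C a : C) : LaurentSeries K) = 0 := euler_algebraMap a
  obtain ⟨d, hd, hd2, hd0⟩ := exists_euler_pow f frP hord hdeg C.val.toRingHom hf hu hc hg hT hid
  refine ⟨u - algebraMap K C a, d, hu, ?_, hd2, hd0⟩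
  push_cast
  rw [map_sub, euler_algebraMap, sub_zero]
  exact hd

theorem arithmeticGalois_jMF (M : ℕ) (σ : Qbar ≃ₐ[ℚ] Qbar) :
    arithmeticGalois (modularFunctionFieldFull M) σ • jMF Qbar M = jMF Qbar M :=
  Subtype.ext (coeffMap_jqModC (σ : Qbar →+* Qbar))

variable {M q : ℕ} [NeZero M] [Fact q.Prime]

local instance : NeZero q := ⟨(Fact.out : q.Prime).ne_zero⟩

variable {A : ValuationSubring (AlgebraicClosure ℚ)} (hA : A.LiesOverPrime q)
  [CharP (ResidueField A) q] [IsAlgClosed (ResidueField A)] (hqM : ¬ q ∣ M)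
  [IsFunctionField (ResidueField A) (modularFunctionFieldFullC (ResidueField A) M)]

theorem euler_frobC (z : modularFunctionFieldFullC (ResidueField A) M) :
    euler ((frobC (K := ResidueField A) q M z : modularFunctionFieldFullC (ResidueField A) M) :
      LaurentSeries (ResidueField A)) = 0 := by
  rw [coe_frobC]; exact euler_qExpand_eq_zero q _

theorem euler_x0Jb_ne_zero :
    euler (x0Jb A hA M hqM : LaurentSeries (ResidueField A)) ≠ 0 := by
  intro h
  have h2 := congrArg (fun z : LaurentSeries (ResidueField A) => z.coeff (-1)) h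
  rw [coe_x0Jb, euler_coeff, coeff_jqModC_neg_one, HahnSeries.coeff_zero] at h2
  norm_num at h2

include hA hqM in
theorem frobC_x0Jb :
    frobC (K := ResidueField A) q M (x0Jb A hA M hqM) = x0Jb A hA M hqM ^ q := by
  obtain ⟨ub, -, hu, -, hfr, -⟩ := exists_red_TU hA hqM (RegRat.j M q)
  rw [RegRat.fn_j, jMF_eq_x0J hA hqM] at hu
  rwa [hu.unique (red_x0J A hA M hqM)] at hfr

variable (R : PlaceRed (x0Datum A hA M hqM))
include R

/-- At a crossing the values of rational functions are fixed by the `q²`-th power. -/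
theorem crossing_value
    {x : Place (ResidueField A) (modularFunctionFieldFullC (ResidueField A) M)}
    (hx : x ∈ crossingSet A hA hqM) {v : RegRat M q}
    {vb : modularFunctionFieldFullC (ResidueField A) M} (hv : (x0Datum A hA M hqM).Red v.fn vb)
    {a : ResidueField A}
    (ha : OrdGe x 1 (vb - algebraMap (ResidueField A) _ a)) : a ^ (q ^ 2) = a := by
  obtain ⟨hxj, u, Tb, hTb, hpole⟩ := hx
  exact pow_eq_of_mul_regular
    (ordGe_red_mul hA hqM R (mapDomain_polar_j_apply hA hqM R hxj) u v hTb hv) hpole ha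

/-- At a crossing the value of `j̄` lies in `𝔽_{q²}`. -/
theorem crossing_value_j
    {x : Place (ResidueField A) (modularFunctionFieldFullC (ResidueField A) M)}
    (hx : x ∈ crossingSet A hA hqM) {a : ResidueField A}
    (ha : OrdGe x 1 (x0Jb A hA M hqM - algebraMap (ResidueField A) _ a)) : a ^ (q ^ 2) = a := by
  refine crossing_value hA hqM R hx (v := RegRat.j M q) ?_ ha
  rw [RegRat.fn_j, jMF_eq_x0J hA hqM]
  exact red_x0J A hA M hqM

theorem crossingSet_finite : (crossingSet A hA hqM).Finite := by
  classical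
  set jb := x0Jb A hA M hqM
  set z := jb - jb ^ (q ^ 2)
  have hz : z ≠ 0 := by
    intro h
    refine jbar_sub_pow_ne_zero A 1 (Nat.one_lt_pow two_ne_zero (Fact.out : q.Prime).one_lt) ?_
    rw [qExpand_one_apply, ← coe_x0Jb A hA M hqM]
    have h2 := congrArg Subtype.val h
    push_cast [z, jb] at h2
    exact h2
  refine ((divisorOf (K := ResidueField A) z).support.finite_toSet).subset fun x hx => ?_
  rw [Finset.mem_coe, Finsupp.mem_support_iff, divisorOf_apply]
  obtain ⟨a, ha⟩ := exists_value (v := x) (ordGe_of_le_ord (f := jb) hx.1)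
  have haq := crossing_value_j hA hqM R hx ha
  intro h0
  have h : OrdGe x 1 z := by
    rw [show z = _ from sub_pow_eq jb a, haq, sub_self, map_zero, add_zero]
    refine ha.sub ((ordGe_pow ha (q ^ 2)).mono ?_)
    have : 0 < q ^ 2 := pow_pos (Fact.out : q.Prime).pos 2
    omega
  have := h.le_ord hz
  omega

variable {g c : ℤ} (hL : RRLarge Qbar (MF Qbar M) g c)
  (hk : RRLarge (ResidueField A) (modularFunctionFieldFullC (ResidueField A) M) g c)
include hL hk

set_option maxHeartbeats 1600000 in
-- the statement mentions several large fields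
/-- A rational uniformiser at a place off the cusps. -/
theorem exists_regRat_uniformiser
    {x : Place (ResidueField A) (modularFunctionFieldFullC (ResidueField A) M)}
    (hx : 0 ≤ x.ord (x0Jb A hA M hqM)) :
    ∃ (u : RegRat M q) (ub : modularFunctionFieldFullC (ResidueField A) M) (a : ResidueField A),
      (x0Datum A hA M hqM).Red u.fn ub ∧
      x.ord (ub - algebraMap (ResidueField A) _ a) = 1 := by
  have hj : (x0Datum A hA M hqM).Red (jMF Qbar M) (x0Jb A hA M hqM) := by
    rw [jMF_eq_x0J hA hqM]; exact red_x0J A hA M hqM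
  obtain ⟨n, u, hu, ub, a, hreg, hub, ha⟩ := exists_rational_uniformiser
    (K₀ := modularFunctionFieldFull M) (D := x0Datum A hA M hqM) (isResidueMap_residue A) hA
    (fun _ h => Igusa.modularFunctionFieldFull_le_boundedField q M h)
    (fun _ _ => x0_red_iff A hA M hqM) (arithmeticGalois_jMF M) R hL hk hj (transcendental_x0Jb A hA M hqM)
    (by rw [jMF_eq_x0J hA hqM]; exact noDefect_x0J A hA M hqM) hx
  refine ⟨⟨u, hu, n, hreg⟩, ub, a, (x0_red_iff A hA M hqM).2 ?_, ha⟩
  rw [hub]
  exact sRed_coeffEmb q hA u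

set_option maxHeartbeats 1600000 in
-- the statement mentions several large fields
/-- `(dπ)^(q-1)` at a place off the cusps. -/
theorem exists_deriv_pow
    {x : Place (ResidueField A) (modularFunctionFieldFullC (ResidueField A) M)}
    (hx : 0 ≤ x.ord (x0Jb A hA M hqM)) :
    ∃ p d : modularFunctionFieldFullC (ResidueField A) M, x.ord p = 1 ∧
      (d : LaurentSeries (ResidueField A)) = euler (p : LaurentSeries (ResidueField A)) ^ (q - 1) ∧
      OrdGe x (-2) d ∧ (x ∉ crossingSet A hA hqM → OrdGe x 0 d) := by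
  obtain ⟨u, ub, a, hub, ha⟩ := exists_regRat_uniformiser hA hqM R hL hk hx
  obtain ⟨ub', Tb, hub', -, -, hTb, hid⟩ := exists_red_TU hA hqM u
  obtain rfl := hub'.unique hub
  have hT : OrdGe x (-1) Tb := by
    by_cases h0 : OrdGe x 0 Tb
    · exact h0.mono (by omega)
    · exact ordGe_neg_one (ordGe_red_mul hA hqM R (mapDomain_polar_j_apply hA hqM R hx) u u hTb hub)
        ha (crossing_value hA hqM R ⟨hx, u, Tb, hTb, h0⟩ hub (ordGe_of_le_ord ha.ge))
  obtain ⟨p, d, hp, hd, hd2, hd0⟩ := exists_deriv_pow_series (frobC (K := ResidueField A) q M)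
    (frPlace q M) (ord_frobC q M) (finrank_frobC q M (natCast_residue_ne_zero hA hqM)) euler_frobC
    ha (euler_x0Jb_ne_zero hA hqM) hT hid
  refine ⟨p, d, hp, hd, hd2, fun hnot => hd0 ?_⟩
  by_contra h0
  exact hnot ⟨hx, u, Tb, hTb, h0⟩

set_option maxHeartbeats 1600000 in
-- the statement mentions several large fields
omit hL hk in
/-- A crossing carries an integral function with a pole unexplained by the lower level. -/
theorem crossing_witness
    {x : Place (ResidueField A) (modularFunctionFieldFullC (ResidueField A) M)}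
    (hx : x ∈ crossingSet A hA hqM) :
    letI := algebraAlong (alphaMap Qbar M q)
    haveI := isScalarTower_along (alphaMap Qbar M q)
    haveI := finite_alongAlpha M (q := q)
    ∃ G : Divisor Qbar (MF Qbar M), 0 ≤ G ∧ Finsupp.mapDomain R.r G x = 0 ∧
      ∃ T ∈ riemannRochSpace (Divisor.pullback (MF Qbar (M * q)) G), ∃ z,
        (redInf A hA M hqM).Red T z ∧ x.ord z < 0 := by
  obtain ⟨hxj, u, Tb, hTb, hpole⟩ := hx
  obtain ⟨N, hN⟩ := (exists_TU_mem_rr u u).1
  refine ⟨N • zeroDivisor (K := Qbar) (jMF Qbar M)⁻¹, nsmul_nonneg (zeroDivisor_nonneg _) _, ?_,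
    TU u.fn, hN, Tb, hTb, ?_⟩
  · rw [Finsupp.mapDomain_smul, Finsupp.smul_apply, mapDomain_polar_j_apply hA hqM R hxj, smul_zero]
  · by_contra h
    exact hpole (ordGe_of_le_ord (not_lt.1 h))

end FLTAgent.Semistable
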