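import Fermat.Agent.Semistable.X0Genus
import Fermat.Agent.Semistable.CrossData
import Fermat.Agent.Semistable.CrossingSet

/-!
# Crossing data of level `M q`, `q ∤ M`, without elliptic points at level `M`

The auxiliary divisors are the poles of `j` and the zeros of `j ^ (q²) - j + 1`, which avoid each
other and the crossings, where the value of `j` lies in the field with `q²` elements.  The number
of crossings is a hypothesis.
-/

set_option autoImplicit false
set_option linter.style.haveILetI false
set_option linter.unusedSectionVars false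
set_option synthInstance.maxHeartbeats 100000

noncomputable section

open ModularCurve AlgebraicCurve IsLocalRing Polynomial

namespace FLTAgent.Semistable

open FLTAgent.GoodRed FLTAgent.GoodRed.RedDatum FLTAgent.Hecke FLTAgent.FunctionField

-- shortcut for the search of the algebra structures on `modularFunctionFieldFullC`
local instance (priority := high) instAlgebraFullCX0Node {K : Type*} [Field K]
    (S : IntermediateField K (LaurentSeries K)) : Algebra K S :=
  SubalgebraClass.toAlgebra S

local notation "Qbar" => AlgebraicClosure ℚ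

section artin

variable {K F : Type*} [Field K] [Field F] [Algebra K F] [IsFunctionField K F] {x : F} {n : ℕ}

theorem ord_artinSchreier_of_neg (hn : 1 < n) {v : Place K F} (hx : v.ord x < 0) :
    v.ord (x ^ n - x + 1) = n * v.ord x := by
  have hx0 : x ≠ 0 := fun h => by rw [h, Place.ord_zero] at hx; omega
  have hlt : (n : ℤ) * v.ord x + 1 ≤ v.ord x := by
    have : (2 : ℤ) ≤ n := by exact_mod_cast hn
    nlinarith
  have h1 : OrdGe v (v.ord (x ^ n) + 1) (1 - x) := by
    rw [FunctionField.ord_pow]
    refine OrdGe.sub (ordGe_of_le_ord ?_) ((ordGe_ord x).mono hlt)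
    rw [v.ord_one]; omega
  have h := (ord_add_eq_left (pow_ne_zero n hx0) h1).2
  rw [FunctionField.ord_pow] at h
  rw [← h]; congr 1; ring

theorem ordGe_artinSchreier (n : ℕ) {v : Place K F} (hx : 0 ≤ v.ord x) :
    OrdGe v 0 (x ^ n - x + 1) := by
  have h0 : OrdGe v 0 x := ordGe_of_le_ord hx
  refine (((ordGe_pow h0 n).mono (by simp)).sub h0).add (ordGe_of_le_ord ?_)
  rw [v.ord_one]

theorem polar_artinSchreier (hn : 1 < n) :
    zeroDivisor (K := K) (x ^ n - x + 1)⁻¹ = n • zeroDivisor (K := K) x⁻¹ := by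
  refine Finsupp.ext fun v => ?_
  rw [Finsupp.smul_apply, zeroDivisor_apply, zeroDivisor_apply, v.ord_inv, v.ord_inv,
    nsmul_eq_mul]
  by_cases hx : v.ord x < 0
  · rw [ord_artinSchreier_of_neg hn hx]
    have : (0 : ℤ) ≤ n := Nat.cast_nonneg n
    rw [max_eq_left (by nlinarith), max_eq_left (by omega)]
    ring
  · push Not at hx
    rw [max_eq_right (by omega : -v.ord x ≤ 0), mul_zero]
    rcases eq_or_ne (x ^ n - x + 1) 0 with h0 | h0
    · rw [h0, Place.ord_zero, neg_zero, max_self]
    · have := (ordGe_artinSchreier n hx).le_ord h0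
      omega

theorem zeroDivisor_smul_of_fixed {s : SemilinearAut K F} (h : s • x = x) :
    s • zeroDivisor (K := K) x = zeroDivisor x := by
  refine Finsupp.ext fun v => ?_
  obtain ⟨w, rfl⟩ : ∃ w, s • w = v := ⟨s⁻¹ • v, smul_inv_smul s v⟩
  rw [SemilinearAut.divisor_smul_apply_smul, zeroDivisor_apply, zeroDivisor_apply]
  conv_rhs => rw [← h]
  rw [SemilinearAut.ord_smul]

end artin

variable {M : ℕ} [NeZero M] {q : ℕ} [Fact q.Prime]

local instance instNeZeroX0Node : NeZero q := ⟨(Fact.out : q.Prime).ne_zero⟩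
local instance instAlgebraX0Node : Algebra (MF Qbar M) (MF Qbar (M * q)) :=
  algebraAlong (alphaMap Qbar M q)
local instance instScalarTowerX0Node : IsScalarTower Qbar (MF Qbar M) (MF Qbar (M * q)) :=
  isScalarTower_along (alphaMap Qbar M q)
local instance instFiniteX0Node : Module.Finite (MF Qbar M) (MF Qbar (M * q)) := finite_alongAlpha M (q := q)

variable {A : ValuationSubring (AlgebraicClosure ℚ)} (hA : A.LiesOverPrime q) (hqM : ¬ q ∣ M)
  [CharP (ResidueField A) q] [IsAlgClosed (ResidueField A)]
  [IsFunctionField (ResidueField A) (modularFunctionFieldFullC (ResidueField A) M)]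

set_option maxHeartbeats 1600000 in
-- the statement mentions several large fields
include hA hqM in
/-- Crossing data of level `M q`, with `G₁` the polar divisor of `j`. -/
theorem exists_x0CrossData' (h2 : nuTwo M = 0) (h3 : nuThree M = 0)
    (hcount : (q - 1) * dedekindPsi M ≤ 12 * (crossingSet A hA hqM).ncard) :
    ∃ (ι : Type) (_ : Fintype ι) (X : CrossData (x0Datum A hA M hqM) (redInf A hA M hqM)
        (redZero A hA M hqM) (frobC (K := ResidueField A) q M) q ι),
      X.frP = frPlace q M ∧ Set.range X.x = crossingSet A hA hqM ∧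
      (∀ σ : Qbar ≃ₐ[ℚ] Qbar, arithmeticGalois (modularFunctionFieldFull M) σ • X.G₁ = X.G₁) ∧
      (∀ σ : Qbar ≃ₐ[ℚ] Qbar, arithmeticGalois (modularFunctionFieldFull M) σ • X.G₂ = X.G₂) ∧
      X.G₁ = zeroDivisor (K := Qbar) (jMF Qbar M)⁻¹ := by
  classical
  obtain ⟨R⟩ := exists_placeRed_x0 A hA M hqM
  haveI : Fintype (crossingSet A hA hqM) := (crossingSet_finite hA hqM R).fintype
  set j := jMF Qbar M with hjdef
  set jb := x0Jb A hA M hqM
  set n := q ^ 2 with hn'
  have hn : 1 < n := Nat.one_lt_pow two_ne_zero (Fact.out : q.Prime).one_lt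
  set t := j ^ n - j + 1 with htdef
  set tb := jb ^ n - jb + 1 with htbdef
  have hj : (x0Datum A hA M hqM).Red j jb := by
    rw [hjdef, jMF_eq_x0J hA hqM]; exact red_x0J A hA M hqM
  have hjb := transcendental_x0Jb A hA M hqM
  have htb : tb ≠ 0 := fun h => hjb ⟨Polynomial.X ^ n - Polynomial.X + 1, fun e => by
      have := congrArg (fun P : Polynomial (ResidueField A) => P.coeff 0) e
      simp [coeff_X_pow, show (0 : ℕ) ≠ n by omega] at this,
    by rw [map_add, map_sub, aeval_X_pow, aeval_X, map_one]; exact h⟩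
  have ht : (x0Datum A hA M hqM).Red t tb := ((hj.pow n).sub hj).add red_one
  have hpolar : Finsupp.mapDomain R.r (zeroDivisor (K := Qbar) j⁻¹) =
      zeroDivisor (K := ResidueField A) jb⁻¹ := mapDomain_polar_j hA hqM R
  have hzero : Finsupp.mapDomain R.r (zeroDivisor (K := Qbar) t) =
      zeroDivisor (K := ResidueField A) tb := by
    have h := R.map_divisorOf t tb ht htb
    rw [← zeroDivisor_sub_zeroDivisor_inv, ← zeroDivisor_sub_zeroDivisor_inv,
      Finsupp.mapDomain_sub, htdef, htbdef, polar_artinSchreier hn, polar_artinSchreier hn,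
      Finsupp.mapDomain_smul, hpolar] at h
    exact sub_left_inj.1 h
  have hfix1 : ∀ σ : Qbar ≃ₐ[ℚ] Qbar,
      arithmeticGalois (modularFunctionFieldFull M) σ • j⁻¹ = j⁻¹ := fun σ => by
    rw [SemilinearAut.smul_def, map_inv₀, ← SemilinearAut.smul_def, arithmeticGalois_jMF]
  have hfix2 : ∀ σ : Qbar ≃ₐ[ℚ] Qbar,
      arithmeticGalois (modularFunctionFieldFull M) σ • t = t := fun σ => by
    rw [htdef, SemilinearAut.smul_def, map_add, map_sub, map_pow, map_one,
      ← SemilinearAut.smul_def, arithmeticGalois_jMF]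
  have hdeg₁ : 1 ≤ Divisor.degree (zeroDivisor (K := Qbar) j⁻¹) := by
    have hX := transcendental_of_red hj hjb
    have e1 := degree_divisorOf (K := Qbar) j
    rw [← zeroDivisor_sub_zeroDivisor_inv, map_sub, degree_zeroDivisor hX, sub_eq_zero] at e1
    rw [← e1]
    have := finiteDimensional_adjoin_of_transcendental hX
    exact_mod_cast Module.finrank_pos
  have hdeg₂ : 1 ≤ Divisor.degree (zeroDivisor (K := Qbar) t) := by
    have e := degree_divisorOf (K := Qbar) t
    rw [← zeroDivisor_sub_zeroDivisor_inv, map_sub, sub_eq_zero] at e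
    rw [e, htdef, polar_artinSchreier hn, map_nsmul, nsmul_eq_mul]
    have : (1 : ℤ) ≤ n := by exact_mod_cast hn.le
    nlinarith
  have hx₁ : ∀ x ∈ crossingSet A hA hqM,
      Finsupp.mapDomain R.r (zeroDivisor (K := Qbar) j⁻¹) x = 0 :=
    fun x hx => mapDomain_polar_j_apply hA hqM R hx.1
  have hx₂ : ∀ x ∈ crossingSet A hA hqM,
      Finsupp.mapDomain R.r (zeroDivisor (K := Qbar) t) x = 0 := fun x hx => by
    obtain ⟨a, ha⟩ := exists_value (v := x) (ordGe_of_le_ord (f := jb) hx.1)
    have haq : a ^ n = a := crossing_value_j hA hqM R hx ha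
    have h : OrdGe x 1 (jb - jb ^ n) := by
      rw [hn', sub_pow_eq jb a, ← hn', haq, sub_self, map_zero, add_zero]
      exact ha.sub ((ordGe_pow ha n).mono (by omega))
    rw [hzero, zeroDivisor_apply]
    by_contra hne
    have h1 : OrdGe x 1 (1 : modularFunctionFieldFullC (ResidueField A) M) := by
      have := (ordGe_of_le_ord (v := x) (n := 1) (f := tb) (by omega)).add h
      rwa [htbdef, show jb ^ n - jb + 1 + (jb - jb ^ n) = 1 by ring] at this
    have := h1.le_ord one_ne_zero
    rw [x.ord_one] at this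
    omega
  have hcard : 0 < (crossingSet A hA hqM).ncard := by
    have h1 : 0 < (q - 1) * dedekindPsi M :=
      Nat.mul_pos (by have := (Fact.out : q.Prime).two_le; omega) (dedekindPsi_pos (NeZero.ne M))
    omega
  obtain ⟨d₁, hd₁⟩ := exists_rrLarge_genusFF Qbar (MF Qbar M)
  obtain ⟨d₂, hd₂⟩ := exists_rrLarge_genusFF (ResidueField A)
    (modularFunctionFieldFullC (ResidueField A) M)
  obtain ⟨d₃, hd₃⟩ := exists_rrLarge_genusFF Qbar (MF Qbar (M * q))
  have hg : genusFF Qbar (modularFunctionFieldBar M) =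
      genusFF (ResidueField A) (modularFunctionFieldFullC (ResidueField A) M) :=
    genusFF_eq_x0 A hA M hqM
  refine ⟨↥(crossingSet A hA hqM), inferInstance,
    { side := oneSide_alpha hA hqM
      hpow := exists_frobC_eq_pow q M
      R := R
      frP := frPlace q M
      ord_frob := ord_frobC q M
      gE := (genusFF Qbar (MF Qbar M) : ℤ)
      g := (genusFF Qbar (MF Qbar (M * q)) : ℤ)
      c := d₁ + d₂ + d₃
      hE := hd₁ _ (by push_cast; omega)
      hC := ?_
      hF := hd₃ _ (by push_cast; omega)
      G₁ := zeroDivisor (K := Qbar) j⁻¹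
      G₂ := zeroDivisor (K := Qbar) t
      G₁_nonneg := zeroDivisor_nonneg _
      G₂_nonneg := zeroDivisor_nonneg _
      deg_G₁ := hdeg₁
      deg_G₂ := hdeg₂
      disj := fun v => ?_
      x := Subtype.val
      x_inj := Subtype.val_injective
      nonempty := ((Set.ncard_pos (crossingSet_finite hA hqM R)).1 hcard).to_subtype
      genus_le := ?_
      G₁_x := fun i => hx₁ _ i.2
      G₂_x := fun i => hx₂ _ i.2
      witness := fun i => crossing_witness hA hqM R i.2 },
    rfl, Subtype.range_coe, fun σ => zeroDivisor_smul_of_fixed (hfix1 σ),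
    fun σ => zeroDivisor_smul_of_fixed (hfix2 σ), rfl⟩
  · rw [show genusFF Qbar (MF Qbar M) = _ from hg]
    exact hd₂ _ (by push_cast; omega)
  · rw [hpolar, hzero, zeroDivisor_apply, zeroDivisor_apply, v.ord_inv]
    by_cases hv : v.ord jb < 0
    · refine Or.inr ?_
      rw [htbdef, ord_artinSchreier_of_neg hn hv]
      have : (0 : ℤ) ≤ n := Nat.cast_nonneg n
      exact max_eq_right (by nlinarith)
    · exact Or.inl (max_eq_right (by omega))
  · rw [Fintype.card_eq_nat_card, Nat.card_coe_set_eq]
    exact genus_le_of_count Fact.out hqM h2 h3 hcount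

set_option maxHeartbeats 800000 in
-- the statement mentions several large fields
include hA hqM in
/-- Crossing data of level `M q`. -/
theorem exists_x0CrossData (h2 : nuTwo M = 0) (h3 : nuThree M = 0)
    (hcount : (q - 1) * dedekindPsi M ≤ 12 * (crossingSet A hA hqM).ncard) :
    ∃ (ι : Type) (_ : Fintype ι) (X : CrossData (x0Datum A hA M hqM) (redInf A hA M hqM)
        (redZero A hA M hqM) (frobC (K := ResidueField A) q M) q ι),
      X.frP = frPlace q M ∧ Set.range X.x = crossingSet A hA hqM ∧
      (∀ σ : Qbar ≃ₐ[ℚ] Qbar, arithmeticGalois (modularFunctionFieldFull M) σ • X.G₁ = X.G₁) ∧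
      (∀ σ : Qbar ≃ₐ[ℚ] Qbar, arithmeticGalois (modularFunctionFieldFull M) σ • X.G₂ = X.G₂) := by
  obtain ⟨ι, hι, X, h1, h2, h3, h4, -⟩ := exists_x0CrossData' hA hqM h2 h3 hcount
  exact ⟨ι, hι, X, h1, h2, h3, h4⟩

end FLTAgent.Semistable
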