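import Fermat.Agent.Hecke.Final
import Fermat.Agent.ModPoly.Roots
import Fermat.Agent.Igusa.Subst
import Mathlib.FieldTheory.IntermediateField.Adjoin.Basic
import Mathlib.RingTheory.RootsOfUnity.AlgebraicallyClosed

/-!
# The involution of level `M q` exchanging the two degeneracy maps, `q` prime to `M`

`F (M q) = F (M) (j (q ^ (M q)))` with minimal polynomial `Φ_q (j_M, X)`; sending the generator to
`j_M` and `F (M)` through the second degeneracy map gives the involution.
-/

set_option autoImplicit false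
set_option linter.style.haveILetI false
set_option linter.unusedSectionVars false

noncomputable section

open ModularCurve AlgebraicCurve Polynomial

namespace FLTAgent.Semistable

open FLTAgent.Hecke FLTAgent.ModPoly

variable {L : Type*} [Field L] [Algebra ℚ L]

/-- `Φ_N (x, y) = 0`. -/
def PhiRel (N : ℕ) [NeZero N] {S : Type*} [CommRing S] [Algebra L S] (x y : S) : Prop :=
  ev2 x y (phiK N L) = 0

theorem PhiRel.map {N : ℕ} [NeZero N] {S T : Type*} [CommRing S] [Algebra L S] [CommRing T]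
    [Algebra L T] (f : S →ₐ[L] T) {x y : S} (h : PhiRel (L := L) N x y) :
    PhiRel (L := L) N (f x) (f y) := by
  have e : ev2 (f x) (f y) (phiK N L) = f (ev2 x y (phiK N L)) := by
    rw [ev2_apply, ev2_apply]
    show _ = f.toRingHom _
    rw [Polynomial.hom_eval₂]
    congr 1
    refine Polynomial.ringHom_ext (fun a => ?_) ?_ <;> simp
  rw [PhiRel, e, show ev2 x y (phiK N L) = 0 from h, map_zero]

theorem PhiRel.of_map {N : ℕ} [NeZero N] {S T : Type*} [CommRing S] [Algebra L S] [CommRing T]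
    [Algebra L T] (f : S →ₐ[L] T) (hf : Function.Injective f) {x y : S}
    (h : PhiRel (L := L) N (f x) (f y)) : PhiRel (L := L) N x y := by
  refine hf ?_
  have e : ev2 (f x) (f y) (phiK N L) = f (ev2 x y (phiK N L)) := by
    rw [ev2_apply, ev2_apply]
    show _ = f.toRingHom _
    rw [Polynomial.hom_eval₂]
    congr 1
    refine Polynomial.ringHom_ext (fun a => ?_) ?_ <;> simp
  rw [map_zero, ← e]
  exact h

theorem phiRel_qExpand {N d : ℕ} [NeZero N] [NeZero d] {x y : LaurentSeries L}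
    (h : PhiRel (L := L) N x y) : PhiRel (L := L) N (qExpand L d x) (qExpand L d y) :=
  h.map (qExpandAlg L d)

theorem phiRel_jqModC (N : ℕ) [NeZero N] : PhiRel (L := L) N (jqModC L) (jd L N) :=
  ev2_phiK N L

theorem phiRel_jd_iff (N : ℕ) [NeZero N] [IsAlgClosed L] {ζ : Lˣ}
    (hζ : IsPrimitiveRoot (ζ : L) N) {y : LaurentSeries L} :
    PhiRel (L := L) N (jd L N) y ↔ ∃ p : HIdx N, y = jqConj L ζ p := by
  have hroot : (cyclotomic N L).IsRoot (ζ : L) :=
    hζ.isRoot_cyclotomic (Nat.pos_of_ne_zero (NeZero.ne N))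
  have e : ev2 (jd L N) y (phiK N L) = (phiRoots N L).eval y := by
    rw [phiRoots, eval_map, ev2_apply]
    rfl
  rw [PhiRel, e, phiRoots_eq_conjProd N ζ hroot, conjProd, eval_prod, Finset.prod_eq_zero_iff]
  simp [sub_eq_zero]

theorem jqConj_one_zero (N : ℕ) [NeZero N] (ζ : Lˣ) :
    ∃ p : HIdx N, jqConj L ζ p = jqModC L := by
  have hmem : ((1, 0) : ℕ × ℕ) ∈ hermiteSet N :=
    mem_hermiteSet.2 ⟨one_dvd _, by simp [Nat.pos_of_ne_zero (NeZero.ne N)], by simp⟩
  refine ⟨⟨_, hmem⟩, ?_⟩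
  haveI : NeZero (((1, 0) : ℕ × ℕ).1 * ((1, 0) : ℕ × ℕ).1) := ⟨by simp⟩
  rw [jqConj_eq, Nat.mul_zero, pow_zero, twist_one_unit,
    qExpand_congr (by simp : (((1, 0) : ℕ × ℕ).1 * ((1, 0) : ℕ × ℕ).1) = 1), qExpand_one_apply]

variable [IsAlgClosed L]

theorem exists_primitiveRoot_unit (N : ℕ) [NeZero N] :
    ∃ ζ : Lˣ, IsPrimitiveRoot (ζ : L) N := by
  haveI : CharZero L := Algebra.charZero_of_charZero ℚ L
  haveI : NeZero (N : L) := ⟨Nat.cast_ne_zero.2 (NeZero.ne N)⟩
  obtain ⟨z, hz⟩ := HasEnoughRootsOfUnity.exists_primitiveRoot L N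
  exact ⟨(hz.isUnit (NeZero.ne N)).unit, hz⟩

/-- `j` is the only common root of `Φ_q (j_q, ·)` and `Φ_M (j_M, ·)`. -/
theorem eq_jqModC_of_phiRel {M q : ℕ} [NeZero M] [NeZero q] (hq : q.Prime) (hqM : ¬ q ∣ M)
    {y : LaurentSeries L} (h₁ : PhiRel (L := L) q (jd L q) y)
    (h₂ : PhiRel (L := L) M (jd L M) y) : y = jqModC L := by
  obtain ⟨ζ, hζ⟩ := exists_primitiveRoot_unit (L := L) q
  obtain ⟨η, hη⟩ := exists_primitiveRoot_unit (L := L) M
  obtain ⟨p, hp⟩ := (phiRel_jd_iff q hζ).1 h₁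
  obtain ⟨r, hr⟩ := (phiRel_jd_iff M hη).1 h₂
  obtain ⟨hpd, hpb, -⟩ := mem_hermiteSet.1 p.2
  obtain ⟨hrd, -, -⟩ := mem_hermiteSet.1 r.2
  have hp0 : (p : ℕ × ℕ).1 ≠ 0 := fun h => hq.ne_zero (Nat.eq_zero_of_zero_dvd (h ▸ hpd))
  have hr0 : (r : ℕ × ℕ).1 ≠ 0 := fun h => NeZero.ne M (Nat.eq_zero_of_zero_dvd (h ▸ hrd))
  haveI : NeZero ((p : ℕ × ℕ).1 * (p : ℕ × ℕ).1) := ⟨mul_ne_zero hp0 hp0⟩
  haveI : NeZero ((r : ℕ × ℕ).1 * (r : ℕ × ℕ).1) := ⟨mul_ne_zero hr0 hr0⟩
  have h := hp.symm.trans hr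
  rw [jqConj_eq, jqConj_eq, ← Igusa.J_def, ← Igusa.J_def] at h
  obtain ⟨hsq, hunit⟩ := Igusa.J_inj h
  have ha : (p : ℕ × ℕ).1 = (r : ℕ × ℕ).1 := Nat.mul_self_inj.1 hsq
  have ha1 : (p : ℕ × ℕ).1 = 1 := by
    rcases hq.eq_one_or_self_of_dvd _ hpd with h | h
    · exact h
    · exact absurd ((h.symm.trans ha) ▸ hrd) hqM
  have hb : (p : ℕ × ℕ).2 = 0 := by
    rw [ha1, one_mul] at hunit
    have hζ' : IsPrimitiveRoot ζ q := IsPrimitiveRoot.coe_units_iff.1 hζ
    have hη' : η ^ M = 1 := (IsPrimitiveRoot.coe_units_iff.1 hη).pow_eq_one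
    have h1 : ζ ^ ((p : ℕ × ℕ).2 * M) = 1 := by
      rw [pow_mul, hunit, ← pow_mul, mul_comm _ M, pow_mul, hη', one_pow]
    have h2 : q ∣ (p : ℕ × ℕ).2 :=
      (hq.dvd_mul.1 (hζ'.dvd_of_pow_eq_one _ h1)).resolve_right hqM
    rw [ha1, Nat.div_one] at hpb
    exact Nat.eq_zero_of_dvd_of_lt h2 hpb
  rw [hp, jqConj_eq, hb, Nat.mul_zero, pow_zero, twist_one_unit,
    qExpand_congr (by rw [ha1] : (p : ℕ × ℕ).1 * (p : ℕ × ℕ).1 = 1), qExpand_one_apply]

set_option synthInstance.maxHeartbeats 100000 in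
-- instance search in fields of series is slow
/-- Algebra homomorphisms out of `F_N` are determined by the values at `j` and `j_N`. -/
theorem algHom_MF_ext {N : ℕ} [NeZero N] {T : Type*} [Field T] [Algebra L T]
    {f g : MF L N →ₐ[L] T} (hj : f (jMF L N) = g (jMF L N))
    (hN : f ⟨jd L N, jd_mem L dvd_rfl⟩ = g ⟨jd L N, jd_mem L dvd_rfl⟩) : f = g := by
  have gen : MF L N = modularFunctionFieldC L N := (degreeFacts L).gen N
  have hle : MF L N ≤ (IntermediateField.adjoin L
      ({jMF L N, ⟨jd L N, jd_mem L dvd_rfl⟩} : Set (MF L N))).map (MF L N).val := by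
    conv_lhs => rw [gen]
    refine IntermediateField.adjoin_le_iff.2 ?_
    rintro x (rfl | rfl)
    · exact ⟨jMF L N, IntermediateField.subset_adjoin L _ (Set.mem_insert _ _), rfl⟩
    · exact ⟨_, IntermediateField.subset_adjoin L _ (Set.mem_insert_of_mem _ rfl), rfl⟩
  refine AlgHom.ext fun x => ?_
  obtain ⟨y, hy, hyx⟩ := hle x.2
  obtain rfl : y = x := Subtype.ext hyx
  clear hyx
  induction hy using IntermediateField.adjoin_induction with
  | mem z hz => rcases hz with rfl | rfl; exacts [hj, hN]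
  | algebraMap c => rw [AlgHom.commutes, AlgHom.commutes]
  | add a b _ _ ha hb => rw [map_add, map_add, ha, hb]
  | inv a _ ha => rw [map_inv₀, map_inv₀, ha]
  | mul a b _ _ ha hb => rw [map_mul, map_mul, ha, hb]

variable (L) (M q : ℕ) [NeZero M] [NeZero q]

/-- The first degeneracy map `F_M → F_{Mq}`. -/
def alphaMap : MF L M →ₐ[L] MF L (M * q) :=
  degMap L 1 (by rw [mul_one]; exact dvd_mul_right M q)

/-- The second degeneracy map `F_M → F_{Mq}`. -/
def betaMap : MF L M →ₐ[L] MF L (M * q) := degMap L q dvd_rfl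

theorem coe_alphaMap (x : MF L M) :
    (alphaMap L M q x : LaurentSeries L) = (x : LaurentSeries L) := by
  rw [alphaMap, coe_degMap, qExpand_one_apply]

theorem coe_betaMap (x : MF L M) :
    (betaMap L M q x : LaurentSeries L) = qExpand L q (x : LaurentSeries L) := coe_degMap L q _ x

theorem finrankAlong_alphaMap (hq : q.Prime) (hqM : ¬ q ∣ M) :
    finrankAlong L (alphaMap L M q) = q + 1 := by
  have h := finrankAlong_degMap (degreeFacts L) (M := M) (M' := M * q)
    (by rw [mul_one]; exact dvd_mul_right M q)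
  rw [dedekindPsi_mul_prime_of_not_dvd (NeZero.ne M) hq hqM] at h
  change dedekindPsi M * finrankAlong L (alphaMap L M q) = _ at h
  have h2 : dedekindPsi M * finrankAlong L (alphaMap L M q) = dedekindPsi M * (q + 1) := by
    rw [h]; ring
  exact Nat.eq_of_mul_eq_mul_left (dedekindPsi_pos (NeZero.ne M)) h2

/-- A homomorphism out of a field generated by one element over the image of another. -/
theorem exists_algHom_of_generator {L E F T : Type*} [Field L] [Field E] [Field F] [Field T]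
    [Algebra L E] [Algebra L F] [Algebra L T] (φ : E →ₐ[L] F) (hfin : FiniteAlong L φ) (g : F)
    (hgen : ∀ S : IntermediateField L F, (∀ u, φ u ∈ S) → g ∈ S → ∀ z, z ∈ S)
    {P : E[X]} (hmon : P.Monic) (hdeg : P.natDegree ≤ finrankAlong L φ)
    (hPg : P.eval₂ φ.toRingHom g = 0) (β : E →ₐ[L] T) (g' : T)
    (h : P.eval₂ β.toRingHom g' = 0) :
    ∃ w : F →ₐ[L] T, (∀ u, w (φ u) = β u) ∧ w g = g' := by
  letI := algebraAlong φ
  haveI := isScalarTower_along φ
  haveI : Module.Finite E F := hfin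
  have hint : IsIntegral E g := IsIntegral.of_finite _ g
  have htop : IntermediateField.adjoin E {g} = ⊤ := eq_top_iff.2 fun z _ =>
    hgen ((IntermediateField.adjoin E {g}).restrictScalars L)
      (fun u => IntermediateField.algebraMap_mem _ u)
      (IntermediateField.mem_adjoin_simple_self E g) z
  have hfr : (minpoly E g).natDegree = Module.finrank E F := by
    rw [← IntermediateField.adjoin.finrank hint, htop, IntermediateField.finrank_top']
  have hdeg' : P.natDegree ≤ Module.finrank E F := hdeg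
  have hmin : minpoly E g = P :=
    (Polynomial.eq_of_monic_of_dvd_of_natDegree_le (minpoly.monic hint) hmon
      (minpoly.dvd _ _ hPg) (by rw [hfr]; exact hdeg')).symm
  have hroot : (minpoly E g).eval₂ β.toRingHom g' = 0 := by rw [hmin]; exact h
  let e : AdjoinRoot (minpoly E g) ≃ₐ[E] F :=
    (IntermediateField.adjoinRootEquivAdjoin E hint).trans
      ((IntermediateField.equivOfEq htop).trans IntermediateField.topEquiv)
  have he : ∀ u, AdjoinRoot.lift β.toRingHom g' hroot (e.symm (φ u)) = β u := fun u => by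
    show AdjoinRoot.lift _ g' hroot (e.symm (algebraMap E F u)) = _
    rw [e.symm.commutes, AdjoinRoot.algebraMap_eq, AdjoinRoot.lift_of]
    rfl
  refine ⟨{ (AdjoinRoot.lift β.toRingHom g' hroot).comp e.symm.toRingEquiv.toRingHom with
      commutes' := fun a => by
        have h := he (algebraMap L E a)
        rw [φ.commutes, AlgHom.commutes] at h
        exact h }, he, ?_⟩
  show AdjoinRoot.lift _ g' hroot (e.symm g) = g'
  have h1 : e (AdjoinRoot.root _) = g := by
    show ((IntermediateField.adjoinRootEquivAdjoin E hint)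
      (AdjoinRoot.root (minpoly E g)) : F) = g
    rw [IntermediateField.adjoinRootEquivAdjoin_apply_root]
    rfl
  rw [e.symm_apply_eq.2 h1.symm, AdjoinRoot.lift_root]

theorem eval₂_map_aeval {L E F : Type*} [Field L] [Field E] [Field F] [Algebra L E] [Algebra L F]
    (φ : E →ₐ[L] F) (x : E) (y : F) (Q : L[X][X]) :
    (Q.map ((aeval x : L[X] →ₐ[L] E) : L[X] →+* E)).eval₂ φ.toRingHom y = ev2 (φ x) y Q := by
  rw [eval₂_map, ev2_apply]
  congr 1
  refine Polynomial.ringHom_ext (fun a => ?_) ?_ <;> simp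

theorem dedekindPsi_prime' {q : ℕ} (hq : q.Prime) : dedekindPsi q = q + 1 := by
  have h := dedekindPsi_mul_prime_of_not_dvd one_ne_zero hq
    (fun h => hq.ne_one (Nat.dvd_one.1 h))
  rw [one_mul] at h
  rw [h, show dedekindPsi 1 = 1 by simp [dedekindPsi, Finset.sum_filter]]
  ring

theorem mem_of_alphaMap_mem (S : IntermediateField L (MF L (M * q)))
    (hα : ∀ u, alphaMap L M q u ∈ S)
    (hg : (⟨jd L (M * q), jd_mem L dvd_rfl⟩ : MF L (M * q)) ∈ S) (z : MF L (M * q)) : z ∈ S := by
  have gen : MF L (M * q) = modularFunctionFieldC L (M * q) := (degreeFacts L).gen _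
  have hle : MF L (M * q) ≤ S.map (MF L (M * q)).val := by
    conv_lhs => rw [gen]
    refine IntermediateField.adjoin_le_iff.2 ?_
    rintro x (rfl | rfl)
    · exact ⟨_, hα (jMF L M), coe_alphaMap L M q (jMF L M)⟩
    · exact ⟨_, hg, rfl⟩
  obtain ⟨y, hy, hyz⟩ := hle z.2
  rwa [← Subtype.ext hyz]

theorem exists_swap_hom (hq : q.Prime) (hqM : ¬ q ∣ M) :
    ∃ w : MF L (M * q) →ₐ[L] MF L (M * q), (∀ u, w (alphaMap L M q u) = betaMap L M q u) ∧
      w ⟨jd L (M * q), jd_mem L dvd_rfl⟩ = ⟨jd L M, jd_mem L (dvd_mul_right M q)⟩ := by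
  set gM : MF L M := ⟨jd L M, jd_mem L dvd_rfl⟩
  refine exists_algHom_of_generator (alphaMap L M q)
    ((levelFacts L).finite M (M * q) 1 (by rw [mul_one]; exact dvd_mul_right M q)) _
    (fun S hα hg z => mem_of_alphaMap_mem L M q S hα hg z)
    (P := (phiK q L).map ((aeval gM : L[X] →ₐ[L] MF L M) : L[X] →+* MF L M))
    ((phiK_monic q L).map _) ?_ ?_ _ _ ?_
  · rw [finrankAlong_alphaMap L M q hq hqM, (phiK_monic q L).natDegree_map, natDegree_phiK,
      dedekindPsi_prime' hq]
  · rw [eval₂_map_aeval]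
    refine PhiRel.of_map (MF L (M * q)).val Subtype.val_injective ?_
    show PhiRel (L := L) q (alphaMap L M q gM : LaurentSeries L) (jd L (M * q))
    rw [coe_alphaMap, show (gM : LaurentSeries L) = qExpand L M (jqModC L) from rfl,
      show jd L (M * q) = qExpand L M (jd L q) by rw [jd, jd, qExpand_qExpand]]
    exact phiRel_qExpand (phiRel_jqModC q)
  · rw [eval₂_map_aeval]
    refine PhiRel.of_map (MF L (M * q)).val Subtype.val_injective ?_
    show PhiRel (L := L) q (betaMap L M q gM : LaurentSeries L) (qExpand L M (jqModC L))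
    rw [coe_betaMap, show (gM : LaurentSeries L) = qExpand L M (jqModC L) from rfl,
      qExpand_qExpand, qExpand_congr (mul_comm q M), ← qExpand_qExpand]
    refine phiRel_qExpand ?_
    obtain ⟨ζ, hζ⟩ := exists_primitiveRoot_unit (L := L) q
    obtain ⟨p, hp⟩ := jqConj_one_zero (L := L) q ζ
    exact (phiRel_jd_iff q hζ).2 ⟨p, hp.symm⟩

theorem exists_swap (hq : q.Prime) (hqM : ¬ q ∣ M) :
    ∃ w : MF L (M * q) ≃ₐ[L] MF L (M * q),
      (∀ u, w (alphaMap L M q u) = betaMap L M q u) ∧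
      (∀ u, w (betaMap L M q u) = alphaMap L M q u) ∧ ∀ x, w (w x) = x := by
  obtain ⟨w, hwα, hwg⟩ := exists_swap_hom L M q hq hqM
  have hj : w (betaMap L M q (jMF L M)) = alphaMap L M q (jMF L M) := by
    apply Subtype.ext
    rw [coe_alphaMap]
    refine eq_jqModC_of_phiRel hq hqM ?_ ?_
    · have h1 : PhiRel (L := L) q (alphaMap L M q (jMF L M)) (betaMap L M q (jMF L M)) := by
        refine PhiRel.of_map (MF L (M * q)).val Subtype.val_injective ?_
        show PhiRel (L := L) q (alphaMap L M q (jMF L M) : LaurentSeries L)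
          (betaMap L M q (jMF L M) : LaurentSeries L)
        rw [coe_alphaMap, coe_betaMap]
        exact phiRel_jqModC q
      have h2 := (h1.map w).map (MF L (M * q)).val
      rw [hwα] at h2
      have e1 : ((betaMap L M q (jMF L M) : MF L (M * q)) : LaurentSeries L) = jd L q :=
        coe_betaMap L M q _
      simp only [IntermediateField.coe_val, e1] at h2
      exact h2
    · set x : MF L (M * q) := betaMap L M q (jMF L M)
      set g : MF L (M * q) := ⟨jd L (M * q), jd_mem L dvd_rfl⟩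
      have h1 : PhiRel (L := L) M g x := by
        refine PhiRel.of_map (MF L (M * q)).val Subtype.val_injective ?_
        show PhiRel (L := L) M (jd L (M * q)) (x : LaurentSeries L)
        rw [show (x : LaurentSeries L) = qExpand L q (jqModC L) from coe_betaMap L M q _,
          show jd L (M * q) = qExpand L q (jd L M) by
            rw [jd, jd, qExpand_qExpand]; exact qExpand_congr (mul_comm M q) _]
        refine phiRel_qExpand ?_
        obtain ⟨ζ, hζ⟩ := exists_primitiveRoot_unit (L := L) M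
        obtain ⟨p, hp⟩ := jqConj_one_zero (L := L) M ζ
        exact (phiRel_jd_iff M hζ).2 ⟨p, hp.symm⟩
      have h2 := (h1.map w).map (MF L (M * q)).val
      simp only [IntermediateField.coe_val, hwg] at h2
      exact h2
  have hwβ : w.comp (betaMap L M q) = alphaMap L M q := by
    refine algHom_MF_ext hj ?_
    show w (betaMap L M q ⟨jd L M, jd_mem L dvd_rfl⟩) = alphaMap L M q ⟨jd L M, jd_mem L dvd_rfl⟩
    have e1 : betaMap L M q ⟨jd L M, jd_mem L dvd_rfl⟩ = ⟨jd L (M * q), jd_mem L dvd_rfl⟩ := by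
      apply Subtype.ext
      rw [coe_betaMap]
      show qExpand L q (qExpand L M (jqModC L)) = qExpand L (M * q) (jqModC L)
      rw [qExpand_qExpand]
      exact qExpand_congr (mul_comm q M) _
    rw [e1, hwg]
    exact Subtype.ext (coe_alphaMap L M q ⟨jd L M, jd_mem L dvd_rfl⟩).symm
  have hβ : ∀ u, w (betaMap L M q u) = alphaMap L M q u := fun u => AlgHom.congr_fun hwβ u
  have hjF : alphaMap L M q (jMF L M) = jMF L (M * q) := Subtype.ext (coe_alphaMap L M q _)
  have hgF : betaMap L M q ⟨jd L M, jd_mem L dvd_rfl⟩ =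
      ⟨jd L (M * q), jd_mem L dvd_rfl⟩ := by
    apply Subtype.ext
    rw [coe_betaMap]
    show qExpand L q (qExpand L M (jqModC L)) = qExpand L (M * q) (jqModC L)
    rw [qExpand_qExpand]
    exact qExpand_congr (mul_comm q M) _
  have hid : w.comp w = AlgHom.id L _ := by
    refine algHom_MF_ext ?_ ?_
    · show w (w (jMF L (M * q))) = jMF L (M * q)
      rw [← hjF, hwα, hβ]
    · show w (w ⟨jd L (M * q), jd_mem L dvd_rfl⟩) = ⟨jd L (M * q), jd_mem L dvd_rfl⟩
      rw [← hgF, hβ, hwα]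
  exact ⟨AlgEquiv.ofAlgHom w w hid hid, hwα, hβ, AlgHom.congr_fun hid⟩

end FLTAgent.Semistable
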