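import Fermat.Agent.Semistable.OneSide
import Fermat.Agent.Igusa.Generation
import Fermat.Agent.ModPoly.Scale
import Fermat.Prelude.Def_AlgebraicCurve_BaseChangeGalois
import Mathlib.FieldTheory.KummerPolynomial
import Mathlib.RingTheory.MvPowerSeries.Expand
import Mathlib.FieldTheory.Perfect

/-!
# The Frobenius of `K (j (q ^ d) : d ∣ N)` in characteristic `p`

`X ↦ X ^ p` on series is a `K`-linear endomorphism of the field, of degree `p`; composed with the
Frobenius of the coefficients it is the `p`-th power, so it moves places through a semilinear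
automorphism.
-/

set_option autoImplicit false
set_option linter.style.haveILetI false
set_option linter.unusedSectionVars false

noncomputable section

open ModularCurve AlgebraicCurve Polynomial
open scoped IntermediateField

namespace FLTAgent.Semistable

-- shortcut for the search of the algebra structures on `modularFunctionFieldFullC`
local instance (priority := high) instAlgebraFullCFullC {K : Type*} [Field K]
    (S : IntermediateField K (LaurentSeries K)) : Algebra K S :=
  SubalgebraClass.toAlgebra S

section maps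

variable {K K' : Type*} [Field K] [Field K']

theorem coeffMap_mem_fullC (N : ℕ) (σ : K →+* K') {z : LaurentSeries K}
    (hz : z ∈ modularFunctionFieldFullC K N) :
    coeffMap σ z ∈ modularFunctionFieldFullC K' N := by
  induction hz using IntermediateField.adjoin_induction with
  | mem x hx =>
    obtain ⟨d, hd0, hd, rfl⟩ := hx
    rw [coeffMap_qExpand, coeffMap_jqModC]
    exact jqModCd_mem_full K' N hd
  | algebraMap c =>
    rw [algebraMap_laurentSeries_eq_single, coeffMap_single, ← algebraMap_laurentSeries_eq_single]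
    exact IntermediateField.algebraMap_mem _ _
  | add a b _ _ ha hb => rw [map_add]; exact add_mem ha hb
  | inv a _ ha => rw [map_inv₀]; exact inv_mem ha
  | mul a b _ _ ha hb => rw [map_mul]; exact mul_mem ha hb

theorem coeffMap_equiv_symm (σ : K ≃+* K) (z : LaurentSeries K) :
    coeffMap (σ.symm : K →+* K) (coeffMap (σ : K →+* K) z) = z :=
  HahnSeries.ext (funext fun n => σ.symm_apply_apply (z.coeff n))

theorem coeffMap_equiv_symm' (σ : K ≃+* K) (z : LaurentSeries K) :
    coeffMap (σ : K →+* K) (coeffMap (σ.symm : K →+* K) z) = z :=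
  HahnSeries.ext (funext fun n => σ.apply_symm_apply (z.coeff n))

/-- An automorphism of the constants acting on the coefficients, as a ring automorphism. -/
def fullCEquiv (N : ℕ) (σ : K ≃+* K) :
    modularFunctionFieldFullC K N ≃+* modularFunctionFieldFullC K N where
  toFun z := ⟨coeffMap (σ : K →+* K) (z : LaurentSeries K), coeffMap_mem_fullC N _ z.2⟩
  invFun z := ⟨coeffMap (σ.symm : K →+* K) (z : LaurentSeries K), coeffMap_mem_fullC N _ z.2⟩
  left_inv z := Subtype.ext (coeffMap_equiv_symm σ z)
  right_inv z := Subtype.ext (coeffMap_equiv_symm' σ z)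
  map_mul' z w := Subtype.ext (map_mul (coeffMap (σ : K →+* K)) (z : LaurentSeries K) w)
  map_add' z w := Subtype.ext (map_add (coeffMap (σ : K →+* K)) (z : LaurentSeries K) w)

/-- An automorphism of the constants acting on the coefficients. -/
def fullCAut (N : ℕ) (σ : K ≃+* K) : SemilinearAut K (modularFunctionFieldFullC K N) :=
  ⟨(fullCEquiv N σ, σ), fun a => Subtype.ext (coeffMap_algebraMap (σ : K →+* K) a)⟩

theorem coe_fullCAut (N : ℕ) (σ : K ≃+* K) (z : modularFunctionFieldFullC K N) :
    (SemilinearAut.toRingAut (fullCAut N σ) z : LaurentSeries K) =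
      coeffMap (σ : K →+* K) (z : LaurentSeries K) := rfl

theorem baseAut_fullCAut (N : ℕ) (σ : K ≃+* K) :
    SemilinearAut.baseAut (fullCAut N σ) = σ := rfl

end maps

section frobenius

variable {K : Type*} [Field K] (p : ℕ) [Fact p.Prime] [CharP K p]

local instance : NeZero p := ⟨(Fact.out : p.Prime).ne_zero⟩

/-- `f(X ^ p)` with Frobenius applied to the coefficients is `f ^ p`. -/
theorem qExpand_coeffMap_frobenius (z : LaurentSeries K) :
    qExpand K p (coeffMap (frobenius K p) z) = z ^ p := by
  have hps : ∀ u : PowerSeries K,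
      PowerSeries.expand p (NeZero.ne p) (u.map (frobenius K p)) = u ^ p := fun u => by
    have h := MvPowerSeries.map_frobenius_expand p (NeZero.ne p) (f := (u : MvPowerSeries Unit K))
    rw [MvPowerSeries.map_expand] at h
    exact h
  conv_lhs => rw [← LaurentSeries.single_order_mul_powerSeriesPart z]
  conv_rhs => rw [← LaurentSeries.single_order_mul_powerSeriesPart z]
  rw [map_mul, map_mul, mul_pow, coeffMap_single, map_one, qExpand_single, HahnSeries.single_pow,
    one_pow, coeffMap_ofPowerSeries, ModPoly.qExpand_ofPowerSeries, hps, map_pow, nsmul_eq_mul]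

variable [PerfectRing K p] (N : ℕ)

/-- Frobenius of the constants. -/
def frobK : K ≃+* K := frobeniusEquiv K p

theorem coe_frobK : ((frobK p : K ≃+* K) : K →+* K) = frobenius K p := rfl

theorem frobK_apply (t : K) : frobK p t = t ^ p := rfl

theorem qExpand_mem_fullC {z : LaurentSeries K} (hz : z ∈ modularFunctionFieldFullC K N) :
    qExpand K p z ∈ modularFunctionFieldFullC K N := by
  rw [← coeffMap_equiv_symm' (frobK p) z, coe_frobK, qExpand_coeffMap_frobenius]
  exact pow_mem (coeffMap_mem_fullC N _ hz) p

/-- `z(X) ↦ z(X ^ p)` on the function field. -/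
def frobC : modularFunctionFieldFullC K N →ₐ[K] modularFunctionFieldFullC K N :=
  ((qExpandAlgHomC K p).comp (modularFunctionFieldFullC K N).val).codRestrict
    (modularFunctionFieldFullC K N).toSubalgebra fun z => qExpand_mem_fullC p N z.2

theorem coe_frobC (z : modularFunctionFieldFullC K N) :
    (frobC p N z : LaurentSeries K) = qExpand K p (z : LaurentSeries K) := rfl

theorem frobC_fullCAut (z : modularFunctionFieldFullC K N) :
    frobC p N (SemilinearAut.toRingAut (fullCAut N (frobK p)) z) = z ^ p :=
  Subtype.ext (qExpand_coeffMap_frobenius p (z : LaurentSeries K))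

theorem exists_frobC_eq_pow (z : modularFunctionFieldFullC K N) :
    ∃ w, frobC p N w = z ^ p := ⟨_, frobC_fullCAut p N z⟩

/-- The action of Frobenius on places. -/
def frPlace : Place K (modularFunctionFieldFullC K N) ≃ Place K (modularFunctionFieldFullC K N) :=
  MulAction.toPerm (fullCAut N (frobK (K := K) p))

theorem ord_frobC (v : Place K (modularFunctionFieldFullC K N))
    (z : modularFunctionFieldFullC K N) :
    v.ord (frobC p N z) = (p : ℤ) * (frPlace p N v).ord z := by
  set Φ := fullCAut N (frobK (K := K) p) with hΦ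
  obtain ⟨w, rfl⟩ : ∃ w, SemilinearAut.toRingAut Φ w = z :=
    ⟨(SemilinearAut.toRingAut Φ).symm z, RingEquiv.apply_symm_apply _ _⟩
  rw [frobC_fullCAut, show (frPlace p N v).ord (SemilinearAut.toRingAut Φ w) = v.ord w from
    SemilinearAut.ord_smul Φ v w]
  rcases eq_or_ne w 0 with rfl | hw
  · simp [zero_pow (Fact.out : p.Prime).ne_zero]
  · exact FunctionField.ord_pow w p

theorem mem_range_of_isSeparable_of_pow {F G : Type*} [Field F] [Field G] [Algebra F G]
    [CharP G p] {x : G} (hsep : IsSeparable F x) (hx : x ^ p ∈ (algebraMap F G).range) :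
    x ∈ (algebraMap F G).range := by
  obtain ⟨a, ha⟩ := hx
  have hint : IsIntegral F x := hsep.isIntegral
  have hdvd : (minpoly F x).map (algebraMap F G) ∣ (X - C x) ^ p := by
    have h := Polynomial.map_dvd (algebraMap F G)
      (minpoly.dvd F x (p := X ^ p - C a) (by simp [ha]))
    rwa [Polynomial.map_sub, Polynomial.map_pow, map_X, map_C, ha, C_pow,
      ← sub_pow_char] at h
  obtain ⟨i, -, hi⟩ := (dvd_prime_pow (prime_X_sub_C x) p).1 hdvd
  have hdeg := natDegree_eq_of_degree_eq (degree_eq_degree_of_associated hi)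
  rw [natDegree_map, natDegree_pow, natDegree_X_sub_C, mul_one] at hdeg
  have hsq : Squarefree ((minpoly F x).map (algebraMap F G)) :=
    ((separable_map _).2 hsep).squarefree
  have hpos := minpoly.natDegree_pos hint
  have hi1 : i ≤ 1 := by
    by_contra h
    have h2 : (X - C x) * (X - C x) ∣ (minpoly F x).map (algebraMap F G) := by
      rw [← sq]
      exact (pow_dvd_pow _ (by omega : 2 ≤ i)).trans hi.symm.dvd
    exact (prime_X_sub_C x).not_isUnit (hsq _ h2)
  exact minpoly.natDegree_eq_one_iff.1 (by omega)

variable [NeZero N]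

theorem eq_top_of_frobC_le (hN : (N : K) ≠ 0)
    (T : IntermediateField K (modularFunctionFieldFullC K N))
    {j : modularFunctionFieldFullC K N} (hj : (j : LaurentSeries K) = jqModC K) (hjT : j ∈ T)
    (hfT : ∀ u, frobC p N u ∈ T) (z : modularFunctionFieldFullC K N) : z ∈ T := by
  set T' := T.map (modularFunctionFieldFullC K N).val with hT'
  have hKT : K⟮jqModC K⟯ ≤ T' :=
    IntermediateField.adjoin_simple_le_iff.2 (hj ▸ ⟨j, hjT, rfl⟩)
  haveI : CharP (LaurentSeries K) p :=
    charP_of_injective_ringHom (algebraMap K (LaurentSeries K)).injective p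
  have hT : ∀ d : ℕ, ∀ _ : NeZero d, d ∣ N → qExpand K d (jqModC K) ∈ T' := by
    intro d hd0 hd
    have hdK : (d : K) ≠ 0 := fun h => hN (by
      obtain ⟨c, hc⟩ := hd; rw [hc, Nat.cast_mul, h, zero_mul])
    have hsep : IsSeparable (IntermediateField.extendScalars hKT) (qExpand K d (jqModC K)) :=
      (Igusa.isSeparable_qExpand_jqModC d hdK).tower_top _
    obtain ⟨u, hu⟩ := exists_frobC_eq_pow p N
      (⟨_, jqModCd_mem_full K N hd⟩ : modularFunctionFieldFullC K N)
    have hmem : qExpand K d (jqModC K) ^ p ∈ T' :=
      ⟨frobC p N u, hfT u, (congrArg Subtype.val hu).trans (SubmonoidClass.coe_pow _ _)⟩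
    obtain ⟨v, hv⟩ := mem_range_of_isSeparable_of_pow p hsep ⟨⟨_, hmem⟩, rfl⟩
    rw [← hv]
    exact v.2
  have hle : modularFunctionFieldFullC K N ≤ T' := by
    refine IntermediateField.adjoin_le_iff.2 ?_
    rintro x ⟨d, hd0, hd, rfl⟩
    exact hT d hd0 hd
  obtain ⟨y, hy, hyz⟩ := hle z.2
  rwa [← Subtype.ext hyz]

theorem finrank_frb_eq {C : Type*} [Field C] [Algebra K C] [CharP C p] (f : C →ₐ[K] C) (j : C)
    (hpow : ∀ z, ∃ w, f w = z ^ p) (hne : ∀ b, f b ≠ j)
    (hgen : ∀ T : IntermediateField K C, j ∈ T → (∀ u, f u ∈ T) → ∀ z, z ∈ T) :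
    Module.finrank C (Frb f) = p := by
  classical
  obtain ⟨w, hw⟩ := hpow j
  have hne' : ∀ b, b ^ p ≠ w := fun b hb => hne b (frobenius_inj C p (by
    show f b ^ p = j ^ p
    rw [← map_pow, hb, hw]))
  set P : C[X] := X ^ p - Polynomial.C w with hP
  have hmon : P.Monic := monic_X_pow_sub_C w (Fact.out : p.Prime).ne_zero
  have haev : aeval (toFrb f j) P = 0 := by
    rw [hP, map_sub, map_pow, aeval_X, aeval_C, algebraMap_frb, hw, map_pow, sub_self]
  have hmin : minpoly C (toFrb f j) = P :=
    (minpoly.eq_of_irreducible_of_monic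
      (X_pow_sub_C_irreducible_of_prime Fact.out hne') haev hmon).symm
  have hint : IsIntegral C (toFrb f j) := ⟨P, hmon, haev⟩
  set S : IntermediateField C (Frb f) := IntermediateField.adjoin C {toFrb f j} with hS'
  let T : IntermediateField K C :=
    { carrier := {z | toFrb f z ∈ S}
      one_mem' := by show toFrb f 1 ∈ S; rw [map_one]; exact one_mem S
      zero_mem' := by show toFrb f 0 ∈ S; rw [map_zero]; exact zero_mem S
      add_mem' := fun {a b} ha hb => by
        show toFrb f (a + b) ∈ S; rw [map_add]; exact add_mem ha hb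
      mul_mem' := fun {a b} ha hb => by
        show toFrb f (a * b) ∈ S; rw [map_mul]; exact mul_mem ha hb
      inv_mem' := fun a ha => by
        show toFrb f a⁻¹ ∈ S; rw [map_inv₀]; exact inv_mem ha
      algebraMap_mem' := fun c => by
        show toFrb f (algebraMap K C c) ∈ S
        rw [← f.commutes c, ← algebraMap_frb]
        exact S.algebraMap_mem _ }
  have hS : S = ⊤ := eq_top_iff.2 fun z _ => by
    have h := hgen T (IntermediateField.mem_adjoin_simple_self C (toFrb f j)) (fun u => by
      show toFrb f (f u) ∈ S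
      rw [← algebraMap_frb]
      exact S.algebraMap_mem _) ((toFrb f).symm z)
    change toFrb f ((toFrb f).symm z) ∈ S at h
    rwa [RingEquiv.apply_symm_apply] at h
  rw [← IntermediateField.finrank_top', ← hS, hS', IntermediateField.adjoin.finrank hint, hmin, hP,
    natDegree_X_pow_sub_C]

theorem finrank_frobC (hN : (N : K) ≠ 0) :
    Module.finrank (modularFunctionFieldFullC K N) (Frb (frobC (K := K) p N)) = p := by
  haveI : CharP (modularFunctionFieldFullC K N) p :=
    charP_of_injective_ringHom (algebraMap K (modularFunctionFieldFullC K N)).injective p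
  refine finrank_frb_eq p (frobC p N) ⟨_, jqModC_mem_full K N⟩ (exists_frobC_eq_pow p N)
    (fun b hb => ?_) fun T hj hf => eq_top_of_frobC_le p N hN T rfl hj hf
  have h2 := congrArg (fun z : LaurentSeries K => z.coeff (-1))
    ((coe_frobC p N b).symm.trans (congrArg Subtype.val hb))
  have h3 : ¬ (p : ℤ) ∣ (-1 : ℤ) := by
    rw [Int.dvd_neg]
    exact_mod_cast (Fact.out : p.Prime).not_dvd_one
  simp only [qExpand_coeff_of_not_dvd p _ h3, coeff_jqModC_neg_one] at h2
  exact zero_ne_one h2

end frobenius

end FLTAgent.Semistable
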