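import Fermat.Agent.Semistable.OneSide
import Fermat.Prelude.Def_AlgebraicCurve_Correspondence

/-!
# Two reductions leave no room for a larger residue field

If a degree `q + 1` extension has two different reductions restricting to the given one and to its
composite with an endomorphism of degree `q`, their common residue field is the one below.
-/

set_option autoImplicit false
set_option linter.unusedSectionVars false

noncomputable section

open AlgebraicCurve

namespace FLTAgent.Semistable

open FLTAgent.GoodRed FLTAgent.GoodRed.RedDatum

variable {L k : Type*} [Field L] [Field k] {A : ValuationSubring L} {π : A →+* k}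
  {E F C R : Type*} [Field E] [Algebra L E] [Field F] [Algebra L F] [Algebra E F]
  [IsScalarTower L E F] [Field C] [Algebra k C] [Field R] [Algebra k R]
  {DE : RedDatum A π E C} {D D' : RedDatum A π F R}

theorem residue_surjective_of_degree (hA : IsRankOne A) (ι : C →ₐ[k] R) (f : C →ₐ[k] C) {q : ℕ}
    (hq : 0 < q) (hf : Module.finrank C (Frb f) = q) (hred : ∀ u z, DE.Red u z →
      D.Red (algebraMap E F u) (ι z))
    (hred' : ∀ u z, DE.Red u z → D'.Red (algebraMap E F u) (ι (f z)))
    (hsep : ∃ e, D.Red e 1 ∧ D'.Red e 0) [Module.Finite E F]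
    (hdeg : Module.finrank E F ≤ q + 1) (r : R) : ∃ c, ι c = r := by
  classical
  by_contra hr
  push Not at hr
  have : FiniteDimensional C (Frb f) := FiniteDimensional.of_finrank_pos (by rw [hf]; exact hq)
  let B := Module.finBasisOfFinrankEq C (Frb f) hf
  let av : Bool ⊕ Fin q → R := Sum.elim (fun b => cond b 1 r) fun _ => 0
  let bv : Bool ⊕ Fin q → R := Sum.elim (fun _ => 0) fun i => ι ((toFrb f).symm (B i))
  obtain ⟨e, he, he'⟩ := hsep
  choose y hy hy' using fun i => exists_pair_lift hA he he' (av i) (bv i)
  have hli : LinearIndependent E y := by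
    rw [Fintype.linearIndependent_iff]
    intro c hc i
    by_contra hi
    obtain ⟨j, hj, hjV⟩ := exists_max_valuation DE.V c fun h => hi (congrFun h i)
    set a : Bool ⊕ Fin q → DE.V := fun i => ⟨c i / c j, hjV i⟩
    have h3 : ∑ i, algebraMap E F (a i : E) * y i = 0 := by
      calc ∑ i, algebraMap E F (a i : E) * y i
          = algebraMap E F (c j)⁻¹ * ∑ i, c i • y i := by
            rw [Finset.mul_sum]
            exact Finset.sum_congr rfl fun i _ => by
              rw [Algebra.smul_def, ← mul_assoc, ← map_mul, ← div_eq_inv_mul]
        _ = 0 := by rw [hc, mul_zero]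
    have h1 : D.Red (∑ i, algebraMap E F (a i : E) * y i) (∑ i, ι (DE.res (a i)) * av i) :=
      Red.sum _ fun i _ => (hred _ _ (red_iff.2 rfl)).mul (hy i)
    have h2 : D'.Red (∑ i, algebraMap E F (a i : E) * y i)
        (∑ i, ι (f (DE.res (a i))) * bv i) :=
      Red.sum _ fun i _ => (hred' _ _ (red_iff.2 rfl)).mul (hy' i)
    rw [h3] at h1 h2
    have e1 := h1.unique red_zero
    have e2 := h2.unique red_zero
    rw [Fintype.sum_sum_type, Fintype.sum_bool] at e1
    simp only [av, Sum.elim_inl, Sum.elim_inr, cond_true, cond_false, mul_one, mul_zero,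
      Finset.sum_const_zero, add_zero] at e1
    have hfalse : DE.res (a (Sum.inl false)) = 0 := by
      by_contra h0
      refine hr (-(DE.res (a (Sum.inl true))) / DE.res (a (Sum.inl false))) ?_
      rw [map_div₀, map_neg, div_eq_iff ((map_ne_zero ι).2 h0)]
      linear_combination -e1
    have htrue : DE.res (a (Sum.inl true)) = 0 := by
      rw [hfalse, map_zero, zero_mul, add_zero] at e1
      exact (map_eq_zero ι).1 e1
    rw [Fintype.sum_sum_type] at e2
    simp only [bv, Sum.elim_inl, Sum.elim_inr, mul_zero, Finset.sum_const_zero, zero_add,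
      ← map_mul, ← map_sum, map_eq_zero] at e2
    have e3 : ∑ i, DE.res (a (Sum.inr i)) • B i = 0 := by
      have e4 := congrArg (toFrb f) e2
      rw [map_sum, map_zero] at e4
      refine Eq.trans (Finset.sum_congr rfl fun i _ => ?_) e4
      rw [Algebra.smul_def, algebraMap_frb, map_mul, RingEquiv.apply_symm_apply]
    have hall : ∀ i, DE.res (a i) = 0 := by
      rintro ((_ | _) | i)
      · exact hfalse
      · exact htrue
      · exact Fintype.linearIndependent_iff.1 B.linearIndependent _ e3 i
    have := hall j
    rw [show a j = 1 from Subtype.ext (div_self hj), map_one] at this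
    exact one_ne_zero this
  have := hli.fintype_card_le_finrank
  rw [Fintype.card_sum, Fintype.card_bool, Fintype.card_fin] at this
  omega

end FLTAgent.Semistable
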