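import Fermat.Agent.Semistable.RatOrth
import Fermat.Agent.Semistable.LevelW
import Fermat.Agent.Semistable.FullC
import Fermat.Agent.Semistable.TwoFaced
import Fermat.Agent.GoodRed.X0Field

/-!
# The two reductions of level `M q` at a place over `q ∤ M`

`redInf` is the Gauss reduction of the expansions, `redZero` its composite with the involution;
both have residue field `k (j (X ^ d) : d ∣ M)`, and they form a `OneSide` along either degeneracy
map.
-/

set_option autoImplicit false
set_option linter.style.haveILetI false
set_option linter.unusedSectionVars false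
set_option synthInstance.maxHeartbeats 100000

noncomputable section

open ModularCurve AlgebraicCurve IsLocalRing

namespace FLTAgent.Semistable

open FLTAgent.GoodRed FLTAgent.GoodRed.RedDatum FLTAgent.Hecke

-- shortcut for the search of the algebra structures on `modularFunctionFieldFullC`
local instance (priority := high) instAlgebraFullCLevelDatum {K : Type*} [Field K]
    (S : IntermediateField K (LaurentSeries K)) : Algebra K S :=
  SubalgebraClass.toAlgebra S

local notation "Qbar" => AlgebraicClosure ℚ

variable (A : ValuationSubring (AlgebraicClosure ℚ)) {q : ℕ} [Fact q.Prime]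
  (hA : A.LiesOverPrime q) [CharP (ResidueField A) q] [IsAlgClosed (ResidueField A)]
  (M : ℕ) [NeZero M] (hqM : ¬ q ∣ M)

local notation "kA" => ResidueField A

theorem sRed_jqModC : SRed (residue A) (jqModC Qbar) (jqModC (ResidueField A)) := by
  have h := sRed_coeffMap (π := residue A) (jqModC A)
  rwa [coeffMap_jqModC, coeffMap_jqModC] at h

theorem sRed_jd (d : ℕ) [NeZero d] :
    SRed (residue A) (jd Qbar d) (qExpand (ResidueField A) d (jqModC (ResidueField A))) :=
  (sRed_jqModC A).qExpand d

/-- Reductions for the Gauss datum of level `M` are reductions of series. -/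
theorem x0_red_iff {y : MF Qbar M} {z : modularFunctionFieldFullC (ResidueField A) M} :
    (x0Datum A hA M hqM).Red y z ↔
      SRed (residue A) (y : LaurentSeries Qbar) (z : LaurentSeries (ResidueField A)) := by
  constructor
  · intro h
    obtain ⟨a, b, hr, hz⟩ := ((x0Basis A hA M hqM).red_iff (isResidueMap_residue A)).1 h
    exact ⟨a, b, hr.1, hr.2, hz⟩
  · rintro ⟨a, b, hb, hy, hz⟩
    exact ((x0Basis A hA M hqM).red_iff (isResidueMap_residue A)).2 ⟨a, b, ⟨hb, hy⟩, hz⟩

include hA in
theorem hasOrth_MF (N : ℕ) : HasOrth (residue A) (MF Qbar N) :=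
  hasOrth_laurentBaseChange q hA fun _ hx => Igusa.modularFunctionFieldFull_le_boundedField q N hx

/-- The Gauss datum of level `M q`, with its own residue field. -/
def redPre : RedDatum A (residue A) (MF Qbar (M * q))
    (resImage (isResidueMap_residue A) (MF Qbar (M * q))) :=
  seriesDatum (isResidueMap_residue A) (hasOrth_MF A hA (M * q)) fun _ => Iff.rfl

theorem redPre_iff {y : MF Qbar (M * q)}
    {z : resImage (isResidueMap_residue A) (MF Qbar (M * q))} :
    (redPre A hA M).Red y z ↔
      SRed (residue A) (y : LaurentSeries Qbar) (z : LaurentSeries (ResidueField A)) :=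
  seriesDatum_red_iff _ _ _

include hA in
theorem qExpand_jqModC_eq_pow (e : ℕ) [NeZero e] :
    qExpand (ResidueField A) (e * q) (jqModC (ResidueField A)) =
      qExpand (ResidueField A) e (jqModC (ResidueField A)) ^ q := by
  haveI : NeZero q := ⟨(Fact.out : q.Prime).ne_zero⟩
  have h := qExpand_coeffMap_frobenius (K := ResidueField A) q
    (qExpand (ResidueField A) e (jqModC (ResidueField A)))
  rw [coeffMap_qExpand, coeffMap_jqModC, qExpand_qExpand] at h
  rw [← h]
  exact qExpand_congr (mul_comm e q) _

include hA in
theorem mem_resImage_of_mem_fullC {z : LaurentSeries (ResidueField A)}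
    (hz : z ∈ modularFunctionFieldFullC (ResidueField A) M) :
    z ∈ resImage (isResidueMap_residue A) (MF Qbar (M * q)) := by
  refine IntermediateField.adjoin_le_iff.2 ?_ hz
  rintro x ⟨d, hd0, hd, rfl⟩
  exact ⟨_, jd_mem Qbar (hd.trans (dvd_mul_right M q)), sRed_jd A d⟩

/-- `C → R`. -/
def inclRes : modularFunctionFieldFullC (ResidueField A) M →ₐ[ResidueField A]
    resImage (isResidueMap_residue A) (MF Qbar (M * q)) :=
  IntermediateField.inclusion fun _ hz => mem_resImage_of_mem_fullC A hA M hz

theorem coe_inclRes (z : modularFunctionFieldFullC (ResidueField A) M) :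
    ((inclRes A hA M z : resImage (isResidueMap_residue A) (MF Qbar (M * q))) :
      LaurentSeries (ResidueField A)) = (z : LaurentSeries (ResidueField A)) := rfl

local instance : NeZero q := ⟨(Fact.out : q.Prime).ne_zero⟩

/-- The involution of level `M q`. -/
def swapW : MF Qbar (M * q) ≃ₐ[Qbar] MF Qbar (M * q) :=
  (exists_swap Qbar M q Fact.out hqM).choose

theorem swapW_alpha (u : MF Qbar M) :
    swapW M hqM (alphaMap Qbar M q u) = betaMap Qbar M q u :=
  (exists_swap Qbar M q Fact.out hqM).choose_spec.1 u

theorem swapW_beta (u : MF Qbar M) :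
    swapW M hqM (betaMap Qbar M q u) = alphaMap Qbar M q u :=
  (exists_swap Qbar M q Fact.out hqM).choose_spec.2.1 u

theorem swapW_swapW (x : MF Qbar (M * q)) : swapW M hqM (swapW M hqM x) = x :=
  (exists_swap Qbar M q Fact.out hqM).choose_spec.2.2 x

/-- The separating function. -/
def sepFun : MF Qbar (M * q) :=
  (alphaMap Qbar M q (jMF Qbar M) - betaMap Qbar M q (jMF Qbar M) ^ q) /
    (alphaMap Qbar M q (jMF Qbar M) - alphaMap Qbar M q (jMF Qbar M) ^ (q ^ 2))

theorem jbar_sub_pow_ne_zero (d : ℕ) [NeZero d] {n : ℕ} (hn : 1 < n) :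
    qExpand (ResidueField A) d (jqModC (ResidueField A)) -
      qExpand (ResidueField A) d (jqModC (ResidueField A)) ^ n ≠ 0 := by
  intro h
  rw [← map_pow, ← map_sub, ← map_zero (qExpand (ResidueField A) d)] at h
  have h2 := congrArg (fun z : LaurentSeries (ResidueField A) => z.coeff (-(n : ℤ)))
    (qExpand_injective d h)
  simp only [HahnSeries.coeff_sub, HahnSeries.coeff_zero] at h2
  rw [coeff_jqModC_pow_self, coeff_jqModC_of_lt _ (by omega), zero_sub, neg_eq_zero] at h2
  exact one_ne_zero h2

include hA in
theorem sRed_sepFun :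
    SRed (residue A) ((sepFun M (q := q) : MF Qbar (M * q)) : LaurentSeries Qbar) 1 ∧
      SRed (residue A) ((swapW M hqM (sepFun M) : MF Qbar (M * q)) : LaurentSeries Qbar) 0 := by
  have hq1 : 1 < q := (Fact.out : q.Prime).one_lt
  have hq2 : 1 < q ^ 2 := Nat.one_lt_pow two_ne_zero hq1
  have hj := sRed_jqModC A
  have hjq := sRed_jd A q
  have hFr : qExpand (ResidueField A) q (jqModC (ResidueField A)) =
      jqModC (ResidueField A) ^ q := by
    have := qExpand_jqModC_eq_pow A hA (q := q) 1
    rwa [qExpand_congr (one_mul q), qExpand_one_apply] at this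
  have hne : jqModC (ResidueField A) - jqModC (ResidueField A) ^ (q ^ 2) ≠ 0 := by
    have := jbar_sub_pow_ne_zero A 1 hq2
    rwa [qExpand_one_apply] at this
  constructor
  · rw [sepFun]
    push_cast
    rw [coe_alphaMap, coe_betaMap]
    have h1 := hj.sub (hjq.pow q)
    rw [hFr, ← pow_mul, ← pow_two] at h1
    have h2 := h1.div (hj.sub (hj.pow (q ^ 2))) hne
    rw [div_self hne] at h2
    exact h2
  · rw [sepFun]
    simp only [map_div₀, map_sub, map_pow, swapW_alpha, swapW_beta]
    push_cast
    rw [coe_alphaMap, coe_betaMap]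
    have h1 := hjq.sub (hj.pow q)
    rw [hFr, sub_self] at h1
    have hne2 : qExpand (ResidueField A) q (jqModC (ResidueField A)) -
        qExpand (ResidueField A) q (jqModC (ResidueField A)) ^ (q ^ 2) ≠ 0 :=
      jbar_sub_pow_ne_zero A q hq2
    have h2 := h1.div (hjq.sub (hjq.pow (q ^ 2))) hne2
    rw [zero_div] at h2
    exact h2

theorem finite_alongAlpha :
    letI := algebraAlong (alphaMap Qbar M q)
    Module.Finite (MF Qbar M) (MF Qbar (M * q)) :=
  (levelFacts Qbar).finite M (M * q) 1 (by rw [mul_one]; exact dvd_mul_right M q)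

theorem finite_alongBeta :
    letI := algebraAlong (betaMap Qbar M q)
    Module.Finite (MF Qbar M) (MF Qbar (M * q)) :=
  (levelFacts Qbar).finite M (M * q) q dvd_rfl

include hA hqM in
theorem inclRes_surjective (r : resImage (isResidueMap_residue A) (MF Qbar (M * q))) :
    ∃ c, inclRes A hA M c = r := by
  letI := algebraAlong (alphaMap Qbar M q)
  haveI := isScalarTower_along (alphaMap Qbar M q)
  haveI := finite_alongAlpha M (q := q)
  obtain ⟨h1, h0⟩ := sRed_sepFun A hA M hqM
  refine residue_surjective_of_degree (DE := x0Datum A hA M hqM) (D := redPre A hA M)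
    (D' := comapDatum (swapW M hqM) (redPre A hA M))
    (isRankOne_of_liesOverPrime hA Fact.out) (inclRes A hA M) (frobC (K := ResidueField A) q M)
    (Fact.out : q.Prime).pos (finrank_frobC q M (natCast_residue_ne_zero hA hqM)) ?_ ?_
    ⟨sepFun M, (redPre_iff A hA M).2 h1, (comapDatum_red_iff _ _).2 ((redPre_iff A hA M).2 h0)⟩
    ?_ r
  · intro u z h
    refine (redPre_iff A hA M).2 ?_
    show SRed _ ((alphaMap Qbar M q u : MF Qbar (M * q)) : LaurentSeries Qbar) _
    rw [coe_alphaMap, coe_inclRes]
    exact (x0_red_iff A hA M hqM).1 h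
  · intro u z h
    refine (comapDatum_red_iff _ _).2 ((redPre_iff A hA M).2 ?_)
    show SRed _ ((swapW M hqM (alphaMap Qbar M q u) : MF Qbar (M * q)) : LaurentSeries Qbar) _
    rw [swapW_alpha, coe_betaMap, coe_inclRes, coe_frobC]
    exact ((x0_red_iff A hA M hqM).1 h).qExpand q
  · exact (finrankAlong_alphaMap Qbar M q Fact.out hqM).le

include hA hqM in
theorem mem_fullC_iff_sRed (z : LaurentSeries (ResidueField A)) :
    z ∈ modularFunctionFieldFullC (ResidueField A) M ↔
      ∃ y ∈ MF Qbar (M * q), SRed (residue A) y z := by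
  refine ⟨fun hz => mem_resImage_of_mem_fullC A hA M hz, fun hz => ?_⟩
  obtain ⟨c, hc⟩ := inclRes_surjective A hA M hqM ⟨z, hz⟩
  rw [show z = (c : LaurentSeries (ResidueField A)) from (congrArg Subtype.val hc).symm]
  exact c.2

/-- The reduction at the cusp infinity. -/
def redInf : RedDatum A (residue A) (MF Qbar (M * q))
    (modularFunctionFieldFullC (ResidueField A) M) :=
  seriesDatum (isResidueMap_residue A) (hasOrth_MF A hA (M * q))
    (mem_fullC_iff_sRed A hA M hqM)

/-- The reduction at the cusp zero. -/
def redZero : RedDatum A (residue A) (MF Qbar (M * q))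
    (modularFunctionFieldFullC (ResidueField A) M) :=
  comapDatum (swapW M hqM) (redInf A hA M hqM)

variable {A M}

theorem redInf_iff {y : MF Qbar (M * q)} {z : modularFunctionFieldFullC (ResidueField A) M} :
    (redInf A hA M hqM).Red y z ↔
      SRed (residue A) (y : LaurentSeries Qbar) (z : LaurentSeries (ResidueField A)) :=
  seriesDatum_red_iff _ _ _

theorem redZero_iff {y : MF Qbar (M * q)} {z : modularFunctionFieldFullC (ResidueField A) M} :
    (redZero A hA M hqM).Red y z ↔ (redInf A hA M hqM).Red (swapW M hqM y) z :=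
  comapDatum_red_iff _ _

theorem redInf_alpha {u : MF Qbar M} {z : modularFunctionFieldFullC (ResidueField A) M}
    (h : (x0Datum A hA M hqM).Red u z) :
    (redInf A hA M hqM).Red (alphaMap Qbar M q u) z := by
  rw [redInf_iff, coe_alphaMap]
  exact (x0_red_iff A hA M hqM).1 h

theorem redInf_beta {u : MF Qbar M} {z : modularFunctionFieldFullC (ResidueField A) M}
    (h : (x0Datum A hA M hqM).Red u z) :
    (redInf A hA M hqM).Red (betaMap Qbar M q u) (frobC (K := ResidueField A) q M z) := by
  rw [redInf_iff, coe_betaMap, coe_frobC]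
  exact ((x0_red_iff A hA M hqM).1 h).qExpand q

theorem redZero_alpha {u : MF Qbar M} {z : modularFunctionFieldFullC (ResidueField A) M}
    (h : (x0Datum A hA M hqM).Red u z) :
    (redZero A hA M hqM).Red (alphaMap Qbar M q u) (frobC (K := ResidueField A) q M z) := by
  rw [redZero_iff, swapW_alpha]
  exact redInf_beta hA hqM h

theorem redZero_beta {u : MF Qbar M} {z : modularFunctionFieldFullC (ResidueField A) M}
    (h : (x0Datum A hA M hqM).Red u z) :
    (redZero A hA M hqM).Red (betaMap Qbar M q u) z := by
  rw [redZero_iff, swapW_beta]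
  exact redInf_alpha hA hqM h

theorem red_sepFun :
    (redInf A hA M hqM).Red (sepFun M) 1 ∧ (redZero A hA M hqM).Red (sepFun M) 0 := by
  obtain ⟨h1, h0⟩ := sRed_sepFun A hA M hqM
  exact ⟨(redInf_iff hA hqM).2 h1, (redZero_iff hA hqM).2 ((redInf_iff hA hqM).2 h0)⟩

theorem oneSide_alpha :
    letI := algebraAlong (alphaMap Qbar M q)
    haveI := isScalarTower_along (alphaMap Qbar M q)
    OneSide (x0Datum A hA M hqM) (redInf A hA M hqM) (redZero A hA M hqM)
      (frobC (K := ResidueField A) q M) q := by
  letI := algebraAlong (alphaMap Qbar M q)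
  haveI := isScalarTower_along (alphaMap Qbar M q)
  exact
    { red := fun u z h => redInf_alpha hA hqM h
      red' := fun u z h => redZero_alpha hA hqM h
      degree := finrankAlong_alphaMap Qbar M q Fact.out hqM
      degree_frob := finrank_frobC q M (natCast_residue_ne_zero hA hqM)
      prime := Fact.out
      sep := ⟨_, (red_sepFun hA hqM).1, (red_sepFun hA hqM).2⟩
      rankOne := isRankOne_of_liesOverPrime hA Fact.out }

theorem finrank_eq_one_of_bijective {F G : Type*} [Field F] [Field G] [Algebra F G]
    (h : Function.Bijective (algebraMap F G)) : Module.finrank F G = 1 :=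
  (LinearEquiv.ofBijective (Algebra.linearMap F G) h).finrank_eq.symm.trans (Module.finrank_self F)

theorem finrankAlong_equiv_comp {L E F : Type*} [Field L] [Field E] [Field F] [Algebra L E]
    [Algebra L F] (w : F ≃ₐ[L] F) (φ : E →ₐ[L] F) :
    finrankAlong L (w.toAlgHom.comp φ) = finrankAlong L φ := by
  rw [finrankAlong_comp]
  have h1 : finrankAlong L w.toAlgHom = 1 := by
    letI := algebraAlong w.toAlgHom
    exact @finrank_eq_one_of_bijective F F _ _ (algebraAlong w.toAlgHom) w.bijective
  rw [h1, mul_one]

include hqM in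
theorem finrankAlong_betaMap : finrankAlong Qbar (betaMap Qbar M q) = q + 1 :=
  (congrArg (finrankAlong Qbar) (AlgHom.ext fun u => (swapW_alpha M hqM u).symm :
      betaMap Qbar M q = (swapW M hqM).toAlgHom.comp (alphaMap Qbar M q))).trans
    ((finrankAlong_equiv_comp (L := Qbar) (swapW M hqM) (alphaMap Qbar M q)).trans
      (finrankAlong_alphaMap Qbar M q Fact.out hqM))

theorem oneSide_beta :
    letI := algebraAlong (betaMap Qbar M q)
    haveI := isScalarTower_along (betaMap Qbar M q)
    OneSide (x0Datum A hA M hqM) (redZero A hA M hqM) (redInf A hA M hqM)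
      (frobC (K := ResidueField A) q M) q := by
  letI := algebraAlong (betaMap Qbar M q)
  haveI := isScalarTower_along (betaMap Qbar M q)
  refine
    { red := fun u z h => redZero_beta hA hqM h
      red' := fun u z h => redInf_beta hA hqM h
      degree := finrankAlong_betaMap hqM
      degree_frob := finrank_frobC q M (natCast_residue_ne_zero hA hqM)
      prime := Fact.out
      sep := ⟨swapW M hqM (sepFun M), ?_, ?_⟩
      rankOne := isRankOne_of_liesOverPrime hA Fact.out }
  · rw [redZero_iff, swapW_swapW]
    exact (red_sepFun hA hqM).1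
  · exact (redZero_iff hA hqM).1 (red_sepFun hA hqM).2

end FLTAgent.Semistable
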