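import Fermat.Agent.GoodRed.Datum
import Fermat.Prelude.Def_ModularCurve_LaurentCoeff
import Fermat.Prelude.Thm_ModularCurve_coeffMap_qExpand
import Mathlib.FieldTheory.IntermediateField.Adjoin.Basic

/-!
# Reduction of quotients of series with integral coefficients

`SRed π y z`: the series `y` is `a / b` with `a`, `b` having coefficients in `A`, the reduction of
`b` is nonzero and `z` is the quotient of the reductions.  A field of series in which every finite
set lies in the span of elements with independent reductions carries the resulting reduction datum.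
-/

set_option autoImplicit false
set_option linter.unusedSectionVars false

noncomputable section

open ModularCurve

namespace FLTAgent.Semistable

open FLTAgent.GoodRed

variable {L k : Type*} [Field L] [Field k] {A : ValuationSubring L} {π : A →+* k}

/-- `y` is a quotient of integral series reducing to `z`. -/
def SRed (π : A →+* k) (y : LaurentSeries L) (z : LaurentSeries k) : Prop :=
  ∃ a b : LaurentSeries A, coeffMap π b ≠ 0 ∧ y * coeffMap A.subtype b = coeffMap A.subtype a ∧
    z * coeffMap π b = coeffMap π a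

theorem coeffMap_subtype_injective : Function.Injective (coeffMap A.subtype) := fun _ _ h =>
  HahnSeries.ext (funext fun n =>
    Subtype.ext (congrArg (fun s : LaurentSeries L => s.coeff n) h))

theorem sRed_coeffMap (a : LaurentSeries A) : SRed π (coeffMap A.subtype a) (coeffMap π a) :=
  ⟨a, 1, by rw [map_one]; exact one_ne_zero, by simp, by simp⟩

theorem sRed_algebraMap (a : A) :
    SRed π (algebraMap L (LaurentSeries L) a) (algebraMap k (LaurentSeries k) (π a)) := by
  have h := sRed_coeffMap (π := π) (HahnSeries.single (0 : ℤ) a)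
  rwa [coeffMap_single, coeffMap_single, ← algebraMap_laurentSeries_eq_single,
    ← algebraMap_laurentSeries_eq_single] at h

theorem smul_series (c : L) (y : LaurentSeries L) :
    c • y = algebraMap L (LaurentSeries L) c * y := by
  rw [algebraMap_laurentSeries_eq_single]
  ext n
  rw [HahnSeries.coeff_smul, HahnSeries.coeff_single_zero_mul, smul_eq_mul]

theorem sRed_zero : SRed π 0 0 := by
  simpa using sRed_coeffMap (π := π) 0

theorem sRed_one : SRed π 1 1 := by
  simpa using sRed_coeffMap (π := π) 1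

namespace SRed

variable {y y' : LaurentSeries L} {z z' : LaurentSeries k}

theorem unique (h : SRed π y z) (h' : SRed π y z') : z = z' := by
  obtain ⟨a, b, hb, hy, hz⟩ := h
  obtain ⟨a', b', hb', hy', hz'⟩ := h'
  have hab : a * b' = a' * b := coeffMap_subtype_injective (by
    rw [map_mul, map_mul, ← hy, ← hy']; ring)
  have := congrArg (coeffMap π) hab
  rw [map_mul, map_mul, ← hz, ← hz'] at this
  exact mul_right_cancel₀ (mul_ne_zero hb hb') (by linear_combination this)

theorem add (h : SRed π y z) (h' : SRed π y' z') : SRed π (y + y') (z + z') := by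
  obtain ⟨a, b, hb, hy, hz⟩ := h
  obtain ⟨a', b', hb', hy', hz'⟩ := h'
  refine ⟨a * b' + a' * b, b * b', by rw [map_mul]; exact mul_ne_zero hb hb', ?_, ?_⟩
  · simp only [map_add, map_mul, ← hy, ← hy']; ring
  · simp only [map_add, map_mul, ← hz, ← hz']; ring

theorem mul (h : SRed π y z) (h' : SRed π y' z') : SRed π (y * y') (z * z') := by
  obtain ⟨a, b, hb, hy, hz⟩ := h
  obtain ⟨a', b', hb', hy', hz'⟩ := h'
  refine ⟨a * a', b * b', by rw [map_mul]; exact mul_ne_zero hb hb', ?_, ?_⟩
  · simp only [map_mul, ← hy, ← hy']; ring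
  · simp only [map_mul, ← hz, ← hz']; ring

theorem neg (h : SRed π y z) : SRed π (-y) (-z) := by
  obtain ⟨a, b, hb, hy, hz⟩ := h
  exact ⟨-a, b, hb, by rw [map_neg, ← hy, neg_mul], by rw [map_neg, ← hz, neg_mul]⟩

theorem sub (h : SRed π y z) (h' : SRed π y' z') : SRed π (y - y') (z - z') := by
  simpa [sub_eq_add_neg] using h.add h'.neg

theorem pow (h : SRed π y z) : ∀ n : ℕ, SRed π (y ^ n) (z ^ n)
  | 0 => by simpa using sRed_one
  | n + 1 => by simpa [pow_succ] using (pow h n).mul h

theorem inv (h : SRed π y z) (hz0 : z ≠ 0) : SRed π y⁻¹ z⁻¹ := by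
  obtain ⟨a, b, hb, hy, hz⟩ := h
  have ha : coeffMap π a ≠ 0 := by rw [← hz]; exact mul_ne_zero hz0 hb
  have hy0 : y ≠ 0 := by
    rintro rfl
    rw [zero_mul] at hy
    have : a = 0 := coeffMap_subtype_injective (by rw [← hy, map_zero])
    exact ha (by rw [this, map_zero])
  exact ⟨b, a, ha, by rw [← hy, inv_mul_cancel_left₀ hy0],
    by rw [← hz, inv_mul_cancel_left₀ hz0]⟩

theorem div (h : SRed π y z) (h' : SRed π y' z') (hz : z' ≠ 0) :
    SRed π (y / y') (z / z') := by
  simpa [div_eq_mul_inv] using h.mul (h'.inv hz)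

theorem smul (h : SRed π y z) (a : A) : SRed π ((a : L) • y) (π a • z) := by
  rw [smul_series, smul_series]
  exact (sRed_algebraMap a).mul h

theorem sum {ι : Type*} (s : Finset ι) {f : ι → LaurentSeries L} {g : ι → LaurentSeries k}
    (h : ∀ i ∈ s, SRed π (f i) (g i)) : SRed π (∑ i ∈ s, f i) (∑ i ∈ s, g i) := by
  classical
  induction s using Finset.induction with
  | empty => simpa using sRed_zero
  | insert a s ha ih =>
    rw [Finset.sum_insert ha, Finset.sum_insert ha]
    exact (h a (Finset.mem_insert_self a s)).add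
      (ih fun i hi => h i (Finset.mem_insert_of_mem hi))

theorem ne_zero (h : SRed π y z) (hz : z ≠ 0) : y ≠ 0 := by
  rintro rfl
  exact hz (h.unique sRed_zero)

/-- Substituting `X ^ n` for `X`. -/
theorem qExpand (h : SRed π y z) (n : ℕ) [NeZero n] :
    SRed π (ModularCurve.qExpand L n y) (ModularCurve.qExpand k n z) := by
  obtain ⟨a, b, hb, hy, hz⟩ := h
  refine ⟨ModularCurve.qExpand A n a, ModularCurve.qExpand A n b, ?_, ?_, ?_⟩
  · rw [coeffMap_qExpand]
    exact (map_ne_zero_iff _ (qExpand_injective n)).2 hb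
  · rw [coeffMap_qExpand, coeffMap_qExpand, ← map_mul, hy]
  · rw [coeffMap_qExpand, coeffMap_qExpand, ← map_mul, hz]

/-- Applying automorphisms of the coefficients. -/
theorem map (h : SRed π y z) (σ : L →+* L) (τ : k →+* k) (hA : ∀ a ∈ A, σ a ∈ A)
    (hτ : ∀ a : A, π ⟨σ a, hA a a.2⟩ = τ (π a)) :
    SRed π (coeffMap σ y) (coeffMap τ z) := by
  obtain ⟨a, b, hb, hy, hz⟩ := h
  let σA : A →+* A := (σ.comp A.subtype).codRestrict A.toSubring fun x => hA x x.2
  have e1 : ∀ x : LaurentSeries A,
      coeffMap A.subtype (coeffMap σA x) = coeffMap σ (coeffMap A.subtype x) := fun x =>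
    HahnSeries.ext rfl
  have e2 : ∀ x : LaurentSeries A,
      coeffMap π (coeffMap σA x) = coeffMap τ (coeffMap π x) := fun x =>
    HahnSeries.ext (funext fun n => hτ (x.coeff n))
  have hinj : Function.Injective (coeffMap τ) := fun u v huv => HahnSeries.ext (funext fun n =>
    τ.injective (congrArg (fun s : LaurentSeries k => s.coeff n) huv))
  refine ⟨coeffMap σA a, coeffMap σA b, ?_, ?_, ?_⟩
  · rw [e2]; exact (map_ne_zero_iff _ hinj).2 hb
  · rw [e1, e1, ← map_mul, hy]
  · rw [e2, e2, ← map_mul, hz]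

/-- Coefficients of a combination of elements with independent reductions. -/
theorem coeff_mem (hπ : IsResidueMap A π) {ι : Type*} [Fintype ι] {e : ι → LaurentSeries L}
    {eb : ι → LaurentSeries k} (he : ∀ i, SRed π (e i) (eb i))
    (hind : LinearIndependent k eb) {c : ι → L} (h : SRed π (∑ i, c i • e i) z) :
    ∀ i, c i ∈ A := by
  classical
  rcases eq_or_ne c 0 with rfl | hc
  · exact fun i => zero_mem _
  obtain ⟨j, hj, hjA⟩ := exists_max_valuation A c hc
  by_contra hnot
  push Not at hnot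
  obtain ⟨i₀, hi₀⟩ := hnot
  have hjn : c j ∉ A := fun h' => hi₀ (by
    have := mul_mem (hjA i₀) h'
    rwa [div_mul_cancel₀ _ hj] at this)
  have hinvn : (c j)⁻¹ ∈ A.nonunits := by
    rw [ValuationSubring.inv_mem_nonunits_iff]; exact Or.inr hjn
  set a : ι → A := fun i => ⟨c i / c j, hjA i⟩ with ha
  have h1 := h.smul ⟨(c j)⁻¹, A.nonunits_subset hinvn⟩
  rw [(hπ.eq_zero_iff _).2 hinvn, zero_smul] at h1
  have h2 : SRed π (∑ i, (a i : L) • e i) (∑ i, π (a i) • eb i) :=
    SRed.sum _ fun i _ => (he i).smul (a i)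
  have h3 : (c j)⁻¹ • ∑ i, c i • e i = ∑ i, (a i : L) • e i := by
    rw [Finset.smul_sum]
    exact Finset.sum_congr rfl fun i _ => by rw [smul_smul, ← div_eq_inv_mul]
  change SRed π ((c j)⁻¹ • ∑ i, c i • e i) 0 at h1
  rw [h3] at h1
  have h4 := Fintype.linearIndependent_iff.1 hind (fun i => π (a i)) (h2.unique h1) j
  rw [show a j = 1 from Subtype.ext (div_self hj), map_one] at h4
  exact one_ne_zero h4

end SRed

/-- A nonzero combination of elements with independent reductions can be scaled to reduce to a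
nonzero element. -/
theorem exists_sRed_scale {ι : Type*} [Fintype ι] {e : ι → LaurentSeries L}
    {eb : ι → LaurentSeries k} (he : ∀ i, SRed π (e i) (eb i))
    (hind : LinearIndependent k eb) {y : LaurentSeries L}
    (hy : y ∈ Submodule.span L (Set.range e)) (hy0 : y ≠ 0) :
    ∃ (c : L) (z : LaurentSeries k), c ≠ 0 ∧ z ≠ 0 ∧ z ∈ Submodule.span k (Set.range eb) ∧
      SRed π (c • y) z := by
  classical
  obtain ⟨c, hc⟩ := (Submodule.mem_span_range_iff_exists_fun L).1 hy
  obtain ⟨j, hj, hjA⟩ := exists_max_valuation A c fun h => hy0 (by rw [← hc, h]; simp)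
  set a : ι → A := fun i => ⟨c i / c j, hjA i⟩
  refine ⟨(c j)⁻¹, ∑ i, π (a i) • eb i, inv_ne_zero hj, fun h0 => ?_,
    Submodule.sum_mem _ fun i _ => Submodule.smul_mem _ _ (Submodule.subset_span ⟨i, rfl⟩), ?_⟩
  · have h4 := Fintype.linearIndependent_iff.1 hind _ h0 j
    rw [show a j = 1 from Subtype.ext (div_self hj), map_one] at h4
    exact one_ne_zero h4
  · have h : SRed π (∑ i, (a i : L) • e i) (∑ i, π (a i) • eb i) :=
      SRed.sum _ fun i _ => (he i).smul (a i)
    convert h using 1
    rw [← hc, Finset.smul_sum]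
    exact Finset.sum_congr rfl fun i _ => by rw [smul_smul, ← div_eq_inv_mul]

/-- Finite subsets of `F` lie in spans of elements of `F` with independent reductions. -/
def HasOrth (π : A →+* k) (F : IntermediateField L (LaurentSeries L)) : Prop :=
  ∀ s : Finset (LaurentSeries L), (s : Set (LaurentSeries L)) ⊆ F →
    ∃ (n : ℕ) (e : Fin n → LaurentSeries L) (eb : Fin n → LaurentSeries k),
      (∀ i, e i ∈ F) ∧ (∀ i, SRed π (e i) (eb i)) ∧ LinearIndependent k eb ∧
      (s : Set (LaurentSeries L)) ⊆ Submodule.span L (Set.range e)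

variable {F : IntermediateField L (LaurentSeries L)}

theorem HasOrth.exists_scale (h : HasOrth π F) {y : LaurentSeries L} (hy : y ∈ F) (hy0 : y ≠ 0) :
    ∃ (c : L) (z : LaurentSeries k), c ≠ 0 ∧ z ≠ 0 ∧ SRed π (c • y) z := by
  obtain ⟨n, e, eb, -, he, hind, hs⟩ := h {y} (by simpa using hy)
  obtain ⟨c, z, hc, hz, -, hr⟩ := exists_sRed_scale he hind (hs (by simp : y ∈ _)) hy0
  exact ⟨c, z, hc, hz, hr⟩

theorem HasOrth.red_or_inv (h : HasOrth π F) {y : LaurentSeries L}
    (hy : y ∈ F) : (∃ z, SRed π y z) ∨ ∃ z, SRed π y⁻¹ z := by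
  rcases eq_or_ne y 0 with rfl | hy0
  · exact Or.inl ⟨0, sRed_zero⟩
  obtain ⟨c, z, hc, hz, hr⟩ := h.exists_scale hy hy0
  rcases A.mem_or_inv_mem c with hcA | hcA
  · refine Or.inr ⟨_, (?_ : SRed π y⁻¹ (π ⟨c, hcA⟩ • z⁻¹))⟩
    convert (hr.inv hz).smul ⟨c, hcA⟩ using 1
    show y⁻¹ = c • (c • y)⁻¹
    rw [smul_series, smul_series, mul_inv, ← mul_assoc,
      mul_inv_cancel₀ ((map_ne_zero _).2 hc), one_mul]
  · refine Or.inl ⟨_, (?_ : SRed π y (π ⟨c⁻¹, hcA⟩ • z))⟩
    convert hr.smul ⟨c⁻¹, hcA⟩ using 1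
    show y = c⁻¹ • c • y
    rw [smul_smul, inv_mul_cancel₀ hc, one_smul]

/-- The field of reductions of elements of `F`. -/
def resImage (hπ : IsResidueMap A π) (F : IntermediateField L (LaurentSeries L)) :
    IntermediateField k (LaurentSeries k) where
  carrier := {z | ∃ y ∈ F, SRed π y z}
  one_mem' := ⟨1, one_mem F, sRed_one⟩
  zero_mem' := ⟨0, zero_mem F, sRed_zero⟩
  add_mem' := fun ⟨y, hy, h⟩ ⟨y', hy', h'⟩ => ⟨y + y', add_mem hy hy', h.add h'⟩
  mul_mem' := fun ⟨y, hy, h⟩ ⟨y', hy', h'⟩ => ⟨y * y', mul_mem hy hy', h.mul h'⟩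
  inv_mem' := fun z ⟨y, hy, h⟩ => by
    rcases eq_or_ne z 0 with rfl | hz
    · exact ⟨0, zero_mem F, by rw [inv_zero]; exact sRed_zero⟩
    · exact ⟨y⁻¹, inv_mem hy, h.inv hz⟩
  algebraMap_mem' := fun t => by
    obtain ⟨a, rfl⟩ := hπ.surj t
    exact ⟨_, F.algebraMap_mem _, sRed_algebraMap a⟩

theorem mem_resImage {hπ : IsResidueMap A π} {z : LaurentSeries k} :
    z ∈ resImage hπ F ↔ ∃ y ∈ F, SRed π y z := Iff.rfl

section datum

variable {C : IntermediateField k (LaurentSeries k)}

/-- The valuation ring of reducible elements. -/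
def sRing (_hπ : IsResidueMap A π) (horth : HasOrth π F) : ValuationSubring F where
  carrier := {y | ∃ z, SRed π (y : LaurentSeries L) z}
  one_mem' := ⟨1, sRed_one⟩
  zero_mem' := ⟨0, sRed_zero⟩
  add_mem' := fun ⟨_, h⟩ ⟨_, h'⟩ => ⟨_, h.add h'⟩
  mul_mem' := fun ⟨_, h⟩ ⟨_, h'⟩ => ⟨_, h.mul h'⟩
  neg_mem' := fun ⟨_, h⟩ => ⟨_, h.neg⟩
  mem_or_inv_mem' := fun y => horth.red_or_inv y.2

variable (hπ : IsResidueMap A π) (horth : HasOrth π F)
  (hC : ∀ z, z ∈ C ↔ ∃ y ∈ F, SRed π y z)

/-- The residue map on `sRing`. -/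
def sRes : sRing hπ horth →+* C where
  toFun y := ⟨y.2.choose, (hC _).2 ⟨_, y.1.2, y.2.choose_spec⟩⟩
  map_one' := Subtype.ext ((1 : sRing hπ horth).2.choose_spec.unique sRed_one)
  map_zero' := Subtype.ext ((0 : sRing hπ horth).2.choose_spec.unique sRed_zero)
  map_add' y y' := Subtype.ext ((y + y').2.choose_spec.unique
    (y.2.choose_spec.add y'.2.choose_spec))
  map_mul' y y' := Subtype.ext ((y * y').2.choose_spec.unique
    (y.2.choose_spec.mul y'.2.choose_spec))

theorem sRed_sRes (y : sRing hπ horth) :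
    SRed π ((y : F) : LaurentSeries L) (sRes hπ horth hC y : LaurentSeries k) :=
  y.2.choose_spec

/-- The reduction datum of a field of series. -/
def seriesDatum : RedDatum A π F C where
  isResidue := hπ
  V := sRing hπ horth
  mem_iff a := by
    constructor
    · rintro ⟨z, hz⟩
      by_contra ha
      have hinv : a⁻¹ ∈ A.nonunits := by
        rw [ValuationSubring.inv_mem_nonunits_iff]; exact Or.inr ha
      have ha0 : a ≠ 0 := fun h => ha (h ▸ zero_mem A)
      have h1 := hz.smul ⟨a⁻¹, A.nonunits_subset hinv⟩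
      rw [(hπ.eq_zero_iff _).2 hinv, zero_smul] at h1
      change SRed π (a⁻¹ • algebraMap L (LaurentSeries L) a) 0 at h1
      rw [smul_series, ← map_mul, inv_mul_cancel₀ ha0, map_one] at h1
      exact one_ne_zero (h1.unique sRed_one).symm
    · exact fun ha => ⟨_, sRed_algebraMap ⟨a, ha⟩⟩
  res := sRes hπ horth hC
  res_algebraMap a := Subtype.ext ((sRed_sRes hπ horth hC _).unique (sRed_algebraMap a))
  res_eq_zero y := by
    have hy := sRed_sRes hπ horth hC y
    rw [(sRing hπ horth).mem_nonunits_iff_or]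
    constructor
    · intro h0
      rw [h0] at hy
      by_contra hne
      push Not at hne
      obtain ⟨hy0, w, hw⟩ := hne
      have h1 := hy.mul hw
      change SRed π ((y : F) * ((y : F) : LaurentSeries L)⁻¹) _ at h1
      rw [mul_inv_cancel₀ (fun h => hy0 (Subtype.ext h))] at h1
      have := h1.unique sRed_one
      simp at this
    · intro h
      by_contra h0
      have hne : (sRes hπ horth hC y : LaurentSeries k) ≠ 0 := fun e => h0 (Subtype.ext e)
      rcases h with h | h
      · exact hy.ne_zero hne (by rw [h]; rfl)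
      · exact h ⟨_, hy.inv hne⟩
  res_surj z := by
    obtain ⟨y, hy, h⟩ := (hC _).1 z.2
    exact ⟨⟨⟨y, hy⟩, _, h⟩, Subtype.ext ((sRed_sRes hπ horth hC _).unique h)⟩
  orth s := by
    classical
    obtain ⟨n, e, eb, heF, he, hind, hs⟩ := horth (s.image Subtype.val) (by
      intro x hx
      obtain ⟨y, -, rfl⟩ := Finset.mem_image.1 (Finset.mem_coe.1 hx)
      exact y.2)
    refine ⟨n, fun i => ⟨⟨e i, heF i⟩, _, he i⟩, ?_, fun x hx => ?_⟩
    · rw [Fintype.linearIndependent_iff]
      intro g hg
      refine Fintype.linearIndependent_iff.1 hind g ?_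
      have := congrArg (Subtype.val (p := fun u => u ∈ C)) hg
      rw [AddSubmonoidClass.coe_finsetSum, ZeroMemClass.coe_zero] at this
      refine Eq.trans (Finset.sum_congr rfl fun i _ => ?_) this
      have e0 := (sRed_sRes hπ horth hC ⟨⟨e i, heF i⟩, _, he i⟩).unique (he i)
      rw [IntermediateField.coe_smul, e0, smul_series, Algebra.smul_def]
    · obtain ⟨c, hc⟩ := (Submodule.mem_span_range_iff_exists_fun L).1
        (hs (Finset.mem_coe.2 (Finset.mem_image_of_mem _ (Finset.mem_coe.1 hx))))
      refine (Submodule.mem_span_range_iff_exists_fun L).2 ⟨c, ?_⟩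
      apply Subtype.val_injective
      rw [← hc, AddSubmonoidClass.coe_finsetSum]
      refine Finset.sum_congr rfl fun i _ => ?_
      rw [IntermediateField.coe_smul, smul_series, Algebra.smul_def]

theorem seriesDatum_red_iff {y : F} {z : C} :
    (seriesDatum hπ horth hC).Red y z ↔ SRed π (y : LaurentSeries L) (z : LaurentSeries k) := by
  constructor
  · rintro ⟨h, rfl⟩
    exact sRed_sRes hπ horth hC ⟨y, h⟩
  · intro h
    exact ⟨⟨_, h⟩, Subtype.ext ((sRed_sRes hπ horth hC ⟨y, _, h⟩).unique h)⟩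

end datum

section transport

variable {G G' Fb : Type*} [Field G] [Algebra L G] [Field G'] [Algebra L G'] [Field Fb]
  [Algebra k Fb]

/-- Transport of a reduction datum along an isomorphism. -/
def comapDatum (w : G' ≃ₐ[L] G) (D : RedDatum A π G Fb) : RedDatum A π G' Fb where
  isResidue := D.isResidue
  V := D.V.comap w.toRingEquiv.toRingHom
  mem_iff a := by
    rw [ValuationSubring.mem_comap]
    show w (algebraMap L G' a) ∈ D.V ↔ a ∈ A
    rw [w.commutes]
    exact D.mem_iff a
  res :=
    { toFun := fun y => D.res ⟨w (y : G'), y.2⟩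
      map_one' := by
        rw [← map_one D.res]; exact congrArg D.res (Subtype.ext (map_one w))
      map_zero' := by
        rw [← map_zero D.res]; exact congrArg D.res (Subtype.ext (map_zero w))
      map_add' := fun y y' => by
        rw [← map_add D.res]; exact congrArg D.res (Subtype.ext (map_add w (y : G') y'))
      map_mul' := fun y y' => by
        rw [← map_mul D.res]; exact congrArg D.res (Subtype.ext (map_mul w (y : G') y')) }
  res_algebraMap a := by
    refine Eq.trans ?_ (D.res_algebraMap a)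
    exact congrArg D.res (Subtype.ext (w.commutes _))
  res_eq_zero y := by
    show D.res ⟨w (y : G'), y.2⟩ = 0 ↔ _
    rw [D.res_eq_zero, D.V.mem_nonunits_iff_or, ValuationSubring.mem_nonunits_iff_or,
      ValuationSubring.mem_comap]
    show _ ↔ (y : G') = 0 ∨ ¬ w (y : G')⁻¹ ∈ D.V
    rw [map_inv₀, map_eq_zero_iff _ w.injective]
  res_surj z := by
    obtain ⟨y, hy⟩ := D.res_surj z
    refine ⟨⟨w.symm (y : G), ?_⟩, ?_⟩
    · show w (w.symm (y : G)) ∈ D.V
      rw [w.apply_symm_apply]; exact y.2
    · refine Eq.trans ?_ hy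
      exact congrArg D.res (Subtype.ext (w.apply_symm_apply _))
  orth s := by
    classical
    obtain ⟨n, e, hind, hs⟩ := D.orth (s.image w)
    refine ⟨n, fun i => ⟨w.symm (e i : G), ?_⟩, ?_, fun x hx => ?_⟩
    · show w (w.symm (e i : G)) ∈ D.V
      rw [w.apply_symm_apply]; exact (e i).2
    · convert hind using 1
      funext i
      exact congrArg D.res (Subtype.ext (w.apply_symm_apply _))
    · obtain ⟨c, hc⟩ := (Submodule.mem_span_range_iff_exists_fun L).1
        (hs (Finset.mem_coe.2 (Finset.mem_image_of_mem w (Finset.mem_coe.1 hx))))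
      refine (Submodule.mem_span_range_iff_exists_fun L).2 ⟨c, w.injective ?_⟩
      rw [map_sum, ← hc]
      simp

theorem comapDatum_red_iff (w : G' ≃ₐ[L] G) (D : RedDatum A π G Fb) {y : G'} {z : Fb} :
    (comapDatum w D).Red y z ↔ D.Red (w y) z := Iff.rfl

end transport

end FLTAgent.Semistable
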