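import Fermat.Agent.Semistable.Nodal
import Fermat.Agent.FunctionField.NormFormula
import Mathlib.LinearAlgebra.Charpoly.ToMatrix
import Mathlib.LinearAlgebra.Matrix.Charpoly.Coeff
import Mathlib.RingTheory.Norm.Basic
import Mathlib.Algebra.CharP.Lemmas

/-!
# A degeneracy map seen from the two components

`F / E` has degree `q + 1`; the first reduction of `F` restricts on `E` to the given reduction and
the second to its composite with a purely inseparable `frob : C → C` of degree `q`.  The
characteristic polynomial and the norm of an integral element then reduce to those of the pair of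
its reductions.
-/

set_option autoImplicit false
set_option linter.unusedSectionVars false

noncomputable section

open AlgebraicCurve Polynomial

namespace FLTAgent.Semistable

open FLTAgent.GoodRed FLTAgent.GoodRed.RedDatum FLTAgent.FunctionField

section Frb

variable {k C : Type*} [Field k] [Field C] [Algebra k C]

/-- `C` as an algebra over itself through `f`. -/
def Frb (_f : C →ₐ[k] C) := C

instance (f : C →ₐ[k] C) : Field (Frb f) := inferInstanceAs (Field C)

instance (f : C →ₐ[k] C) : Algebra C (Frb f) := RingHom.toAlgebra (S := Frb f) f.toRingHom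

/-- The identity map to `Frb f`. -/
def toFrb (f : C →ₐ[k] C) : C ≃+* Frb f := RingEquiv.refl C

theorem algebraMap_frb (f : C →ₐ[k] C) (z : C) :
    algebraMap C (Frb f) z = toFrb f (f z) := rfl

end Frb

variable {L k : Type*} [Field L] [Field k] {A : ValuationSubring L} {π : A →+* k}
  {E F C : Type*} [Field E] [Algebra L E] [Field F] [Algebra L F] [Algebra E F]
  [IsScalarTower L E F] [Field C] [Algebra k C]

/-- A degree `q + 1` extension seen from two reductions of the top field. -/
structure OneSide (DE : RedDatum A π E C) (D D' : RedDatum A π F C) (frob : C →ₐ[k] C) (q : ℕ) :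
    Prop where
  red : ∀ u z, DE.Red u z → D.Red (algebraMap E F u) z
  red' : ∀ u z, DE.Red u z → D'.Red (algebraMap E F u) (frob z)
  degree : Module.finrank E F = q + 1
  degree_frob : Module.finrank C (Frb frob) = q
  prime : q.Prime
  sep : ∃ e : F, D.Red e 1 ∧ D'.Red e 0
  rankOne : IsRankOne A

namespace OneSide

variable {DE : RedDatum A π E C} {D D' : RedDatum A π F C} {frob : C →ₐ[k] C} {q : ℕ}
  (hS : OneSide DE D D' frob q)
include hS

theorem finiteDimensional : FiniteDimensional E F :=
  FiniteDimensional.of_finrank_pos (by rw [hS.degree]; omega)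

theorem finiteDimensional_frb : FiniteDimensional C (Frb frob) :=
  FiniteDimensional.of_finrank_pos (by rw [hS.degree_frob]; exact hS.prime.pos)

theorem red_sum {ι : Type*} [Fintype ι] {y : ι → F} {a b : ι → C}
    (hy : ∀ i, D.Red (y i) (a i)) (hy' : ∀ i, D'.Red (y i) (b i)) (c : ι → DE.V) :
    D.Red (∑ i, algebraMap E F (c i : E) * y i) (∑ i, DE.res (c i) * a i) ∧
      D'.Red (∑ i, algebraMap E F (c i : E) * y i) (∑ i, frob (DE.res (c i)) * b i) :=
  ⟨Red.sum _ fun i _ => (hS.red _ _ (red_iff.2 rfl)).mul (hy i),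
    Red.sum _ fun i _ => (hS.red' _ _ (red_iff.2 rfl)).mul (hy' i)⟩

omit hS in
/-- Pairs that are independent over `C` acting by the identity and by `frob`. -/
def PairIndep (frob : C →ₐ[k] C) {ι : Type*} [Fintype ι] (a b : ι → C) : Prop :=
  ∀ c : ι → C, ∑ i, c i * a i = 0 → ∑ i, frob (c i) * b i = 0 → ∀ i, c i = 0

theorem coeff_mem {ι : Type*} [Fintype ι] {y : ι → F} {a b : ι → C}
    (hy : ∀ i, D.Red (y i) (a i)) (hy' : ∀ i, D'.Red (y i) (b i))
    (hind : PairIndep frob a b) {c : ι → E}
    (h : ∑ i, algebraMap E F (c i) * y i ∈ D.V) (h' : ∑ i, algebraMap E F (c i) * y i ∈ D'.V) :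
    ∀ i, c i ∈ DE.V := by
  classical
  rcases eq_or_ne c 0 with rfl | hc
  · exact fun i => zero_mem _
  obtain ⟨j, hj, hjV⟩ := exists_max_valuation DE.V c hc
  by_contra hnot
  push Not at hnot
  obtain ⟨i₀, hi₀⟩ := hnot
  have hjn : c j ∉ DE.V := fun hh => hi₀ (by
    have := mul_mem (hjV i₀) hh
    rwa [div_mul_cancel₀ _ hj] at this)
  have hinv : (c j)⁻¹ ∈ DE.V.nonunits := by
    rw [ValuationSubring.inv_mem_nonunits_iff]; exact Or.inr hjn
  obtain ⟨z, hz⟩ := exists_red (DE.V.nonunits_subset hinv)
  have hz0 : z = 0 := hz.eq_zero_iff.2 hinv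
  subst hz0
  obtain ⟨w, hw⟩ := exists_red h
  obtain ⟨w', hw'⟩ := exists_red h'
  have h1 := (hS.red _ _ hz).mul hw
  have h1' := (hS.red' _ _ hz).mul hw'
  rw [zero_mul] at h1
  rw [map_zero, zero_mul] at h1'
  obtain ⟨h2, h2'⟩ := hS.red_sum hy hy' (fun i => (⟨c i / c j, hjV i⟩ : DE.V))
  have h3 : algebraMap E F (c j)⁻¹ * ∑ i, algebraMap E F (c i) * y i
      = ∑ i, algebraMap E F (c i / c j) * y i := by
    rw [Finset.mul_sum]
    exact Finset.sum_congr rfl fun i _ => by rw [div_eq_inv_mul, map_mul, mul_assoc]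
  rw [h3] at h1 h1'
  have h4 := hind _ (h2.unique h1) (h2'.unique h1') j
  rw [show (⟨c j / c j, hjV j⟩ : DE.V) = 1 from Subtype.ext (div_self hj), map_one] at h4
  exact one_ne_zero h4

theorem linearIndependent {ι : Type*} [Fintype ι] {y : ι → F} {a b : ι → C}
    (hy : ∀ i, D.Red (y i) (a i)) (hy' : ∀ i, D'.Red (y i) (b i))
    (hind : PairIndep frob a b) : LinearIndependent E y := by
  classical
  rw [Fintype.linearIndependent_iff]
  intro c hc i
  by_contra hi
  obtain ⟨j, hj, hjV⟩ := exists_max_valuation DE.V c fun h => hi (congrFun h i)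
  obtain ⟨h2, h2'⟩ := hS.red_sum hy hy' (fun i => (⟨c i / c j, hjV i⟩ : DE.V))
  have h3 : ∑ i, algebraMap E F (c i / c j) * y i = 0 := by
    rw [show (∑ i, algebraMap E F (c i / c j) * y i) = algebraMap E F (c j)⁻¹ * ∑ i, c i • y i by
      rw [Finset.mul_sum]
      exact Finset.sum_congr rfl fun i _ => by
        rw [Algebra.smul_def, div_eq_inv_mul, map_mul, mul_assoc], hc, mul_zero]
  rw [h3] at h2 h2'
  have h4 := hind _ (h2.unique red_zero) (h2'.unique red_zero) j
  rw [show (⟨c j / c j, hjV j⟩ : DE.V) = 1 from Subtype.ext (div_self hj), map_one] at h4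
  exact one_ne_zero h4

/-- In an adapted basis, multiplication by an integral element reduces to a block matrix. -/
theorem exists_matrix {f : F} {a b : C} (ha : D.Red f a) (hb : D'.Red f b) :
    ∃ (B : Module.Basis (Fin 1 ⊕ Fin q) E F) (e : Module.Basis (Fin q) C (Frb frob))
      (M : Matrix (Fin 1 ⊕ Fin q) (Fin 1 ⊕ Fin q) DE.V),
      M.map DE.V.subtype = Algebra.leftMulMatrix B f ∧
      M.map DE.res = Matrix.fromBlocks (Matrix.of fun _ _ => a) 0 0
        (Algebra.leftMulMatrix e (toFrb frob b)) := by
  classical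
  have := hS.finiteDimensional_frb
  have := hS.finiteDimensional
  obtain ⟨e₀, he₀, he₀'⟩ := hS.sep
  let e := Module.finBasisOfFinrankEq C (Frb frob) hS.degree_frob
  let av : Fin 1 ⊕ Fin q → C := Sum.elim (fun _ => 1) fun _ => 0
  let bv : Fin 1 ⊕ Fin q → C := Sum.elim (fun _ => 0) fun i => (toFrb frob).symm (e i)
  choose y hy hy' using fun i => exists_pair_lift hS.rankOne he₀ he₀' (av i) (bv i)
  have hb0 : ∀ c : Fin q → C, (∑ i, frob (c i) * (toFrb frob).symm (e i)) =
      (toFrb frob).symm (∑ i, c i • e i) := fun c => by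
    rw [map_sum]
    exact Finset.sum_congr rfl fun i _ => rfl
  have hind : PairIndep frob av bv := by
    intro c h1 h2 i
    rw [Fintype.sum_sum_type] at h1 h2
    simp [av] at h1
    simp only [bv, Sum.elim_inl, Sum.elim_inr, mul_zero, Finset.sum_const_zero, zero_add, hb0] at h2
    rw [EmbeddingLike.map_eq_zero_iff] at h2
    rcases i with i | i
    · rw [Subsingleton.elim i 0]; exact h1
    · exact Fintype.linearIndependent_iff.1 e.linearIndependent (fun i => c (Sum.inr i)) h2 i
  have : Nonempty (Fin 1 ⊕ Fin q) := ⟨Sum.inl 0⟩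
  let B := basisOfLinearIndependentOfCardEqFinrank (hS.linearIndependent hy hy' hind)
    (by rw [Fintype.card_sum, Fintype.card_fin, Fintype.card_fin, hS.degree, add_comm])
  have hB : ∀ i, B i = y i := fun i => by
    simp only [B, coe_basisOfLinearIndependentOfCardEqFinrank]
  have hsum : ∀ j, ∑ i, algebraMap E F (Algebra.leftMulMatrix B f i j) * y i = f * y j := fun j => by
    simp only [← Algebra.smul_def, ← hB, Algebra.leftMulMatrix_eq_repr_mul]
    exact B.sum_repr _
  have hmem : ∀ i j, Algebra.leftMulMatrix B f i j ∈ DE.V := fun i j => by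
    refine hS.coeff_mem hy hy' hind (c := fun i => Algebra.leftMulMatrix B f i j) ?_ ?_ i
    · rw [hsum]; exact mul_mem ha.mem (hy j).mem
    · rw [hsum]; exact mul_mem hb.mem (hy' j).mem
  refine ⟨B, e, Matrix.of fun i j => ⟨_, hmem i j⟩, rfl, ?_⟩
  have hcol : ∀ j, ∀ c : Fin 1 ⊕ Fin q → C, ∑ i, c i * av i = a * av j →
      ∑ i, frob (c i) * bv i = b * bv j → ∀ i, DE.res ⟨_, hmem i j⟩ = c i := by
    intro j c h1 h2 i
    obtain ⟨h3, h3'⟩ := hS.red_sum hy hy' fun i => (⟨_, hmem i j⟩ : DE.V)
    simp only [hsum] at h3 h3'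
    refine sub_eq_zero.1 (hind (fun i => DE.res ⟨_, hmem i j⟩ - c i) ?_ ?_ i)
    · simp only [sub_mul, Finset.sum_sub_distrib, h1, h3.unique (ha.mul (hy j)), sub_self]
    · simp only [map_sub, sub_mul, Finset.sum_sub_distrib, h2, h3'.unique (hb.mul (hy' j)), sub_self]
  funext i j
  change DE.res ⟨_, hmem i j⟩ = _
  rcases j with j | j
  · have h := hcol (Sum.inl j) (Sum.elim (fun _ => a) fun _ => 0)
      (by simp [Fintype.sum_sum_type, av]) (by simp [Fintype.sum_sum_type, bv]) i
    rcases i with i | i <;> simpa using h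
  · have h := hcol (Sum.inr j)
      (Sum.elim (fun _ => 0) fun i => Algebra.leftMulMatrix e (toFrb frob b) i j)
      (by simp [Fintype.sum_sum_type, av]) (by
        rw [Fintype.sum_sum_type]
        simp only [bv, Sum.elim_inl, Sum.elim_inr, map_zero, zero_mul, Finset.sum_const_zero,
          zero_add, hb0, Algebra.leftMulMatrix_eq_repr_mul, e.sum_repr, map_mul,
          RingEquiv.symm_apply_apply]) i
    rcases i with i | i <;> simpa using h

/-- The characteristic polynomial of an integral element and its reduction. -/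
theorem exists_charpoly [FiniteDimensional E F] {f : F} {a b : C} (ha : D.Red f a)
    (hb : D'.Red f b) :
    ∃ P : DE.V[X], P.Monic ∧ P.natDegree = q + 1 ∧
      P.map DE.V.subtype = (Algebra.lmul E F f).charpoly ∧
      aeval a (P.map DE.res) = 0 ∧ eval₂ frob.toRingHom b (P.map DE.res) = 0 := by
  classical
  have := hS.finiteDimensional_frb
  obtain ⟨B, e, M, hM, hMb⟩ := hS.exists_matrix ha hb
  refine ⟨M.charpoly, M.charpoly_monic, ?_, ?_, ?_, ?_⟩
  · rw [Matrix.charpoly_natDegree_eq_dim, Fintype.card_sum, Fintype.card_fin, Fintype.card_fin,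
      add_comm]
  · rw [← Matrix.charpoly_map, hM, Algebra.leftMulMatrix_apply, LinearMap.charpoly_toMatrix]
  all_goals rw [← Matrix.charpoly_map, hMb, Matrix.charpoly_fromBlocks_zero₂₁]
  · rw [map_mul, Matrix.charpoly, Matrix.det_fin_one]
    simp [Matrix.charmatrix_apply]
  · rw [eval₂_mul]
    refine mul_eq_zero_of_right _ ?_
    have h : aeval (toFrb frob b) (Algebra.leftMulMatrix e (toFrb frob b)).charpoly = 0 :=
      Algebra.leftMulMatrix_injective e (by
        rw [map_zero, ← Polynomial.aeval_algHom_apply, Matrix.aeval_self_charpoly])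
    exact h

theorem frob_injective : Function.Injective frob := frob.toRingHom.injective

/-- The norm of an element of `C` over its image under `frob`. -/
theorem frob_norm [CharP C q] {b w : C}
    (hw : frob w = b ^ q) : Algebra.norm C (toFrb frob b) = w := by
  have : Fact q.Prime := ⟨hS.prime⟩
  have h : toFrb frob b ^ q = algebraMap C (Frb frob) w := by
    rw [algebraMap_frb, hw, map_pow]
  have h2 := congrArg (Algebra.norm C) h
  rw [map_pow, Algebra.norm_algebraMap, hS.degree_frob] at h2
  exact frobenius_inj C q (by simpa [frobenius_def] using h2)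

/-- The norm of an integral element and its reduction. -/
theorem red_norm [CharP C q] {f : F} {a b w : C}
    (ha : D.Red f a) (hb : D'.Red f b) (hw : frob w = b ^ q) :
    DE.Red (Algebra.norm E f) (a * w) := by
  classical
  have := hS.finiteDimensional
  have := hS.finiteDimensional_frb
  obtain ⟨B, e, M, hM, hMb⟩ := hS.exists_matrix ha hb
  have h1 : Algebra.norm E f = (M.det : E) := by
    rw [Algebra.norm_eq_matrix_det B, ← hM, ← RingHom.mapMatrix_apply, ← RingHom.map_det]
    rfl
  rw [h1, red_iff, RingHom.map_det, RingHom.mapMatrix_apply, hMb,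
    Matrix.det_fromBlocks_zero₂₁, Matrix.det_fin_one, ← Algebra.norm_eq_matrix_det,
    hS.frob_norm hw]
  rfl

end OneSide

end FLTAgent.Semistable
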