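import Fermat.Agent.Semistable.Series
import Fermat.Agent.Semistable.OneSide
import Fermat.Agent.Genus.LaurentOps
import Fermat.Agent.Igusa.Gauss
import Fermat.Agent.Semistable.FullC

/-!
# The derivation `X d/dX` at a place of a field of series with a Frobenius

When `ord π = 1` and `C` has degree `q` over a subfield killed by `X d/dX` all of whose orders are
divisible by `q`, derivatives with respect to `π` of regular functions are regular.
-/

set_option autoImplicit false
set_option linter.unusedSectionVars false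

noncomputable section

open AlgebraicCurve ModularCurve

namespace FLTAgent.Semistable

open FLTAgent.FunctionField FLTAgent.GoodRed FLTAgent.Genus

section series

variable {K : Type*} [Field K]

theorem euler_zero : euler (0 : LaurentSeries K) = 0 := map_zero _

theorem euler_one : euler (1 : LaurentSeries K) = 0 := euler_single_zero 1

theorem euler_algebraMap (c : K) : euler (algebraMap K (LaurentSeries K) c) = 0 := by
  rw [algebraMap_laurentSeries_eq_single]; exact euler_single_zero c

theorem euler_pow (f : LaurentSeries K) :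
    ∀ n : ℕ, euler (f ^ n) = (n : LaurentSeries K) * f ^ (n - 1) * euler f
  | 0 => by simp [euler_one]
  | 1 => by simp
  | n + 2 => by
    rw [_root_.pow_succ, euler_mul, euler_pow f (n + 1)]
    simp only [Nat.add_sub_cancel, show n + 2 - 1 = n + 1 from rfl]
    push_cast
    rw [_root_.pow_succ f n]
    ring

theorem euler_qExpand (n : ℕ) [NeZero n] (f : LaurentSeries K) :
    euler (qExpand K n f) = (n : LaurentSeries K) * qExpand K n (euler f) := by
  ext m
  rw [euler_coeff, ← map_natCast (HahnSeries.C (Γ := ℤ) (R := K)), HahnSeries.C_mul_eq_smul,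
    HahnSeries.coeff_smul, smul_eq_mul]
  by_cases h : (n : ℤ) ∣ m
  · obtain ⟨c, rfl⟩ := h
    rw [qExpand_coeff_mul, qExpand_coeff_mul, euler_coeff]
    push_cast
    ring
  · rw [qExpand_coeff_of_not_dvd n _ h, qExpand_coeff_of_not_dvd n _ h, mul_zero, mul_zero]

theorem euler_qExpand_eq_zero (n : ℕ) [NeZero n] [CharP K n] (f : LaurentSeries K) :
    euler (qExpand K n f) = 0 := by
  rw [euler_qExpand, ← map_natCast (HahnSeries.C (Γ := ℤ) (R := K)), CharP.cast_eq_zero, map_zero,
    zero_mul]

theorem euler_coeffMap {K' : Type*} [Field K'] (σ : K →+* K') (f : LaurentSeries K) :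
    euler (coeffMap σ f) = coeffMap σ (euler f) := by
  ext n
  simp

theorem euler_div (f g : LaurentSeries K) (hg : g ≠ 0) :
    euler (f / g) = (euler f - f / g * euler g) / g := by
  rw [eq_div_iff hg, eq_sub_iff_add_eq, ← euler_mul, div_mul_cancel₀ f hg]

/-- `n ↦ n a_n`. -/
def eulerInt {R : Type*} [CommRing R] (f : LaurentSeries R) : LaurentSeries R :=
  ⟨fun n => (n : R) * f.coeff n, f.isPWO_support.mono fun n hn h0 => hn (by
    show (n : R) * f.coeff n = 0
    rw [h0, mul_zero])⟩

theorem coeffMap_eulerInt {R : Type*} [CommRing R] (φ : R →+* K) (f : LaurentSeries R) :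
    coeffMap φ (eulerInt f) = euler (coeffMap φ f) :=
  HahnSeries.ext (funext fun n => by
    rw [euler_coeff, coeffMap_coeff, coeffMap_coeff]
    exact (map_mul φ _ _).trans (congrArg (· * φ (f.coeff n)) (map_intCast φ n)))

/-- `X d/dX` commutes with reduction. -/
theorem SRed.euler {L k : Type*} [Field L] [Field k] {A : ValuationSubring L} {π : A →+* k}
    {y : LaurentSeries L} {z : LaurentSeries k} (h : SRed π y z) :
    SRed π (Genus.euler y) (Genus.euler z) := by
  obtain ⟨a, b, hb, hy, hz⟩ := h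
  refine ⟨eulerInt a * b - a * eulerInt b, b * b, by rw [map_mul]; exact mul_ne_zero hb hb,
    ?_, ?_⟩
  · simp only [map_mul, map_sub, coeffMap_eulerInt, ← hy, euler_mul]; ring
  · simp only [map_mul, map_sub, coeffMap_eulerInt, ← hz, euler_mul]; ring

theorem qExpand_mul_coeffMap {R S : Type*} [CommRing R] [CommRing S] (φ : R →+* S) (n : ℕ)
    [NeZero n] {y : LaurentSeries S} {a b : LaurentSeries R}
    (h : y * coeffMap φ b = coeffMap φ a) :
    qExpand S n y * coeffMap φ (qExpand R n b) = coeffMap φ (qExpand R n a) := by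
  rw [coeffMap_qExpand, coeffMap_qExpand, ← map_mul, h]

theorem qExpand_zmod (q : ℕ) [Fact q.Prime] [NeZero q] (z : LaurentSeries (ZMod q)) :
    qExpand (ZMod q) q z = z ^ q := by
  have h := qExpand_coeffMap_frobenius (K := ZMod q) q z
  rwa [ZMod.frobenius_zmod, coeffMap_id] at h

theorem exists_gauss_divQ (q : ℕ) [Fact q.Prime] [NeZero q] (u : Igusa.gaussRing q) :
    ∃ t : Igusa.gaussRing q, (q : LaurentSeries ℚ) * (t : LaurentSeries ℚ) =
      qExpand ℚ q (u : LaurentSeries ℚ) - (u : LaurentSeries ℚ) ^ q := by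
  obtain ⟨a, b, hb, he⟩ := u.2
  have hb' : Igusa.reduce q (qExpand _ q b) ≠ 0 := by
    rw [Igusa.reduce, coeffMap_qExpand]
    exact (map_ne_zero_iff _ (qExpand_injective q)).2 hb
  have he' := qExpand_mul_coeffMap _ q he
  have hmem : qExpand ℚ q (u : LaurentSeries ℚ) ∈ Igusa.gaussRing q := ⟨_, _, hb', he'⟩
  set x : Igusa.gaussRing q := ⟨_, hmem⟩ - u ^ q with hx
  have hred : Igusa.red q x = 0 := by
    rw [hx, map_sub, map_pow, Igusa.red_eq q (x := ⟨_, hmem⟩) hb' he', Igusa.red_eq q hb he]
    simp only [Igusa.reduce, coeffMap_qExpand]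
    rw [qExpand_zmod, qExpand_zmod, div_pow, sub_self]
  obtain ⟨t, ht⟩ := Igusa.exists_eq_mul_of_red_eq_zero q hred
  refine ⟨t, ?_⟩
  have h2 := congrArg (fun z : Igusa.gaussRing q => (z : LaurentSeries ℚ)) ht
  simpa [hx] using h2.symm

end series

section place

variable {K C : Type*} [Field K] [Field C] [Algebra K C] [IsFunctionField K C] (x : Place K C)

/-- A sum of functions with distinct orders has the smallest order. -/
theorem le_ord_of_injOn_ord {ι : Type*} {s : Finset ι} {f : ι → C} (hf : ∀ i ∈ s, f i ≠ 0)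
    (hinj : Set.InjOn (fun i => x.ord (f i)) s) (hs : s.Nonempty) :
    ∑ i ∈ s, f i ≠ 0 ∧ ∀ i ∈ s, x.ord (∑ i ∈ s, f i) ≤ x.ord (f i) := by
  classical
  obtain ⟨i₀, hi₀, hmin⟩ := Finset.exists_min_image s (fun i => x.ord (f i)) hs
  have hrest : OrdGe x (x.ord (f i₀) + 1) (∑ i ∈ s.erase i₀, f i) := by
    refine OrdGe.sum fun i hi => ordGe_of_le_ord ?_
    have h1 := hmin i (Finset.mem_of_mem_erase hi)
    have h2 : x.ord (f i₀) ≠ x.ord (f i) := fun h =>
      Finset.ne_of_mem_erase hi (hinj (Finset.mem_of_mem_erase hi) hi₀ h.symm)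
    omega
  obtain ⟨hne, hord⟩ := ord_add_eq_left (hf i₀ hi₀) hrest
  rw [Finset.add_sum_erase s f hi₀] at hne hord
  exact ⟨hne, fun i hi => hord.trans_le (hmin i hi)⟩

variable {q : ℕ} (hq : 0 < q) (f : C →ₐ[K] C) (frP : Place K C → Place K C)
  (hord : ∀ v z, v.ord (f z) = (q : ℤ) * (frP v).ord z)
  (hdeg : Module.finrank C (Frb f) = q) {p : C} (hp : x.ord p = 1)
include hq hord hdeg hp

/-- Regular functions are combinations of powers of a uniformiser with regular coefficients. -/
theorem exists_frob_expansion {g : C} (hg : OrdGe x 0 g) :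
    ∃ w : Fin q → C, (∀ i, OrdGe x 0 (f (w i))) ∧ g = ∑ i, f (w i) * p ^ (i : ℕ) := by
  classical
  have hp0 : p ≠ 0 := fun h => by rw [h, Place.ord_zero] at hp; omega
  have hfin : FiniteDimensional C (Frb f) := FiniteDimensional.of_finrank_pos (by omega)
  set e : Fin q → Frb f := fun i => toFrb f (p ^ (i : ℕ)) with he
  have hterm : ∀ (w : Fin q → C) (i : Fin q), w i ≠ 0 →
      x.ord (f (w i) * p ^ (i : ℕ)) = (q : ℤ) * (frP x).ord (w i) + i := fun w i hi => by
    rw [x.ord_mul ((map_ne_zero f).2 hi) (pow_ne_zero _ hp0), hord, FunctionField.ord_pow, hp,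
      mul_one]
  have hinj : ∀ w : Fin q → C, Set.InjOn (fun i => x.ord (f (w i) * p ^ (i : ℕ)))
      ↑(Finset.univ.filter fun i => w i ≠ 0) := by
    intro w i hi j hj h
    simp only [Finset.coe_filter, Finset.mem_univ, true_and, Set.mem_ofPred_eq] at hi hj
    simp only [hterm w i hi, hterm w j hj] at h
    have h1 := congrArg (fun z : ℤ => z % (q : ℤ)) h
    simp only [Int.mul_add_emod_self_left] at h1
    rw [Int.emod_eq_of_lt (by omega) (by omega), Int.emod_eq_of_lt (by omega) (by omega)] at h1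
    exact Fin.ext (by omega)
  have hsum : ∀ w : Fin q → C, ∑ i, f (w i) * p ^ (i : ℕ) =
      ∑ i ∈ Finset.univ.filter (fun i => w i ≠ 0), f (w i) * p ^ (i : ℕ) := fun w =>
    (Finset.sum_subset (Finset.filter_subset _ _) fun i _ h => by
      have h0 : w i = 0 := by simpa using h
      simp [h0]).symm
  have hne : ∀ w : Fin q → C, ∀ i ∈ Finset.univ.filter (fun i => w i ≠ 0),
      f (w i) * p ^ (i : ℕ) ≠ 0 := fun w i hi =>
    mul_ne_zero ((map_ne_zero f).2 (Finset.mem_filter.1 hi).2) (pow_ne_zero _ hp0)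
  have hli : LinearIndependent C e := by
    rw [Fintype.linearIndependent_iff]
    intro w hw i
    by_contra hi
    refine (le_ord_of_injOn_ord x (hne w) (hinj w) ⟨i, by simp [hi]⟩).1 ?_
    rw [← hsum]
    refine Eq.trans ?_ (congrArg (toFrb f).symm hw |>.trans (map_zero _))
    rw [map_sum]
    exact Finset.sum_congr rfl fun l _ => by
      rw [Algebra.smul_def, map_mul, algebraMap_frb]
      rfl
  have hspan : Submodule.span C (Set.range e) = ⊤ :=
    haveI : Nonempty (Fin q) := ⟨⟨0, hq⟩⟩
    hli.span_eq_top_of_card_eq_finrank (by rw [Fintype.card_fin, hdeg])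
  obtain ⟨w, hw⟩ := (Submodule.mem_span_range_iff_exists_fun C).1
    (hspan ▸ Submodule.mem_top : toFrb f g ∈ Submodule.span C (Set.range e))
  have hgw : g = ∑ i, f (w i) * p ^ (i : ℕ) := by
    refine ((RingEquiv.symm_apply_apply (toFrb f) g).symm.trans
      (congrArg (toFrb f).symm hw.symm)).trans ?_
    rw [map_sum]
    exact Finset.sum_congr rfl fun l _ => by
      rw [Algebra.smul_def, map_mul, algebraMap_frb]
      rfl
  refine ⟨w, fun i => ?_, hgw⟩
  rcases eq_or_ne (w i) 0 with hi | hi
  · rw [hi, map_zero]; exact ordGe_zero _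
  obtain ⟨hne0, hle⟩ := le_ord_of_injOn_ord x (hne w) (hinj w) ⟨i, by simp [hi]⟩
  have h1 := hle i (by simp [hi])
  rw [← hsum, ← hgw, hterm w i hi] at h1
  rw [← hsum, ← hgw] at hne0
  have h2 := hg.le_ord hne0
  have h3 : (0 : ℤ) ≤ (frP x).ord (w i) := by
    by_contra h3
    have := i.2
    nlinarith
  refine ordGe_of_le_ord ?_
  rw [hord]
  positivity

variable (D : C →+* LaurentSeries K) (hD : ∀ z, euler (D (f z)) = 0)
include hD

/-- The derivative of a regular function with respect to a uniformiser is regular. -/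
theorem exists_euler_eq_mul {g : C} (hg : OrdGe x 0 g) :
    ∃ d : C, OrdGe x 0 d ∧ euler (D g) = D d * euler (D p) := by
  obtain ⟨w, hw, rfl⟩ := exists_frob_expansion x hq f frP hord hdeg hp hg
  refine ⟨∑ i : Fin q, (i : ℕ) • (f (w i) * p ^ ((i : ℕ) - 1)),
    OrdGe.sum fun i _ => ?_, ?_⟩
  · rw [nsmul_eq_mul, ← map_natCast (algebraMap K C)]
    have h1 : OrdGe x 0 (p ^ ((i : ℕ) - 1)) :=
      ordGe_of_le_ord (by rw [FunctionField.ord_pow, hp]; positivity)
    simpa using (ordGe_algebraMap (v := x) ((i : ℕ) : K)).mul ((hw i).mul h1)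
  · rw [map_sum, map_sum, map_sum, Finset.sum_mul]
    refine Finset.sum_congr rfl fun i _ => ?_
    rw [map_mul, euler_mul, hD, map_pow, euler_pow, map_nsmul, map_mul, map_pow, nsmul_eq_mul]
    ring

/-- The derivative of a function with at most a simple pole has at most a double pole. -/
theorem exists_euler_eq_mul_of_simple {g : C} (hg : OrdGe x (-1) g) :
    ∃ d : C, OrdGe x (-2) d ∧ euler (D g) = D d * euler (D p) := by
  have hp0 : p ≠ 0 := fun h => by rw [h, Place.ord_zero] at hp; omega
  have hgp : OrdGe x 0 (g * p) :=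
    (hg.mul (ordGe_of_le_ord (n := 1) hp.ge)).mono (by omega)
  obtain ⟨d, hd, he⟩ := exists_euler_eq_mul x hq f frP hord hdeg hp D hD hgp
  refine ⟨(d - g) / p, ?_, ?_⟩
  · rw [div_eq_mul_inv]
    exact (((hd.mono (by omega)).sub hg).mul (ordGe_of_le_ord (n := -1)
      (by rw [x.ord_inv, hp]))).mono (by omega)
  · have hDp : D p ≠ 0 := (map_ne_zero D).2 hp0
    rw [map_mul, euler_mul] at he
    rw [map_div₀, map_sub, div_mul_eq_mul_div, eq_div_iff hDp]
    linear_combination he

end place

end FLTAgent.Semistable
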