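import Fermat.Agent.Semistable.Galois
import Fermat.Agent.Semistable.OneSide

/-!
# Frobenius on classes with principal images at the lower level

If both norms of a torsion class to the lower level are principal, two applications of
`φ² - 1` make it flat, so that `(φ² - q²)(φ² - 1)²` kills it.
-/

set_option autoImplicit false
set_option linter.unusedSectionVars false

noncomputable section

open AlgebraicCurve

namespace FLTAgent.Semistable

open FLTAgent.GoodRed FLTAgent.GoodRed.RedDatum FLTAgent.FunctionField SemilinearAut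

section powConst

variable {k C : Type*} [Field k] [Field C] [Algebra k C]

/-- `z` is a nonzero constant times the `m`-th power of a nonzero element. -/
def PowConst (k : Type*) {C : Type*} [Field k] [Field C] [Algebra k C] (m : ℕ) (z : C) : Prop :=
  ∃ (t : k) (w : C), t ≠ 0 ∧ w ≠ 0 ∧ z = algebraMap k C t * w ^ m

theorem PowConst.div {m : ℕ} {z z' : C} (h : PowConst k m z) (h' : PowConst k m z') :
    PowConst k m (z / z') := by
  obtain ⟨t, w, ht, hw, rfl⟩ := h
  obtain ⟨t', w', ht', hw', rfl⟩ := h'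
  exact ⟨t / t', w / w', div_ne_zero ht ht', div_ne_zero hw hw', by
    rw [map_div₀, div_pow, div_mul_div_comm]⟩

theorem PowConst.map {m : ℕ} {z : C} (σ : C ≃+* C) (τ : k ≃+* k)
    (hσ : ∀ t, σ (algebraMap k C t) = algebraMap k C (τ t)) (h : PowConst k m z) :
    PowConst k m (σ z) := by
  obtain ⟨t, w, ht, hw, rfl⟩ := h
  exact ⟨τ t, σ w, (map_ne_zero _).2 ht, (map_ne_zero _).2 hw, by rw [map_mul, map_pow, hσ]⟩

end powConst

variable {L k : Type*} [Field L] [Field k] {A : ValuationSubring L} {π : A →+* k}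

theorem exists_unit_smul_red {F C : Type*} [Field F] [Algebra L F] [Field C] [Algebra k C]
    (D : RedDatum A π F C) {x : F} {z : C} (hx : D.Red x z) (hz : z ≠ 0) {a : L} {y : C}
    (h : D.Red (a • x) y) (hy : y ≠ 0) : ∃ t : k, t ≠ 0 ∧ y = t • z := by
  have haA := mem_of_smul_mem_of_red D hx hz h.mem
  have hy' := h.unique (red_smul (⟨a, haA⟩ : A) hx)
  exact ⟨π ⟨a, haA⟩, fun h0 => hy (by rw [hy', h0, zero_smul]), hy'⟩

section norm

variable {E F C : Type*} [Field E] [Algebra L E] [Field F] [Algebra L F] [Algebra E F]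
  [IsScalarTower L E F] [Field C] [Algebra k C] [IsFunctionField L E] [IsFunctionField L F]
  [IsAlgClosed L] [Module.Finite E F]
  {DE : RedDatum A π E C} {D D' : RedDatum A π F C} {frob : C →ₐ[k] C} {q : ℕ}

/-- If the norm of a torsion class is principal, the norm of the pair of reductions is a constant
times an `m`-th power. -/
theorem OneSide.powConst_norm (hS : OneSide DE D D' frob q) [CharP C q] {m : ℕ}
    {X : Divisor L F} {f : F} {a b w : C} (hdiv : divisorOf f = m • X) (ha : D.Red f a)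
    (hb : D'.Red f b) (ha0 : a ≠ 0) (hb0 : b ≠ 0) (hw : frob w = b ^ q)
    (hpush : (Divisor.pushforward E X).IsPrincipal) : PowConst k m (a * w) := by
  obtain ⟨h, hh, hhX⟩ := hpush
  have hf : f ≠ 0 := ha.ne_zero ha0
  have hN := hS.red_norm ha hb hw
  have hN0 : Algebra.norm E f ≠ 0 := Algebra.norm_ne_zero_iff.2 hf
  have hdivN : ∀ v : Place L E, v.ord (Algebra.norm E f) = v.ord (h ^ m) := fun v => by
    rw [← pushforwardNormFormula f hf (divisorOf f) (fun u => rfl) v, hdiv, map_nsmul,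
      Finsupp.smul_apply, hhX, FunctionField.ord_pow, nsmul_eq_mul]
  obtain ⟨c, hc⟩ := exists_eq_algebraMap_of_divisorOf_eq_zero (K := L)
    (z := Algebra.norm E f / h ^ m) (Finsupp.ext fun v => by
      rw [divisorOf_apply, FunctionField.ord_div hN0 (pow_ne_zero _ hh), hdivN, sub_self,
        Finsupp.zero_apply])
  obtain ⟨c₁, z, hc₁, hz, hzr⟩ := DE.exists_scale hh
  have heq : Algebra.norm E f = (c / c₁ ^ m) • (c₁ • h) ^ m := by
    rw [Algebra.smul_def, Algebra.smul_def, mul_pow, ← map_pow, ← mul_assoc, ← map_mul,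
      div_mul_cancel₀ _ (pow_ne_zero _ hc₁), hc, div_mul_cancel₀ _ (pow_ne_zero _ hh)]
  have hw0 : w ≠ 0 := fun h0 => pow_ne_zero q hb0 (by rw [← hw, h0, map_zero])
  rw [heq] at hN
  obtain ⟨t, ht, hteq⟩ :=
    exists_unit_smul_red DE (hzr.pow m) (pow_ne_zero _ hz) hN (mul_ne_zero ha0 hw0)
  exact ⟨t, z, ht, hz, by rw [hteq, Algebra.smul_def]⟩

end norm

namespace NodeSystem

variable {F C : Type*} [Field F] [Algebra L F] [Field C] [Algebra k C]
  [IsFunctionField L F] [IsFunctionField k C] [IsAlgClosed L] [IsAlgClosed k]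
  {D D' : RedDatum A π F C} {ι : Type*} [Fintype ι] {N : NodeSystem D D' ι}

theorem exists_flat_of_powConst (hA : IsRankOne A) {e : F} (he : D.Red e 1) (he' : D'.Red e 0)
    {m : ℕ} {Y : Divisor L F} (hY : Divisor.degree Y = 0) {G : F} {a b : C}
    (hdiv : divisorOf G = m • Y) (ha : D.Red G a) (hb : D'.Red G b) (hpa : PowConst k m a)
    (hpb : PowConst k m b) :
    ∃ h : F, h ≠ 0 ∧ IsFlat (D := D) (D' := D') m (Y - divisorOf h) := by
  obtain ⟨t, w, ht, hw, rfl⟩ := hpa
  obtain ⟨t', w', ht', hw', rfl⟩ := hpb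
  obtain ⟨h, hh, hh'⟩ := exists_pair_lift hA he he' w w'
  have hh0 := hh.ne_zero hw
  have hG : G ≠ 0 :=
    ha.ne_zero (mul_ne_zero ((map_ne_zero _).2 ht) (pow_ne_zero _ hw))
  refine ⟨h, hh0, by rw [map_sub, hY, degree_divisorOf, sub_zero], G / h ^ m,
    div_ne_zero hG (pow_ne_zero _ hh0), ?_, t, t', ht, ht', ?_, ?_⟩
  · ext v
    rw [divisorOf_apply, FunctionField.ord_div hG (pow_ne_zero _ hh0), FunctionField.ord_pow,
      Finsupp.smul_apply, Finsupp.sub_apply, divisorOf_apply, ← divisorOf_apply (K := L) G v,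
      hdiv, Finsupp.smul_apply, nsmul_eq_mul, nsmul_eq_mul, mul_sub]
  · have := ha.div (hh.pow m) (pow_ne_zero _ hw)
    rwa [mul_div_cancel_right₀ _ (pow_ne_zero _ hw)] at this
  · have := hb.div (hh'.pow m) (pow_ne_zero _ hw')
    rwa [mul_div_cancel_right₀ _ (pow_ne_zero _ hw')] at this

namespace NodeAut

variable (T : NodeAut N)

theorem exists_red_smul_div (E : RedDatum A π F C) (σ : C ≃+* C)
    (hE : ∀ y z, E.Red y z → E.Red (toRingAut T.s y) (σ z)) {g : F} (hg : g ≠ 0) :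
    ∃ (t : k) (z : C), t ≠ 0 ∧ z ≠ 0 ∧
      E.Red (toRingAut T.s g / g) (algebraMap k C t * (σ z / z)) := by
  obtain ⟨c, z, hc, hz, hr⟩ := E.exists_scale hg
  have hd := (hE _ _ hr).div hr hz
  have hs0 : baseAut T.s c ≠ 0 := (map_ne_zero _).2 hc
  have hval : A.valuation (c / baseAut T.s c) = 1 := by
    rw [map_div₀, T.val_eq, div_self ((map_ne_zero A.valuation).2 hc)]
  set u : A := ⟨c / baseAut T.s c, (A.valuation_le_one_iff _).1 hval.le⟩ with hu
  refine ⟨π u, z, (E.isResidue.ne_zero_iff u).2 hval, hz, ?_⟩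
  have hres := (red_algebraMap (D := E) u).mul hd
  convert hres using 1
  rw [Algebra.smul_def, map_mul, SemilinearAut.commutes, hu]
  have h1 : algebraMap L F c ≠ 0 := (map_ne_zero _).2 hc
  have h2 : algebraMap L F (baseAut T.s c) ≠ 0 := (map_ne_zero _).2 hs0
  simp only [map_div₀]
  field_simp

/-- `(φ² - q²)(φ² - 1)²` kills a torsion class whose two norms to the lower level are
principal. -/
theorem frobenius_relation (hA : IsRankOne A) (hA0 : ∃ ϖ : L, ϖ ≠ 0 ∧ ϖ ∈ A.nonunits) {e : F}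
    (he : D.Red e 1) (he' : D'.Red e 0) {frob : C →ₐ[k] C} {q : ℕ}
    (hfr : ∀ z, frob (T.σb z) = z ^ q) (hfr' : ∀ z, frob (T.σb' z) = z ^ q)
    (hperm : ∀ i, T.perm (T.perm i) = i) {m : ℕ} (hm : (m : k) ≠ 0) {X : Divisor L F}
    (hX : Divisor.degree X = 0) {g : F} (hg : g ≠ 0) (hdiv : divisorOf g = m • X)
    (hnorm : ∀ (G : F) (a b : C), divisorOf G = m • ((T.comp T).s • X - X) → D.Red G a →
      D'.Red G b → a ≠ 0 → b ≠ 0 →
        (∀ w, frob w = b ^ q → PowConst k m (a * w)) ∧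
        (∀ w, frob w = a ^ q → PowConst k m (b * w))) :
    ∃ f : F, f ≠ 0 ∧
      (T.comp T).s • ((T.comp T).s • ((T.comp T).s • X - X) - ((T.comp T).s • X - X))
        - q ^ 2 • ((T.comp T).s • ((T.comp T).s • X - X) - ((T.comp T).s • X - X))
          = divisorOf f := by
  have hσ : T.σb = T.σb' := RingEquiv.ext fun z =>
    frob.toRingHom.injective ((hfr z).trans (hfr' z).symm)
  have hτ : ∀ t, T.τ t = t ^ q := fun t => by
    refine (algebraMap k C).injective ?_
    rw [← frob.commutes (T.τ t), ← T.σb_algebraMap, hfr, map_pow]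
  set S := T.comp T with hS
  obtain ⟨t, z, ht, hz, hr⟩ := S.exists_red_smul_div D S.σb S.red hg
  obtain ⟨t', z', ht', hz', hr'⟩ := S.exists_red_smul_div D' S.σb' S.red' hg
  set a := algebraMap k C t * (S.σb z / z) with ha
  set b := algebraMap k C t' * (S.σb' z' / z') with hb
  have ha0 : a ≠ 0 := mul_ne_zero ((map_ne_zero _).2 ht) (div_ne_zero ((map_ne_zero _).2 hz) hz)
  have hb0 : b ≠ 0 :=
    mul_ne_zero ((map_ne_zero _).2 ht') (div_ne_zero ((map_ne_zero _).2 hz') hz')
  set G := toRingAut S.s g / g with hG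
  have hG0 : G ≠ 0 := div_ne_zero ((map_ne_zero _).2 hg) hg
  have hdivG : divisorOf G = m • (S.s • X - X) := by
    rw [hG, div_eq_mul_inv, divisorOf_mul ((map_ne_zero _).2 hg) (inv_ne_zero hg), divisorOf_inv,
      divisorOf_toRingAut, hdiv, smul_sub, smul_comm S.s, ← sub_eq_add_neg]
  obtain ⟨h₁, h₂⟩ := hnorm G a b hdivG hr hr' ha0 hb0
  have p₁ : PowConst k m (a * T.σb b) := h₁ _ (hfr b)
  have p₂ : PowConst k m (b * T.σb a) := h₂ _ (hfr a)
  have hσb0 : T.σb b ≠ 0 := (map_ne_zero _).2 hb0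
  have hσa0 : T.σb a ≠ 0 := (map_ne_zero _).2 ha0
  have pa : PowConst k m (S.σb a / a) := by
    have := (p₂.map T.σb T.τ T.σb_algebraMap).div p₁
    have e : S.σb a = T.σb (T.σb a) := rfl
    rw [map_mul] at this
    rwa [e, ← mul_div_mul_left (T.σb (T.σb a)) a hσb0, mul_comm (T.σb b) a]
  have pb : PowConst k m (S.σb' b / b) := by
    have := (p₁.map T.σb T.τ T.σb_algebraMap).div p₂
    have e : S.σb' b = T.σb (T.σb b) := by rw [hσ]; rfl
    rw [map_mul] at this
    rwa [e, ← mul_div_mul_left (T.σb (T.σb b)) b hσa0, mul_comm (T.σb a) b]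
  set Y := S.s • X - X with hY
  have hYdeg : Divisor.degree Y = 0 := by
    rw [hY, map_sub, SemilinearAut.degree_smul, hX, sub_zero]
  set Z := S.s • Y - Y with hZ
  have hZdeg : Divisor.degree Z = 0 := by
    rw [hZ, map_sub, SemilinearAut.degree_smul, hYdeg, sub_zero]
  have hdivG₂ : divisorOf (toRingAut S.s G / G) = m • Z := by
    rw [div_eq_mul_inv, divisorOf_mul ((map_ne_zero _).2 hG0) (inv_ne_zero hG0), divisorOf_inv,
      divisorOf_toRingAut, hdivG, smul_comm S.s, ← sub_eq_add_neg, ← smul_sub]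
  obtain ⟨h, hh0, hflat⟩ := exists_flat_of_powConst hA he he' hZdeg hdivG₂
    ((S.red _ _ hr).div hr ha0) ((S.red' _ _ hr').div hr' hb0) pa pb
  obtain ⟨f, hf0, hf⟩ := S.smul_sub_nsmul_principal hA hA0 (Q := q ^ 2) hperm
    (fun s => by
      show T.τ (T.τ s) = _
      rw [hτ, hτ, ← pow_mul, pow_two]) hm hflat
  refine ⟨f * (toRingAut S.s h / h ^ (q ^ 2)),
    mul_ne_zero hf0 (div_ne_zero ((map_ne_zero _).2 hh0) (pow_ne_zero _ hh0)), ?_⟩
  rw [divisorOf_mul hf0 (div_ne_zero ((map_ne_zero _).2 hh0) (pow_ne_zero _ hh0)), ← hf,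
    smul_sub S.s Z, smul_sub (q ^ 2)]
  ext v
  simp only [Finsupp.add_apply, Finsupp.sub_apply, Finsupp.smul_apply, divisorOf_apply,
    nsmul_eq_mul]
  rw [FunctionField.ord_div ((map_ne_zero _).2 hh0) (pow_ne_zero _ hh0), FunctionField.ord_pow,
    ← divisorOf_toRingAut S.s h, divisorOf_apply]
  have hZv : Z v = (S.s • Y) v - Y v := by rw [hZ]; rfl
  rw [hZv]
  ring

end NodeAut

end NodeSystem

end FLTAgent.Semistable
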