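import Fermat.Agent.Semistable.LevelAut

/-!
# The square of Frobenius fixes the crossings

At a crossing the values of rational functions regular off the cusps are fixed by the `q²`-th
power; those functions reduce to a spanning family of the functions regular off the cusps of the
residue field, which separate the places off the cusps.
-/

set_option autoImplicit false
set_option linter.style.haveILetI false
set_option linter.unusedSectionVars false
set_option synthInstance.maxHeartbeats 100000

noncomputable section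

open ModularCurve AlgebraicCurve IsLocalRing

namespace FLTAgent.Semistable

open FLTAgent.GoodRed FLTAgent.GoodRed.RedDatum FLTAgent.Hecke FLTAgent.FunctionField

local notation "Qbar" => AlgebraicClosure ℚ

local instance (priority := high) instAlgebraLaurentSubLevelAutFrob {K : Type*} [Field K]
    (F : IntermediateField K (LaurentSeries K)) : Algebra K F :=
  SubalgebraClass.toAlgebra F

variable {M : ℕ} [NeZero M] {q : ℕ} [Fact q.Prime]

local instance instNeZeroLevelAutFrob : NeZero q := ⟨(Fact.out : q.Prime).ne_zero⟩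

/-- A ring automorphism fixes series with coefficients in the prime field. -/
theorem coeffMap_castHom_fixed {k : Type*} [Field k] [CharP k q] (τ : k →+* k)
    (w : LaurentSeries (ZMod q)) :
    coeffMap τ (coeffMap (ZMod.castHom dvd_rfl k) w) = coeffMap (ZMod.castHom dvd_rfl k) w := by
  rw [coeffMap_coeffMap]
  exact coeffMap_congr (Subsingleton.elim _ _) w

variable {A : ValuationSubring (AlgebraicClosure ℚ)} (hA : A.LiesOverPrime q) (hqM : ¬ q ∣ M)
  [CharP (ResidueField A) q] [IsAlgClosed (ResidueField A)]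
  [IsFunctionField (ResidueField A) (modularFunctionFieldFullC (ResidueField A) M)]

set_option maxHeartbeats 1600000 in
-- the statement mentions several large fields
include hA hqM in
/-- An automorphism of the constants fixing `𝔽_{q²}` fixes every crossing. -/
theorem fullCAut_smul_crossing (R : PlaceRed (x0Datum A hA M hqM)) {g c : ℤ}
    (hL : RRLarge Qbar (MF Qbar M) g c)
    (hk : RRLarge (ResidueField A) (modularFunctionFieldFullC (ResidueField A) M) g c)
    (τ : ResidueField A ≃+* ResidueField A) (hτ : ∀ t, t ^ (q ^ 2) = t → τ t = t)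
    {x : Place (ResidueField A) (modularFunctionFieldFullC (ResidueField A) M)}
    (hx : x ∈ crossingSet A hA hqM) : fullCAut M τ • x = x := by
  classical
  by_contra hne
  set Φ := fullCAut M τ with hΦ
  set y := Φ • x
  set jb := x0Jb A hA M hqM
  set G := zeroDivisor (K := Qbar) (jMF Qbar M)⁻¹ with hGdef
  have hxj : 0 ≤ x.ord jb := hx.1
  have hyj : 0 ≤ y.ord jb := by
    show 0 ≤ y.ord jb
    rw [show jb = Φ • jb from (fullCAut_x0Jb hqM hA τ).symm, SemilinearAut.ord_smul]
    exact hxj
  have hj : (x0Datum A hA M hqM).Red (jMF Qbar M) jb := by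
    rw [jMF_eq_x0J hA hqM]; exact red_x0J A hA M hqM
  have hjb := transcendental_x0Jb A hA M hqM
  have hGx : Finsupp.mapDomain R.r G x = 0 := mapDomain_polar_j_apply hA hqM R hxj
  have hGy : Finsupp.mapDomain R.r G y = 0 := mapDomain_polar_j_apply hA hqM R hyj
  have hdeg : 1 ≤ Divisor.degree G := by
    have hX := transcendental_of_red hj hjb
    have e1 := degree_divisorOf (K := Qbar) (jMF Qbar M)
    rw [← zeroDivisor_sub_zeroDivisor_inv, map_sub, degree_zeroDivisor hX, sub_eq_zero] at e1
    rw [hGdef, ← e1]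
    have := finiteDimensional_adjoin_of_transcendental hX
    exact_mod_cast Module.finrank_pos
  set n := (c + 2).toNat
  have hn : c + 2 ≤ Divisor.degree (n • G) := by
    rw [map_nsmul, nsmul_eq_mul]
    have h1 : c + 2 ≤ (n : ℤ) := Int.self_le_toNat _
    nlinarith
  set Db := Finsupp.mapDomain R.r (n • G) - Finsupp.single x 1 with hDb
  obtain ⟨z, hz, hz0, hzy⟩ := hk.exists_ord_eq_neg (D := Db) (by
    rw [hDb, map_sub, degree_single_one, GoodRed.degree_mapDomain]; omega) y
  have hnx : Finsupp.mapDomain R.r (n • G) x = 0 := by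
    rw [Finsupp.mapDomain_smul, Finsupp.smul_apply, hGx, smul_zero]
  have hny : Finsupp.mapDomain R.r (n • G) y = 0 := by
    rw [Finsupp.mapDomain_smul, Finsupp.smul_apply, hGy, smul_zero]
  have hzy0 : y.ord z = 0 := by
    rw [hzy, hDb, Finsupp.sub_apply, hny, Finsupp.single_eq_of_ne hne]
    rfl
  have hzx : OrdGe x 1 z := by
    have h := mem_rr_iff.1 hz x
    rwa [hDb, Finsupp.sub_apply, hnx, Finsupp.single_eq_same, zero_sub, neg_neg] at h
  have hz' : z ∈ riemannRochSpace (Finsupp.mapDomain R.r (n • G)) :=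
    riemannRochSpace_mono (sub_le_self _ (Finsupp.single_nonneg.2 zero_le_one)) hz
  rw [← R.redSpace_eq hL hk (by omega)] at hz'
  obtain ⟨f, hf, hfz⟩ := hz'
  obtain ⟨r, u, hu, co, huV, hsum⟩ := exists_rational_red (K₀ := modularFunctionFieldFull M)
    (D := x0Datum A hA M hqM) (isResidueMap_residue A) hA
    (fun _ h => Igusa.modularFunctionFieldFull_le_boundedField q M h)
    (fun _ _ => x0_red_iff A hA M hqM) (arithmeticGalois_jMF M) hf hfz
  choose w hw hwu using fun i => exists_red_rat (K₀ := modularFunctionFieldFull M)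
    (D := x0Datum A hA M hqM) (isResidueMap_residue A) hA (fun _ _ => x0_red_iff A hA M hqM) (hu i)
  have hz2 : z = ∑ i, co i • w i := Subtype.ext (by
    rw [hsum, AddSubmonoidClass.coe_finsetSum]
    exact Finset.sum_congr rfl fun i _ => by
      rw [← hwu, smul_series, Algebra.smul_def]; rfl)
  have hwx : ∀ i, OrdGe x 0 (w i) := fun i => by
    have h := mem_rr_iff.1 (R.redSpace_le _ ⟨_, huV i, hw i⟩) x
    rwa [hnx, neg_zero] at h
  have hfix : ∀ i, SemilinearAut.toRingAut Φ (w i) = w i := fun i => Subtype.ext (by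
    rw [hΦ, coe_fullCAut, hwu]
    exact coeffMap_castHom_fixed _ _)
  have hwy : ∀ i, OrdGe y 0 (w i) := fun i => hfix i ▸ ordGe_smul.2 (hwx i)
  have hval : ∀ i, valAt y (w i) = valAt x (w i) := fun i => by
    conv_lhs => rw [← hfix i]
    rw [valAt_semilinear Φ (hwx i), hΦ, baseAut_fullCAut]
    exact hτ _ (crossing_value hA hqM R hx (v := ⟨u i, hu i, n, huV i⟩) (hw i)
      (valAt_spec (hwx i)))
  have hsmulx : ∀ i, OrdGe x 0 (co i • w i) := fun i => by
    rw [Algebra.smul_def]; simpa using (ordGe_algebraMap (v := x) (co i)).mul (hwx i)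
  have hsmuly : ∀ i, OrdGe y 0 (co i • w i) := fun i => by
    rw [Algebra.smul_def]; simpa using (ordGe_algebraMap (v := y) (co i)).mul (hwy i)
  have heq : valAt y z = valAt x z := by
    rw [hz2, valAt_sum _ fun i _ => hsmuly i, valAt_sum _ fun i _ => hsmulx i]
    exact Finset.sum_congr rfl fun i _ => by rw [valAt_smul _ (hwy i), valAt_smul _ (hwx i), hval]
  have h0 : valAt x z = 0 := valAt_eq (by rwa [map_zero, sub_zero])
  have h1 := valAt_spec (ordGe_of_le_ord (v := y) (n := 0) (f := z) hzy0.ge)
  rw [heq, h0, map_zero, sub_zero] at h1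
  have := h1.le_ord hz0
  omega

section crossData

local instance instAlgebraLevelAutFrob : Algebra (MF Qbar M) (MF Qbar (M * q)) :=
  algebraAlong (alphaMap Qbar M q)
local instance instScalarTowerLevelAutFrob : IsScalarTower Qbar (MF Qbar M) (MF Qbar (M * q)) :=
  isScalarTower_along (alphaMap Qbar M q)
local instance instFiniteLevelAutFrob : Module.Finite (MF Qbar M) (MF Qbar (M * q)) := finite_alongAlpha M (q := q)

variable {hA} {hqM} {ι : Type*} [Fintype ι]
  {X : CrossData (x0Datum A hA M hqM) (redInf A hA M hqM) (redZero A hA M hqM)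
    (frobC (K := ResidueField A) q M) q ι}
  (hfr : X.frP = frPlace q M) (hx : Set.range X.x = crossingSet A hA hqM)
  (hG₁ : ∀ σ : Qbar ≃ₐ[ℚ] Qbar, arithmeticGalois (L := Qbar) (modularFunctionFieldFull M) σ • X.G₁ = X.G₁)
  (hG₂ : ∀ σ : Qbar ≃ₐ[ℚ] Qbar, arithmeticGalois (L := Qbar) (modularFunctionFieldFull M) σ • X.G₂ = X.G₂)

/-- An element fixing `𝔽_{q²}` fixes every crossing. -/
theorem levelAut_perm_eq (g : A.decompositionSubgroup ℚ)
    (hg : ∀ t : ResidueField A, t ^ (q ^ 2) = t → residueAut g t = t) (i : ι) :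
    (levelAut hfr hx hG₁ hG₂ g).perm i = i :=
  X.x_inj ((x_levelAut_perm hfr hx hG₁ hG₂ g i).trans
    (fullCAut_smul_crossing hA hqM X.R X.hE X.hC (residueAut g) hg
      (hx ▸ Set.mem_range_self i)))

include hfr hx hG₁ hG₂ in
/-- The square of a Frobenius at `q` acts on the node system, fixing the crossings and raising the
constants to the power `q²`. -/
theorem exists_frobenius_sq_nodeAut {φ : Qbar ≃ₐ[ℚ] Qbar} (hφ : A.IsFrobeniusAt φ q) :
    ∃ T : NodeSystem.NodeAut X.nodeSystem,
      T.s = arithmeticGalois (L := Qbar) (modularFunctionFieldFull (M * q)) (φ * φ) ∧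
        (∀ t, T.τ t = t ^ (q ^ 2)) ∧ ∀ i, T.perm i = i := by
  set g : A.decompositionSubgroup ℚ :=
    ⟨φ, hφ.mem_decompositionSubgroup⟩ * ⟨φ, hφ.mem_decompositionSubgroup⟩
  have hg : ∀ t : ResidueField A, residueAut g t = t ^ (q ^ 2) := fun t => by
    show g • t = _
    rw [mul_smul, hφ.smul_residue_eq, hφ.smul_residue_eq, ← pow_mul, ← pow_two]
  exact ⟨levelAut hfr hx hG₁ hG₂ g, rfl, fun t => hg t,
    levelAut_perm_eq hfr hx hG₁ hG₂ g fun t ht => (hg t).trans ht⟩

end crossData

end FLTAgent.Semistable
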