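import Fermat.Agent.GoodRed.X0All
import Fermat.Agent.Genus.GenusFF
import Fermat.Agent.Hecke.PsiMul

/-!
# The genus of level `M q` against twice that of level `M`
-/

set_option autoImplicit false
set_option linter.style.haveILetI false
set_option linter.unusedSectionVars false
set_option synthInstance.maxHeartbeats 100000

noncomputable section

open ModularCurve AlgebraicCurve IsLocalRing

namespace FLTAgent.Semistable

open FLTAgent.FunctionField FLTAgent.GoodRed

theorem cuspCount_mul_prime {M q : ℕ} [NeZero M] (hq : q.Prime) (h : ¬ q ∣ M) :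
    cuspCount (M * q) = 2 * cuspCount M := by
  classical
  have hM := NeZero.ne M
  have hq0 := hq.ne_zero
  have hc : ∀ d, d ∣ M → Nat.Coprime q d := fun d hd =>
    hq.coprime_iff_not_dvd.2 fun hqd => h (hqd.trans hd)
  have hdis : Disjoint M.divisors (M.divisors.image (· * q)) := by
    rw [Finset.disjoint_left]
    intro a ha hb
    obtain ⟨b, -, rfl⟩ := Finset.mem_image.1 hb
    exact h ((dvd_mul_left q b).trans (Nat.mem_divisors.1 ha).1)
  have hun : (M * q).divisors = M.divisors ∪ M.divisors.image (· * q) := by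
    ext d
    simp only [Nat.mem_divisors, Finset.mem_union, Finset.mem_image, ne_eq, mul_eq_zero]
    constructor
    · rintro ⟨hd, -⟩
      by_cases hqd : q ∣ d
      · obtain ⟨b, rfl⟩ := hqd
        refine Or.inr ⟨b, ⟨?_, hM⟩, mul_comm b q⟩
        rw [mul_comm M q] at hd
        exact Nat.dvd_of_mul_dvd_mul_left hq.pos hd
      · exact Or.inl ⟨(hq.coprime_iff_not_dvd.2 hqd).symm.dvd_of_dvd_mul_right hd, hM⟩
    · rintro (⟨hd, -⟩ | ⟨b, ⟨hb, -⟩, rfl⟩)
      · exact ⟨hd.trans (dvd_mul_right M q), by tauto⟩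
      · exact ⟨mul_dvd_mul_right hb q, by tauto⟩
  rw [cuspCount, cuspCount, hun, Finset.sum_union hdis,
    Finset.sum_image fun a _ b _ hab => mul_right_cancel₀ hq0 hab, two_mul]
  congr 1
  · refine Finset.sum_congr rfl fun d hd => ?_
    have hd' := (Nat.mem_divisors.1 hd).1
    rw [Nat.mul_div_right_comm hd']
    exact congrArg Nat.totient (Nat.Coprime.gcd_mul_right_cancel_right (M / d) (hc d hd'))
  · refine Finset.sum_congr rfl fun d hd => ?_
    have hd' := (Nat.mem_divisors.1 hd).1
    rw [Nat.mul_div_mul_right _ _ hq.pos]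
    exact congrArg Nat.totient (Nat.Coprime.gcd_mul_right_cancel d
      (hc (M / d) (Nat.div_dvd_of_dvd hd')))

theorem nuTwo_mul_eq_zero {M q : ℕ} [NeZero M] [NeZero q] (h : nuTwo M = 0) :
    nuTwo (M * q) = 0 := by
  unfold nuTwo at h ⊢
  rw [Nat.card_eq_zero] at h ⊢
  refine Or.inl ⟨fun x => ?_⟩
  rcases h with h | h
  · refine h.elim ⟨ZMod.castHom (dvd_mul_right M q) (ZMod M) x.1, ?_⟩
    rw [← map_pow, ← map_one (ZMod.castHom (dvd_mul_right M q) (ZMod M)), ← map_add, x.2, map_zero]
  · exact h.not_finite (Finite.of_injective _ Subtype.val_injective)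

theorem nuThree_mul_eq_zero {M q : ℕ} [NeZero M] [NeZero q] (h : nuThree M = 0) :
    nuThree (M * q) = 0 := by
  unfold nuThree at h ⊢
  rw [Nat.card_eq_zero] at h ⊢
  refine Or.inl ⟨fun x => ?_⟩
  rcases h with h | h
  · refine h.elim ⟨ZMod.castHom (dvd_mul_right M q) (ZMod M) x.1, ?_⟩
    rw [← map_pow, ← map_one (ZMod.castHom (dvd_mul_right M q) (ZMod M)), ← map_add, ← map_add,
      x.2, map_zero]
  · exact h.not_finite (Finite.of_injective _ Subtype.val_injective)

/-- Riemann-Roch in large degree with the repartition genus. -/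
theorem exists_rrLarge_genusFF (K F : Type*) [Field K] [IsAlgClosed K] [Field F] [Algebra K F]
    [IsFunctionField K F] :
    ∃ d : ℕ, ∀ c : ℤ, (d : ℤ) ≤ c → RRLarge K F (genusFF K F : ℤ) c := by
  obtain ⟨d, hd⟩ := exists_forall_finrank_H1_eq_zero (K := K) (F := F)
  exact ⟨d.toNat, fun c hc W hW => finrank_rr_eq_add K W (hd W (by omega))⟩

/-- The genus inequality of the node system, from a bound on the number of crossings. -/
theorem genus_le_of_count {M q : ℕ} [NeZero M] (hq : q.Prime) (hqM : ¬ q ∣ M)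
    (h2 : nuTwo M = 0) (h3 : nuThree M = 0) {n : ℕ}
    (hn : (q - 1) * dedekindPsi M ≤ 12 * n) [NeZero (M * q)] :
    (genusFF (AlgebraicClosure ℚ) (modularFunctionFieldBar (M * q)) : ℤ) ≤
      (genusFF (AlgebraicClosure ℚ) (modularFunctionFieldBar M) : ℤ) +
        genusFF (AlgebraicClosure ℚ) (modularFunctionFieldBar M) + n - 1 := by
  haveI : NeZero q := ⟨hq.ne_zero⟩
  have e1 := Genus.genusFF_eq_genusFormula (M * q)
  have e2 := Genus.genusFF_eq_genusFormula M
  rw [genusFormula] at e1 e2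
  rw [nuTwo_mul_eq_zero h2, nuThree_mul_eq_zero h3, cuspCount_mul_prime hq hqM,
    Hecke.dedekindPsi_mul_prime_of_not_dvd (NeZero.ne M) hq hqM] at e1
  rw [h2, h3] at e2
  have hn' : (((q - 1) * dedekindPsi M : ℕ) : ℚ) ≤ ((12 * n : ℕ) : ℚ) := Nat.cast_le.2 hn
  rw [Nat.cast_mul, Nat.cast_sub hq.one_lt.le, Nat.cast_one, Nat.cast_mul, Nat.cast_ofNat] at hn'
  push_cast at e1 e2
  have : ((genusFF (AlgebraicClosure ℚ) (modularFunctionFieldBar (M * q)) : ℤ) : ℚ) ≤
      (((genusFF (AlgebraicClosure ℚ) (modularFunctionFieldBar M) : ℤ) +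
        genusFF (AlgebraicClosure ℚ) (modularFunctionFieldBar M) + n - 1 : ℤ) : ℚ) := by
    push_cast
    rw [e1, e2]
    linarith
  exact_mod_cast this

end FLTAgent.Semistable
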