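import Fermat.Agent.Semistable.PairRed

/-!
# Congruences for a reduction datum

`Close D c y z` says that `y - z` is `c` times an integral element.
-/

set_option autoImplicit false
set_option linter.unusedSectionVars false

noncomputable section

namespace FLTAgent.Semistable

open FLTAgent.GoodRed FLTAgent.GoodRed.RedDatum

variable {L k : Type*} [Field L] [Field k] {A : ValuationSubring L} {π : A →+* k}
  {F C C' : Type*} [Field F] [Algebra L F] [Field C] [Algebra k C] [Field C'] [Algebra k C']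
  {D : RedDatum A π F C} {D' : RedDatum A π F C'}

theorem PTors.smul_mem (D : RedDatum A π F C) (a : A) {y : F} (h : y ∈ D.V) :
    (a : L) • y ∈ D.V := by
  rw [Algebra.smul_def]
  exact mul_mem ((D.mem_iff _).2 a.2) h

theorem PTors.dvd_of_le {a b : A} (h : A.valuation (b : L) ≤ A.valuation (a : L)) : a ∣ b := by
  rcases eq_or_ne (a : L) 0 with h0 | h0
  · rw [h0, map_zero, le_zero_iff, Valuation.zero_iff] at h
    exact ⟨0, Subtype.ext (by simp [h])⟩
  refine ⟨⟨(b : L) / a, (A.valuation_le_one_iff _).1 ?_⟩, Subtype.ext ?_⟩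
  · rw [map_div₀]; exact div_le_one_of_le₀ h zero_le
  · exact (mul_div_cancel₀ _ h0).symm

theorem PTors.le_of_dvd {a b : A} (h : a ∣ b) : A.valuation (b : L) ≤ A.valuation (a : L) := by
  obtain ⟨c, rfl⟩ := h
  rw [MulMemClass.coe_mul, map_mul]
  exact mul_le_of_le_one_right' (A.valuation_le_one c)

/-- `y ≡ z` modulo `c`. -/
def Close (D : RedDatum A π F C) (c : A) (y z : F) : Prop := ∃ w ∈ D.V, y - z = (c : L) • w

namespace Close

variable {c d : A} {y z u y' z' : F}

theorem refl (y : F) : Close D c y y := ⟨0, zero_mem _, by simp⟩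

theorem symm (h : Close D c y z) : Close D c z y := by
  obtain ⟨w, hw, e⟩ := h
  exact ⟨-w, neg_mem hw, by rw [smul_neg, ← e, neg_sub]⟩

theorem trans (h : Close D c y z) (h' : Close D c z u) : Close D c y u := by
  obtain ⟨w, hw, e⟩ := h
  obtain ⟨w', hw', e'⟩ := h'
  exact ⟨w + w', add_mem hw hw', by rw [smul_add, ← e, ← e', sub_add_sub_cancel]⟩

theorem mono (hcd : c ∣ d) (h : Close D d y z) : Close D c y z := by
  obtain ⟨e, rfl⟩ := hcd
  obtain ⟨w, hw, he⟩ := h
  exact ⟨(e : L) • w, PTors.smul_mem D e hw, by rw [he, smul_smul, MulMemClass.coe_mul]⟩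

theorem add (h : Close D c y z) (h' : Close D c y' z') : Close D c (y + y') (z + z') := by
  obtain ⟨w, hw, e⟩ := h
  obtain ⟨w', hw', e'⟩ := h'
  exact ⟨w + w', add_mem hw hw', by rw [smul_add, ← e, ← e']; abel⟩

theorem neg (h : Close D c y z) : Close D c (-y) (-z) := by
  obtain ⟨w, hw, e⟩ := h
  exact ⟨-w, neg_mem hw, by rw [smul_neg, ← e]; abel⟩

theorem sub (h : Close D c y z) (h' : Close D c y' z') : Close D c (y - y') (z - z') := by
  simpa [sub_eq_add_neg] using h.add h'.neg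

theorem mul_right (h : Close D c y z) (hu : u ∈ D.V) : Close D c (y * u) (z * u) := by
  obtain ⟨w, hw, e⟩ := h
  exact ⟨w * u, mul_mem hw hu, by rw [← smul_mul_assoc, ← e, sub_mul]⟩

theorem mul_left (hu : u ∈ D.V) (h : Close D c y z) : Close D c (u * y) (u * z) := by
  simpa [mul_comm u] using h.mul_right hu

theorem mem_of_mem (h : Close D c y z) (hz : z ∈ D.V) : y ∈ D.V := by
  obtain ⟨w, hw, e⟩ := h
  rw [show y = z + (c : L) • w by rw [← e]; abel]
  exact add_mem hz (PTors.smul_mem D c hw)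

theorem mul (h : Close D c y z) (h' : Close D c y' z') (hy' : y' ∈ D.V) (hz : z ∈ D.V) :
    Close D c (y * y') (z * z') :=
  (h.mul_right hy').trans (h'.mul_left hz)

theorem pow (h : Close D c y z) (hz : z ∈ D.V) (n : ℕ) : Close D c (y ^ n) (z ^ n) := by
  induction n with
  | zero => simpa using refl (D := D) (c := c) (1 : F)
  | succ n ih => simpa [pow_succ] using ih.mul h (h.mem_of_mem hz) (pow_mem hz n)

theorem sum {ι : Type*} (s : Finset ι) {f g : ι → F} (h : ∀ i ∈ s, Close D c (f i) (g i)) :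
    Close D c (∑ i ∈ s, f i) (∑ i ∈ s, g i) := by
  classical
  induction s using Finset.induction with
  | empty => simpa using refl (D := D) (c := c) (0 : F)
  | insert a s ha ih =>
    rw [Finset.sum_insert ha, Finset.sum_insert ha]
    exact (h a (Finset.mem_insert_self a s)).add (ih fun i hi => h i (Finset.mem_insert_of_mem hi))

theorem mem_smul {a : F} (ha : a ∈ D.V) : Close D c ((c : L) • a) 0 := ⟨a, ha, by simp⟩

theorem smul_left (e : A) (h : Close D c y z) :
    Close D (e * c) ((e : L) • y) ((e : L) • z) := by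
  obtain ⟨w, hw, he⟩ := h
  exact ⟨w, hw, by rw [← smul_sub, he, smul_smul, MulMemClass.coe_mul]⟩

theorem zero_smul_mul (h : Close D c y 0) (h' : Close D d y' 0) : Close D (c * d) (y * y') 0 := by
  obtain ⟨w, hw, e⟩ := h
  obtain ⟨w', hw', e'⟩ := h'
  rw [sub_zero] at e e'
  exact ⟨w * w', mul_mem hw hw', by
    rw [sub_zero, e, e', smul_mul_assoc, mul_smul_comm, smul_smul, MulMemClass.coe_mul]⟩

theorem zero_pow (h : Close D c y 0) (n : ℕ) : Close D (c ^ n) (y ^ n) 0 := by
  obtain ⟨w, hw, e⟩ := h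
  rw [sub_zero] at e
  exact ⟨w ^ n, pow_mem hw n, by rw [sub_zero, e, smul_pow, SubmonoidClass.coe_pow]⟩

theorem red (h : Close D c y z) (hc : (c : L) ∈ A.nonunits) {b : C} (hz : D.Red z b) :
    D.Red y b := by
  obtain ⟨w, hw, e⟩ := h
  obtain ⟨v, hv⟩ := exists_red hw
  have h1 := red_smul c hv
  rw [(D.isResidue.eq_zero_iff _).2 hc, zero_smul, ← e] at h1
  simpa using hz.add h1

/-- Cancellation of a unit. -/
theorem of_mul_right (h : Close D c (y * u) (z * u)) {b : C} (hu : D.Red u b) (hb : b ≠ 0) :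
    Close D c y z := by
  simpa [mul_assoc, mul_inv_cancel₀ (hu.ne_zero hb)] using h.mul_right (hu.inv hb).mem

theorem inv (h : Close D c y z) (hc : (c : L) ∈ A.nonunits) {b : C} (hz : D.Red z b)
    (hb : b ≠ 0) : Close D c y⁻¹ z⁻¹ := by
  have hy := h.red hc hz
  refine of_mul_right (u := y * z) ?_ (hy.mul hz) (mul_ne_zero hb hb)
  rw [inv_mul_cancel_left₀ (hy.ne_zero hb),
    show z⁻¹ * (y * z) = y by rw [mul_comm y, inv_mul_cancel_left₀ (hz.ne_zero hb)]]
  exact h.symm

end Close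

theorem exists_close_zero (D : RedDatum A π F C) {ϖ : A} (hϖ : (ϖ : L) ∈ A.nonunits)
    {y : F} (hy : D.Red y 0) : ∃ c : A, (c : L) ∈ A.nonunits ∧ Close D c y 0 := by
  rcases eq_or_ne y 0 with rfl | hy0
  · exact ⟨ϖ, hϖ, Close.refl 0⟩
  obtain ⟨c, -, hcn, w, z, -, hw, rfl⟩ := exists_eq_nonunit_smul D hy hy0
  exact ⟨c, hcn, Close.mem_smul hw.mem⟩

theorem exists_pow_dvd (hA : IsRankOne A) {c N : A} (hc : (c : L) ∈ A.nonunits)
    (hN : (N : L) ≠ 0) : ∃ n : ℕ, N ∣ c ^ n := by
  obtain ⟨n, hn⟩ := hA (N : L) (c : L) hN hc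
  exact ⟨n, PTors.dvd_of_le (by rwa [SubmonoidClass.coe_pow, map_pow])⟩

/-- Idempotents separating the two data to any precision. -/
theorem exists_sharp_idempotent (hA : IsRankOne A) {e₀ : F} (he : D.Red e₀ 1)
    (he' : D'.Red e₀ 0) {N : A} (hN : (N : L) ≠ 0) (hNn : (N : L) ∈ A.nonunits) :
    ∃ e : F, Close D N e 1 ∧ Close D' N e 0 := by
  obtain ⟨c, hc, hclose⟩ := exists_close_zero D hNn (y := 1 - e₀) (by simpa using red_one.sub he)
  obtain ⟨c', hc', hclose'⟩ := exists_close_zero D' hNn he'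
  obtain ⟨n, hn⟩ := exists_pow_dvd hA hc hN
  obtain ⟨n', hn'⟩ := exists_pow_dvd hA hc' hN
  set m := n + n'
  refine ⟨1 - (1 - e₀ ^ m) ^ m, ?_, ?_⟩
  · have hfac : Close D c (1 - e₀ ^ m) 0 := by
      have h1 := hclose.mul_right (u := ∑ i ∈ Finset.range m, e₀ ^ i)
        (sum_mem fun i _ => pow_mem he.mem i)
      rwa [zero_mul, mul_comm, geom_sum_mul_neg] at h1
    have := ((hfac.zero_pow m).mono (dvd_trans hn (pow_dvd_pow c (by omega)))).neg.add
      (Close.refl (1 : F))
    simpa [sub_eq_neg_add] using this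
  · have hx : Close D' N (e₀ ^ m) 0 :=
      (hclose'.zero_pow m).mono (dvd_trans hn' (pow_dvd_pow c' (by omega)))
    have h1 := (Close.refl (D := D') (c := N) (1 : F)).sub hx
    rw [sub_zero] at h1
    have h2 := (Close.refl (D := D') (c := N) (1 : F)).sub (h1.pow (one_mem _) m)
    simpa using h2

end FLTAgent.Semistable
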