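import Fermat.Agent.Semistable.OneSide
import Fermat.Agent.Semistable.PTorsClose
import Mathlib.LinearAlgebra.Matrix.SchurComplement
import Mathlib.RingTheory.Trace.Basic
import Mathlib.RingTheory.Ideal.Quotient.Operations

/-!
# The norm along a degeneracy map separates the two components

Up to any precision the norm of an element congruent to one on the second component is the element
itself on the first, and the norm of `1 + c g` with `g` small on the first component is congruent to
one modulo `c γ` for a fixed nonunit `γ`, the second component being purely inseparable over `E`.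
-/

set_option autoImplicit false
set_option linter.unusedSectionVars false

noncomputable section

open Polynomial

namespace FLTAgent.Semistable

open FLTAgent.GoodRed FLTAgent.GoodRed.RedDatum

variable {L k : Type*} [Field L] [Field k] {A : ValuationSubring L} {π : A →+* k}
  {E F C : Type*} [Field E] [Algebra L E] [Field F] [Algebra L F] [Algebra E F]
  [IsScalarTower L E F] [Field C] [Algebra k C]
  {DE : RedDatum A π E C} {D D' : RedDatum A π F C} {frob : C →ₐ[k] C} {q : ℕ}

theorem algebraMap_smul_tower (a : L) (u : E) :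
    algebraMap E F (a • u) = a • algebraMap E F u := by
  rw [Algebra.smul_def, map_mul, ← IsScalarTower.algebraMap_apply, ← Algebra.smul_def]

namespace OneSide

variable (hS : OneSide DE D D' frob q)
include hS

/-- The trace of a purely inseparable extension of degree `q` vanishes. -/
theorem trace_frb_eq_zero [CharP C q] (hw : ∀ z : C, ∃ w, frob w = z ^ q) (b : Frb frob) :
    Algebra.trace C (Frb frob) b = 0 := by
  have := hS.finiteDimensional_frb
  by_cases hb : b ∈ Set.range (algebraMap C (Frb frob))
  · obtain ⟨c, rfl⟩ := hb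
    rw [Algebra.trace_algebraMap, hS.degree_frob, nsmul_eq_mul, CharP.cast_eq_zero, zero_mul]
  obtain ⟨w, hw'⟩ := hw ((toFrb frob).symm b)
  have hpow : b ^ q = algebraMap C (Frb frob) w := by
    rw [algebraMap_frb, hw', map_pow, RingEquiv.apply_symm_apply]
  have hint : IsIntegral C b := IsIntegral.of_finite C b
  have hdeg : (minpoly C b).natDegree = q := by
    have h := minpoly.degree_dvd hint
    rw [hS.degree_frob] at h
    rcases hS.prime.eq_one_or_self_of_dvd _ h with h1 | h1
    · exact absurd (minpoly.natDegree_eq_one_iff.1 h1) hb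
    · exact h1
  have hmin : minpoly C b = X ^ q - Polynomial.C w := by
    refine Polynomial.eq_of_monic_of_dvd_of_natDegree_le (minpoly.monic hint)
      (monic_X_pow_sub_C w hS.prime.ne_zero) (minpoly.dvd _ _ (by simp [hpow])) ?_ |>.symm
    rw [hdeg, natDegree_X_pow_sub_C]
  rw [trace_eq_finrank_mul_minpoly_nextCoeff, hmin,
    nextCoeff_of_natDegree_pos (by rw [natDegree_X_pow_sub_C]; exact hS.prime.pos),
    natDegree_X_pow_sub_C, coeff_sub, coeff_X_pow, if_neg (by have := hS.prime.pos; omega),
    coeff_C_ne_zero (by have := hS.prime.two_le; omega), sub_zero, neg_zero, mul_zero]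

/-- The trace of an integral element reduces to its reduction on the first component. -/
theorem red_trace [CharP C q] (hw : ∀ z : C, ∃ w, frob w = z ^ q) {g : F} {a b : C}
    (ha : D.Red g a) (hb : D'.Red g b) : DE.Red (Algebra.trace E F g) a := by
  classical
  obtain ⟨B, e, M, hM, hMb⟩ := hS.exists_matrix ha hb
  have h1 : Algebra.trace E F g = (M.trace : E) := by
    rw [Algebra.trace_eq_matrix_trace B, ← hM]
    simp [Matrix.trace]
  rw [h1, red_iff, AddMonoidHom.map_trace, hMb, Matrix.trace, Fintype.sum_sum_type]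
  simp only [Matrix.diag_apply, Matrix.fromBlocks_apply₁₁, Matrix.fromBlocks_apply₂₂,
    Matrix.of_apply, Finset.sum_const, Finset.card_univ, Fintype.card_fin, one_smul]
  rw [show ∑ i, Algebra.leftMulMatrix e (toFrb frob b) i i
      = Algebra.trace C (Frb frob) (toFrb frob b) from
    (Algebra.trace_eq_matrix_trace e (toFrb frob b)).symm, hS.trace_frb_eq_zero hw, add_zero]

/-- `N (1 + c g) ≡ 1 + c tr g` modulo `c ^ 2`. -/
theorem norm_one_add_smul {g : F} {a b : C} (ha : D.Red g a) (hb : D'.Red g b) (c : A) :
    Close DE (c * c) (Algebra.norm E (1 + (c : L) • g))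
      (1 + (c : L) • Algebra.trace E F g) := by
  classical
  obtain ⟨B, e, M, hM, -⟩ := hS.exists_matrix ha hb
  set cE : DE.V := ⟨algebraMap L E c, (DE.mem_iff _).2 c.2⟩ with hcE
  have hmat : (1 + cE • M).map DE.V.subtype = Algebra.leftMulMatrix B (1 + (c : L) • g) := by
    rw [map_add, map_one]
    have hc : (c : L) • g = algebraMap E F (algebraMap L E c) * g := by
      rw [← IsScalarTower.algebraMap_apply, ← Algebra.smul_def]
    rw [hc, ← Algebra.smul_def, map_smul, ← hM]
    ext i j
    by_cases hij : i = j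
    · subst hij; simp [hcE, Matrix.smul_apply]; exact (Algebra.smul_def _ _).symm
    · simp [hcE, Matrix.smul_apply, Matrix.one_apply_ne hij]; exact (Algebra.smul_def _ _).symm
  have h1 : Algebra.norm E (1 + (c : L) • g) = ((1 + cE • M).det : E) := by
    rw [Algebra.norm_eq_matrix_det B, ← hmat, ← RingHom.mapMatrix_apply, ← RingHom.map_det]
    rfl
  have h2 : Algebra.trace E F g = (M.trace : E) := by
    rw [Algebra.trace_eq_matrix_trace B, ← hM]
    simp [Matrix.trace]
  rw [h1, h2, Matrix.det_one_add_smul]
  set r : DE.V := eval cE (1 + (X : DE.V[X]) • M.map Polynomial.C).det.divX.divX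
  refine ⟨(r : E), r.2, ?_⟩
  rw [← DE.V.subtype_apply, map_add, map_add, map_mul, map_mul, map_pow, map_one]
  simp only [hcE, Algebra.smul_def, map_mul, ValuationSubring.subtype_apply, MulMemClass.coe_mul]
  ring

/-- A basis adapted to a sharp idempotent `e`. -/
theorem exists_adapted_basis {N : A} (hN : (N : L) ∈ A.nonunits) {e : F} (he : Close D N e 1)
    (he' : Close D' N e 0) :
    ∃ (B : Module.Basis (Fin 1 ⊕ Fin q) E F) (bv : Fin 1 ⊕ Fin q → C),
      B (Sum.inl 0) = e ∧
      (∀ i, D.Red (B i) (Sum.elim (fun _ => (1 : C)) (fun _ => 0) i)) ∧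
      (∀ i, D'.Red (B i) (bv i)) ∧
      PairIndep frob (Sum.elim (fun _ => (1 : C)) (fun _ : Fin q => 0)) bv ∧
      (∀ i, Close D N (B (Sum.inr i)) 0) := by
  classical
  have := hS.finiteDimensional_frb
  have := hS.finiteDimensional
  obtain ⟨e₀, he₀, he₀'⟩ := hS.sep
  let eC := Module.finBasisOfFinrankEq C (Frb frob) hS.degree_frob
  let av : Fin 1 ⊕ Fin q → C := Sum.elim (fun _ => 1) fun _ => 0
  let bv : Fin 1 ⊕ Fin q → C := Sum.elim (fun _ => 0) fun i => (toFrb frob).symm (eC i)
  choose w hw hw' using fun i : Fin q =>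
    exists_pair_lift hS.rankOne he₀ he₀' (0 : C) ((toFrb frob).symm (eC i))
  let y : Fin 1 ⊕ Fin q → F := Sum.elim (fun _ => e) fun i => (1 - e) * w i
  have her : D.Red e 1 := he.red hN red_one
  have her' : D'.Red e 0 := he'.red hN red_zero
  have hy : ∀ i, D.Red (y i) (av i) := by
    rintro (i | i)
    · exact her
    · simpa [y, av] using (red_one.sub her).mul (hw i)
  have hy' : ∀ i, D'.Red (y i) (bv i) := by
    rintro (i | i)
    · exact her'
    · simpa [y, bv] using (red_one.sub her').mul (hw' i)
  have hind : PairIndep frob av bv := by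
    intro c h1 h2 i
    rw [Fintype.sum_sum_type] at h1 h2
    simp [av] at h1
    simp only [bv, Sum.elim_inl, Sum.elim_inr, mul_zero, Finset.sum_const_zero, zero_add] at h2
    have h3 : (toFrb frob).symm (∑ i, c (Sum.inr i) • eC i) = 0 := by
      rw [map_sum, ← h2]
      exact Finset.sum_congr rfl fun i _ => rfl
    rw [EmbeddingLike.map_eq_zero_iff] at h3
    rcases i with i | i
    · rw [Subsingleton.elim i 0]; exact h1
    · exact Fintype.linearIndependent_iff.1 eC.linearIndependent (fun i => c (Sum.inr i)) h3 i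
  have : Nonempty (Fin 1 ⊕ Fin q) := ⟨Sum.inl 0⟩
  let B := basisOfLinearIndependentOfCardEqFinrank (hS.linearIndependent hy hy' hind)
    (by rw [Fintype.card_sum, Fintype.card_fin, Fintype.card_fin, hS.degree, add_comm])
  have hB : ∀ i, B i = y i := fun i => by
    simp only [B, coe_basisOfLinearIndependentOfCardEqFinrank]
  refine ⟨B, bv, hB _, fun i => by rw [hB]; exact hy i, fun i => by rw [hB]; exact hy' i, hind,
    fun i => ?_⟩
  rw [hB]
  have := ((Close.refl (D := D) (c := N) (1 : F)).sub he).mul_right (hw i).mem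
  simpa [y] using this

/-- Coordinates of a small element in an adapted basis are small. -/
theorem repr_close {ι : Type*} [Fintype ι] (B : Module.Basis ι E F) {av bv : ι → C}
    (hy : ∀ i, D.Red (B i) (av i)) (hy' : ∀ i, D'.Red (B i) (bv i))
    (hind : PairIndep frob av bv) {c : A} {x : F} (hx : Close D c x 0) (hx' : Close D' c x 0)
    (i : ι) : Close DE c (B.repr x i) 0 := by
  rcases eq_or_ne (c : L) 0 with h0 | h0
  · obtain ⟨w, -, e⟩ := hx
    rw [sub_zero, h0, zero_smul] at e
    rw [e, map_zero]
    exact Close.refl 0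
  obtain ⟨w, hw, e⟩ := hx
  obtain ⟨w', hw', e'⟩ := hx'
  rw [sub_zero] at e e'
  have hww : w = w' := smul_right_injective F h0 (e.symm.trans e')
  subst hww
  have hsum : ∑ i, algebraMap E F (B.repr w i) * B i = w := by
    simp only [← Algebra.smul_def, B.sum_repr]
  have hcoord := hS.coeff_mem hy hy' hind (c := fun i => B.repr w i) (by rwa [hsum])
    (by rwa [hsum]) i
  refine ⟨B.repr w i, hcoord, ?_⟩
  have hlin : B.repr ((c : L) • w) i = (c : L) • B.repr w i := by
    rw [← algebraMap_smul E (c : L) w, map_smul, Finsupp.smul_apply, algebraMap_smul]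
  rw [sub_zero, e, hlin]

/-- Close elements of `E` stay close in `F`. -/
theorem close_algebraMap {c : A} {u v : E} (h : Close DE c u v) :
    Close D c (algebraMap E F u) (algebraMap E F v) ∧
      Close D' c (algebraMap E F u) (algebraMap E F v) := by
  obtain ⟨w, hw, e⟩ := h
  obtain ⟨z, hz⟩ := exists_red hw
  exact ⟨⟨_, (hS.red _ _ hz).mem, by rw [← map_sub, e, algebraMap_smul_tower]⟩,
    ⟨_, (hS.red' _ _ hz).mem, by rw [← map_sub, e, algebraMap_smul_tower]⟩⟩

/-- Closeness on the first component descends to `E`. -/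
theorem close_of_algebraMap {c : A} {u : E} (h : Close D c (algebraMap E F u) 0) :
    Close DE c u 0 := by
  rcases eq_or_ne (c : L) 0 with h0 | h0
  · obtain ⟨w, -, e⟩ := h
    rw [sub_zero, h0, zero_smul, map_eq_zero] at e
    rw [e]; exact Close.refl 0
  obtain ⟨w, hw, e⟩ := h
  rw [sub_zero] at e
  refine ⟨(c : L)⁻¹ • u, ?_, by rw [sub_zero, smul_smul, mul_inv_cancel₀ h0, one_smul]⟩
  by_contra hn
  have hinv : ((c : L)⁻¹ • u)⁻¹ ∈ DE.V.nonunits := by
    rw [ValuationSubring.inv_mem_nonunits_iff]; exact Or.inr hn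
  obtain ⟨z, hz⟩ := exists_red (DE.V.nonunits_subset hinv)
  obtain rfl : z = 0 := hz.eq_zero_iff.2 hinv
  obtain ⟨z', hz'⟩ := exists_red hw
  have h1 := (hS.red _ _ hz).mul hz'
  rw [zero_mul, map_inv₀, algebraMap_smul_tower, e, smul_smul, inv_mul_cancel₀ h0, one_smul]
    at h1
  have hw0 : w ≠ 0 := fun hw0 => hn (by
    rw [hw0, smul_zero, map_eq_zero] at e
    rw [e, smul_zero]; exact zero_mem _)
  rw [inv_mul_cancel₀ hw0] at h1
  exact one_ne_zero (red_one.unique h1)

/-- On the first component the norm of an element congruent to one on the second is itself. -/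
theorem norm_close {N : A} (hN : (N : L) ∈ A.nonunits) {e : F} (he : Close D N e 1)
    (he' : Close D' N e 0) {f : F} {a : C} (ha : D.Red f a) (hf : Close D' N f 1) :
    Close D N (algebraMap E F (Algebra.norm E f)) f := by
  classical
  have := hS.finiteDimensional
  obtain ⟨B, bv, hBe, hy, hy', hind, hsmall⟩ := hS.exists_adapted_basis hN he he'
  set x := f - 1 with hx
  have hxD : x ∈ D.V := (ha.sub red_one).mem
  have hxD' : Close D' N x 0 := by simpa [hx] using hf.sub (Close.refl (1 : F))
  have hxV' : x ∈ D'.V := hxD'.mem_of_mem (zero_mem _)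
  set M := Algebra.leftMulMatrix B x with hM
  have hMmem : ∀ i j, M i j ∈ DE.V := fun i j => by
    rw [hM, Algebra.leftMulMatrix_eq_repr_mul]
    refine hS.coeff_mem hy hy' hind (c := fun i => B.repr (x * B j) i) ?_ ?_ i
    · simp only [← Algebra.smul_def, B.sum_repr]; exact mul_mem hxD (hy j).mem
    · simp only [← Algebra.smul_def, B.sum_repr]; exact mul_mem hxV' (hy' j).mem
  have hMsmall : ∀ i j, Close DE N (M i (Sum.inr j)) 0 := fun i j => by
    rw [hM, Algebra.leftMulMatrix_eq_repr_mul]
    refine hS.repr_close B hy hy' hind ?_ ?_ i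
    · simpa using (hsmall j).mul_left hxD
    · simpa using hxD'.mul_right (hy' (Sum.inr j)).mem
  let Mv : Matrix (Fin 1 ⊕ Fin q) (Fin 1 ⊕ Fin q) DE.V := Matrix.of fun i j => ⟨M i j, hMmem i j⟩
  set i₀ : Fin 1 ⊕ Fin q := Sum.inl 0
  set cE : DE.V := ⟨algebraMap L E N, (DE.mem_iff _).2 N.2⟩ with hcE
  have hdet : ((1 + Mv).det : E) = Algebra.norm E f := by
    rw [Algebra.norm_eq_matrix_det B, show f = 1 + x by simp [hx], map_add, map_one,
      ← map_one (DE.V.subtype.mapMatrix (m := Fin 1 ⊕ Fin q)),
      show Algebra.leftMulMatrix B x = DE.V.subtype.mapMatrix Mv from rfl, ← map_add,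
      ← RingHom.map_det]
    rfl
  -- the determinant modulo `N`
  set I : Ideal DE.V := Ideal.span {cE}
  have hI : ∀ u : DE.V, Close DE N (u : E) 0 ↔ u ∈ I := fun u => by
    rw [Ideal.mem_span_singleton]
    constructor
    · rintro ⟨w, hw, e⟩
      rw [sub_zero, Algebra.smul_def] at e
      exact ⟨⟨w, hw⟩, Subtype.ext (by simp [hcE, e])⟩
    · rintro ⟨w, rfl⟩
      exact ⟨w, w.2, by simp [hcE, Algebra.smul_def]⟩
  have hquot : (Ideal.Quotient.mk I) (1 + Mv).det = (Ideal.Quotient.mk I) (1 + Mv i₀ i₀) := by
    rw [RingHom.map_det, map_add, map_one, map_add, map_one]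
    set Q := (Ideal.Quotient.mk I).mapMatrix Mv with hQ
    have hcol : Q = Matrix.replicateCol Unit (fun i => Q i i₀) *
        Matrix.replicateRow Unit (Pi.single i₀ (1 : DE.V ⧸ I)) := by
      ext i j
      simp only [Matrix.mul_apply, Matrix.replicateCol_apply, Matrix.replicateRow_apply,
        Finset.univ_unique, Finset.sum_singleton]
      rcases j with j | j
      · rw [Subsingleton.elim j 0]; simp [i₀]
      · rw [Pi.single_eq_of_ne (by simp [i₀]), mul_zero, hQ, RingHom.mapMatrix_apply,
          Matrix.map_apply, Ideal.Quotient.eq_zero_iff_mem, ← hI]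
        exact hMsmall i j
    rw [hcol, Matrix.det_one_add_replicateCol_mul_replicateRow, dotProduct]
    congr 1
    rw [Finset.sum_eq_single i₀ (fun j _ hj => by rw [Pi.single_eq_of_ne hj, zero_mul])
      (fun h => absurd (Finset.mem_univ _) h), Pi.single_eq_same, one_mul, hQ]
    rfl
  have hnorm : Close DE N (Algebra.norm E f) (1 + M i₀ i₀) := by
    obtain ⟨w, hw, e⟩ := (hI _).2 (Ideal.Quotient.eq.1 hquot)
    refine ⟨w, hw, ?_⟩
    rw [sub_zero] at e
    rw [← e, ← hdet]
    rfl
  -- the top coordinate of `x e` is `x` on the first component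
  have htop : Close D N (algebraMap E F (M i₀ i₀)) x := by
    have h1 : Close D N (x * B i₀) x := by
      rw [hBe]; simpa using he.mul_left hxD
    have h2 : x * B i₀ = ∑ i, algebraMap E F (M i i₀) * B i := by
      simp only [hM, Algebra.leftMulMatrix_eq_repr_mul, ← Algebra.smul_def, B.sum_repr]
    refine Close.trans ?_ h1
    rw [h2, Fintype.sum_sum_type, Fintype.sum_unique, Fin.default_eq_zero]
    have h3 : Close D N (∑ i, algebraMap E F (M (Sum.inr i) i₀) * B (Sum.inr i)) 0 := by
      have hc : ∀ i, Close D N (algebraMap E F (M (Sum.inr i) i₀) * B (Sum.inr i)) 0 := fun i => by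
        obtain ⟨z, hz⟩ := exists_red (hMmem (Sum.inr i) i₀)
        simpa using (hsmall i).mul_left (hS.red _ _ hz).mem
      simpa using Close.sum Finset.univ fun i _ => hc i
    have h4 : Close D N (algebraMap E F (M i₀ i₀) * B i₀) (algebraMap E F (M i₀ i₀)) := by
      obtain ⟨z, hz⟩ := exists_red (hMmem i₀ i₀)
      rw [hBe]
      simpa using he.mul_left (hS.red _ _ hz).mem
    simpa using (h4.add h3).symm
  refine (hS.close_algebraMap hnorm).1.trans ?_
  rw [map_add, map_one]
  simpa [hx] using (Close.refl (D := D) (c := N) (1 : F)).add htop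

end OneSide

end FLTAgent.Semistable
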