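import Fermat.Agent.Semistable.CrossingTools
import Fermat.Agent.Genus.EmbPlace
import Fermat.Agent.GoodRed.Mobius
import Fermat.Agent.GoodRed.Deuring

/-!
# Counting places where `(dπ)^(q-1)` has poles

Ramification indices pass to reductions, the derivative of a function of ramification `e` vanishes
to order `e - 1`, and a pointwise inequality between divisors gives an inequality of degrees.
-/

set_option autoImplicit false
set_option linter.unusedSectionVars false

noncomputable section

open AlgebraicCurve Polynomial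
open scoped IntermediateField

namespace FLTAgent.Semistable

open FLTAgent.FunctionField FLTAgent.GoodRed FLTAgent.GoodRed.RedDatum FLTAgent.Genus

section lifts

variable {L k : Type*} [Field L] [Field k] {A : ValuationSubring L} {π : A →+* k}
  {F C : Type*} [Field F] [Algebra L F] [Field C] [Algebra k C]
  [IsFunctionField L F] [IsFunctionField k C] {D : RedDatum A π F C}

/-- Orders at the places above bound the order of the reduction. -/
theorem le_ord_red_of_lifts (R : PlaceRed D) {f : F} {fb : C} (h : D.Red f fb) {x : Place k C}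
    {m : ℤ} (hlift : ∀ v, R.r v = x → 0 ≤ v.ord f ∧ (v.ord f = 0 ∨ m ≤ v.ord f))
    (hpos : 0 < x.ord fb) : m ≤ x.ord fb := by
  classical
  have hfb : fb ≠ 0 := fun h0 => by rw [h0, Place.ord_zero] at hpos; omega
  have e : x.ord fb =
      ∑ v ∈ (divisorOf (K := L) f).support with R.r v = x, v.ord f := by
    rw [← divisorOf_apply, ← R.map_divisorOf f fb h hfb, Finsupp.mapDomain, Finsupp.sum_apply,
      Finsupp.sum, Finset.sum_filter]
    refine Finset.sum_congr rfl fun v _ => ?_
    rw [Finsupp.single_apply, divisorOf_apply]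
  obtain ⟨v, hv, hv0⟩ : ∃ v ∈ (divisorOf (K := L) f).support.filter (fun v => R.r v = x),
      0 < v.ord f := by
    by_contra hno
    push Not at hno
    have := Finset.sum_nonpos hno
    omega
  have h1 := (hlift v (Finset.mem_filter.1 hv).2).2.resolve_left hv0.ne'
  have h2 := Finset.single_le_sum (f := fun v : Place L F => v.ord f)
    (fun w hw => (hlift w (Finset.mem_filter.1 hw).2).1) hv
  rw [e]
  exact h1.trans h2

end lifts

section deriv

variable {K C : Type*} [Field K] [Field C] [Algebra K C] [IsFunctionField K C] (x : Place K C)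
  {q : ℕ} (hq : 0 < q) (f : C →ₐ[K] C) (frP : Place K C → Place K C)
  (hord : ∀ v z, v.ord (f z) = (q : ℤ) * (frP v).ord z)
  (hdeg : Module.finrank C (Frb f) = q) {p : C} (hp : x.ord p = 1)
  (D : C →+* LaurentSeries K) (hD : ∀ z, euler (D (f z)) = 0)
include hq hord hdeg hp hD

/-- The derivative of a regular function of ramification `e` vanishes to order `e - 1`. -/
theorem exists_euler_eq_mul_of_ord {g : C} (hg : 0 < x.ord g) :
    ∃ d : C, OrdGe x (x.ord g - 1) d ∧ euler (D g) = D d * euler (D p) := by
  have hp0 : p ≠ 0 := fun h => by rw [h, Place.ord_zero] at hp; omega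
  have hg0 : g ≠ 0 := fun h => by rw [h, Place.ord_zero] at hg; omega
  set e := (x.ord g).toNat with he
  have hee : (e : ℤ) = x.ord g := Int.toNat_of_nonneg hg.le
  have hw : OrdGe x 0 (g / p ^ e) := ordGe_of_le_ord (by
    rw [FunctionField.ord_div hg0 (pow_ne_zero _ hp0), FunctionField.ord_pow, hp, mul_one, hee,
      sub_self])
  obtain ⟨d, hd, hde⟩ := exists_euler_eq_mul x hq f frP hord hdeg hp D hD hw
  refine ⟨d * p ^ e + (e : C) * (g / p ^ e) * p ^ (e - 1), OrdGe.add ?_ ?_, ?_⟩
  · exact (hd.mul (ordGe_ord (p ^ e))).mono (by rw [FunctionField.ord_pow, hp, mul_one]; omega)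
  · have h1 : OrdGe x 0 ((e : C)) := by
      rw [← map_natCast (algebraMap K C)]
      exact ordGe_algebraMap _
    exact ((h1.mul hw).mul (ordGe_ord (p ^ (e - 1)))).mono
      (by rw [FunctionField.ord_pow, hp, mul_one]; omega)
  · conv_lhs => rw [show g = g / p ^ e * p ^ e from (div_mul_cancel₀ g (pow_ne_zero _ hp0)).symm]
    rw [map_mul, euler_mul, hde, map_pow, euler_pow, map_add, map_mul, map_mul, map_mul,
      map_natCast, map_pow, map_pow]
    ring

/-- If `(dπ)^(q-1)` has a pole of order at most `n`, the ramification of `t` bounds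
`(dt)^(q-1)`. -/
theorem le_ord_of_deriv {t Rc d : C} {a : K} {n : ℤ} (hd : D d = euler (D p) ^ (q - 1))
    (hdn : OrdGe x (-n) d) (hRc : D Rc = euler (D t) ^ (q - 1))
    (hconst : euler (D (algebraMap K C a)) = 0) (hRc0 : Rc ≠ 0)
    (he : 0 < x.ord (t - algebraMap K C a)) :
    ((q - 1 : ℕ) : ℤ) * (x.ord (t - algebraMap K C a) - 1) - n ≤ x.ord Rc := by
  obtain ⟨δ, hδ, hde⟩ := exists_euler_eq_mul_of_ord x hq f frP hord hdeg hp D hD he
  rw [map_sub, map_sub, hconst, sub_zero] at hde
  have hR : Rc = δ ^ (q - 1) * d := D.injective (by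
    rw [hRc, hde, map_mul, map_pow, hd, mul_pow])
  have h1 : OrdGe x (((q - 1 : ℕ) : ℤ) * (x.ord (t - algebraMap K C a) - 1)) (δ ^ (q - 1)) :=
    ordGe_pow hδ _
  have h2 := (h1.mul hdn).le_ord (hR ▸ hRc0)
  rw [← hR] at h2
  omega

end deriv

section count

variable {K F : Type*} [Field K] [Field F] [Algebra K F] [IsFunctionField K F] [IsAlgClosed K]

theorem degree_zeroDivisor_sub {t : F} (ht : Transcendental K t) (a : K) :
    Divisor.degree (zeroDivisor (K := K) (t - algebraMap K F a)) =
      Module.finrank K⟮t⟯ F := by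
  have h : K⟮t - algebraMap K F a⟯ = K⟮t⟯ := by
    refine le_antisymm (IntermediateField.adjoin_simple_le_iff.2 (sub_mem
      (IntermediateField.mem_adjoin_simple_self K t) (IntermediateField.algebraMap_mem _ a)))
      (IntermediateField.adjoin_simple_le_iff.2 ?_)
    have h1 := add_mem (IntermediateField.mem_adjoin_simple_self K (t - algebraMap K F a))
      ((K⟮t - algebraMap K F a⟯).algebraMap_mem a)
    rwa [sub_add_cancel] at h1
  rw [FunctionField.degree_zeroDivisor fun h0 => ht (by
    simpa using h0.add (isAlgebraic_algebraMap a)), h]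

theorem degree_zeroDivisor_inv {t : F} (ht : Transcendental K t) :
    Divisor.degree (zeroDivisor (K := K) t⁻¹) = Module.finrank K⟮t⟯ F := by
  have h := GoodRed.adjoin_inv_sub (K := K) t 0
  rw [map_zero, sub_zero] at h
  rw [FunctionField.degree_zeroDivisor fun h0 => ht (by simpa using h0.inv), h]

/-- A pointwise inequality of multiplicities bounds the number of marked places from below. -/
theorem finrank_mul_le_card [DecidableEq (Place K F)] {t : F} (ht : Transcendental K t) (Rc : F)
    (I : Finset (Place K F)) (a₀ a₁ : K) (b c₀ c₁ c w : ℤ)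
    (h : ∀ x : Place K F, c₀ * max (x.ord (t - algebraMap K F a₀)) 0 +
        c₁ * max (x.ord (t - algebraMap K F a₁)) 0 ≤
      b * x.ord Rc + w * (if x ∈ I then 1 else 0) + c * max (x.ord t⁻¹) 0) :
    (c₀ + c₁ - c) * Module.finrank K⟮t⟯ F ≤ w * I.card := by
  set P : Divisor K F := b • divisorOf Rc + w • (∑ v ∈ I, Finsupp.single v (1 : ℤ)) +
    c • zeroDivisor t⁻¹ - c₀ • zeroDivisor (t - algebraMap K F a₀) -
    c₁ • zeroDivisor (t - algebraMap K F a₁) with hP
  have hP0 : 0 ≤ P := fun x => by
    have hx := h x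
    simp only [hP, Finsupp.sub_apply, Finsupp.add_apply, Finsupp.smul_apply, smul_eq_mul,
      zeroDivisor_apply, divisorOf_apply, Finsupp.finsetSum_apply, Finsupp.single_apply,
      Finset.sum_ite_eq', Finsupp.coe_zero, Pi.zero_apply]
    omega
  have h1 : 0 ≤ Divisor.degree P := degree_nonneg (E := P) hP0
  have h2 : Divisor.degree (∑ v ∈ I, Finsupp.single v (1 : ℤ)) = I.card := by
    rw [map_sum]
    simp [deg_eq_one]
  rw [hP, map_sub, map_sub, map_add, map_add, map_zsmul, map_zsmul, map_zsmul, map_zsmul,
    map_zsmul, degree_divisorOf, h2, degree_zeroDivisor_inv ht, degree_zeroDivisor_sub ht,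
    degree_zeroDivisor_sub ht] at h1
  simp only [smul_eq_mul, mul_zero, zero_add] at h1
  linarith

end count

end FLTAgent.Semistable
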