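import Fermat.Agent.Genus.Export
import Fermat.Agent.Genus.GenusFF
import Fermat.Agent.GoodRed.X0Field
import Fermat.Agent.Semistable.CountTools
import Fermat.Agent.Semistable.CrossingSet

/-!
# Ramification of `j` in characteristic zero, and `dj` in characteristic `q`

The inputs of the count of crossings: the ramification indices over `0` and `1728` when there are no
elliptic points, the degree of `j`, and `(θ j)^(q-1)` as a rational function of `j` with the growth
`j^(q-1)`.
-/

set_option autoImplicit false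
set_option linter.style.haveILetI false
set_option linter.unusedSectionVars false
set_option synthInstance.maxHeartbeats 100000

noncomputable section

open ModularCurve AlgebraicCurve IsLocalRing Polynomial
open scoped IntermediateField

namespace FLTAgent.Semistable

open FLTAgent.GoodRed FLTAgent.GoodRed.RedDatum FLTAgent.Hecke FLTAgent.FunctionField FLTAgent.Genus

local notation "Qbar" => AlgebraicClosure ℚ

section charZero

variable {M : ℕ} [NeZero M] {E : IntermediateField Qbar (LaurentSeries Qbar)}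

theorem exists_qbar_hom : Nonempty (Qbar →+* ℂ) :=
  haveI : Algebra.IsAlgebraic ℚ Qbar := AlgebraicClosure.isAlgebraic ℚ
  ⟨(IsAlgClosed.lift (R := ℚ) (S := Qbar) (M := ℂ)).toRingHom⟩

theorem ord_eq_three_of_eq (hE : E = modularFunctionFieldC Qbar M) (h : nuThree M = 0) (j : E)
    (hj : (j : LaurentSeries Qbar) = jqModC Qbar) {v : Place Qbar E} (hv : 0 < v.ord j) :
    v.ord j = 3 := by
  subst hE
  obtain rfl : j = jEl Qbar M := Subtype.ext hj
  have := ord_eq_three_of_nuThree_eq_zero exists_qbar_hom.some h (v := v) (by simpa using hv)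
  simpa using this

theorem ord_eq_two_of_eq (hE : E = modularFunctionFieldC Qbar M) (h : nuTwo M = 0) (j : E)
    (hj : (j : LaurentSeries Qbar) = jqModC Qbar) {v : Place Qbar E}
    (hv : 0 < v.ord (j - algebraMap Qbar E 1728)) :
    v.ord (j - algebraMap Qbar E 1728) = 2 := by
  subst hE
  obtain rfl : j = jEl Qbar M := Subtype.ext hj
  exact ord_eq_two_of_nuTwo_eq_zero exists_qbar_hom.some h hv

theorem finrank_eq_psi_of_eq (hE : E = modularFunctionFieldC Qbar M) (j : E)
    (hj : (j : LaurentSeries Qbar) = jqModC Qbar) :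
    Module.finrank Qbar⟮j⟯ E = dedekindPsi M := by
  subst hE
  obtain rfl : j = jEl Qbar M := Subtype.ext hj
  haveI := isFunctionField_modularFunctionFieldC (K := Qbar) (N := M)
  obtain ⟨ι⟩ := exists_qbar_hom
  have h := finrank_adjoin_eq_sum (transcendental_jEl (K := Qbar) (N := M))
    (cuspData (N := M) ι).placesOver fun v =>
      (cuspData (N := M) ι).mem_placesOver_iff hasResidueK_modular sum_ord_inv_le_card v
  rw [(cuspData (N := M) ι).sum_ord hasResidueK_modular, card_cosets] at h
  exact_mod_cast h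

theorem finrank_jMF : Module.finrank Qbar⟮jMF Qbar M⟯ (MF Qbar M) = dedekindPsi M :=
  finrank_eq_psi_of_eq ((degreeFacts Qbar).gen M) _ rfl

theorem ord_jMF_eq_three (h : nuThree M = 0) {v : Place Qbar (MF Qbar M)}
    (hv : 0 < v.ord (jMF Qbar M)) : v.ord (jMF Qbar M) = 3 :=
  ord_eq_three_of_eq ((degreeFacts Qbar).gen M) h _ rfl hv

theorem ord_jMF_eq_two (h : nuTwo M = 0) {v : Place Qbar (MF Qbar M)}
    (hv : 0 < v.ord (jMF Qbar M - algebraMap Qbar _ 1728)) :
    v.ord (jMF Qbar M - algebraMap Qbar _ 1728) = 2 :=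
  ord_eq_two_of_eq ((degreeFacts Qbar).gen M) h _ rfl hv

end charZero

section rational

variable {K : Type*} [Field K]

theorem euler_aeval (J : LaurentSeries K) (P : K[X]) :
    euler (aeval J P) = aeval J (derivative P) * euler J := by
  induction P using Polynomial.induction_on' with
  | add p r hp hr => rw [map_add, map_add, hp, hr, map_add, map_add, add_mul]
  | monomial n a =>
    rw [← C_mul_X_pow_eq_monomial, map_mul, aeval_C, map_pow, aeval_X, euler_mul, euler_algebraMap,
      euler_pow, derivative_C_mul_X_pow, map_mul, aeval_C, map_pow, aeval_X, map_mul, map_natCast]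
    ring

theorem euler_mem_adjoin_mul (J : LaurentSeries K) {T : LaurentSeries K}
    (hT : T ∈ K⟮J⟯) : ∃ W ∈ K⟮J⟯, euler T = W * euler J := by
  obtain ⟨r, s, rfl⟩ := (IntermediateField.mem_adjoin_simple_iff K T).1 hT
  have hm : ∀ P : K[X], aeval J P ∈ K⟮J⟯ := fun P =>
    IntermediateField.algebra_adjoin_le_adjoin K _
      (by rw [Algebra.adjoin_singleton_eq_range_aeval]; exact ⟨P, rfl⟩)
  rcases eq_or_ne (aeval J s) 0 with h0 | h0
  · exact ⟨0, zero_mem _, by rw [h0, div_zero, euler_zero, zero_mul]⟩
  refine ⟨(aeval J (derivative r) - aeval J r / aeval J s * aeval J (derivative s)) / aeval J s,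
    div_mem (sub_mem (hm _) (mul_mem (div_mem (hm _) (hm _)) (hm _))) (hm _), ?_⟩
  rw [euler_div _ _ h0, euler_aeval, euler_aeval]
  ring

theorem order_euler_jqModC : (euler (jqModC K)).order = -1 := by
  have h1 : (euler (jqModC K)).coeff (-1) ≠ 0 := by
    rw [euler_coeff, coeff_jqModC_neg_one]
    norm_num
  refine le_antisymm (HahnSeries.order_le_of_coeff_ne_zero h1) (Genus.OrdGE.le_order ?_ ?_)
  · intro i hi
    rw [euler_coeff, coeff_jqModC_of_lt _ hi, mul_zero]
  · exact fun h => h1 (by rw [h, HahnSeries.coeff_zero])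

theorem euler_jqModC_ne_zero : euler (jqModC K) ≠ 0 := fun h => by
  have := order_euler_jqModC (K := K)
  rw [h, HahnSeries.order_zero] at this
  omega

theorem order_jqModC_eq : (jqModC K).order = -1 := by
  have h1 : (jqModC K).coeff (-1) ≠ 0 := by rw [coeff_jqModC_neg_one]; exact one_ne_zero
  refine le_antisymm (HahnSeries.order_le_of_coeff_ne_zero h1) (Genus.OrdGE.le_order ?_ ?_)
  · exact fun i hi => coeff_jqModC_of_lt _ hi
  · exact fun h => h1 (by rw [h, HahnSeries.coeff_zero])

variable {C : IntermediateField K (LaurentSeries K)} [IsFunctionField K C]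

/-- An element of `C` which is a rational function of `j` of growth `j^m` at infinity. -/
theorem exists_rat_of_mem_adjoin {jb : C} (hjb : (jb : LaurentSeries K) = jqModC K)
    {W : LaurentSeries K} (hW : W ∈ K⟮jqModC K⟯) {m : ℕ} (hW0 : W ≠ 0)
    (hord : W.order = -(m : ℤ)) :
    ∃ Rc : C, (Rc : LaurentSeries K) = W ∧ Rc ≠ 0 ∧
      ∀ x : Place K C, x.ord jb < 0 → x.ord Rc = (m : ℤ) * x.ord jb := by
  obtain ⟨r, s, hrs⟩ := (IntermediateField.mem_adjoin_simple_iff K W).1 hW
  have hval : ∀ P : K[X], ((aeval jb P : C) : LaurentSeries K) = aeval (jqModC K) P := fun P => by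
    rw [← hjb]; exact (aeval_algHom_apply C.val jb P).symm
  have hcoe : ((aeval jb r / aeval jb s : C) : LaurentSeries K) = W := by
    rw [hrs, ← hval, ← hval]; exact IntermediateField.coe_div C _ _
  have hRc0 : (aeval jb r / aeval jb s : C) ≠ 0 := fun h => hW0 (by
    rw [← hcoe, h]; rfl)
  have hr : r ≠ 0 := fun h => hW0 (by rw [hrs, h, map_zero, zero_div])
  have hs : s ≠ 0 := fun h => hW0 (by rw [hrs, h, map_zero, div_zero])
  have hformula : ∀ x : Place K C, x.ord jb < 0 →
      x.ord (aeval jb r / aeval jb s : C) = ((r.natDegree : ℤ) - s.natDegree) * x.ord jb :=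
    fun x hx => by
      obtain ⟨h1, h1'⟩ := ord_aeval_of_ord_neg hx r hr
      obtain ⟨h2, h2'⟩ := ord_aeval_of_ord_neg hx s hs
      rw [FunctionField.ord_div h1 h2, h1', h2']
      ring
  -- the place of the cusp infinity
  have hjo : ((jb : C) : LaurentSeries K).order = -1 := by rw [hjb]; exact order_jqModC_eq
  have hover : Over (RingHom.id K) (C.val.toRingHom : C →+* LaurentSeries K) := fun a =>
    (C.val.commutes a).trans (algebraMap_laurentSeries_eq_single K a)
  have hpos : ∃ f : C, 0 < ((C.val.toRingHom : C →+* LaurentSeries K) f).order :=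
    ⟨jb⁻¹, by
      rw [map_inv₀, order_inv']
      show 0 < -((jb : C) : LaurentSeries K).order
      rw [hjo]; norm_num⟩
  obtain ⟨e, he, hind⟩ := exists_induces_placeOfEmb _ hover hpos
  set v := placeOfEmb _ hover hpos
  have hj1 : ((jb : C) : LaurentSeries K).order = e * v.ord jb := hind jb
  rw [hjo] at hj1
  have hv : v.ord jb = -1 := by
    have : v.ord jb < 0 := by nlinarith
    nlinarith
  have he1 : e = 1 := by rw [hv] at hj1; omega
  have hRv : W.order = e * v.ord (aeval jb r / aeval jb s : C) := by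
    rw [← hind]; exact congrArg HahnSeries.order hcoe.symm
  rw [hord, he1, one_mul, hformula v (by omega), hv] at hRv
  refine ⟨_, hcoe, hRc0, fun x hx => ?_⟩
  rw [hformula x hx, show ((r.natDegree : ℤ) - s.natDegree) = (m : ℤ) by omega]

end rational

variable {M q : ℕ} [NeZero M] [Fact q.Prime]

local instance : NeZero q := ⟨(Fact.out : q.Prime).ne_zero⟩

variable {A : ValuationSubring (AlgebraicClosure ℚ)} (hA : A.LiesOverPrime q)
  [CharP (ResidueField A) q] [IsAlgClosed (ResidueField A)] (hqM : ¬ q ∣ M)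
  [IsFunctionField (ResidueField A) (modularFunctionFieldFullC (ResidueField A) M)]

include hA in
theorem euler_pow_mem_adjoin :
    euler (jqModC (ResidueField A)) ^ (q - 1) ∈
      (ResidueField A)⟮jqModC (ResidueField A)⟯ := by
  set k := ResidueField A
  have hq1 : ¬ q ∣ 1 := (Fact.out : q.Prime).not_dvd_one
  haveI := isFunctionField_fullC A hA 1 hq1
  obtain ⟨ub, Tb, hub, hubc, -, -, hid⟩ := exists_red_TU hA hq1 (RegRat.j 1 q)
  have hle : modularFunctionFieldFullC k 1 ≤ k⟮jqModC k⟯ := by
    refine IntermediateField.adjoin_le_iff.2 ?_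
    rintro x ⟨d, hd0, hd, rfl⟩
    rw [qExpand_congr (Nat.dvd_one.1 hd), qExpand_one_apply]
    exact IntermediateField.mem_adjoin_simple_self k _
  have hu : (ub : LaurentSeries k) = jqModC k := by
    rw [RegRat.fn_j, jMF_eq_x0J hA hq1] at hub
    rw [hub.unique (red_x0J A hA 1 hq1), coe_x0Jb]
  obtain ⟨W, hW, hWe⟩ := euler_mem_adjoin_mul (jqModC k) (hle Tb.2)
  rw [hWe, hu] at hid
  have h : euler (jqModC k) ^ (q - 1) = W + jqModC k ^ (q - 1) := by
    refine mul_right_cancel₀ euler_jqModC_ne_zero ?_
    rw [← pow_succ, Nat.sub_add_cancel (Fact.out : q.Prime).one_lt.le, add_mul, hid]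
    ring
  rw [h]
  exact add_mem hW (pow_mem (IntermediateField.mem_adjoin_simple_self k _) _)

include hA hqM in
/-- `(θ j)^(q-1)` grows like `j^(q-1)`. -/
theorem exists_euler_jb_pow :
    ∃ Rc : modularFunctionFieldFullC (ResidueField A) M,
      (Rc : LaurentSeries (ResidueField A)) =
        euler (x0Jb A hA M hqM : LaurentSeries (ResidueField A)) ^ (q - 1) ∧ Rc ≠ 0 ∧
      ∀ x : Place (ResidueField A) (modularFunctionFieldFullC (ResidueField A) M),
        x.ord (x0Jb A hA M hqM) < 0 →
          x.ord Rc = ((q - 1 : ℕ) : ℤ) * x.ord (x0Jb A hA M hqM) := by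
  rw [coe_x0Jb]
  refine exists_rat_of_mem_adjoin (coe_x0Jb A hA M hqM) (euler_pow_mem_adjoin hA)
    (pow_ne_zero _ euler_jqModC_ne_zero) ?_
  rw [HahnSeries.order_pow, order_euler_jqModC, nsmul_eq_mul, mul_neg, mul_one]

end FLTAgent.Semistable
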