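import Fermat.Agent.GoodRed.Series
import Fermat.Agent.Eisen.RatVal
import Fermat.Agent.Igusa.Gauss

/-!
# A place of `ℚ̄` over `q`: rational `q`-integers, residue characteristic, rank one
-/

set_option autoImplicit false
set_option linter.style.haveILetI false

noncomputable section

namespace FLTAgent.Semistable

open FLTAgent.GoodRed

local notation "ℚbar" => AlgebraicClosure ℚ

variable {k : Type*} [Field k] {A : ValuationSubring ℚbar} {π : A →+* k} {q : ℕ}

theorem algebraMap_rat_mem (hA : A.LiesOverPrime q) (hq : q.Prime)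
    (r : ↥(GaloisRep.ratLocalizedAt q)) : algebraMap ℚ ℚbar (r : ℚ) ∈ A := by
  have : Fact q.Prime := ⟨hq⟩
  rw [GalChar.algebraMap_rat_eq_div, ← A.valuation_le_one_iff, map_div₀,
    show (((r : ℚ).den : ℕ) : ℚbar) = (((r : ℚ).den : ℤ) : ℚbar) by norm_cast,
    GalChar.valuation_intCast_eq_one hA hq (fun h => Igusa.not_dvd_den q r
      (Int.natCast_dvd_natCast.1 h)), div_one]
  exact GalChar.valuation_intCast_le_one A _

/-- `ℤ_(q) → A`. -/
def ratToA (hA : A.LiesOverPrime q) (hq : q.Prime) : ↥(GaloisRep.ratLocalizedAt q) →+* A :=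
  ((algebraMap ℚ ℚbar).comp (GaloisRep.ratLocalizedAt q).subtype).codRestrict A.toSubring
    fun r => algebraMap_rat_mem hA hq r

theorem coe_ratToA (hA : A.LiesOverPrime q) (hq : q.Prime)
    (r : ↥(GaloisRep.ratLocalizedAt q)) :
    (ratToA hA hq r : ℚbar) = algebraMap ℚ ℚbar (r : ℚ) := rfl

theorem charP_residue (hπ : IsResidueMap A π) (hA : A.LiesOverPrime q) (hq : q.Prime) :
    CharP k q := by
  have h : π (q : A) = 0 := (hπ.eq_zero_iff _).2 (by simpa [ValuationSubring.LiesOverPrime] using hA)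
  rw [map_natCast] at h
  have h1 := CharP.ringChar_of_prime_eq_zero hq h
  exact h1 ▸ ringChar.charP k

theorem residue_ratToA [Fact q.Prime] [CharP k q] (hA : A.LiesOverPrime q)
    (r : ↥(GaloisRep.ratLocalizedAt q)) :
    π (ratToA hA Fact.out r) = ZMod.castHom dvd_rfl k (Igusa.resHom q r) := by
  have hden : ((r : ℚ).den : k) ≠ 0 := by
    rw [Ne, CharP.cast_eq_zero_iff k q]
    exact Igusa.not_dvd_den q r
  have h1 := congr_arg (π.comp (ratToA hA Fact.out))
    (show r * ((r : ℚ).den : ↥(GaloisRep.ratLocalizedAt q))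
        = ((r : ℚ).num : ↥(GaloisRep.ratLocalizedAt q)) from
      Subtype.ext (by rw [Subring.coe_mul]; simp [Rat.mul_den_eq_num]))
  have h2 := congr_arg (ZMod.castHom dvd_rfl k) (Igusa.resHom_mul_den q r)
  rw [map_mul, map_natCast, map_intCast] at h1 h2
  exact mul_right_cancel₀ hden (h1.trans h2.symm)

/-- Values of nonzero elements are torsion over the powers of that of `q`. -/
theorem exists_valuation_pow_eq (hA : A.LiesOverPrime q) (hq : q.Prime) {x : ℚbar} (hx : x ≠ 0) :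
    ∃ (m : ℕ) (z : ℤ), 0 < m ∧ A.valuation x ^ m = A.valuation (q : ℚbar) ^ z := by
  classical
  set v := A.valuation
  have hint : IsIntegral ℚ x := ((AlgebraicClosure.isAlgebraic ℚ).isAlgebraic x).isIntegral
  set P := minpoly ℚ x with hP
  set f : ℕ → ℚbar := fun i => (P.coeff i : ℚbar) * x ^ i
  have hsum : ∑ i ∈ P.support, f i = 0 := by
    have h := minpoly.aeval ℚ x
    rw [Polynomial.aeval_eq_sum_range, ← hP] at h
    rw [← h]
    refine (Finset.sum_subset (fun i hi => Finset.mem_range.2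
      (Nat.lt_succ_of_le (Polynomial.le_natDegree_of_mem_supp i hi))) fun i _ hi => ?_).trans
      (Finset.sum_congr rfl fun i _ => by rw [Algebra.smul_def, eq_ratCast])
    show (P.coeff i : ℚbar) * x ^ i = 0
    rw [Polynomial.notMem_support_iff.1 hi, Rat.cast_zero, zero_mul]
  obtain ⟨i₀, hi₀, hmax⟩ := Finset.exists_max_image P.support (fun i => v (f i))
    (Polynomial.support_nonempty.2 (minpoly.ne_zero hint))
  have hf : ∀ i ∈ P.support, v (f i) ≠ 0 := fun i hi =>
    (Valuation.ne_zero_iff _).2 (mul_ne_zero (Rat.cast_ne_zero.2 (Polynomial.mem_support_iff.1 hi))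
      (pow_ne_zero _ hx))
  obtain ⟨i₁, hi₁, hne, heq⟩ : ∃ i₁ ∈ P.support, i₁ ≠ i₀ ∧ v (f i₁) = v (f i₀) := by
    by_contra hcon
    push Not at hcon
    have h := Valuation.map_sum_eq_of_lt v (f := f) hi₀ fun i hi => by
      simp only [Finset.mem_sdiff, Finset.mem_singleton] at hi
      exact lt_of_le_of_ne (hmax i hi.1) (hcon i hi.1 hi.2)
    rw [hsum, map_zero] at h
    exact hf _ hi₀ h.symm
  have key : ∀ i j, i ∈ P.support → j ∈ P.support → i < j → v (f i) = v (f j) →
      ∃ (m : ℕ) (z : ℤ), 0 < m ∧ v x ^ m = v (q : ℚbar) ^ z := by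
    intro i j hi hj hij he
    obtain ⟨d, rfl⟩ : ∃ d, j = i + (d + 1) := ⟨j - i - 1, by omega⟩
    refine ⟨d + 1, padicValRat q (P.coeff i) - padicValRat q (P.coeff (i + (d + 1))), by omega, ?_⟩
    have hci := Eisen.valuation_rat hq hA (Polynomial.mem_support_iff.1 hi)
    have hcj := Eisen.valuation_rat hq hA (Polynomial.mem_support_iff.1 hj)
    simp only [f, map_mul, map_pow, v] at he
    rw [hci, hcj, pow_add, ← mul_assoc] at he
    have hq0 : v (q : ℚbar) ≠ 0 := (Valuation.ne_zero_iff _).2 (Nat.cast_ne_zero.2 hq.ne_zero)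
    have hx0 : v x ^ i ≠ 0 := pow_ne_zero _ ((Valuation.ne_zero_iff _).2 hx)
    rw [zpow_sub₀ hq0, eq_div_iff (zpow_ne_zero _ hq0)]
    refine mul_right_cancel₀ hx0 ?_
    rw [he]
    ac_rfl
  rcases lt_or_gt_of_ne hne with h | h
  · exact key i₁ i₀ hi₁ hi₀ h heq
  · exact key i₀ i₁ hi₀ hi₁ h heq.symm

theorem isRankOne_of_liesOverPrime (hA : A.LiesOverPrime q) (hq : q.Prime) : IsRankOne A := by
  intro a c ha hc
  rcases eq_or_ne c 0 with rfl | hc0
  · exact ⟨1, by simp⟩
  have hc1 : A.valuation c < 1 := A.mem_nonunits_iff.1 hc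
  have hq1 : A.valuation (q : ℚbar) < 1 := GalChar.valuation_natCast_lt_one hA
  have hq0 : 0 < A.valuation (q : ℚbar) :=
    zero_lt_iff.2 ((Valuation.ne_zero_iff _).2 (Nat.cast_ne_zero.2 hq.ne_zero))
  obtain ⟨m, z, hm, hz⟩ := exists_valuation_pow_eq hA hq hc0
  obtain ⟨m', z', hm', hz'⟩ := exists_valuation_pow_eq hA hq ha
  have hzpos : 0 < z := by
    by_contra h
    push Not at h
    have h1 := pow_lt_one₀ zero_le hc1 hm.ne'
    rw [hz] at h1
    exact not_le.2 h1 (one_le_zpow_of_nonpos₀ hq0 hq1.le h)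
  refine ⟨m * z'.natAbs, le_of_pow_le_pow_left₀ hm'.ne' zero_le ?_⟩
  rw [hz', ← pow_mul, mul_assoc, pow_mul, hz, ← zpow_natCast, ← zpow_mul]
  refine zpow_right_anti₀ hq0 hq1.le ?_
  push_cast
  have h1 : (1 : ℤ) ≤ z := hzpos
  have h2 : (1 : ℤ) ≤ (m' : ℤ) := by exact_mod_cast hm'
  have h3 := le_abs_self z'
  have h4 : |z'| * 1 ≤ |z'| * m' := mul_le_mul_of_nonneg_left h2 (abs_nonneg _)
  have h5 : 1 * (|z'| * m') ≤ z * (|z'| * m') :=
    mul_le_mul_of_nonneg_right h1 (by positivity)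
  linarith

theorem exists_mem_nonunits_ne_zero (hA : A.LiesOverPrime q) (hq : q.Prime) :
    ∃ ϖ : ℚbar, ϖ ≠ 0 ∧ ϖ ∈ A.nonunits :=
  ⟨q, Nat.cast_ne_zero.2 hq.ne_zero, hA⟩

end FLTAgent.Semistable
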