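import Fermat.Agent.Semistable.Series
import Fermat.Agent.Semistable.Base
import Fermat.Agent.Igusa.Gauss
import Fermat.Agent.JTors.FieldDescent
import Mathlib.LinearAlgebra.Finsupp.LinearCombination

/-!
# Orthogonal bases from rational series

Gaussian elimination over `ℤ_(q)` gives, for finitely many series in the bounded field, a spanning
family of Gauss integral combinations with independent reductions.  Hence the base change to `ℚ̄`
of a field of bounded rational series is spanned, up to a common denominator, by such elements.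
-/

set_option autoImplicit false
set_option linter.style.haveILetI false
set_option linter.unusedSectionVars false

noncomputable section

open ModularCurve

namespace FLTAgent.Semistable

open FLTAgent.GoodRed

variable (q : ℕ) [Fact q.Prime]

set_option quotPrecheck false in
local notation "Rq" => ↥(GaloisRep.ratLocalizedAt q)
local notation "ℚbar" => AlgebraicClosure ℚ

theorem coeffMap_castHom_eq_zero {k : Type*} [Field k] [CharP k q] {x : LaurentSeries (ZMod q)}
    (h : coeffMap (ZMod.castHom dvd_rfl k) x = 0) : x = 0 :=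
  HahnSeries.ext (funext fun n => (ZMod.castHom dvd_rfl k).injective (by
    rw [HahnSeries.coeff_zero, map_zero, ← coeffMap_coeff, h, HahnSeries.coeff_zero]))

theorem exists_mul_eq_one_of_resHom {x : Rq} (hx : Igusa.resHom q x ≠ 0) : ∃ y : Rq, x * y = 1 := by
  have hx0 : (x : ℚ) ≠ 0 := fun h => hx (by rw [show x = 0 from Subtype.ext h, map_zero])
  have hnum : ¬ (q : ℤ) ∣ (x : ℚ).num := by
    intro h
    have h2 := Igusa.resHom_mul_den q x
    rw [(ZMod.intCast_zmod_eq_zero_iff_dvd _ _).2 h, mul_eq_zero] at h2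
    exact h2.elim hx fun h3 => Igusa.not_dvd_den q x ((ZMod.natCast_eq_zero_iff _ _).1 h3)
  refine ⟨⟨(x : ℚ)⁻¹, ?_⟩, Subtype.ext (mul_inv_cancel₀ hx0)⟩
  show ((x : ℚ)⁻¹).den.Coprime q
  rw [Rat.den_inv_of_ne_zero hx0, Nat.coprime_comm, (Fact.out : q.Prime).coprime_iff_not_dvd,
    ← Int.natCast_dvd]
  exact hnum

theorem lift_C_mul (c : Rq) (x : LaurentSeries Rq) :
    Igusa.lift q (HahnSeries.C c * x) = (c : ℚ) • Igusa.lift q x := by
  rw [map_mul, smul_series, algebraMap_laurentSeries_eq_single, Igusa.lift, HahnSeries.C_apply,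
    coeffMap_single]
  rfl

open scoped Classical in
/-- Gaussian elimination over `ℤ_(q)`. -/
theorem exists_echelon (s : Finset (LaurentSeries Rq)) :
    ∃ (r : ℕ) (E : Fin r → LaurentSeries Rq) (kk : Fin r → ℤ),
      (∀ i l, (E i).coeff (kk l) = if i = l then 1 else 0) ∧
      (∀ i, Igusa.lift q (E i) ∈ Submodule.span ℚ (Igusa.lift q '' (s : Set (LaurentSeries Rq)))) ∧
      ∀ T ∈ s, Igusa.lift q T ∈ Submodule.span ℚ (Set.range fun i => Igusa.lift q (E i)) := by
  induction s using Finset.induction with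
  | empty => exact ⟨0, Fin.elim0, Fin.elim0, fun i => i.elim0, fun i => i.elim0, by simp⟩
  | insert T s _ ih =>
    obtain ⟨r, E, kk, hEk, hEin, hsE⟩ := ih
    set S := Submodule.span ℚ (Igusa.lift q '' ((insert T s : Finset _) : Set (LaurentSeries Rq)))
      with hS
    have hEin' : ∀ i, Igusa.lift q (E i) ∈ S := fun i =>
      Submodule.span_mono (Set.image_mono (by simp)) (hEin i)
    have hTin : Igusa.lift q T ∈ S := Submodule.subset_span ⟨T, by simp, rfl⟩
    set T' := T - ∑ l, HahnSeries.C (T.coeff (kk l)) * E l with hT'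
    have hT'k : ∀ m, T'.coeff (kk m) = 0 := by
      intro m
      rw [hT', HahnSeries.coeff_sub, HahnSeries.coeff_sum]
      simp [hEk]
    have hT'in : Igusa.lift q T' ∈ S := by
      rw [hT', map_sub, map_sum]
      exact sub_mem hTin (Submodule.sum_mem _ fun l _ => by
        rw [lift_C_mul]; exact Submodule.smul_mem _ _ (hEin' l))
    by_cases h0 : T' = 0
    · refine ⟨r, E, kk, hEk, hEin', fun X hX => ?_⟩
      rcases Finset.mem_insert.1 hX with rfl | hX
      · rw [sub_eq_zero.1 h0, map_sum]
        exact Submodule.sum_mem _ fun l _ => by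
          rw [lift_C_mul]; exact Submodule.smul_mem _ _ (Submodule.subset_span ⟨l, rfl⟩)
      · exact hsE X hX
    obtain ⟨n, T'', hTe, hT''⟩ := Igusa.exists_pow_mul_reduce_ne_zero q h0
    have hC : (q : LaurentSeries Rq) ^ n * T'' = HahnSeries.C ((q : Rq) ^ n) * T'' := by
      rw [map_pow, map_natCast]
    have hq0 : (q : Rq) ^ n ≠ 0 := by
      refine pow_ne_zero _ fun h => ?_
      have := congrArg Subtype.val h
      simp at this
      exact (Fact.out : q.Prime).ne_zero this
    have hT''k : ∀ m, T''.coeff (kk m) = 0 := by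
      intro m
      have := hT'k m
      rw [hTe, hC, HahnSeries.C_mul_eq_smul, HahnSeries.coeff_smul, smul_eq_mul,
        mul_eq_zero] at this
      exact this.resolve_left hq0
    have hT''in : Igusa.lift q T'' ∈ S := by
      rw [hTe, hC, lift_C_mul] at hT'in
      have hq0' : (((q : Rq) ^ n : Rq) : ℚ) ≠ 0 := fun h => hq0 (Subtype.ext h)
      exact (Submodule.smul_mem_iff S hq0').1 hT'in
    obtain ⟨k', hk'⟩ : ∃ m, Igusa.resHom q (T''.coeff m) ≠ 0 := by
      by_contra! h
      exact hT'' (HahnSeries.ext (funext h))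
    obtain ⟨u, hu⟩ := exists_mul_eq_one_of_resHom q hk'
    set T3 := HahnSeries.C u * T'' with hT3
    have hT3k : ∀ m, T3.coeff (kk m) = 0 := fun m => by
      rw [hT3, HahnSeries.C_mul_eq_smul, HahnSeries.coeff_smul, hT''k, smul_zero]
    have hT31 : T3.coeff k' = 1 := by
      rw [hT3, HahnSeries.C_mul_eq_smul, HahnSeries.coeff_smul, smul_eq_mul, mul_comm, hu]
    have hT3in : Igusa.lift q T3 ∈ S := by
      rw [hT3, lift_C_mul]; exact Submodule.smul_mem _ _ hT''in
    set E' : Fin r → LaurentSeries Rq := fun i => E i - HahnSeries.C ((E i).coeff k') * T3 with hE'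
    set G : Fin (r + 1) → LaurentSeries Rq := Fin.snoc E' T3 with hG
    have hGspan : ∀ i, Igusa.lift q (E i) ∈
        Submodule.span ℚ (Set.range fun j => Igusa.lift q (G j)) := by
      intro i
      have e : E i = G i.castSucc + HahnSeries.C ((E i).coeff k') * G (Fin.last r) := by
        simp [hG, hE']
      rw [e, map_add, lift_C_mul]
      exact add_mem (Submodule.subset_span ⟨_, rfl⟩)
        (Submodule.smul_mem _ _ (Submodule.subset_span ⟨_, rfl⟩))
    refine ⟨r + 1, G, Fin.snoc kk k', fun i l => ?_, fun i => ?_, fun X hX => ?_⟩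
    · rcases Fin.eq_castSucc_or_eq_last i with ⟨i, rfl⟩ | rfl <;>
        rcases Fin.eq_castSucc_or_eq_last l with ⟨l, rfl⟩ | rfl
      · simp [hG, hE', hEk, hT3k]
      · simp [hG, hE', hT31]
      · simp [hG, hT3k, Fin.ext_iff, (Nat.ne_of_lt l.2).symm]
      · simp [hG, hT31]
    · rcases Fin.eq_castSucc_or_eq_last i with ⟨i, rfl⟩ | rfl
      · simp only [hG, Fin.snoc_castSucc, hE', map_sub, lift_C_mul]
        exact sub_mem (hEin' i) (Submodule.smul_mem _ _ hT3in)
      · simp only [hG, Fin.snoc_last]; exact hT3in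
    · rcases Finset.mem_insert.1 hX with rfl | hX
      · have e : X = T' + ∑ l, HahnSeries.C (X.coeff (kk l)) * E l := (sub_add_cancel _ _).symm
        rw [e, map_add, map_sum]
        refine add_mem ?_ (Submodule.sum_mem _ fun l _ => by
          rw [lift_C_mul]; exact Submodule.smul_mem _ _ (hGspan l))
        have e2 : T'' = HahnSeries.C (T''.coeff k') * T3 := by
          rw [hT3, ← mul_assoc, ← map_mul, hu, map_one, one_mul]
        rw [hTe, hC, lift_C_mul, e2, lift_C_mul]
        refine Submodule.smul_mem _ _ (Submodule.smul_mem _ _ (Submodule.subset_span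
          ⟨Fin.last r, ?_⟩))
        simp [hG]
      · exact (Submodule.span_le.2 (Set.range_subset_iff.2 hGspan)) (hsE X hX)

variable {k : Type*} [Field k] [CharP k q]

/-- The reduction of a Gauss integral rational series, with coefficients in `k`. -/
def ratRed (k : Type*) [Field k] [CharP k q] (y : Igusa.gaussRing q) : LaurentSeries k :=
  coeffMap (ZMod.castHom dvd_rfl k) (Igusa.red q y)

theorem ratRed_def (y : Igusa.gaussRing q) :
    ratRed q k y = coeffMap (ZMod.castHom dvd_rfl k) (Igusa.red q y) := rfl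

/-- Finitely many bounded series lie in the span of Gauss integral combinations of them with
independent reductions. -/
theorem exists_rat_frame (t : Finset (LaurentSeries ℚ))
    (ht : ∀ x ∈ t, x ∈ Igusa.boundedField q) :
    ∃ (n : ℕ) (f : Fin n → Igusa.gaussRing q),
      (∀ i, (f i : LaurentSeries ℚ) ∈ Submodule.span ℚ (t : Set (LaurentSeries ℚ))) ∧
      LinearIndependent k (fun i => ratRed q k (f i)) ∧
      (t : Set (LaurentSeries ℚ)) ⊆
        Submodule.span ℚ (Set.range fun i => (f i : LaurentSeries ℚ)) := by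
  classical
  have hden : ∀ x : {x // x ∈ t}, ∃ (m : ℕ) (a b : LaurentSeries Rq), Igusa.reduce q b ≠ 0 ∧
      ((q : ℚ) ^ m • (x : LaurentSeries ℚ)) * Igusa.lift q b = Igusa.lift q a := by
    intro x
    obtain ⟨a, b, hb, he⟩ := ht x x.2
    obtain ⟨m, b', hb', hb''⟩ := Igusa.exists_pow_mul_reduce_ne_zero q hb
    refine ⟨m, a, b', hb'', ?_⟩
    rw [← he, hb', map_mul, map_pow, Igusa.lift_natCast, smul_series, map_pow, map_natCast]
    ring
  choose m a b hb hab using hden
  set B := ∏ x, b x with hB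
  have hB0 : Igusa.reduce q B ≠ 0 := by
    rw [hB, map_prod, Finset.prod_ne_zero_iff]
    exact fun x _ => hb x
  have hlB : Igusa.lift q B ≠ 0 := fun h => hB0 (by
    rw [Igusa.lift_injective q (h.trans (map_zero _).symm), map_zero])
  set T : {x // x ∈ t} → LaurentSeries Rq := fun x => a x * ∏ y ∈ Finset.univ.erase x, b y with hT
  have hTx : ∀ x, Igusa.lift q (T x) = ((q : ℚ) ^ m x • (x : LaurentSeries ℚ)) * Igusa.lift q B := by
    intro x
    rw [hT, hB, ← Finset.mul_prod_erase _ _ (Finset.mem_univ x), map_mul, map_mul, ← hab x]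
    ring
  obtain ⟨r, E, kk, hEk, hEin, hTE⟩ := exists_echelon q (Finset.univ.image T)
  have hfmem : ∀ i, Igusa.lift q (E i) / Igusa.lift q B ∈ Igusa.gaussRing q := fun i =>
    ⟨E i, B, hB0, div_mul_cancel₀ _ hlB⟩
  refine ⟨r, fun i => ⟨_, hfmem i⟩, fun i => ?_, ?_, fun x hx => ?_⟩
  · show Igusa.lift q (E i) / Igusa.lift q B ∈ Submodule.span ℚ (t : Set (LaurentSeries ℚ))
    have hle : Submodule.span ℚ (Igusa.lift q '' ((Finset.univ.image T : Finset _) :
        Set (LaurentSeries Rq))) ≤ (Submodule.span ℚ (t : Set (LaurentSeries ℚ))).comap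
          ({ toFun := fun z => z / Igusa.lift q B
             map_add' := fun u v => add_div u v _
             map_smul' := fun c u => by
              simp only [smul_series, RingHom.id_apply]; rw [mul_div_assoc] } :
            LaurentSeries ℚ →ₗ[ℚ] LaurentSeries ℚ) := by
      rw [Submodule.span_le]
      rintro _ ⟨X, hX, rfl⟩
      obtain ⟨x, -, rfl⟩ := Finset.mem_image.1 (Finset.mem_coe.1 hX)
      show Igusa.lift q (T x) / Igusa.lift q B ∈ Submodule.span ℚ (t : Set (LaurentSeries ℚ))
      rw [hTx, mul_div_assoc, div_self hlB, mul_one]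
      exact Submodule.smul_mem _ _ (Submodule.subset_span x.2)
    exact hle (hEin i)
  · rw [Fintype.linearIndependent_iff]
    intro g hg l
    have hr : ∀ i, ratRed q k ⟨_, hfmem i⟩ =
        coeffMap (ZMod.castHom dvd_rfl k) (Igusa.reduce q (E i)) /
          coeffMap (ZMod.castHom dvd_rfl k) (Igusa.reduce q B) := fun i => by
      rw [ratRed, Igusa.red_eq q (x := ⟨_, hfmem i⟩) hB0 (div_mul_cancel₀ _ hlB), map_div₀]
    have hB1 : coeffMap (ZMod.castHom dvd_rfl k) (Igusa.reduce q B) ≠ 0 := fun h => hB0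
      (coeffMap_castHom_eq_zero q h)
    have h2 : ∑ i, g i • coeffMap (ZMod.castHom dvd_rfl k) (Igusa.reduce q (E i)) = 0 := by
      have h3 := congrArg
        (fun z => z * coeffMap (ZMod.castHom dvd_rfl k) (Igusa.reduce q B)) hg
      simp only [zero_mul, Finset.sum_mul, hr, smul_series, mul_assoc, div_mul_cancel₀ _ hB1] at h3
      simpa only [smul_series] using h3
    have h4 := congrArg (fun z : LaurentSeries k => z.coeff (kk l)) h2
    simp only [HahnSeries.coeff_sum, HahnSeries.coeff_smul, coeffMap_coeff, HahnSeries.coeff_zero,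
      Igusa.reduce, hEk, smul_eq_mul] at h4
    rw [Finset.sum_eq_single l (fun i _ hi => by simp [hi]) (by simp)] at h4
    simpa using h4
  · have h := hTE (T ⟨x, hx⟩) (by simp)
    rw [hTx] at h
    obtain ⟨c, hc⟩ := (Submodule.mem_span_range_iff_exists_fun ℚ).1 h
    refine (Submodule.mem_span_range_iff_exists_fun ℚ).2
      ⟨fun i => ((q : ℚ) ^ m ⟨x, hx⟩)⁻¹ * c i, ?_⟩
    have h5 := congrArg (fun z => ((q : ℚ) ^ m ⟨x, hx⟩)⁻¹ • (z / Igusa.lift q B)) hc
    rw [mul_div_assoc, div_self hlB, mul_one, smul_smul,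
      inv_mul_cancel₀ (pow_ne_zero _ (Nat.cast_ne_zero.2 (Fact.out : q.Prime).ne_zero)),
      one_smul] at h5
    refine Eq.trans ?_ h5
    rw [Finset.sum_div, Finset.smul_sum]
    refine Finset.sum_congr rfl fun i _ => ?_
    simp only [smul_series, map_mul]
    ring

variable {A : ValuationSubring ℚbar} {π : A →+* k}

theorem sRed_coeffEmb (hA : A.LiesOverPrime q) (y : Igusa.gaussRing q) :
    SRed π (coeffEmb ℚbar (y : LaurentSeries ℚ)) (ratRed q k y) := by
  obtain ⟨a, b, hb, he⟩ := y.2
  have e1 : ∀ x : LaurentSeries Rq, coeffMap A.subtype (coeffMap (ratToA hA Fact.out) x) =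
      coeffEmb ℚbar (Igusa.lift q x) := fun x => HahnSeries.ext rfl
  have e2 : ∀ x : LaurentSeries Rq, coeffMap π (coeffMap (ratToA hA Fact.out) x) =
      coeffMap (ZMod.castHom dvd_rfl k) (Igusa.reduce q x) := fun x =>
    HahnSeries.ext (funext fun n => residue_ratToA hA (x.coeff n))
  refine ⟨coeffMap (ratToA hA Fact.out) a, coeffMap (ratToA hA Fact.out) b, ?_, ?_, ?_⟩
  · rw [e2]
    exact fun h => hb (coeffMap_castHom_eq_zero q h)
  · rw [e1, e1, ← map_mul, he]
  · rw [e2, e2, ratRed, Igusa.red_eq q hb he, ← map_mul, div_mul_cancel₀ _ hb]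

theorem coeffEmb_smul (c : ℚ) (x : LaurentSeries ℚ) :
    coeffEmb ℚbar (c • x) = (algebraMap ℚ ℚbar c) • coeffEmb ℚbar x := by
  ext n
  simp

theorem coeffEmb_mem_span {t : Set (LaurentSeries ℚ)} {x : LaurentSeries ℚ}
    (hx : x ∈ Submodule.span ℚ t) :
    coeffEmb ℚbar x ∈ Submodule.span ℚbar (coeffEmb ℚbar '' t) := by
  induction hx using Submodule.span_induction with
  | mem y hy => exact Submodule.subset_span ⟨y, hy, rfl⟩
  | zero => rw [map_zero]; exact zero_mem _
  | add y z _ _ hy hz => rw [map_add]; exact add_mem hy hz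
  | smul c y _ hy => rw [coeffEmb_smul]; exact Submodule.smul_mem _ _ hy

variable (K₀ : IntermediateField ℚ (LaurentSeries ℚ))

theorem smul_mem_intermediateField {L : Type*} [Field L]
    (F : IntermediateField L (LaurentSeries L)) (c : L) {x : LaurentSeries L} (hx : x ∈ F) :
    c • x ∈ F := by
  rw [smul_series]; exact mul_mem (F.algebraMap_mem c) hx

theorem rationalSpan_le {x : LaurentSeries ℚbar} (hx : x ∈ JTors.rationalSpan ℚbar K₀) :
    x ∈ laurentBaseChange ℚbar K₀ := by
  induction hx using Submodule.span_induction with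
  | mem y hy =>
    obtain ⟨u, hu, rfl⟩ := hy
    exact coeffEmb_mem_laurentBaseChange _ hu
  | zero => exact zero_mem _
  | add y z _ _ hy hz => exact add_mem hy hz
  | smul c y _ hy => exact smul_mem_intermediateField _ c hy

theorem span_le_of_gauss {n : ℕ} {e : Fin n → LaurentSeries ℚbar}
    (he : ∀ i, e i ∈ laurentBaseChange ℚbar K₀) {x : LaurentSeries ℚbar}
    (hx : x ∈ Submodule.span ℚbar (Set.range e)) : x ∈ laurentBaseChange ℚbar K₀ := by
  obtain ⟨c, rfl⟩ := (Submodule.mem_span_range_iff_exists_fun ℚbar).1 hx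
  exact sum_mem fun i _ => smul_mem_intermediateField _ _ (he i)

variable {K₀}

/-- A common denominator and rational numerators with independent reductions. -/
theorem exists_frame (hA : A.LiesOverPrime q) (hK : ∀ x ∈ K₀, x ∈ Igusa.boundedField q)
    (s : Finset (LaurentSeries ℚbar))
    (hs : (s : Set (LaurentSeries ℚbar)) ⊆ laurentBaseChange ℚbar K₀) :
    ∃ (n : ℕ) (f : Fin n → Igusa.gaussRing q) (b : LaurentSeries ℚbar) (zb : LaurentSeries k),
      (∀ i, (f i : LaurentSeries ℚ) ∈ K₀) ∧ LinearIndependent k (fun i => ratRed q k (f i)) ∧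
      b ∈ laurentBaseChange ℚbar K₀ ∧ SRed π b zb ∧ zb ≠ 0 ∧
      zb ∈ Submodule.span k (Set.range fun i => ratRed q k (f i)) ∧
      ∀ x ∈ s, x * b ∈
        Submodule.span ℚbar (Set.range fun i => coeffEmb ℚbar (f i : LaurentSeries ℚ)) := by
  classical
  choose a ha b hb hb0 hab using fun x : {x // x ∈ s} =>
    JTors.exists_frac_rationalSpan K₀ (hs x.2)
  set B := ∏ x, b x with hB
  have hprod : ∀ S : Finset {x // x ∈ s}, ∏ x ∈ S, b x ∈ JTors.rationalSpan ℚbar K₀ := by
    intro S
    induction S using Finset.induction with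
    | empty =>
      rw [Finset.prod_empty]
      exact Submodule.subset_span ⟨1, one_mem K₀, map_one _⟩
    | insert x S hx ih =>
      rw [Finset.prod_insert hx]
      exact JTors.mul_mem_rationalSpan K₀ (hb x) ih
  have hBmem : B ∈ JTors.rationalSpan ℚbar K₀ := hprod _
  have hnum : ∀ x : {x // x ∈ s},
      (x : LaurentSeries ℚbar) * B ∈ JTors.rationalSpan ℚbar K₀ := by
    intro x
    rw [hB, ← Finset.mul_prod_erase _ _ (Finset.mem_univ x), ← mul_assoc, hab x]
    exact JTors.mul_mem_rationalSpan K₀ (ha x) (hprod _)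
  set N : Finset (LaurentSeries ℚbar) := insert B (s.image fun x => x * B) with hN
  have hNmem : (N : Set (LaurentSeries ℚbar)) ⊆ JTors.rationalSpan ℚbar K₀ := by
    intro y hy
    rcases Finset.mem_insert.1 (Finset.mem_coe.1 hy) with rfl | hy
    · exact hBmem
    · obtain ⟨x, hx, rfl⟩ := Finset.mem_image.1 hy
      exact hnum ⟨x, hx⟩
  have hfin : ∀ y : {y // y ∈ N}, ∃ T : Finset (LaurentSeries ℚ), (T : Set (LaurentSeries ℚ)) ⊆ K₀ ∧
      (y : LaurentSeries ℚbar) ∈ Submodule.span ℚbar (coeffEmb ℚbar '' (T : Set _)) := by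
    intro y
    obtain ⟨T, hT, hyT⟩ := Submodule.mem_span_finite_of_mem_span (hNmem y.2)
    obtain ⟨T', hT', rfl⟩ := Finset.subset_set_image_iff.1 hT
    exact ⟨T', hT', by simpa using hyT⟩
  choose T hT hTy using hfin
  set t := Finset.univ.biUnion T with ht
  obtain ⟨n, f, hf, hind, hspan⟩ := exists_rat_frame q (k := k) t (fun x hx => hK x (by
    obtain ⟨y, -, hy⟩ := Finset.mem_biUnion.1 hx
    exact hT y hy))
  have hfK : ∀ i, (f i : LaurentSeries ℚ) ∈ K₀ := fun i => by
    have hle : Submodule.span ℚ (t : Set (LaurentSeries ℚ)) ≤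
        ({ carrier := (K₀ : Set (LaurentSeries ℚ))
           add_mem' := fun h h' => add_mem h h'
           zero_mem' := zero_mem K₀
           smul_mem' := fun c x hx => smul_mem_intermediateField K₀ c hx } :
          Submodule ℚ (LaurentSeries ℚ)) :=
      Submodule.span_le.2 fun x hx => by
        obtain ⟨y, -, hy⟩ := Finset.mem_biUnion.1 (Finset.mem_coe.1 hx)
        exact hT y hy
    exact hle (hf i)
  set e : Fin n → LaurentSeries ℚbar := fun i => coeffEmb ℚbar (f i : LaurentSeries ℚ) with he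
  have hNspan : ∀ y ∈ N, y ∈ Submodule.span ℚbar (Set.range e) := by
    intro y hy
    refine Submodule.span_le.2 ?_ (hTy ⟨y, hy⟩)
    rintro _ ⟨u, hu, rfl⟩
    have h1 := coeffEmb_mem_span (hspan (Finset.mem_coe.2 (Finset.mem_biUnion.2
      ⟨⟨y, hy⟩, Finset.mem_univ _, hu⟩)))
    rwa [← Set.range_comp] at h1
  have hB0 : B ≠ 0 := Finset.prod_ne_zero_iff.2 fun x _ => hb0 x
  obtain ⟨c, zb, hc, hzb, hzbmem, hr⟩ := exists_sRed_scale
    (fun i => sRed_coeffEmb q (π := π) hA (f i)) hind (hNspan B (Finset.mem_insert_self _ _)) hB0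
  refine ⟨n, f, c • B, zb, hfK, hind,
    smul_mem_intermediateField _ c (rationalSpan_le K₀ hBmem), hr, hzb, hzbmem, fun x hx => ?_⟩
  rw [smul_series, mul_left_comm, ← smul_series]
  exact Submodule.smul_mem _ c
    (hNspan _ (Finset.mem_insert_of_mem (Finset.mem_image_of_mem (fun x => x * B) hx)))

/-- Base changes of bounded fields of rational series have orthogonal bases. -/
theorem hasOrth_laurentBaseChange (hA : A.LiesOverPrime q)
    (hK : ∀ x ∈ K₀, x ∈ Igusa.boundedField q) :
    HasOrth π (laurentBaseChange ℚbar K₀) := by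
  intro s hs
  obtain ⟨n, f, b, zb, hf, hind, hb, hr, hzb, -, hx⟩ := exists_frame q (π := π) hA hK s hs
  refine ⟨n, fun i => coeffEmb ℚbar (f i : LaurentSeries ℚ) / b,
    fun i => ratRed q k (f i) / zb,
    fun i => div_mem (coeffEmb_mem_laurentBaseChange _ (hf i)) hb,
    fun i => (sRed_coeffEmb q hA (f i)).div hr hzb, ?_, fun x hxs => ?_⟩
  · rw [Fintype.linearIndependent_iff]
    intro g hg
    refine Fintype.linearIndependent_iff.1 hind g ?_
    have h3 := congrArg (fun z => z * zb) hg
    simp only [zero_mul, Finset.sum_mul, smul_series, mul_assoc, div_mul_cancel₀ _ hzb] at h3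
    simpa only [smul_series] using h3
  · obtain ⟨c, hc⟩ := (Submodule.mem_span_range_iff_exists_fun ℚbar).1 (hx x hxs)
    refine (Submodule.mem_span_range_iff_exists_fun ℚbar).2 ⟨c, ?_⟩
    have hb0 : b ≠ 0 := hr.ne_zero hzb
    rw [show x = x * b / b from (mul_div_cancel_right₀ x hb0).symm, ← hc, Finset.sum_div]
    exact Finset.sum_congr rfl fun i _ => by rw [smul_series, smul_series, mul_div_assoc]

/-- Reductions lie in any field containing the reductions of the Gauss integral elements. -/
theorem mem_of_sRed (hπ : IsResidueMap A π) (hA : A.LiesOverPrime q)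
    (hK : ∀ x ∈ K₀, x ∈ Igusa.boundedField q) {C : IntermediateField k (LaurentSeries k)}
    (hC : ∀ y : Igusa.gaussRing q, (y : LaurentSeries ℚ) ∈ K₀ → ratRed q k y ∈ C)
    {y : LaurentSeries ℚbar} {z : LaurentSeries k} (hy : y ∈ laurentBaseChange ℚbar K₀)
    (hz : SRed π y z) : z ∈ C := by
  obtain ⟨n, f, b, zb, hf, hind, hb, hr, hzb, hzbmem, hx⟩ :=
    exists_frame q (π := π) hA hK {y} (by simpa using hy)
  obtain ⟨c, hc⟩ := (Submodule.mem_span_range_iff_exists_fun ℚbar).1 (hx y (by simp))
  have he := fun i => sRed_coeffEmb q (π := π) hA (f i)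
  have hcA := SRed.coeff_mem hπ he hind (c := c) (by rw [hc]; exact hz.mul hr)
  have h1 : SRed π (y * b) (∑ i, π ⟨c i, hcA i⟩ • ratRed q k (f i)) := by
    rw [← hc]; exact SRed.sum _ fun i _ => (he i).smul ⟨c i, hcA i⟩
  have hzC : z * zb ∈ C := by
    rw [(hz.mul hr).unique h1]
    exact sum_mem fun i _ => smul_mem_intermediateField C _ (hC _ (hf i))
  have hzbC : zb ∈ C := by
    obtain ⟨d, hd⟩ := (Submodule.mem_span_range_iff_exists_fun k).1 hzbmem
    rw [← hd]
    exact sum_mem fun i _ => smul_mem_intermediateField C _ (hC _ (hf i))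
  rw [← mul_div_cancel_right₀ z hzb]
  exact div_mem hzC hzbC

end FLTAgent.Semistable
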