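import Fermat.Agent.Semistable.CountLift

/-!
# The number of crossings, `q ≥ 5`

`(θ j̄)^(q-1)` has degree `0`, grows like `j^(q-1)` at the cusps, and at every other place vanishes
to order `(q-1)(e-1)` up to a double pole at a crossing; as `e ≥ 3` over `0` and `e ≥ 2` over `1728`
there are at least `(q-1) ψ(M) / 12` crossings.
-/

set_option autoImplicit false
set_option linter.style.haveILetI false
set_option linter.unusedSectionVars false
set_option synthInstance.maxHeartbeats 100000

noncomputable section

open ModularCurve AlgebraicCurve IsLocalRing Polynomial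
open scoped IntermediateField

namespace FLTAgent.Semistable

open FLTAgent.GoodRed FLTAgent.GoodRed.RedDatum FLTAgent.Hecke FLTAgent.FunctionField FLTAgent.Genus

-- shortcut for the search of the algebra structures on `modularFunctionFieldFullC`
local instance (priority := high) instAlgebraFullCCountLarge {K : Type*} [Field K]
    (S : IntermediateField K (LaurentSeries K)) : Algebra K S :=
  SubalgebraClass.toAlgebra S

local notation "Qbar" => AlgebraicClosure ℚ

theorem ord_sub_algebraMap_of_neg {K F : Type*} [Field K] [Field F] [Algebra K F]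
    {v : Place K F} {f : F} (hf : v.ord f < 0) (a : K) :
    v.ord (f - algebraMap K F a) = v.ord f := by
  have hne : f ≠ 0 := fun h => by rw [h, Place.ord_zero] at hf; omega
  rw [sub_eq_add_neg, (ord_add_eq_left hne ((ordGe_algebraMap a).neg.mono (by omega))).2]

theorem le_ord_red_sub_const {L k F C : Type*} [Field L] [Field k] [Field F] [Algebra L F]
    [Field C] [Algebra k C] {A : ValuationSubring L} {π : A →+* k} [IsFunctionField L F]
    [IsFunctionField k C] {D : RedDatum A π F C} (R : PlaceRed D) {f : F} {fb : C}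
    (h : D.Red f fb) (a : A) {b : L} {bb : k} (hb : (a : L) = b) (hbb : π a = bb) {x : Place k C}
    (hreg : ∀ v, R.r v = x → 0 ≤ v.ord f) {m : ℤ}
    (hm : ∀ v : Place L F, R.r v = x → 0 < v.ord (f - algebraMap L F b) →
      m ≤ v.ord (f - algebraMap L F b))
    (hpos : 0 < x.ord (fb - algebraMap k C bb)) : m ≤ x.ord (fb - algebraMap k C bb) := by
  subst hb hbb
  have hred := h.sub (red_algebraMap (D := D) a)
  have hne : f - algebraMap L F (a : L) ≠ 0 := hred.ne_zero fun h0 => by
    rw [h0, Place.ord_zero] at hpos; omega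
  refine le_ord_red_of_lifts R hred (fun v hv => ?_) hpos
  have h1 := ((ordGe_of_le_ord (hreg v hv)).sub (ordGe_algebraMap (a : L))).le_ord hne
  exact ⟨h1, h1.eq_or_lt.imp Eq.symm (hm v hv)⟩

variable {M q : ℕ} [NeZero M] [Fact q.Prime]

local instance : NeZero q := ⟨(Fact.out : q.Prime).ne_zero⟩

variable {A : ValuationSubring (AlgebraicClosure ℚ)} (hA : A.LiesOverPrime q)
  [CharP (ResidueField A) q] [IsAlgClosed (ResidueField A)] (hqM : ¬ q ∣ M)
  [IsFunctionField (ResidueField A) (modularFunctionFieldFullC (ResidueField A) M)]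
  (R : PlaceRed (x0Datum A hA M hqM))

include R in
/-- Off the cusps the reduction of places only receives places off the cusps. -/
theorem ord_jMF_nonneg {v : Place Qbar (MF Qbar M)}
    (hv : 0 ≤ (R.r v).ord (x0Jb A hA M hqM)) : 0 ≤ v.ord (jMF Qbar M) := by
  have h := mapDomain_le_apply R.r (fun a _ => zeroDivisor_nonneg (K := Qbar) (jMF Qbar M)⁻¹ a)
    (b := R.r v) v rfl
  rw [mapDomain_polar_j_apply hA hqM R hv, zeroDivisor_apply, v.ord_inv] at h
  omega

theorem red_jMF : (x0Datum A hA M hqM).Red (jMF Qbar M) (x0Jb A hA M hqM) := by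
  rw [jMF_eq_x0J hA hqM]; exact red_x0J A hA M hqM

include R

theorem three_le_ord_jb (h3 : nuThree M = 0)
    {x : Place (ResidueField A) (modularFunctionFieldFullC (ResidueField A) M)}
    (hx : 0 < x.ord (x0Jb A hA M hqM)) : 3 ≤ x.ord (x0Jb A hA M hqM) := by
  refine le_ord_red_of_lifts R (red_jMF hA hqM) (fun v hv => ?_) hx
  have h0 := ord_jMF_nonneg hA hqM R (v := v) (by rw [hv]; exact hx.le)
  refine ⟨h0, ?_⟩
  rcases h0.eq_or_lt with h | h
  · exact Or.inl h.symm
  · exact Or.inr (ord_jMF_eq_three h3 h).ge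

set_option maxHeartbeats 1600000 in
-- the statement mentions several large fields
theorem two_le_ord_jb_sub (h2 : nuTwo M = 0)
    {x : Place (ResidueField A) (modularFunctionFieldFullC (ResidueField A) M)}
    (hx : 0 < x.ord (x0Jb A hA M hqM - algebraMap (ResidueField A) _ 1728)) :
    2 ≤ x.ord (x0Jb A hA M hqM - algebraMap (ResidueField A) _ 1728) := by
  have hxj : 0 ≤ x.ord (x0Jb A hA M hqM) := by
    by_contra hneg
    push Not at hneg
    rw [ord_sub_algebraMap_of_neg hneg] at hx
    omega
  exact le_ord_red_sub_const (F := MF Qbar M) R (red_jMF hA hqM) (1728 : A)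
    (map_ofNat A.subtype 1728) (map_ofNat (residue A) 1728)
    (fun v hv => ord_jMF_nonneg hA hqM R (by rw [hv]; exact hxj))
    (fun v _ h => (ord_jMF_eq_two h2 h).ge) hx

variable {g c : ℤ} (hL : RRLarge Qbar (MF Qbar M) g c)
  (hk : RRLarge (ResidueField A) (modularFunctionFieldFullC (ResidueField A) M) g c)
include hL hk

set_option maxHeartbeats 1600000 in
-- the statement mentions several large fields
/-- `(θ t)^(q-1)` at a place off the cusps. -/
theorem le_ord_euler_pow
    {x : Place (ResidueField A) (modularFunctionFieldFullC (ResidueField A) M)}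
    (hx : 0 ≤ x.ord (x0Jb A hA M hqM))
    {t Rc : modularFunctionFieldFullC (ResidueField A) M} {a : ResidueField A}
    (hRc : (Rc : LaurentSeries (ResidueField A)) =
      euler (t : LaurentSeries (ResidueField A)) ^ (q - 1))
    (hRc0 : Rc ≠ 0) (he : 0 < x.ord (t - algebraMap (ResidueField A) _ a))
    [Decidable (x ∈ crossingSet A hA hqM)] :
    ((q - 1 : ℕ) : ℤ) * (x.ord (t - algebraMap (ResidueField A) _ a) - 1) -
        2 * (if x ∈ crossingSet A hA hqM then 1 else 0) ≤ x.ord Rc := by
  obtain ⟨p, d, hp, hd, hd2, hd0⟩ := exists_deriv_pow hA hqM R hL hk hx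
  refine le_ord_of_deriv x (Fact.out : q.Prime).pos (frobC (K := ResidueField A) q M)
    (frPlace q M) (ord_frobC q M) (finrank_frobC q M (natCast_residue_ne_zero hA hqM)) hp
    (modularFunctionFieldFullC (ResidueField A) M).val.toRingHom euler_frobC hd ?_ hRc ?_ hRc0 he
  · split
    · simpa using hd2
    · next h => simpa using hd0 h
  · exact (congrArg euler ((modularFunctionFieldFullC (ResidueField A) M).val.commutes a)).trans
      (euler_algebraMap a)

set_option maxHeartbeats 1600000 in
-- the statement mentions several large fields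
/-- At least `(q-1) ψ(M) / 12` crossings. -/
theorem card_crossings_large (h5 : 5 ≤ q) (h2 : nuTwo M = 0) (h3 : nuThree M = 0) :
    ((q - 1 : ℕ) : ℤ) * dedekindPsi M ≤
      12 * ((crossingSet_finite hA hqM R).toFinset.card : ℤ) := by
  classical
  set m : ℤ := ((q - 1 : ℕ) : ℤ)
  set jb := x0Jb A hA M hqM
  obtain ⟨Rc, hRc, hRc0, hRinf⟩ := exists_euler_jb_pow hA hqM
  have htr : Transcendental (ResidueField A) jb := transcendental_x0Jb A hA M hqM
  have h1728 : (1728 : ResidueField A) ≠ 0 := by
    have h := natCast_residue_ne_zero hA (show ¬ q ∣ 1728 from fun hd => by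
      have h' : q ∣ 2 ^ 6 * 3 ^ 3 := by norm_num; exact hd
      rcases (Fact.out : q.Prime).dvd_mul.1 h' with h'' | h'' <;>
        have := Nat.le_of_dvd (by norm_num) ((Fact.out : q.Prime).dvd_of_dvd_pow h'') <;> omega)
    exact_mod_cast h
  have hn : (Module.finrank (ResidueField A)⟮jb⟯
      (modularFunctionFieldFullC (ResidueField A) M) : ℤ) = dedekindPsi M := by
    have h : Module.finrank (ResidueField A)⟮jb⟯ (modularFunctionFieldFullC (ResidueField A) M) =
        Module.finrank Qbar⟮x0J A hA M hqM⟯ (modularFunctionFieldBar M) :=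
      noDefect_x0J A hA M hqM
    rw [h, ← jMF_eq_x0J hA hqM]
    exact_mod_cast finrank_jMF
  have key := finrank_mul_le_card htr Rc (crossingSet_finite hA hqM R).toFinset 0 1728 6 (4 * m)
    (3 * m) (6 * m) 12 fun x => ?_
  · rw [hn] at key
    linarith
  have hm : 4 ≤ m := by omega
  simp only [Set.Finite.mem_toFinset, map_zero, sub_zero, x.ord_inv]
  rcases lt_or_ge (x.ord jb) 0 with hneg | hx
  · have h' : x.ord (jb - algebraMap (ResidueField A) _ 1728) = x.ord jb := by
      exact ord_sub_algebraMap_of_neg hneg 1728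
    rw [h', hRinf x hneg, max_eq_right hneg.le, max_eq_left (by omega : (0 : ℤ) ≤ -x.ord jb)]
    split <;> nlinarith
  rw [max_eq_right (by omega : -x.ord jb ≤ 0), mul_zero, add_zero]
  obtain ⟨a, ha⟩ := exists_value (v := x) (ordGe_of_le_ord (f := jb) hx)
  have hne : ∀ b, jb - algebraMap (ResidueField A) _ b ≠ 0 := fun b h =>
    htr ((sub_eq_zero.1 h) ▸ isAlgebraic_algebraMap b)
  have hpos : 0 < x.ord (jb - algebraMap (ResidueField A) _ a) := ha.le_ord (hne a)
  have hval : ∀ b, 0 < x.ord (jb - algebraMap (ResidueField A) _ b) → a = b := fun b hb =>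
    value_unique ha (ordGe_of_le_ord hb)
  have hR := le_ord_euler_pow hA hqM R hL hk hx hRc hRc0 hpos
  rcases eq_or_ne a 0 with rfl | ha0
  · rw [map_zero, sub_zero] at hpos hR
    have he := three_le_ord_jb hA hqM R h3 hpos
    have hmax : max (x.ord (jb - algebraMap (ResidueField A) _ 1728)) 0 = 0 :=
      max_eq_right (not_lt.1 fun h => h1728 (hval 1728 h).symm)
    rw [max_eq_left hpos.le, hmax]
    generalize (if x ∈ crossingSet A hA hqM then (1 : ℤ) else 0) = i at hR ⊢
    nlinarith
  rcases eq_or_ne a 1728 with rfl | ha1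
  · have he := two_le_ord_jb_sub hA hqM R h2 hpos
    have hmax : max (x.ord jb) 0 = 0 := max_eq_right (not_lt.1 fun h => h1728
      (hval 0 (by rwa [map_zero, sub_zero])))
    rw [max_eq_left hpos.le, hmax]
    generalize (if x ∈ crossingSet A hA hqM then (1 : ℤ) else 0) = i at hR ⊢
    nlinarith
  have hmax0 : max (x.ord jb) 0 = 0 := max_eq_right (not_lt.1 fun h =>
    ha0 (hval 0 (by rwa [map_zero, sub_zero])))
  have hmax1 : max (x.ord (jb - algebraMap (ResidueField A) _ 1728)) 0 = 0 :=
    max_eq_right (not_lt.1 fun h => ha1 (hval 1728 h))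
  rw [hmax0, hmax1]
  generalize (if x ∈ crossingSet A hA hqM then (1 : ℤ) else 0) = i at hR ⊢
  nlinarith

end FLTAgent.Semistable
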