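import Fermat.Agent.GoodRed.SmallPrime.Main
import Fermat.Agent.Semistable.Deriv

/-!
# The coordinates of levels `2` and `3` in characteristic `3` and `2`

In characteristic dividing `12` their derivative `X d/dX` is minus themselves.
-/

set_option autoImplicit false

noncomputable section

open ModularCurve HahnSeries Polynomial

namespace FLTAgent.Semistable

open FLTAgent.GoodRed.SmallPrime FLTAgent.Genus FLTAgent.Igusa

variable {K : Type*} [Field K]

theorem euler_eq_zero_of_natCast {m n : ℕ} {f g : LaurentSeries K} (hg : g = f ^ n) (hm : m ∣ n)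
    (h0 : (m : K) = 0) : euler g = 0 := by
  obtain ⟨c, rfl⟩ := hm
  have h : (m : LaurentSeries K) = 0 := by
    rw [← map_natCast (algebraMap K (LaurentSeries K)), h0, map_zero]
  rw [hg, euler_pow, Nat.cast_mul, h, zero_mul, zero_mul, zero_mul]

theorem euler_single_one (n : ℤ) :
    euler (single n (1 : K)) = (n : LaurentSeries K) * single n (1 : K) := by
  ext i
  rw [euler_coeff, ← map_intCast (HahnSeries.C (Γ := ℤ) (R := K)), HahnSeries.C_mul_eq_smul,
    HahnSeries.coeff_smul, smul_eq_mul, HahnSeries.coeff_single]
  split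
  · next h => rw [h]
  · rw [mul_zero, mul_zero]

theorem euler_of_mul_eq_one {f g : LaurentSeries K} (h : f * g = 1) {c : LaurentSeries K}
    (hf : euler f = c * f) : euler g = -c * g := by
  have h1 := congrArg euler h
  rw [euler_mul, euler_one, hf] at h1
  linear_combination g * h1 - (euler g + c * g) * h

/-- The image of an integral power series. -/
abbrev castPS (f : PowerSeries ℤ) : LaurentSeries K :=
  coeffMap (Int.castRingHom K) (ofZ ℤ f)

theorem euler_castPS_pow (f : PowerSeries ℤ) {m n : ℕ} (hm : m ∣ n) (h0 : (m : K) = 0) :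
    euler (castPS (K := K) (f ^ n)) = 0 :=
  euler_eq_zero_of_natCast (f := castPS f) (by simp only [castPS, map_pow]) hm h0

theorem euler_hauptThree_map (h2 : ((2 : ℕ) : K) = 0) :
    euler (coeffMap (Int.castRingHom K) hauptThree) =
      -coeffMap (Int.castRingHom K) hauptThree := by
  have hP : euler (castPS (K := K) (etaProd ^ 12)) = 0 :=
    euler_castPS_pow _ (by norm_num) h2
  have hH : euler (castPS (K := K) halfInv) = 0 := by
    have h := euler_of_mul_eq_one (f := castPS (K := K) (etaProd ^ 12))
      (g := castPS (K := K) halfInv) (c := 0)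
      (by simp only [castPS, ← map_mul, etaProd_pow_mul_halfInv, map_one])
      (by rw [hP, zero_mul])
    rw [h, neg_zero, zero_mul]
  rw [hauptThree, map_mul (coeffMap _), map_mul (coeffMap _), coeffMap_single, map_one,
    ModularCurve.coeffMap_qExpand, euler_mul,
    euler_mul, euler_qExpand, euler_single_one]
  change euler (coeffMap _ (ofZ ℤ (etaProd ^ 12))) = 0 at hP
  change euler (coeffMap _ (ofZ ℤ halfInv)) = 0 at hH
  rw [hP, hH, map_zero]
  push_cast
  ring

theorem euler_hauptTwo_map (h3 : ((3 : ℕ) : K) = 0) :
    euler (coeffMap (Int.castRingHom K) hauptTwo) = -coeffMap (Int.castRingHom K) hauptTwo := by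
  have hU : euler (castPS (K := K) dedekindEtaUnit) = 0 :=
    euler_castPS_pow _ (by norm_num) h3
  have hD : euler (castPS (K := K) psD) = 1 * castPS (K := K) psD := by
    simp only [castPS, ofZ_psD, map_mul, coeffMap_single, map_one] at hU ⊢
    rw [euler_mul, euler_single_one, hU, mul_zero, add_zero, Int.cast_one, one_mul, one_mul]
  have hS : euler (coeffMap (Int.castRingHom K) (sDinv ℤ)) =
      -1 * coeffMap (Int.castRingHom K) (sDinv ℤ) :=
    euler_of_mul_eq_one (by rw [← map_mul, psD_mul_sDinv, map_one]) hD
  rw [hauptTwo, map_mul (coeffMap _), ModularCurve.coeffMap_qExpand, euler_mul, euler_qExpand, hS]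
  change euler (coeffMap _ (ofZ ℤ psD)) = _ at hD
  rw [hD, map_mul, map_neg, map_one]
  push_cast
  ring

end FLTAgent.Semistable
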