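import Fermat.Agent.Semistable.CountLarge
import Fermat.Agent.Semistable.CountSmallSeries

/-!
# The number of crossings, `q = 2, 3`

In a coordinate `t` of level `3`, resp. `2`, one has `θ t̄ = -t̄`, so the derivative of `t̄` only
degenerates at crossings, and `t̄` ramifies over the elliptic value.
-/

set_option autoImplicit false
set_option linter.style.haveILetI false
set_option linter.unusedSectionVars false
set_option synthInstance.maxHeartbeats 100000

noncomputable section

open ModularCurve AlgebraicCurve IsLocalRing Polynomial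
open scoped IntermediateField

namespace FLTAgent.Semistable

open FLTAgent.GoodRed FLTAgent.GoodRed.RedDatum FLTAgent.GoodRed.SmallPrime FLTAgent.Hecke
  FLTAgent.FunctionField FLTAgent.Genus

local notation "Qbar" => AlgebraicClosure ℚ

section general

variable {K F : Type*} [Field K] [Field F] [Algebra K F] {v : Place K F}

theorem ord_nonneg_of_equation {t j : F} {P Q : K[X]} (hdeg : Q.natDegree < P.natDegree)
    (hQ : Q ≠ 0) (h : j * aeval t Q = aeval t P) (hj : 0 ≤ v.ord j) : 0 ≤ v.ord t := by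
  by_contra hneg
  push Not at hneg
  have hP : P ≠ 0 := fun h0 => by rw [h0, natDegree_zero] at hdeg; omega
  obtain ⟨h1, h1'⟩ := ord_aeval_of_ord_neg hneg P hP
  obtain ⟨h2, h2'⟩ := ord_aeval_of_ord_neg hneg Q hQ
  have hj0 : j ≠ 0 := fun h0 => h1 (by rw [← h, h0, zero_mul])
  have e : v.ord (j * aeval t Q) = v.ord (aeval t P) := congrArg v.ord h
  rw [v.ord_mul hj0 h2, h1', h2'] at e
  have hd : (Q.natDegree : ℤ) + 1 ≤ P.natDegree := by exact_mod_cast hdeg
  nlinarith

/-- `f t^i = (t - a) (t - b)^l` and `0, b ≠ a`: at a zero of `t - a` the orders agree. -/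
theorem ord_eq_of_factor {t f : F} {a b : K} {i l : ℕ} (ha : a ≠ 0) (hb : a ≠ b)
    (h : f * t ^ i = (t - algebraMap K F a) * (t - algebraMap K F b) ^ l)
    (hpos : 0 < v.ord (t - algebraMap K F a)) :
    v.ord f = v.ord (t - algebraMap K F a) := by
  have hu : ∀ c : K, a ≠ c → t - algebraMap K F c ≠ 0 ∧ v.ord (t - algebraMap K F c) = 0 := by
    intro c hc
    have hne : algebraMap K F (a - c) ≠ 0 := (_root_.map_ne_zero _).2 (sub_ne_zero.2 hc)
    have hs : OrdGe v 1 (t - algebraMap K F c - algebraMap K F (a - c)) := by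
      rw [map_sub, sub_sub_sub_cancel_right]
      exact ordGe_of_le_ord (by omega)
    obtain ⟨h1, h2⟩ := ord_eq_of_ordGe_sub hs hne (by rw [ord_algebraMap]; omega)
    exact ⟨h1, h2.trans (ord_algebraMap _)⟩
  obtain ⟨hb0, hb1⟩ := hu b hb
  obtain ⟨ht0, ht1⟩ := hu 0 ha
  rw [map_zero, sub_zero] at ht0 ht1
  have hta : t - algebraMap K F a ≠ 0 := fun h0 => by rw [h0, Place.ord_zero] at hpos; omega
  have hf : f ≠ 0 := fun h0 => mul_ne_zero hta (pow_ne_zero l hb0) (by rw [← h, h0, zero_mul])
  have e := congrArg v.ord h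
  rw [v.ord_mul hf (pow_ne_zero _ ht0), v.ord_mul hta (pow_ne_zero _ hb0),
    FunctionField.ord_pow, FunctionField.ord_pow, hb1, ht1] at e
  simpa using e

/-- `t - a` has no zeros at the poles of `j` when `j Q(t) = P(t)` and `Q a ≠ 0`. -/
theorem ord_sub_nonpos_of_equation {t j : F} {P Q : K[X]} {a : K} (hQa : Q.eval a ≠ 0)
    (h : j * aeval t Q = aeval t P) (hj : v.ord j < 0) :
    v.ord (t - algebraMap K F a) ≤ 0 := by
  by_contra hpos
  push Not at hpos
  obtain ⟨ht, hQ1⟩ := ordGe_sub_eval hpos Q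
  obtain ⟨hQne, hQord⟩ := ord_eq_of_ordGe_sub hQ1 ((_root_.map_ne_zero _).2 hQa)
    (by rw [ord_algebraMap]; omega)
  rw [ord_algebraMap] at hQord
  have hj0 : j ≠ 0 := fun h0 => by rw [h0, Place.ord_zero] at hj; omega
  have hge := FunctionField.ordGe_aeval ht P
  rw [← h] at hge
  have := hge.le_ord (mul_ne_zero hj0 hQne)
  rw [v.ord_mul hj0 hQne, hQord] at this
  omega

theorem aeval_val {E : IntermediateField K F} (t : E) (P : K[X]) :
    ((aeval t P : E) : F) = aeval (t : F) P :=
  (aeval_algHom_apply E.val t P).symm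

theorem equation_of_coe {E : IntermediateField K F} {j t : E} {P Q : K[X]}
    (h : (j : F) * aeval (t : F) Q = aeval (t : F) P) : j * aeval t Q = aeval t P :=
  Subtype.ext (by rw [IntermediateField.coe_mul, aeval_val, aeval_val]; exact h)

end general

variable {M q : ℕ} [NeZero M] [Fact q.Prime]

local instance : NeZero q := ⟨(Fact.out : q.Prime).ne_zero⟩

variable {A : ValuationSubring (AlgebraicClosure ℚ)} (hA : A.LiesOverPrime q)
  [CharP (ResidueField A) q] [IsAlgClosed (ResidueField A)] (hqM : ¬ q ∣ M)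
  [IsFunctionField (ResidueField A) (modularFunctionFieldFullC (ResidueField A) M)]
  (R : PlaceRed (x0Datum A hA M hqM))
  {g c : ℤ} (hL : RRLarge Qbar (MF Qbar M) g c)
  (hk : RRLarge (ResidueField A) (modularFunctionFieldFullC (ResidueField A) M) g c)
include hL hk

set_option maxHeartbeats 3200000 in
-- the statement mentions several large fields
/-- Counting crossings in a coordinate `t` with `θ t̄ = -t̄`. -/
theorem card_crossings_coord {t : MF Qbar M}
    {tb : modularFunctionFieldFullC (ResidueField A) M} (ht : (x0Datum A hA M hqM).Red t tb)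
    (heu : euler (tb : LaurentSeries (ResidueField A)) = -(tb : LaurentSeries (ResidueField A)))
    {Pb Qb : (ResidueField A)[X]} (hPQ : IsCoprime Pb Qb) (hdeg : Qb.natDegree < Pb.natDegree)
    (heq : x0Jb A hA M hqM * aeval tb Qb = aeval tb Pb)
    (a : A) {al : Qbar} {ab : ResidueField A} (hal : (a : Qbar) = al) (hab : residue A a = ab)
    (hab0 : ab ≠ 0) (hQa : Qb.eval ab ≠ 0)
    (hreg : ∀ v : Place Qbar (MF Qbar M), 0 ≤ v.ord (jMF Qbar M) → 0 ≤ v.ord t)
    {e₀ : ℤ} (hram : ∀ v : Place Qbar (MF Qbar M), 0 ≤ v.ord (jMF Qbar M) →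
      0 < v.ord (t - algebraMap Qbar _ al) → e₀ ≤ v.ord (t - algebraMap Qbar _ al))
    (w : ℤ) (hw : ∀ e i : ℤ, (i = 0 ∨ i = 1) → e₀ ≤ e → ((q - 1 : ℕ) : ℤ) * (e - 1) ≤ 2 * i →
      e ≤ w * i) (hw0 : 0 ≤ w) :
    (dedekindPsi M : ℤ) ≤
      Pb.natDegree * (w * ((crossingSet_finite hA hqM R).toFinset.card : ℤ)) := by
  classical
  set jb := x0Jb A hA M hqM
  have hjtr : Transcendental (ResidueField A) jb := transcendental_x0Jb A hA M hqM
  have httr : Transcendental (ResidueField A) tb := transcendental_of_equation hjtr hPQ heq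
  have hn : dedekindPsi M = Pb.natDegree * Module.finrank (ResidueField A)⟮tb⟯
      (modularFunctionFieldFullC (ResidueField A) M) := by
    rw [← finrank_adjoin_equation httr hPQ hdeg heq]
    have h : Module.finrank (ResidueField A)⟮jb⟯ (modularFunctionFieldFullC (ResidueField A) M) =
        Module.finrank Qbar⟮x0J A hA M hqM⟯ (modularFunctionFieldBar M) :=
      noDefect_x0J A hA M hqM
    rw [h, ← jMF_eq_x0J hA hqM]
    exact finrank_jMF.symm
  have key := finrank_mul_le_card httr (1 : modularFunctionFieldFullC (ResidueField A) M)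
    (crossingSet_finite hA hqM R).toFinset ab ab 0 1 0 0 w fun x => ?_
  · rw [hn, Nat.cast_mul]
    refine mul_le_mul_of_nonneg_left ?_ (Nat.cast_nonneg _)
    linarith
  simp only [Set.Finite.mem_toFinset, zero_mul, add_zero, zero_add, one_mul]
  rcases le_or_gt (x.ord (tb - algebraMap (ResidueField A) _ ab)) 0 with hle | hpos
  · rw [max_eq_right hle]
    split <;> omega
  rw [max_eq_left hpos.le]
  have hx : 0 ≤ x.ord jb := by
    by_contra hneg
    push Not at hneg
    exact absurd (ord_sub_nonpos_of_equation hQa heq hneg) (not_le.2 hpos)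
  have he := le_ord_red_sub_const (F := MF Qbar M) R ht a hal hab
    (fun v hv => hreg v (ord_jMF_nonneg hA hqM R (by rw [hv]; exact hx)))
    (m := e₀) (fun v hv h => hram v (ord_jMF_nonneg hA hqM R (by rw [hv]; exact hx)) h) hpos
  have hR0 : (-tb) ^ (q - 1) ≠ 0 := pow_ne_zero _ (neg_ne_zero.2 fun h0 => by
    rw [h0] at httr; exact httr (isAlgebraic_zero))
  have hR := le_ord_euler_pow hA hqM R hL hk hx (t := tb) (Rc := (-tb) ^ (q - 1))
    (by rw [heu]; push_cast; rfl) hR0 hpos
  have htb : x.ord tb = 0 := by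
    have h := ord_eq_of_ordGe_sub (v := x) (f := tb) (g := algebraMap (ResidueField A) _ ab)
      (n := 1) (ordGe_of_le_ord (by omega)) ((_root_.map_ne_zero _).2 hab0)
      (by rw [ord_algebraMap]; omega)
    rw [h.2, ord_algebraMap]
  rw [FunctionField.ord_pow, FunctionField.ord_neg, htb, mul_zero] at hR
  refine hw _ _ ?_ he (by linarith)
  split <;> simp

end FLTAgent.Semistable
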