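import Fermat.Agent.Semistable.RatOrth
import Fermat.Agent.GoodRed.Deuring
import Fermat.Agent.GoodRed.NumCompare
import Fermat.Prelude.Def_ModularCurve_ArithmeticGalois
import Fermat.Agent.JTors.FieldDescent
import Mathlib.FieldTheory.Galois.Infinite
import Mathlib.FieldTheory.IsAlgClosed.Basic
import Mathlib.FieldTheory.IsSepClosed

/-!
# Rational uniformisers of the residue field

The functions with poles bounded by a multiple of the polar divisor of a rational function are
spanned by rational ones, so every place of the residue field off that divisor has a uniformiser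
`ū - a` with `u` rational, Gauss integral and regular off the polar divisor.
-/

set_option autoImplicit false
set_option linter.style.haveILetI false
set_option linter.unusedSectionVars false
set_option synthInstance.maxHeartbeats 100000

noncomputable section

open ModularCurve AlgebraicCurve
open scoped IntermediateField

namespace FLTAgent.Semistable

open FLTAgent.GoodRed FLTAgent.GoodRed.RedDatum FLTAgent.FunctionField

section coord

/-- A finite-dimensional space of functions on `ℤ` is determined by as many values. -/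
theorem exists_coord {L : Type*} [Field L] {V : Type*} [AddCommGroup V] [Module L V]
    (co : ℤ → V →ₗ[L] L) :
    ∀ (m : ℕ) (W : Submodule L V) [Module.Finite L W], Module.finrank L W = m →
      (∀ w ∈ W, (∀ n, co n w = 0) → w = 0) →
      ∃ P : Finset ℤ, P.card ≤ m ∧ ∀ w ∈ W, (∀ n ∈ P, co n w = 0) → w = 0 := by
  classical
  intro m
  induction m with
  | zero =>
    intro W _ hW _
    refine ⟨∅, le_rfl, fun w hw _ => ?_⟩
    rw [Submodule.finrank_eq_zero.1 hW] at hw
    simpa using hw
  | succ m ih =>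
    intro W _ hW hinj
    have hbot : W ≠ ⊥ := fun h => by rw [h, finrank_bot] at hW; omega
    obtain ⟨w, hw, hw0⟩ := Submodule.exists_mem_ne_zero_of_ne_bot hbot
    obtain ⟨n, hn⟩ : ∃ n, co n w ≠ 0 := by
      by_contra! h; exact hw0 (hinj w hw h)
    set W' := W ⊓ LinearMap.ker (co n)
    have : Module.Finite L W' := Submodule.finiteDimensional_of_le inf_le_left
    have hlt : W' < W := lt_of_le_of_ne inf_le_left fun h => hn (by
      have : w ∈ W' := h.symm ▸ hw
      exact this.2)
    have hd : Module.finrank L W' ≤ m := by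
      have := Submodule.finrank_lt_finrank_of_lt hlt; omega
    have hd' : Module.finrank L W' = m := by
      refine le_antisymm hd ?_
      have h1 := LinearMap.finrank_range_add_finrank_ker ((co n).comp W.subtype)
      have h2 : Module.finrank L (LinearMap.range ((co n).comp W.subtype)) ≤ 1 :=
        (Submodule.finrank_le _).trans (Module.finrank_self L).le
      have h3 : Module.finrank L (LinearMap.ker ((co n).comp W.subtype)) = Module.finrank L W' :=
        LinearEquiv.finrank_eq <| LinearEquiv.ofBijective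
          { toFun := fun v => ⟨v.1.1, v.1.2, v.2⟩
            map_add' := fun _ _ => rfl
            map_smul' := fun _ _ => rfl }
          ⟨fun a b h => Subtype.ext (Subtype.ext (congrArg (fun v : W' => (v : V)) h)),
            fun v => ⟨⟨⟨v.1, v.2.1⟩, v.2.2⟩, rfl⟩⟩
      omega
    obtain ⟨P, hP, hPi⟩ := ih W' hd' fun v hv => hinj v hv.1
    refine ⟨insert n P, (Finset.card_insert_le _ _).trans (by omega), fun v hv h => ?_⟩
    exact hPi v ⟨hv, h n (Finset.mem_insert_self _ _)⟩ fun i hi => h i (Finset.mem_insert_of_mem hi)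

end coord

local notation "ℚbar" => AlgebraicClosure ℚ

variable {K₀ : IntermediateField ℚ (LaurentSeries ℚ)}

theorem mem_of_mem_laurentBaseChange_rat {x : LaurentSeries ℚ} (hx : x ∈ laurentBaseChange ℚ K₀) :
    x ∈ K₀ := by
  induction hx using IntermediateField.adjoin_induction with
  | mem y hy =>
    obtain ⟨u, hu, rfl⟩ := hy
    rw [show coeffEmb ℚ u = u from HahnSeries.ext (funext fun n => by simp)]
    exact hu
  | algebraMap c => exact K₀.algebraMap_mem c
  | add a b _ _ ha hb => exact add_mem ha hb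
  | inv a _ ha => exact inv_mem ha
  | mul a b _ _ ha hb => exact mul_mem ha hb

/-- A Galois stable finite-dimensional space of expansions is spanned by rational ones. -/
theorem exists_rational_span (W : Submodule ℚbar (LaurentSeries ℚbar)) [Module.Finite ℚbar W]
    (hW : ∀ w ∈ W, w ∈ laurentBaseChange ℚbar K₀)
    (hgal : ∀ σ : ℚbar ≃ₐ[ℚ] ℚbar, ∀ w ∈ W, coeffMap (σ : ℚbar →+* ℚbar) w ∈ W) :
    ∃ t : Finset (LaurentSeries ℚ), (t : Set (LaurentSeries ℚ)) ⊆ K₀ ∧
      (∀ u ∈ t, coeffEmb ℚbar u ∈ W) ∧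
      W ≤ Submodule.span ℚbar (coeffEmb ℚbar '' (t : Set (LaurentSeries ℚ))) := by
  classical
  let co : ℤ → LaurentSeries ℚbar →ₗ[ℚbar] ℚbar := fun n =>
    { toFun := fun y => y.coeff n
      map_add' := fun _ _ => rfl
      map_smul' := fun c y => by simp }
  obtain ⟨P, hP, hPi⟩ := exists_coord co _ W rfl fun w _ h => HahnSeries.ext (funext h)
  let f : W →ₗ[ℚbar] (P → ℚbar) := LinearMap.pi fun n => (co n).comp W.subtype
  have hf : Function.Injective f := by
    rw [← LinearMap.ker_eq_bot, LinearMap.ker_eq_bot']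
    exact fun w hw => Subtype.ext (hPi _ w.2 fun n hn => congrFun hw ⟨n, hn⟩)
  have hcard : Module.finrank ℚbar W = Module.finrank ℚbar (P → ℚbar) := by
    refine le_antisymm (LinearMap.finrank_le_finrank_of_injective hf) ?_
    rw [Module.finrank_fintype_fun_eq_card, Fintype.card_coe]
    exact hP
  have hsurj : Function.Surjective f :=
    (LinearMap.injective_iff_surjective_of_finrank_eq_finrank hcard).1 hf
  choose e he using fun p : P => hsurj (Pi.single p 1)
  have hfix : ∀ p : P, ∃ u ∈ K₀, coeffEmb ℚbar u = (e p : LaurentSeries ℚbar) := by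
    intro p
    haveI : Algebra.IsAlgebraic ℚ ℚbar := AlgebraicClosure.isAlgebraic ℚ
    haveI : IsAlgClosure ℚ ℚbar := ⟨inferInstance, inferInstance⟩
    haveI : IsGalois ℚ ℚbar := { to_normal := IsAlgClosure.normal ℚ ℚbar }
    have hc : ∀ n, ((e p : LaurentSeries ℚbar).coeff n) ∈ Set.range (algebraMap ℚ ℚbar) := by
      intro n
      rw [InfiniteGalois.mem_range_algebraMap_iff_fixed]
      intro σ
      have h : (⟨_, hgal σ _ (e p).2⟩ : W) = e p := hf (funext fun m => by
        show σ ((e p : LaurentSeries ℚbar).coeff m) = _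
        have h1 : (e p : LaurentSeries ℚbar).coeff m = (Pi.single p 1 : P → ℚbar) m :=
          congrFun (he p) m
        show _ = (e p : LaurentSeries ℚbar).coeff m
        rw [h1]
        rcases eq_or_ne m p with rfl | hm
        · rw [Pi.single_eq_same, map_one]
        · rw [Pi.single_eq_of_ne hm, map_zero])
      exact congrArg (fun z : W => (z : LaurentSeries ℚbar).coeff n) h
    obtain ⟨u, hu, hue⟩ := JTors.exists_coeffMap_eq_of_mem K₀ (hW _ (e p).2) hc
    exact ⟨u, mem_of_mem_laurentBaseChange_rat hu, hue⟩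
  choose u hu hue using hfix
  refine ⟨Finset.univ.image u, ?_, ?_, fun w hw => ?_⟩
  · intro x hx
    obtain ⟨p, -, rfl⟩ := Finset.mem_image.1 (Finset.mem_coe.1 hx)
    exact hu p
  · intro x hx
    obtain ⟨p, -, rfl⟩ := Finset.mem_image.1 hx
    rw [hue]; exact (e p).2
  · have h : (⟨w, hw⟩ : W) = ∑ p : P, f ⟨w, hw⟩ p • e p := hf (by
      rw [map_sum]
      simp only [map_smul, he]
      exact pi_eq_sum_univ' _)
    have h' := congrArg (fun z : W => (z : LaurentSeries ℚbar)) h
    simp only [AddSubmonoidClass.coe_finsetSum, SetLike.val_smul] at h'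
    rw [h']
    refine Submodule.sum_mem _ fun p _ => Submodule.smul_mem _ _ (Submodule.subset_span ?_)
    exact ⟨u p, by simp, hue p⟩

section polar

variable {L k : Type*} [Field L] [Field k] {A : ValuationSubring L} {π : A →+* k}
  {F Fb : Type*} [Field F] [Algebra L F] [Field Fb] [Algebra k Fb]
  [IsFunctionField L F] [IsFunctionField k Fb] [IsAlgClosed L] [IsAlgClosed k]
  {D : RedDatum A π F Fb} {x : F} {xb : Fb}

/-- The polar divisor of a coordinate without defect reduces onto that of its reduction. -/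
theorem mapDomain_polar_self (R : PlaceRed D) (hx : D.Red x xb) (hxb : Transcendental k xb)
    (hd : NoDefect L⟮x⟯ k⟮xb⟯ F Fb) :
    Finsupp.mapDomain R.r (zeroDivisor (K := L) x⁻¹) = zeroDivisor (K := k) xb⁻¹ := by
  have hX := transcendental_of_red hx hxb
  have hne : xb ≠ 0 := fun h0 => hxb (h0 ▸ isAlgebraic_zero)
  have hdiv := R.map_divisorOf x xb hx hne
  have hle : zeroDivisor (K := k) xb⁻¹ ≤ Finsupp.mapDomain R.r (zeroDivisor (K := L) x⁻¹) := by
    intro v
    have h0 : (0 : ℤ) ≤ Finsupp.mapDomain R.r (zeroDivisor (K := L) x) v :=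
      mapDomain_nonneg _ (zeroDivisor_nonneg _) v
    have h1 : (0 : ℤ) ≤ Finsupp.mapDomain R.r (zeroDivisor (K := L) x⁻¹) v :=
      mapDomain_nonneg _ (zeroDivisor_nonneg _) v
    have he := congrArg (fun d => d v) hdiv
    rw [← zeroDivisor_sub_zeroDivisor_inv, Finsupp.mapDomain_sub] at he
    simp only [Finsupp.sub_apply, divisorOf_apply] at he
    rw [zeroDivisor_apply, v.ord_inv]
    omega
  refine (eq_of_le_of_degree_eq hle ?_).symm
  rw [degree_mapDomain]
  have e1 := degree_divisorOf (K := L) x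
  have e2 := degree_divisorOf (K := k) xb
  rw [← zeroDivisor_sub_zeroDivisor_inv, map_sub, degree_zeroDivisor hX, sub_eq_zero] at e1
  rw [← zeroDivisor_sub_zeroDivisor_inv, map_sub, degree_zeroDivisor hxb, sub_eq_zero] at e2
  rw [← e1, ← e2, hd]

end polar

section generic

variable {L k : Type*} [Field L] [Field k] {A : ValuationSubring L} {π : A →+* k}
  {F Fb : Type*} [Field F] [Algebra L F] [Field Fb] [Algebra k Fb]
  [IsFunctionField L F] [IsFunctionField k Fb] [IsAlgClosed L] [IsAlgClosed k]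

/-- A combination of order one has a term with a simple zero after subtracting its value. -/
theorem exists_simple_term {ι : Type*} [Fintype ι] {x : Place k Fb} {w : ι → Fb} {c : ι → k}
    (hw : ∀ i, OrdGe x 0 (w i)) (hz : x.ord (∑ i, c i • w i) = 1) :
    ∃ i a, x.ord (w i - algebraMap k Fb a) = 1 := by
  choose a ha using fun i => exists_value (hw i)
  by_contra hcon
  push Not at hcon
  have h2 : ∀ i, OrdGe x 2 (w i - algebraMap k Fb (a i)) := fun i => by
    rcases eq_or_ne (w i - algebraMap k Fb (a i)) 0 with h0 | h0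
    · rw [h0]; exact ordGe_zero _
    refine ordGe_of_le_ord ?_
    have h1 := (ha i).le_ord h0
    have := hcon i (a i)
    omega
  set z := ∑ i, c i • w i
  have hz0 : z ≠ 0 := fun h => by rw [h, Place.ord_zero] at hz; omega
  set b : Fb := algebraMap k Fb (∑ i, c i * a i) with hb'
  have hzb : OrdGe x 2 (z - b) := by
    rw [hb', map_sum, ← Finset.sum_sub_distrib]
    refine OrdGe.sum fun i _ => ?_
    rw [Algebra.smul_def, map_mul, ← mul_sub]
    exact ((ordGe_algebraMap (v := x) (c i)).mul (h2 i)).mono (by omega)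
  have hb : OrdGe x 1 b := by
    have h := (ordGe_of_le_ord (n := 1) hz.ge).sub (hzb.mono (by omega : (1 : ℤ) ≤ 2))
    rwa [sub_sub_cancel] at h
  have hb0 : b = 0 := by
    by_contra hne
    have := hb.le_ord hne
    rw [ord_eq_zero_of_isAlgebraic (isAlgebraic_algebraMap _)] at this
    omega
  rw [hb0, sub_zero] at hzb
  have := hzb.le_ord hz0
  omega

variable {D : RedDatum A π F Fb} {j : F} {jb : Fb}

/-- Riemann-Roch gives a uniformiser among the reductions. -/
theorem exists_red_ord_eq_one (R : PlaceRed D) {g c : ℤ} (hL : RRLarge L F g c)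
    (hk : RRLarge k Fb g c) (hj : D.Red j jb) (hjb : Transcendental k jb)
    (hd : NoDefect L⟮j⟯ k⟮jb⟯ F Fb) {x : Place k Fb} (hx : 0 ≤ x.ord jb) :
    ∃ (n : ℕ) (y : F) (z : Fb), y ∈ riemannRochSpace (n • zeroDivisor (K := L) j⁻¹) ∧
      D.Red y z ∧ x.ord z = 1 ∧
      ∀ y' w, y' ∈ riemannRochSpace (n • zeroDivisor (K := L) j⁻¹) → D.Red y' w →
        OrdGe x 0 w := by
  set G := zeroDivisor (K := L) j⁻¹
  have hG : Finsupp.mapDomain R.r G = zeroDivisor (K := k) jb⁻¹ :=
    mapDomain_polar_self R hj hjb hd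
  have hdeg : 1 ≤ Divisor.degree G := by
    have hX := transcendental_of_red hj hjb
    have e1 := degree_divisorOf (K := L) j
    rw [← zeroDivisor_sub_zeroDivisor_inv, map_sub, degree_zeroDivisor hX, sub_eq_zero] at e1
    rw [← e1]
    have := finiteDimensional_adjoin_of_transcendental hX
    exact_mod_cast Module.finrank_pos (R := L⟮j⟯) (M := F)
  set n := (c + 2).toNat
  have hn : c + 2 ≤ Divisor.degree (n • G) := by
    rw [map_nsmul, nsmul_eq_mul]
    have h1 : c + 2 ≤ (n : ℤ) := Int.self_le_toNat _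
    nlinarith
  set Db : Divisor k Fb := Finsupp.mapDomain R.r (n • G) - Finsupp.single x 1
  obtain ⟨z, hz, hz0, hzx⟩ := hk.exists_ord_eq_neg (D := Db) (by
    rw [map_sub, degree_single_one, degree_mapDomain]; omega) x
  have hGx : Finsupp.mapDomain R.r (n • G) x = 0 := by
    rw [Finsupp.mapDomain_smul, hG, Finsupp.smul_apply, zeroDivisor_apply, x.ord_inv,
      max_eq_right (by omega), smul_zero]
  rw [Finsupp.sub_apply, hGx, Finsupp.single_eq_same, zero_sub, neg_neg] at hzx
  have hz' : z ∈ riemannRochSpace (Finsupp.mapDomain R.r (n • G)) :=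
    riemannRochSpace_mono (sub_le_self _ (Finsupp.single_nonneg.2 zero_le_one)) hz
  rw [← R.redSpace_eq hL hk (by omega)] at hz'
  obtain ⟨y, hy, hyz⟩ := hz'
  refine ⟨n, y, z, hy, hyz, hzx, fun y' w hy' hw => ?_⟩
  have h := mem_rr_iff.1 (R.redSpace_le _ ⟨y', hy', hw⟩) x
  rwa [hGx, neg_zero] at h

end generic

section uniformiser

variable {q : ℕ} [Fact q.Prime] {A : ValuationSubring ℚbar} {k : Type*} [Field k] [CharP k q]
  {π : A →+* k} {C : IntermediateField k (LaurentSeries k)}
  [IsFunctionField ℚbar (laurentBaseChange ℚbar K₀)] [IsFunctionField k C] [IsAlgClosed k]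
  {D : RedDatum A π (laurentBaseChange ℚbar K₀) C}
  {j : laurentBaseChange ℚbar K₀} {jb : C}

theorem smul_mem_rr (hfix : ∀ σ : ℚbar ≃ₐ[ℚ] ℚbar, arithmeticGalois K₀ σ • j = j) {n : ℕ}
    {y : laurentBaseChange ℚbar K₀}
    (hy : y ∈ riemannRochSpace (n • zeroDivisor (K := ℚbar) j⁻¹)) (σ : ℚbar ≃ₐ[ℚ] ℚbar) :
    arithmeticGalois K₀ σ • y ∈ riemannRochSpace (n • zeroDivisor (K := ℚbar) j⁻¹) := by
  set g := arithmeticGalois K₀ σ
  refine mem_rr_iff.2 fun v => ?_
  rcases eq_or_ne y 0 with rfl | hy0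
  · rw [smul_zero]; exact ordGe_zero _
  obtain ⟨v, rfl⟩ : ∃ w, g • w = v := ⟨g⁻¹ • v, smul_inv_smul _ _⟩
  refine ordGe_of_le_ord ?_
  rw [SemilinearAut.ord_smul]
  have h := (mem_rr_iff.1 hy v).le_ord hy0
  have hj : (g • v).ord j⁻¹ = v.ord j⁻¹ := by
    rw [Place.ord_inv, Place.ord_inv]
    conv_lhs => rw [← hfix σ]
    rw [SemilinearAut.ord_smul]
  rw [Finsupp.smul_apply, zeroDivisor_apply] at h ⊢
  rw [hj]
  exact h

variable (hπ : IsResidueMap A π) (hA : A.LiesOverPrime q)
  (hK : ∀ x ∈ K₀, x ∈ Igusa.boundedField q)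
  (hD : ∀ y z, D.Red y z ↔ SRed π (y : LaurentSeries ℚbar) (z : LaurentSeries k))
  (hfix : ∀ σ : ℚbar ≃ₐ[ℚ] ℚbar, arithmeticGalois K₀ σ • j = j)
include hπ hA hK hD hfix

omit hK hfix in
/-- A rational Gauss integral element reduces to the reduction of its series. -/
theorem exists_red_rat {f : Igusa.gaussRing q} (hf : (f : LaurentSeries ℚ) ∈ K₀) :
    ∃ w : C, D.Red (⟨_, coeffEmb_mem_laurentBaseChange ℚbar hf⟩ :
      laurentBaseChange ℚbar K₀) w ∧ (w : LaurentSeries k) = ratRed q k f := by
  set e : laurentBaseChange ℚbar K₀ := ⟨_, coeffEmb_mem_laurentBaseChange ℚbar hf⟩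
  rcases eq_or_ne e 0 with h0 | h0
  · refine ⟨0, h0 ▸ red_zero, ?_⟩
    exact ((sRed_coeffEmb q (π := π) hA f).unique (by
      rw [show coeffEmb ℚbar (f : LaurentSeries ℚ) = 0 from congrArg Subtype.val h0]
      exact sRed_zero)).symm
  obtain ⟨cc, ec, hcc, hne, hred⟩ := exists_scale D h0
  have h1 := (hD _ _).1 hred
  by_cases hcA : cc⁻¹ ∈ A
  · have h2 := D.red_smul ⟨cc⁻¹, hcA⟩ hred
    simp only [inv_smul_smul₀ hcc] at h2
    exact ⟨_, h2, ((hD _ _).1 h2).unique (sRed_coeffEmb q hA f)⟩
  · have hccA : cc ∈ A.nonunits := by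
      rw [← inv_inv cc, ValuationSubring.inv_mem_nonunits_iff]; exact Or.inr hcA
    have h3 := (sRed_coeffEmb q (π := π) hA f).smul ⟨cc, A.nonunits_subset hccA⟩
    rw [(hπ.eq_zero_iff _).2 hccA, zero_smul] at h3
    have he' : ((cc • e : laurentBaseChange ℚbar K₀) : LaurentSeries ℚbar) =
        cc • coeffEmb ℚbar (f : LaurentSeries ℚ) := by
      rw [smul_series, Algebra.smul_def]; rfl
    rw [he'] at h1
    exact absurd ((Subtype.ext ((h1.unique h3).trans (ZeroMemClass.coe_zero C).symm)) : ec = 0) hne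

/-- Reductions of functions with bounded poles are combinations of rational reductions. -/
theorem exists_rational_red {n : ℕ} {y : laurentBaseChange ℚbar K₀} {z : C}
    (hy : y ∈ riemannRochSpace (n • zeroDivisor (K := ℚbar) j⁻¹)) (hz : D.Red y z) :
    ∃ (r : ℕ) (f : Fin r → Igusa.gaussRing q) (hf : ∀ i, (f i : LaurentSeries ℚ) ∈ K₀)
      (c : Fin r → k), (∀ i, (⟨_, coeffEmb_mem_laurentBaseChange ℚbar (hf i)⟩ :
        laurentBaseChange ℚbar K₀) ∈ riemannRochSpace (n • zeroDivisor (K := ℚbar) j⁻¹)) ∧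
      (z : LaurentSeries k) = ∑ i, c i • ratRed q k (f i) := by
  classical
  set V := riemannRochSpace (n • zeroDivisor (K := ℚbar) j⁻¹)
  let val : V →ₗ[ℚbar] LaurentSeries ℚbar :=
    { toFun := fun v => ((v : laurentBaseChange ℚbar K₀) : LaurentSeries ℚbar)
      map_add' := fun _ _ => rfl
      map_smul' := fun c v => by
        rw [RingHom.id_apply, smul_series, SetLike.val_smul, Algebra.smul_def]
        rfl }
  set W := LinearMap.range val
  haveI : Module.Finite ℚbar V := finite_riemannRochSpace _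
  haveI : Module.Finite ℚbar W := Module.Finite.range val
  have hW : ∀ w ∈ W, w ∈ laurentBaseChange ℚbar K₀ := by
    rintro w ⟨v, rfl⟩; exact v.1.2
  obtain ⟨t, htK, htW, hWt⟩ := exists_rational_span (K₀ := K₀) W hW (by
    rintro σ w ⟨⟨v, hv⟩, rfl⟩
    exact ⟨⟨_, smul_mem_rr hfix hv σ⟩, rfl⟩)
  obtain ⟨r, f, hf, hind, hspan⟩ := exists_rat_frame q (k := k) t fun x hx => hK x (htK hx)
  have hle : Submodule.span ℚ (t : Set (LaurentSeries ℚ)) ≤
      ({ carrier := {x | x ∈ K₀ ∧ coeffEmb ℚbar x ∈ W}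
         add_mem' := fun h h' => ⟨add_mem h.1 h'.1, by rw [map_add]; exact add_mem h.2 h'.2⟩
         zero_mem' := ⟨zero_mem K₀, by rw [map_zero]; exact zero_mem W⟩
         smul_mem' := fun c x hx => ⟨smul_mem_intermediateField K₀ c hx.1, by
           rw [coeffEmb_smul]; exact W.smul_mem _ hx.2⟩ } : Submodule ℚ (LaurentSeries ℚ)) :=
    Submodule.span_le.2 fun x hx => ⟨htK hx, htW x hx⟩
  have hyW : (y : LaurentSeries ℚbar) ∈
      Submodule.span ℚbar (Set.range fun i => coeffEmb ℚbar (f i : LaurentSeries ℚ)) := by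
    refine Submodule.span_le.2 ?_ (hWt ⟨⟨y, hy⟩, rfl⟩)
    rintro _ ⟨u, hu, rfl⟩
    have h1 := coeffEmb_mem_span (hspan hu)
    rwa [← Set.range_comp] at h1
  obtain ⟨c, hc⟩ := (Submodule.mem_span_range_iff_exists_fun ℚbar).1 hyW
  have he := fun i => sRed_coeffEmb q (π := π) hA (f i)
  have hz' : SRed π (∑ i, c i • coeffEmb ℚbar (f i : LaurentSeries ℚ)) (z : LaurentSeries k) := by
    rw [hc]; exact (hD y z).1 hz
  have hcA := SRed.coeff_mem hπ he hind hz'
  refine ⟨r, f, fun i => (hle (hf i)).1, fun i => π ⟨c i, hcA i⟩, fun i => ?_,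
    hz'.unique (SRed.sum _ fun i _ => (he i).smul ⟨c i, hcA i⟩)⟩
  obtain ⟨⟨v, hv⟩, hve⟩ := (hle (hf i)).2
  exact (show v = ⟨_, coeffEmb_mem_laurentBaseChange ℚbar (hle (hf i)).1⟩ from Subtype.ext hve) ▸ hv

/-- A rational uniformiser at a place off the polar divisor of the reduction of `j`. -/
theorem exists_rational_uniformiser (R : PlaceRed D) {g c : ℤ}
    (hL : RRLarge ℚbar (laurentBaseChange ℚbar K₀) g c) (hk : RRLarge k C g c)
    (hj : D.Red j jb) (hjb : Transcendental k jb)
    (hd : NoDefect ℚbar⟮j⟯ k⟮jb⟯ (laurentBaseChange ℚbar K₀) C)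
    {x : Place k C} (hx : 0 ≤ x.ord jb) :
    ∃ (n : ℕ) (u : Igusa.gaussRing q) (hu : (u : LaurentSeries ℚ) ∈ K₀) (ub : C) (a : k),
      (⟨_, coeffEmb_mem_laurentBaseChange ℚbar hu⟩ : laurentBaseChange ℚbar K₀) ∈
        riemannRochSpace (n • zeroDivisor (K := ℚbar) j⁻¹) ∧
      (ub : LaurentSeries k) = ratRed q k u ∧ x.ord (ub - algebraMap k C a) = 1 := by
  obtain ⟨n, y, z, hy, hyz, hzx, hreg⟩ := exists_red_ord_eq_one R hL hk hj hjb hd hx
  obtain ⟨r, f, hf, cf, hfV, hsum⟩ := exists_rational_red hπ hA hK hD hfix hy hyz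
  choose w hw hwf using fun i => exists_red_rat hπ hA hD (hf i)
  have hz2 : z = ∑ i, cf i • w i := Subtype.ext (by
    rw [hsum, AddSubmonoidClass.coe_finsetSum]
    exact Finset.sum_congr rfl fun i _ => by
      rw [← hwf, smul_series, Algebra.smul_def]; rfl)
  rw [hz2] at hzx
  obtain ⟨i, a, ha⟩ := exists_simple_term (fun i => hreg _ _ (hfV i) (hw i)) hzx
  exact ⟨n, f i, hf i, w i, a, hfV i, hwf i, ha⟩

end uniformiser

end FLTAgent.Semistable
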