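import Fermat.Agent.Semistable.CrossingTools
import Fermat.Agent.Semistable.LevelDatum
import Fermat.Agent.Semistable.Rational
import Fermat.Agent.GoodRed.X0Good

/-!
# The crossings of the two reductions of level `M q`

A crossing is a place of the residue field off the cusps at which the reduction of some
`T = (u(X^q) - u(X)^q)/q`, `u` rational and regular off the cusps, has a pole.  These poles are
simple, and every rational function takes at a crossing a value fixed by the `q^2`-th power.
-/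

set_option autoImplicit false
set_option linter.style.haveILetI false
set_option linter.unusedSectionVars false
set_option synthInstance.maxHeartbeats 100000

noncomputable section

open ModularCurve AlgebraicCurve IsLocalRing

namespace FLTAgent.Semistable

open FLTAgent.GoodRed FLTAgent.GoodRed.RedDatum FLTAgent.Hecke FLTAgent.FunctionField FLTAgent.Genus

local notation "Qbar" => AlgebraicClosure ℚ

local instance (priority := high) instAlgebraLaurentSubCrossing {K : Type*} [Field K]
    (F : IntermediateField K (LaurentSeries K)) : Algebra K F :=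
  SubalgebraClass.toAlgebra F

section generic

variable {L E F : Type*} [Field L] [Field E] [Algebra L E] [Field F] [Algebra L F]
  [IsFunctionField L E] [IsFunctionField L F]

theorem ordGe_map_of_regular (φ : E →ₐ[L] F)
    (hfin : letI := algebraAlong φ; Module.Finite E F) {j y : E}
    (hy : ∀ v : Place L E, 0 ≤ v.ord j → OrdGe v 0 y) {w : Place L F} (hw : OrdGe w 0 (φ j)) :
    OrdGe w 0 (φ y) := by
  letI := algebraAlong φ
  haveI := isScalarTower_along φ
  haveI : Module.Finite E F := hfin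
  show OrdGe w 0 (algebraMap E F y)
  change OrdGe w 0 (algebraMap E F j) at hw
  rcases eq_or_ne y 0 with rfl | hy0
  · rw [map_zero]; exact ordGe_zero _
  refine ordGe_of_le_ord ?_
  rw [w.ord_restrict]
  have he : (0 : ℤ) < w.ramificationIndex E := by exact_mod_cast w.ramificationIndex_pos
  refine mul_nonneg he.le ((hy _ ?_).le_ord hy0)
  rcases eq_or_ne j 0 with rfl | hj
  · rw [Place.ord_zero]
  have h := hw.le_ord ((map_ne_zero _).2 hj)
  rw [w.ord_restrict] at h
  by_contra hc
  nlinarith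

theorem regular_of_mem_rr_polar {j y : E} {n : ℕ}
    (hy : y ∈ riemannRochSpace (n • zeroDivisor (K := L) j⁻¹)) (v : Place L E)
    (hv : 0 ≤ v.ord j) : OrdGe v 0 y := by
  have h := mem_rr_iff.1 hy v
  rwa [Finsupp.smul_apply, zeroDivisor_apply, v.ord_inv, max_eq_right (by omega), smul_zero,
    neg_zero] at h

theorem ordGe_pair (φ ψ : E →ₐ[L] F)
    (hφ : letI := algebraAlong φ; Module.Finite E F) (hψ : letI := algebraAlong ψ; Module.Finite E F)
    {j y : E} {P : Polynomial (Polynomial L)} (hP : P.Monic)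
    (hPj : ModPoly.ev2 (φ j) (ψ j) P = 0) (hy : ∀ v : Place L E, 0 ≤ v.ord j → OrdGe v 0 y)
    {w : Place L F}
    (hw : letI := algebraAlong φ; haveI := isScalarTower_along φ; haveI : Module.Finite E F := hφ;
      zeroDivisor (K := L) j⁻¹ (w.restrict E) = 0) :
    OrdGe w 0 (φ y) ∧ OrdGe w 0 (ψ y) := by
  letI := algebraAlong φ
  haveI := isScalarTower_along φ
  haveI : Module.Finite E F := hφ
  have hjr : 0 ≤ (w.restrict E).ord j := by
    rw [zeroDivisor_apply, Place.ord_inv] at hw
    omega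
  have haj : OrdGe w 0 (φ j) := by
    refine ordGe_of_le_ord ?_
    show 0 ≤ w.ord (algebraMap E F j)
    rw [w.ord_restrict]
    positivity
  exact ⟨ordGe_map_of_regular φ hφ hy haj,
    ordGe_map_of_regular ψ hψ hy (ordGe_zero_of_ev2 hP haj hPj)⟩

theorem ordGe_T {w : Place L F} {a b : F} (ha : OrdGe w 0 a) (hb : OrdGe w 0 b) (q : ℕ) :
    OrdGe w 0 ((b - a ^ q) / (q : F)) ∧ OrdGe w 0 (a - b ^ q) := by
  have hq' : OrdGe w 0 ((q : F)⁻¹) := by
    rw [← map_natCast (algebraMap L F), ← map_inv₀]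
    exact ordGe_algebraMap _
  have hpow : ∀ {z : F}, OrdGe w 0 z → OrdGe w 0 (z ^ q) := fun hz => by
    simpa using ordGe_pow hz q
  refine ⟨?_, ha.sub (hpow hb)⟩
  rw [div_eq_mul_inv]
  simpa using (hb.sub (hpow ha)).mul hq'

/-- `(ψ y - φ y ^ q)/q` and its product with `φ y' - ψ y' ^ q` have poles only over those of
`j`. -/
theorem exists_mem_rr_mul (φ ψ : E →ₐ[L] F)
    (hφ : letI := algebraAlong φ; Module.Finite E F) (hψ : letI := algebraAlong ψ; Module.Finite E F)
    {j y y' : E} {P : Polynomial (Polynomial L)} (hP : P.Monic)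
    (hPj : ModPoly.ev2 (φ j) (ψ j) P = 0) (hy : ∀ v : Place L E, 0 ≤ v.ord j → OrdGe v 0 y)
    (hy' : ∀ v : Place L E, 0 ≤ v.ord j → OrdGe v 0 y') (q : ℕ) :
    letI := algebraAlong φ
    haveI := isScalarTower_along φ
    haveI : Module.Finite E F := hφ
    (∃ N : ℕ, (ψ y - φ y ^ q) / (q : F) ∈
      riemannRochSpace (Divisor.pullback F (N • zeroDivisor (K := L) j⁻¹))) ∧
    ∃ N : ℕ, (ψ y - φ y ^ q) / (q : F) * (φ y' - ψ y' ^ q) ∈
      riemannRochSpace (Divisor.pullback F (N • zeroDivisor (K := L) j⁻¹)) := by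
  letI := algebraAlong φ
  haveI := isScalarTower_along φ
  haveI : Module.Finite E F := hφ
  have h := fun (w : Place L F) (hw : zeroDivisor (K := L) j⁻¹ (w.restrict E) = 0) =>
    And.intro (ordGe_T (ordGe_pair φ ψ hφ hψ hP hPj hy hw).1 (ordGe_pair φ ψ hφ hψ hP hPj hy hw).2 q).1
      (ordGe_T (ordGe_pair φ ψ hφ hψ hP hPj hy' hw).1 (ordGe_pair φ ψ hφ hψ hP hPj hy' hw).2 q).2
  exact ⟨exists_mem_rr_pullback (zeroDivisor_nonneg _) fun w hw => (h w hw).1,
    exists_mem_rr_pullback (zeroDivisor_nonneg _) fun w hw => by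
      simpa using (h w hw).1.mul (h w hw).2⟩

end generic

theorem div_natCast_mul {F : Type*} [Field F] {q : ℕ} (hq : (q : F) ≠ 0) {T a z : F}
    (h : (q : F) * T = z) : a / (q : F) * z = a * T := by
  rw [← h, ← mul_assoc, div_mul_cancel₀ _ hq]

variable {M q : ℕ} [NeZero M] [Fact q.Prime]

local instance : NeZero q := ⟨(Fact.out : q.Prime).ne_zero⟩

/-- A rational Gauss integral series as an element of `F_M`. -/
def ratMF {u : Igusa.gaussRing q} (hu : (u : LaurentSeries ℚ) ∈ modularFunctionFieldFull M) :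
    MF Qbar M :=
  ⟨_, coeffEmb_mem_laurentBaseChange Qbar hu⟩

/-- A rational Gauss integral function, regular off the cusps. -/
structure RegRat (M q : ℕ) [NeZero M] [Fact q.Prime] where
  /-- the series -/
  u : Igusa.gaussRing q
  hu : (u : LaurentSeries ℚ) ∈ modularFunctionFieldFull M
  /-- the order of the poles -/
  n : ℕ
  reg : ratMF hu ∈ riemannRochSpace (n • zeroDivisor (K := Qbar) (jMF Qbar M)⁻¹)

/-- The function as an element of `F_M`. -/
def RegRat.fn (u : RegRat M q) : MF Qbar M := ratMF u.hu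

theorem RegRat.regular (u : RegRat M q) (v : Place Qbar (MF Qbar M))
    (hv : 0 ≤ v.ord (jMF Qbar M)) : OrdGe v 0 u.fn :=
  regular_of_mem_rr_polar u.reg v hv

theorem ratMF_jq (h : jq ∈ modularFunctionFieldFull M) :
    ratMF (u := Igusa.jGauss q) h = jMF Qbar M :=
  Subtype.ext (coeffEmb_jq Qbar)

/-- `j` as a rational function regular off the cusps. -/
def RegRat.j (M q : ℕ) [NeZero M] [Fact q.Prime] : RegRat M q where
  u := Igusa.jGauss q
  hu := modularFunctionField_le_full M (jq_mem M)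
  n := 1
  reg := by
    rw [show ratMF (modularFunctionField_le_full M (jq_mem M) :
      (Igusa.jGauss q : LaurentSeries ℚ) ∈ modularFunctionFieldFull M) = jMF Qbar M from
      ratMF_jq _, one_smul]
    refine mem_rr_iff.2 fun v => ordGe_of_le_ord ?_
    rw [zeroDivisor_apply, v.ord_inv]
    omega

theorem RegRat.fn_j : (RegRat.j M q).fn = jMF Qbar M := ratMF_jq _

/-- `(v(X^q) - v(X)^q)/q`. -/
def TU (v : MF Qbar M) : MF Qbar (M * q) :=
  (betaMap Qbar M q v - alphaMap Qbar M q v ^ q) / (q : MF Qbar (M * q))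

theorem coe_TU (v : MF Qbar M) :
    (q : LaurentSeries Qbar) * ((TU (q := q) v : MF Qbar (M * q)) : LaurentSeries Qbar) =
      qExpand Qbar q (v : LaurentSeries Qbar) - (v : LaurentSeries Qbar) ^ q := by
  have hq : (q : LaurentSeries Qbar) ≠ 0 := by
    rw [← map_natCast (algebraMap Qbar (LaurentSeries Qbar))]
    exact (map_ne_zero _).2 (Nat.cast_ne_zero.2 (Fact.out : q.Prime).ne_zero)
  rw [TU]
  push_cast
  rw [coe_alphaMap, coe_betaMap, mul_div_cancel₀ _ hq]

theorem natCast_mul_TU (v : MF Qbar M) :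
    (q : MF Qbar (M * q)) * TU v = betaMap Qbar M q v - alphaMap Qbar M q v ^ q := by
  rw [TU, mul_div_cancel₀]
  rw [← map_natCast (algebraMap Qbar (MF Qbar (M * q)))]
  exact (map_ne_zero _).2 (Nat.cast_ne_zero.2 (Fact.out : q.Prime).ne_zero)

theorem swapW_TU (hqM : ¬ q ∣ M) (v : MF Qbar M) :
    swapW M hqM (TU v) =
      (alphaMap Qbar M q v - betaMap Qbar M q v ^ q) / (q : MF Qbar (M * q)) := by
  rw [TU, map_div₀, map_sub, map_pow, map_natCast, swapW_alpha, swapW_beta]

variable (A : ValuationSubring (AlgebraicClosure ℚ)) (hA : A.LiesOverPrime q)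
  [CharP (ResidueField A) q] [IsAlgClosed (ResidueField A)] (hqM : ¬ q ∣ M)
  [IsFunctionField (ResidueField A) (modularFunctionFieldFullC (ResidueField A) M)]

/-- The crossings. -/
def crossingSet : Set (Place (ResidueField A) (modularFunctionFieldFullC (ResidueField A) M)) :=
  {x | 0 ≤ x.ord (x0Jb A hA M hqM) ∧ ∃ (u : RegRat M q)
    (Tb : modularFunctionFieldFullC (ResidueField A) M),
      (redInf A hA M hqM).Red (TU u.fn) Tb ∧ ¬ OrdGe x 0 Tb}

variable {A}

theorem coeffEmb_natCast (n : ℕ) : coeffEmb Qbar (n : LaurentSeries ℚ) = n := map_natCast _ n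

include hA hqM in
/-- Reductions of `u`, of `(u(X^q) - u^q)/q`, and the derivative of the latter. -/
theorem exists_red_TU (u : RegRat M q) :
    ∃ ub Tb : modularFunctionFieldFullC (ResidueField A) M,
      (x0Datum A hA M hqM).Red u.fn ub ∧
      (ub : LaurentSeries (ResidueField A)) = ratRed q (ResidueField A) u.u ∧
      frobC (K := ResidueField A) q M ub = ub ^ q ∧
      (redInf A hA M hqM).Red (TU u.fn) Tb ∧
      euler (Tb : LaurentSeries (ResidueField A)) =
        euler (ub : LaurentSeries (ResidueField A)) ^ q -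
          (ub : LaurentSeries (ResidueField A)) ^ (q - 1) *
            euler (ub : LaurentSeries (ResidueField A)) := by
  set k := ResidueField A
  have hq0 := (Fact.out : q.Prime).ne_zero
  have hsu := sRed_coeffEmb q (π := residue A) hA u.u
  obtain ⟨t, ht⟩ := exists_gauss_divQ q u.u
  have hqL : (q : LaurentSeries ℚ) ≠ 0 := Igusa.natCast_ne_zero_laurentRat q
  have hT : ((TU (q := q) u.fn : MF Qbar (M * q)) : LaurentSeries Qbar) =
      coeffEmb Qbar (t : LaurentSeries ℚ) := by
    have hq : (q : LaurentSeries Qbar) ≠ 0 := by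
      rw [← coeffEmb_natCast q]; exact (map_ne_zero _).2 hqL
    refine mul_left_cancel₀ hq ?_
    rw [coe_TU, ← coeffEmb_natCast q, ← map_mul, ht, map_sub, map_pow, coeffEmb_qExpand]
    rfl
  have hst := sRed_coeffEmb q (π := residue A) hA t
  have hmem : ratRed q k u.u ∈ modularFunctionFieldFullC k M :=
    (mem_fullC_iff_sRed A hA M hqM _).2 ⟨(alphaMap Qbar M q u.fn : MF Qbar (M * q)),
      SetLike.coe_mem _, by rw [coe_alphaMap]; exact hsu⟩
  have hmemT : ratRed q k t ∈ modularFunctionFieldFullC k M :=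
    (mem_fullC_iff_sRed A hA M hqM _).2 ⟨(TU u.fn : MF Qbar (M * q)), SetLike.coe_mem _,
      by rw [hT]; exact hst⟩
  have hfr : ∀ w : LaurentSeries (ZMod q), qExpand k q (coeffMap (ZMod.castHom dvd_rfl k) w) =
      coeffMap (ZMod.castHom dvd_rfl k) w ^ q := fun w => by
    rw [← ModularCurve.coeffMap_qExpand, qExpand_zmod, map_pow]
  refine ⟨⟨_, hmem⟩, ⟨_, hmemT⟩, (x0_red_iff A hA M hqM).2 hsu, rfl,
    Subtype.ext (by rw [coe_frobC]; exact hfr _), (redInf_iff hA hqM).2 (by rw [hT]; exact hst),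
    ?_⟩
  -- differentiate `q t = u(X^q) - u^q` over `ℚ` and reduce
  have h1 : euler (t : LaurentSeries ℚ) = qExpand ℚ q (euler (u.u : LaurentSeries ℚ)) -
      (u.u : LaurentSeries ℚ) ^ (q - 1) * euler (u.u : LaurentSeries ℚ) := by
    refine mul_left_cancel₀ hqL ?_
    have h := congrArg euler ht
    rw [euler_mul, map_sub, euler_qExpand, euler_pow,
      ← map_natCast (algebraMap ℚ (LaurentSeries ℚ)) q, euler_algebraMap, zero_mul, zero_add,
      map_natCast] at h
    rw [h]; ring
  have hemb : ∀ y : LaurentSeries ℚ, euler (coeffEmb Qbar y) = coeffEmb Qbar (euler y) :=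
    fun y => euler_coeffMap _ y
  have h2 := hst.euler
  rw [hemb, h1, map_sub, map_mul, map_pow, coeffEmb_qExpand, ← hemb] at h2
  have h4 := h2.unique ((hsu.euler.qExpand q).sub ((hsu.pow (q - 1)).mul hsu.euler))
  show euler (ratRed q k t) = _
  rw [h4]
  show _ - ratRed q k u.u ^ (q - 1) * euler (ratRed q k u.u) = _
  simp only [ratRed, euler_coeffMap]
  rw [hfr]

theorem natCast_MF_ne_zero : (q : MF Qbar (M * q)) ≠ 0 := by
  rw [← map_natCast (algebraMap Qbar (MF Qbar (M * q)))]
  exact (map_ne_zero _).2 (Nat.cast_ne_zero.2 (Fact.out : q.Prime).ne_zero)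

include hqM in
theorem swapW_TU_mul (u v : MF Qbar M) :
    swapW M hqM (TU u * (alphaMap Qbar M q v - betaMap Qbar M q v ^ q)) =
      (alphaMap Qbar M q u - betaMap Qbar M q u ^ q) * TU v := by
  rw [map_mul, swapW_TU, map_sub, map_pow, swapW_alpha, swapW_beta]
  exact div_natCast_mul natCast_MF_ne_zero (natCast_mul_TU v)

theorem ev2_alpha_beta :
    ModPoly.ev2 (alphaMap Qbar M q (jMF Qbar M)) (betaMap Qbar M q (jMF Qbar M))
      (ModPoly.phiK q Qbar) = 0 := by
  refine PhiRel.of_map (L := Qbar) (MF Qbar (M * q)).val Subtype.val_injective ?_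
  show PhiRel (L := Qbar) q ((alphaMap Qbar M q (jMF Qbar M) : MF Qbar (M * q)) :
    LaurentSeries Qbar) ((betaMap Qbar M q (jMF Qbar M) : MF Qbar (M * q)) : LaurentSeries Qbar)
  rw [coe_alphaMap, coe_betaMap]
  exact phiRel_jqModC q

theorem exists_TU_mem_rr (u v : RegRat M q) :
    letI := algebraAlong (alphaMap Qbar M q)
    haveI := isScalarTower_along (alphaMap Qbar M q)
    haveI := finite_alongAlpha M (q := q)
    (∃ N : ℕ, TU u.fn ∈ riemannRochSpace (Divisor.pullback (MF Qbar (M * q))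
        (N • zeroDivisor (K := Qbar) (jMF Qbar M)⁻¹))) ∧
    ∃ N : ℕ, TU u.fn * (alphaMap Qbar M q v.fn - betaMap Qbar M q v.fn ^ q) ∈
      riemannRochSpace (Divisor.pullback (MF Qbar (M * q))
        (N • zeroDivisor (K := Qbar) (jMF Qbar M)⁻¹)) :=
  exists_mem_rr_mul (alphaMap Qbar M q) (betaMap Qbar M q) (finite_alongAlpha M) (finite_alongBeta M)
    (ModPoly.phiK_monic q Qbar) ev2_alpha_beta u.regular v.regular q

/-- `T_u (v - v(X^q)^q)`. -/
def TT (u v : RegRat M q) : MF Qbar (M * q) :=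
  TU u.fn * (alphaMap Qbar M q v.fn - betaMap Qbar M q v.fn ^ q)

theorem TT_def (u v : RegRat M q) :
    TT u v = TU u.fn * (alphaMap Qbar M q v.fn - betaMap Qbar M q v.fn ^ q) := rfl

theorem red_sub_frob {L k F C : Type*} [Field L] [Field k] [Field F] [Algebra L F] [Field C]
    [Algebra k C] {A : ValuationSubring L} {π : A →+* k} (D : RedDatum A π F C) {a b : F}
    {z w : C} {q : ℕ} (ha : D.Red a z) (hb : D.Red b w) (hw : w = z ^ q) :
    D.Red (a - b ^ q) (z - z ^ (q ^ 2)) := by
  have h := ha.sub (hb.pow q)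
  rwa [hw, ← pow_mul, ← pow_two] at h

set_option maxHeartbeats 1600000 in
-- the statement mentions several large fields
include hA hqM in
theorem red_TT (u v : RegRat M q) {ub vb Tu Tv : modularFunctionFieldFullC (ResidueField A) M}
    (hu : (x0Datum A hA M hqM).Red u.fn ub) (hufr : frobC (K := ResidueField A) q M ub = ub ^ q)
    (hv : (x0Datum A hA M hqM).Red v.fn vb) (hvfr : frobC (K := ResidueField A) q M vb = vb ^ q)
    (hTu : (redInf A hA M hqM).Red (TU u.fn) Tu) (hTv : (redInf A hA M hqM).Red (TU v.fn) Tv) :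
    (redInf A hA M hqM).Red (TT u v) (Tu * (vb - vb ^ (q ^ 2))) ∧
      (redZero A hA M hqM).Red (TT u v) ((ub - ub ^ (q ^ 2)) * Tv) := by
  have ha := redInf_alpha hA hqM hv
  have hb := redInf_beta hA hqM hv
  have ha' := redInf_alpha hA hqM hu
  have hb' := redInf_beta hA hqM hu
  have h1 := red_sub_frob (D := redInf A hA M hqM) ha hb hvfr
  have h2 := red_sub_frob (D := redInf A hA M hqM) ha' hb' hufr
  constructor
  · rw [TT_def]
    exact RedDatum.Red.mul (D := redInf A hA M hqM) hTu h1
  · rw [TT_def, redZero_iff, swapW_TU_mul hqM]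
    exact RedDatum.Red.mul (D := redInf A hA M hqM) h2 hTv

include hA hqM in
/-- The product of `T_u` and `v - v(X^q)^q`: integral for both reductions, with poles only over
the cusps. -/
theorem ordGe_red_mul {x : Place (ResidueField A) (modularFunctionFieldFullC (ResidueField A) M)}
    (R : PlaceRed (x0Datum A hA M hqM))
    (hG : Finsupp.mapDomain R.r (zeroDivisor (K := Qbar) (jMF Qbar M)⁻¹) x = 0)
    (u v : RegRat M q) {Tb vb : modularFunctionFieldFullC (ResidueField A) M}
    (hTb : (redInf A hA M hqM).Red (TU u.fn) Tb) (hvb : (x0Datum A hA M hqM).Red v.fn vb) :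
    OrdGe x 0 (Tb * (vb - vb ^ (q ^ 2))) := by
  letI := algebraAlong (alphaMap Qbar M q)
  haveI := isScalarTower_along (alphaMap Qbar M q)
  haveI := finite_alongAlpha M (q := q)
  obtain ⟨vb', Tv, hv', -, hvfr, hTv, -⟩ := exists_red_TU hA hqM v
  obtain rfl := hv'.unique hvb
  obtain ⟨ub, Tu, hu', -, hufr, hTu, -⟩ := exists_red_TU hA hqM u
  obtain ⟨ha, hb⟩ := red_TT hA hqM u v hu' hufr hv' hvfr hTb hTv
  obtain ⟨N, hN⟩ := (exists_TU_mem_rr u v).2
  rw [← TT_def] at hN
  have h1 := mem_rr_iff.1 ((oneSide_alpha hA hqM).red_mem_fst R hN ha hb) x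
  rwa [Finsupp.mapDomain_smul, Finsupp.smul_apply, hG, smul_zero, neg_zero] at h1

theorem jMF_eq_x0J : jMF Qbar M = x0J A hA M hqM :=
  Subtype.ext (by rw [jMF_coe, coe_x0J])

include hA hqM in
theorem mapDomain_polar_j (R : PlaceRed (x0Datum A hA M hqM)) :
    Finsupp.mapDomain R.r (zeroDivisor (K := Qbar) (jMF Qbar M)⁻¹) =
      zeroDivisor (K := ResidueField A) (x0Jb A hA M hqM)⁻¹ := by
  rw [jMF_eq_x0J hA hqM]
  exact mapDomain_polar_self R (red_x0J A hA M hqM) (transcendental_x0Jb A hA M hqM)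
    (noDefect_x0J A hA M hqM)

include hA hqM in
theorem mapDomain_polar_j_apply (R : PlaceRed (x0Datum A hA M hqM))
    {x : Place (ResidueField A) (modularFunctionFieldFullC (ResidueField A) M)}
    (hx : 0 ≤ x.ord (x0Jb A hA M hqM)) :
    Finsupp.mapDomain R.r (zeroDivisor (K := Qbar) (jMF Qbar M)⁻¹) x = 0 := by
  rw [mapDomain_polar_j hA hqM R, zeroDivisor_apply, x.ord_inv]
  omega

end FLTAgent.Semistable
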