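import Fermat.Agent.Semistable.CrossData
import Fermat.Agent.Semistable.Deriv
import Fermat.Agent.Semistable.LevelW

/-!
# General facts used at the crossings

Functions regular off the pullback of a divisor have bounded poles; roots of monic integral
relations are regular; the derivative with respect to a uniformiser of `(f(X^q) - f^q)/q`.
-/

set_option autoImplicit false
set_option linter.unusedSectionVars false

noncomputable section

open AlgebraicCurve ModularCurve Polynomial

namespace FLTAgent.Semistable

open FLTAgent.FunctionField FLTAgent.GoodRed FLTAgent.GoodRed.RedDatum FLTAgent.Genus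

section bounded

variable {L E F : Type*} [Field L] [Field E] [Algebra L E] [Field F] [Algebra L F] [Algebra E F]
  [IsScalarTower L E F] [IsFunctionField L E] [IsFunctionField L F] [FiniteDimensional E F]

/-- Functions regular off the pullback of an effective divisor lie in some `L(N G)`. -/
theorem exists_mem_rr_pullback {G : Divisor L E} (hG : 0 ≤ G) {f : F}
    (hf : ∀ w : Place L F, G (w.restrict E) = 0 → OrdGe w 0 f) :
    ∃ N : ℕ, f ∈ riemannRochSpace (Divisor.pullback F (N • G)) := by
  refine ⟨(divisorOf (K := L) f).support.sup fun w => (w.ord f).natAbs, mem_rr_iff.2 fun w => ?_⟩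
  rcases eq_or_ne f 0 with rfl | hf0
  · exact ordGe_zero _
  rw [Divisor.pullback_apply, Finsupp.smul_apply, nsmul_eq_mul]
  have hG0 : (0 : ℤ) ≤ G (w.restrict E) := hG _
  rcases eq_or_ne (G (w.restrict E)) 0 with h0 | h0
  · rw [h0, mul_zero, mul_zero, neg_zero]; exact hf w h0
  refine ordGe_of_le_ord ?_
  rcases eq_or_ne (w.ord f) 0 with h | h
  · rw [h, Left.neg_nonpos_iff]; positivity
  have hw : w ∈ (divisorOf (K := L) f).support := by
    rw [Finsupp.mem_support_iff, divisorOf_apply]; exact h
  have h1 := Finset.le_sup (f := fun w : Place L F => (w.ord f).natAbs) hw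
  set N := (divisorOf (K := L) f).support.sup fun w => (w.ord f).natAbs
  have h2 : (1 : ℤ) ≤ w.ramificationIndex E := by
    exact_mod_cast Nat.one_le_iff_ne_zero.2 w.ramificationIndex_pos.ne'
  have h3 : -(w.ord f) ≤ (N : ℤ) := by omega
  have h4 : (1 : ℤ) ≤ G (w.restrict E) := by omega
  nlinarith [mul_nonneg (Nat.cast_nonneg (α := ℤ) N) (sub_nonneg.2 h4), mul_nonneg
    (mul_nonneg (Nat.cast_nonneg (α := ℤ) N) hG0) (sub_nonneg.2 h2)]

/-- A root of a monic polynomial with coefficients in `L[x]` is regular where `x` is. -/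
theorem ordGe_zero_of_ev2 {P : L[X][X]} (hP : P.Monic) {w : Place L F} {x y : F}
    (hx : OrdGe w 0 x) (h : ModPoly.ev2 x y P = 0) : OrdGe w 0 y := by
  rw [ModPoly.ev2_eq_eval_map] at h
  have h' := ordGe_root (v := w) (N := 0) (hP.map _) (fun i _ => ?_) h
  · simpa using h'
  rw [coeff_map, mul_zero, neg_zero]
  generalize P.coeff i = p
  induction p using Polynomial.induction_on' with
  | add a b ha hb => rw [map_add]; exact ha.add hb
  | monomial n c =>
    show OrdGe w 0 (aeval x (monomial n c))
    rw [aeval_monomial]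
    simpa using (ordGe_algebraMap (v := w) c).mul (ordGe_pow hx n)

end bounded

section deriv

variable {K C : Type*} [Field K] [Field C] [Algebra K C] [IsFunctionField K C] {x : Place K C}
  {q : ℕ} [Fact q.Prime] (f : C →ₐ[K] C) (frP : Place K C → Place K C)
  (hord : ∀ v z, v.ord (f z) = (q : ℤ) * (frP v).ord z)
  (hdeg : Module.finrank C (Frb f) = q) (D : C →+* LaurentSeries K)
  (hD : ∀ z, euler (D (f z)) = 0) {u : C} {a : K} (hu : x.ord (u - algebraMap K C a) = 1)
  (hDK : euler (D (algebraMap K C a)) = 0)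
include hord hdeg hD hu hDK

theorem euler_uniformiser : euler (D (u - algebraMap K C a)) = euler (D u) := by
  rw [map_sub, map_sub, hDK, sub_zero]

/-- The derivative of a uniformiser does not vanish. -/
theorem euler_ne_zero {g : C} (hg : euler (D g) ≠ 0) : euler (D u) ≠ 0 := by
  intro h0
  have key : ∀ z, OrdGe x 0 z → euler (D z) = 0 := fun z hz => by
    obtain ⟨d, -, hd⟩ := exists_euler_eq_mul x (Fact.out : q.Prime).pos f frP hord hdeg hu D hD hz
    rw [euler_uniformiser f frP hord hdeg D hD hu hDK, h0, mul_zero] at hd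
    exact hd
  refine hg ?_
  rcases le_total 0 (x.ord g) with h | h
  · exact key g (ordGe_of_le_ord h)
  have hg0 : g ≠ 0 := fun h0 => hg (by rw [h0, map_zero, map_zero])
  have h1 := key g⁻¹ (ordGe_of_le_ord (by rw [x.ord_inv]; omega))
  have hDg : D g ≠ 0 := (map_ne_zero D).2 hg0
  have h2 : euler (D g * D g⁻¹) = 0 := by rw [← map_mul, mul_inv_cancel₀ hg0, map_one, euler_one]
  rw [euler_mul, h1, mul_zero, add_zero, mul_eq_zero] at h2
  exact h2.resolve_right ((map_ne_zero D).2 (inv_ne_zero hg0))

/-- The power `(du)^(q-1)` from `d((u(X^q) - u^q)/q) = (du)^q - u^(q-1) du`. -/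
theorem exists_euler_pow {g : C} (hg : euler (D g) ≠ 0) {T : C} (hT : OrdGe x (-1) T)
    (hid : euler (D T) = euler (D u) ^ q - D u ^ (q - 1) * euler (D u)) :
    ∃ d : C, D d = euler (D u) ^ (q - 1) ∧ OrdGe x (-2) d ∧ (OrdGe x 0 T → OrdGe x 0 d) := by
  have hq := (Fact.out : q.Prime).pos
  have he := euler_ne_zero f frP hord hdeg D hD hu hDK hg
  have hπ := euler_uniformiser f frP hord hdeg D hD hu hDK
  have hureg : OrdGe x 0 u := by
    have h := (ordGe_of_le_ord (n := 1) hu.ge).mono (m := 0) (by omega)
    simpa using h.add (ordGe_algebraMap (v := x) a)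
  have hupow : OrdGe x 0 (u ^ (q - 1)) := by simpa using ordGe_pow hureg (q - 1)
  have key : ∀ e : C, euler (D T) = D e * euler (D u) →
      D (e + u ^ (q - 1)) = euler (D u) ^ (q - 1) := fun e h => by
    refine mul_right_cancel₀ he ?_
    rw [map_add, map_pow, add_mul, ← h, hid, ← _root_.pow_succ, Nat.sub_add_cancel hq]
    ring
  obtain ⟨e, heo, hee⟩ := exists_euler_eq_mul_of_simple x hq f frP hord hdeg hu D hD hT
  rw [hπ] at hee
  refine ⟨e + u ^ (q - 1), key e hee, heo.add (hupow.mono (by omega)), fun hT0 => ?_⟩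
  obtain ⟨e', he'o, he'e⟩ := exists_euler_eq_mul x hq f frP hord hdeg hu D hD hT0
  rw [hπ] at he'e
  rw [show e = e' from D.injective (mul_right_cancel₀ he (hee.symm.trans he'e))]
  exact he'o.add hupow

end deriv

end FLTAgent.Semistable
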