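import Fermat.Agent.Semistable.CrossingSet
import Fermat.Agent.GoodRed.GaloisRed
import Fermat.Agent.JTors.FieldDescent
import Fermat.Agent.Reduction.Decomposition

/-!
# The decomposition group of a place over `q` on the two reductions of level `M q`

An element of the decomposition group acts coefficientwise; it commutes with both degeneracy maps
and with the involution, so it acts on either residue field through its action on the constants,
and it permutes the crossings.
-/

set_option autoImplicit false
set_option linter.style.haveILetI false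
set_option linter.unusedSectionVars false
set_option synthInstance.maxHeartbeats 100000

noncomputable section

open ModularCurve AlgebraicCurve IsLocalRing

namespace FLTAgent.Semistable

open FLTAgent.GoodRed FLTAgent.GoodRed.RedDatum FLTAgent.Hecke FLTAgent.FunctionField

local notation "Qbar" => AlgebraicClosure ℚ

section places

variable {k C : Type*} [Field k] [Field C] [Algebra k C] [IsFunctionField k C] [IsAlgClosed k]

omit [IsAlgClosed k] in
theorem ordGe_smul {s : SemilinearAut k C} {v : Place k C} {n : ℤ} {a : C} :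
    OrdGe (s • v) n (SemilinearAut.toRingAut s a) ↔ OrdGe v n a := by
  rcases eq_or_ne a 0 with rfl | ha
  · simp [ordGe_zero]
  rw [ordGe_iff_of_ne_zero ((map_ne_zero _).2 ha), ordGe_iff_of_ne_zero ha,
    show (s • v).ord (SemilinearAut.toRingAut s a) = v.ord a from SemilinearAut.ord_smul s v a]

/-- Values transform through a semilinear automorphism. -/
theorem valAt_semilinear (s : SemilinearAut k C) {v : Place k C} {a : C} (ha : OrdGe v 0 a) :
    valAt (s • v) (SemilinearAut.toRingAut s a) = SemilinearAut.baseAut s (valAt v a) := by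
  refine valAt_eq ?_
  rw [← SemilinearAut.commutes, ← map_sub, ordGe_smul]
  exact valAt_spec ha

end places

theorem fullCAut_mul {K : Type*} [Field K] (N : ℕ) (σ τ : K ≃+* K) :
    fullCAut N (σ * τ) = fullCAut N σ * fullCAut N τ :=
  Subtype.ext (Prod.ext (RingEquiv.ext fun z => Subtype.ext
    (coeffMap_coeffMap (σ : K →+* K) (τ : K →+* K) (z : LaurentSeries K)).symm) rfl)

theorem fullCAut_refl {K : Type*} [Field K] (N : ℕ) :
    fullCAut N (RingEquiv.refl K) = 1 :=
  Subtype.ext (Prod.ext (RingEquiv.ext fun z => Subtype.ext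
    ((coeffMap_congr (g := RingHom.id K) rfl _).trans (coeffMap_id _))) rfl)

section galois

variable {M : ℕ} [NeZero M] {q : ℕ} [Fact q.Prime]

local instance : NeZero q := ⟨(Fact.out : q.Prime).ne_zero⟩

theorem arithmeticGalois_alphaMap (σ : Qbar ≃ₐ[ℚ] Qbar) (u : MF Qbar M) :
    arithmeticGalois (modularFunctionFieldFull (M * q)) σ • alphaMap Qbar M q u =
      alphaMap Qbar M q (arithmeticGalois (modularFunctionFieldFull M) σ • u) :=
  intertwines_degMap 1 (by rw [mul_one]; exact dvd_mul_right M q) σ u

theorem arithmeticGalois_betaMap (σ : Qbar ≃ₐ[ℚ] Qbar) (u : MF Qbar M) :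
    arithmeticGalois (modularFunctionFieldFull (M * q)) σ • betaMap Qbar M q u =
      betaMap Qbar M q (arithmeticGalois (modularFunctionFieldFull M) σ • u) :=
  intertwines_degMap q dvd_rfl σ u

theorem arithmeticGalois_regRat (σ : Qbar ≃ₐ[ℚ] Qbar) (u : RegRat M q) :
    arithmeticGalois (modularFunctionFieldFull M) σ • u.fn = u.fn :=
  Subtype.ext (JTors.coeffMap_coeffEmb_of_hom (σ : Qbar →+* Qbar) _)

theorem arithmeticGalois_TU (σ : Qbar ≃ₐ[ℚ] Qbar) (u : RegRat M q) :
    arithmeticGalois (modularFunctionFieldFull (M * q)) σ • TU (q := q) u.fn = TU u.fn := by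
  have ha := arithmeticGalois_alphaMap (q := q) σ u.fn
  have hb := arithmeticGalois_betaMap (q := q) σ u.fn
  rw [arithmeticGalois_regRat, SemilinearAut.smul_def] at ha hb
  rw [TU, SemilinearAut.smul_def, map_div₀, map_sub, map_pow, map_natCast, ha, hb]

variable (hqM : ¬ q ∣ M)

/-- The conjugate of the involution by a Galois element. -/
def conjSwap (σ : Qbar ≃ₐ[ℚ] Qbar) : MF Qbar (M * q) →ₐ[Qbar] MF Qbar (M * q) :=
  let s := SemilinearAut.toRingAut (arithmeticGalois (L := Qbar) (modularFunctionFieldFull (M * q)) σ)
  { s.symm.toRingHom.comp ((swapW M hqM).toRingEquiv.toRingHom.comp s.toRingHom) with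
    commutes' := fun c => by
      show s.symm (swapW M hqM (s (algebraMap Qbar (MF Qbar (M * q)) c))) = _
      rw [SemilinearAut.commutes, AlgEquiv.commutes, ← SemilinearAut.commutes,
        RingEquiv.symm_apply_apply] }

theorem conjSwap_eq (σ : Qbar ≃ₐ[ℚ] Qbar) :
    conjSwap hqM σ = (swapW M hqM : MF Qbar (M * q) →ₐ[Qbar] MF Qbar (M * q)) := by
  set s := SemilinearAut.toRingAut
    (arithmeticGalois (L := Qbar) (modularFunctionFieldFull (M * q)) σ)
  have hα : ∀ u : MF Qbar M,
      conjSwap hqM σ (alphaMap Qbar M q u) = swapW M hqM (alphaMap Qbar M q u) := fun u => by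
    show s.symm (swapW M hqM (s (alphaMap Qbar M q u))) = _
    rw [show s (alphaMap Qbar M q u) = _ from arithmeticGalois_alphaMap σ u, swapW_alpha,
      swapW_alpha, RingEquiv.symm_apply_eq]
    exact (arithmeticGalois_betaMap σ u).symm
  have hβ : ∀ u : MF Qbar M,
      conjSwap hqM σ (betaMap Qbar M q u) = swapW M hqM (betaMap Qbar M q u) := fun u => by
    show s.symm (swapW M hqM (s (betaMap Qbar M q u))) = _
    rw [show s (betaMap Qbar M q u) = _ from arithmeticGalois_betaMap σ u, swapW_beta,
      swapW_beta, RingEquiv.symm_apply_eq]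
    exact (arithmeticGalois_alphaMap σ u).symm
  refine algHom_MF_ext ?_ ?_
  · rw [show jMF Qbar (M * q) = alphaMap Qbar M q (jMF Qbar M) from
      Subtype.ext (by rw [coe_alphaMap, jMF_coe, jMF_coe])]
    exact hα _
  · rw [show (⟨jd Qbar (M * q), jd_mem Qbar dvd_rfl⟩ : MF Qbar (M * q)) =
      betaMap Qbar M q ⟨jd Qbar M, jd_mem Qbar dvd_rfl⟩ from Subtype.ext (by
        rw [coe_betaMap]
        exact ((qExpand_qExpand M q _).trans (qExpand_congr (mul_comm q M) _)).symm)]
    exact hβ _

theorem arithmeticGalois_swapW (σ : Qbar ≃ₐ[ℚ] Qbar) (y : MF Qbar (M * q)) :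
    arithmeticGalois (modularFunctionFieldFull (M * q)) σ • swapW M hqM y =
      swapW M hqM (arithmeticGalois (modularFunctionFieldFull (M * q)) σ • y) := by
  have h := DFunLike.congr_fun (conjSwap_eq hqM σ) y
  exact ((RingEquiv.symm_apply_eq _).1 h).symm

variable {A : ValuationSubring (AlgebraicClosure ℚ)} (hA : A.LiesOverPrime q)
  [CharP (ResidueField A) q] [IsAlgClosed (ResidueField A)]

theorem valuation_decomposition (g : A.decompositionSubgroup ℚ) (a : Qbar) :
    A.valuation ((g : Qbar ≃ₐ[ℚ] Qbar) a) = A.valuation a :=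
  haveI : Algebra.IsAlgebraic ℚ Qbar := AlgebraicClosure.isAlgebraic ℚ
  Reduction.v_map_eq g.2 a

include hA in
/-- The reductions of level `M q` at infinity transform through the action on the constants. -/
theorem redInf_galois (g : A.decompositionSubgroup ℚ) {y : MF Qbar (M * q)}
    {z : modularFunctionFieldFullC (ResidueField A) M} (h : (redInf A hA M hqM).Red y z) :
    (redInf A hA M hqM).Red
      (arithmeticGalois (modularFunctionFieldFull (M * q)) (g : Qbar ≃ₐ[ℚ] Qbar) • y)
      (fullCAut M (residueAut g) • z) :=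
  (redInf_iff hA hqM).2 (((redInf_iff hA hqM).1 h).map ((g : Qbar ≃ₐ[ℚ] Qbar) : Qbar →+* Qbar)
    (residueAut g : ResidueField A →+* ResidueField A)
    (fun a ha => (g • (⟨a, ha⟩ : A)).2) (fun a => (residueAut_residue g a).symm))

include hA in
/-- The reductions of level `M q` at zero transform through the action on the constants. -/
theorem redZero_galois (g : A.decompositionSubgroup ℚ) {y : MF Qbar (M * q)}
    {z : modularFunctionFieldFullC (ResidueField A) M} (h : (redZero A hA M hqM).Red y z) :
    (redZero A hA M hqM).Red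
      (arithmeticGalois (modularFunctionFieldFull (M * q)) (g : Qbar ≃ₐ[ℚ] Qbar) • y)
      (fullCAut M (residueAut g) • z) := by
  rw [redZero_iff, ← arithmeticGalois_swapW hqM]
  exact redInf_galois hqM hA g ((redZero_iff hA hqM).1 h)

theorem fullCAut_x0Jb (τ : ResidueField A ≃+* ResidueField A) :
    fullCAut M τ • x0Jb A hA M hqM = x0Jb A hA M hqM :=
  Subtype.ext (by
    show coeffMap (τ : ResidueField A →+* ResidueField A)
      (x0Jb A hA M hqM : LaurentSeries (ResidueField A)) = _
    rw [coe_x0Jb]
    exact coeffMap_jqModC _)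

variable [IsFunctionField (ResidueField A) (modularFunctionFieldFullC (ResidueField A) M)]

include hA hqM in
/-- The crossings are stable under the decomposition group. -/
theorem crossingSet_galois (g : A.decompositionSubgroup ℚ)
    {x : Place (ResidueField A) (modularFunctionFieldFullC (ResidueField A) M)}
    (hx : x ∈ crossingSet A hA hqM) :
    fullCAut M (residueAut g) • x ∈ crossingSet A hA hqM := by
  obtain ⟨hxj, u, Tb, hTb, hpole⟩ := hx
  have hfix : fullCAut M (residueAut g) • Tb = Tb := by
    have h := redInf_galois hqM hA g hTb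
    rw [arithmeticGalois_TU] at h
    exact h.unique hTb
  refine ⟨?_, u, Tb, hTb, fun h => hpole ?_⟩
  · rw [← fullCAut_x0Jb hqM hA (residueAut g), SemilinearAut.ord_smul]
    exact hxj
  · rw [← hfix, SemilinearAut.smul_def] at h
    exact ordGe_smul.1 h

end galois

end FLTAgent.Semistable
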