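import Fermat.Agent.Semistable.PairRed
import Fermat.Agent.GoodRed.Tube

/-!
# Two component reductions and jumps of flat divisor classes

A `NodeSystem` bounds the pairs of reductions of the functions with poles on two fixed Galois
stable divisors and prescribes agreement at finitely many crossings.  For a torsion divisor class
whose function reduces to constants on both sides the pairs of reductions are then exactly the
pairs agreeing up to a factor at each crossing, the jump of the class.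
-/

set_option autoImplicit false
set_option linter.unusedSectionVars false

noncomputable section

open AlgebraicCurve

namespace FLTAgent.Semistable

open FLTAgent.GoodRed FLTAgent.GoodRed.RedDatum FLTAgent.FunctionField

section valAt

variable {k C : Type*} [Field k] [Field C] [Algebra k C] [IsFunctionField k C] [IsAlgClosed k]

open scoped Classical in
/-- The value of a function at a place where it is regular. -/
def valAt (v : Place k C) (f : C) : k :=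
  if h : OrdGe v 0 f then (exists_value h).choose else 0

variable {v : Place k C} {f f' : C}

theorem valAt_spec (hf : OrdGe v 0 f) : OrdGe v 1 (f - algebraMap k C (valAt v f)) := by
  rw [valAt, dif_pos hf]
  exact (exists_value hf).choose_spec

theorem ordGe_zero_of_value {a : k} (h : OrdGe v 1 (f - algebraMap k C a)) : OrdGe v 0 f := by
  simpa using (h.mono (m := 0) (by omega)).add (ordGe_algebraMap a)

theorem valAt_eq {a : k} (h : OrdGe v 1 (f - algebraMap k C a)) : valAt v f = a :=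
  value_unique (valAt_spec (ordGe_zero_of_value h)) h

@[simp] theorem valAt_algebraMap (a : k) : valAt v (algebraMap k C a) = a :=
  valAt_eq (by simp)

@[simp] theorem valAt_zero : valAt v (0 : C) = 0 := valAt_eq (by simp)

@[simp] theorem valAt_one : valAt v (1 : C) = 1 := by
  simpa using valAt_algebraMap (v := v) (1 : k)

theorem valAt_add (hf : OrdGe v 0 f) (hf' : OrdGe v 0 f') :
    valAt v (f + f') = valAt v f + valAt v f' :=
  valAt_eq (by
    rw [map_add, add_sub_add_comm]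
    exact (valAt_spec hf).add (valAt_spec hf'))

theorem valAt_mul (hf : OrdGe v 0 f) (hf' : OrdGe v 0 f') :
    valAt v (f * f') = valAt v f * valAt v f' :=
  valAt_eq (by
    have h1 := (valAt_spec hf).mul hf'
    have h2 := (ordGe_algebraMap (v := v) (valAt v f)).mul (valAt_spec hf')
    rw [map_mul, show f * f' - algebraMap k C (valAt v f) * algebraMap k C (valAt v f') =
      (f - algebraMap k C (valAt v f)) * f' +
        algebraMap k C (valAt v f) * (f' - algebraMap k C (valAt v f')) by ring]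
    exact h1.add h2)

theorem valAt_smul (a : k) (hf : OrdGe v 0 f) : valAt v (a • f) = a * valAt v f := by
  rw [Algebra.smul_def, valAt_mul (ordGe_algebraMap a) hf, valAt_algebraMap]

theorem valAt_pow (hf : OrdGe v 0 f) (n : ℕ) :
    OrdGe v 0 (f ^ n) ∧ valAt v (f ^ n) = valAt v f ^ n := by
  induction n with
  | zero => exact ⟨by simpa using ordGe_algebraMap (v := v) (1 : k), by simp⟩
  | succ n ih =>
    refine ⟨?_, ?_⟩
    · simpa [pow_succ] using ih.1.mul hf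
    · rw [pow_succ, valAt_mul ih.1 hf, ih.2, pow_succ]

theorem valAt_sum {ι : Type*} (s : Finset ι) {f : ι → C} (h : ∀ i ∈ s, OrdGe v 0 (f i)) :
    valAt v (∑ i ∈ s, f i) = ∑ i ∈ s, valAt v (f i) := by
  classical
  induction s using Finset.induction with
  | empty => simp
  | insert a s ha ih =>
    rw [Finset.sum_insert ha, Finset.sum_insert ha, valAt_add (h a (Finset.mem_insert_self a s))
      (OrdGe.sum fun i hi => h i (Finset.mem_insert_of_mem hi)),
      ih fun i hi => h i (Finset.mem_insert_of_mem hi)]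

theorem regular_of_mem_rr {P : Divisor k C} (hP : P v = 0) (hf : f ∈ riemannRochSpace P) :
    OrdGe v 0 f := by
  simpa [hP] using mem_rr_iff.1 hf v

theorem exists_valAt_eq {ι : Type*} [Fintype ι] {gC c : ℤ} (hk : RRLarge k C gC c)
    {x : ι → Place k C} (hx : Function.Injective x) {P : Divisor k C} (hP : ∀ i, P (x i) = 0)
    (hd : c + Fintype.card ι ≤ Divisor.degree P) (t : ι → k) :
    ∃ f ∈ riemannRochSpace P, ∀ i, valAt (x i) f = t i := by
  classical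
  have hone : ∀ i, ∃ f ∈ riemannRochSpace P, valAt (x i) f ≠ 0 ∧
      ∀ j, j ≠ i → valAt (x j) f = 0 := by
    intro i
    set E : Divisor k C := ∑ j ∈ Finset.univ.erase i, Finsupp.single (x j) 1 with hE
    have hEdeg : Divisor.degree E = (Fintype.card ι : ℤ) - 1 := by
      have hpos : 1 ≤ Fintype.card ι := Fintype.card_pos_iff.2 ⟨i⟩
      rw [hE, map_sum, Finset.sum_congr rfl fun j _ => degree_single_one (x j), Finset.sum_const,
        Finset.card_erase_of_mem (Finset.mem_univ i), Finset.card_univ]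
      simp [Nat.cast_sub hpos]
    have hEx : ∀ j, E (x j) = if j = i then 0 else 1 := fun j => by
      rw [hE, Finset.sum_apply']
      simp only [Finsupp.single_apply, hx.eq_iff, Finset.sum_ite_eq', Finset.mem_erase,
        Finset.mem_univ, and_true]
      split <;> simp_all
    have hE0 : 0 ≤ E := Finset.sum_nonneg fun j _ => Finsupp.single_nonneg.2 zero_le_one
    obtain ⟨f, hf, hf0, hord⟩ := hk.exists_ord_eq_neg (D := P - E)
      (by rw [map_sub, hEdeg]; omega) (x i)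
    rw [Finsupp.sub_apply, hP, hEx, if_pos rfl] at hord
    refine ⟨f, riemannRochSpace_mono (sub_le_self P hE0) hf, fun h0 => ?_, fun j hj => valAt_eq ?_⟩
    · have h1 := valAt_spec (v := x i) (f := f) (ordGe_of_le_ord (by omega))
      rw [h0, map_zero, sub_zero] at h1
      have := h1.le_ord hf0
      omega
    · rw [map_zero, sub_zero]
      simpa [hP, hEx, if_neg hj] using mem_rr_iff.1 hf (x j)
  choose f hf hne hzero using hone
  refine ⟨∑ i, (t i / valAt (x i) (f i)) • f i,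
    Submodule.sum_mem _ fun i _ => Submodule.smul_mem _ _ (hf i), fun i => ?_⟩
  rw [valAt_sum _ fun j _ => regular_of_mem_rr (hP i) (Submodule.smul_mem _ _ (hf j)),
    Finset.sum_eq_single i]
  · rw [valAt_smul _ (regular_of_mem_rr (hP i) (hf i)), div_mul_cancel₀ _ (hne i)]
  · intro j _ hj
    rw [valAt_smul _ (regular_of_mem_rr (hP i) (hf j)), hzero j i (Ne.symm hj), mul_zero]
  · exact fun h => absurd (Finset.mem_univ i) h

end valAt

theorem mem_rr_of_pow_mul_mem {K G : Type*} [Field K] [Field G] [Algebra K G]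
    [IsFunctionField K G] {m : ℕ} (hm : 0 < m) {P : Divisor K G} {z : G} {s : K} (hs : s ≠ 0)
    (h : z ^ m * algebraMap K G s ∈ riemannRochSpace (m • P)) : z ∈ riemannRochSpace P := by
  have h' : z ^ m ∈ riemannRochSpace (m • P) := by
    have := Submodule.smul_mem _ s⁻¹ h
    rwa [Algebra.smul_def, mul_comm (z ^ m), ← mul_assoc, ← map_mul, inv_mul_cancel₀ hs,
      map_one, one_mul] at this
  rw [mem_rr_iff] at h' ⊢
  intro v
  rcases eq_or_ne z 0 with rfl | hz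
  · exact ordGe_zero _
  refine ordGe_of_le_ord ?_
  have h'' := (h' v).le_ord (pow_ne_zero m hz)
  rw [FunctionField.ord_pow, Finsupp.smul_apply, nsmul_eq_mul] at h''
  nlinarith [show (1 : ℤ) ≤ m by exact_mod_cast hm]

variable {L k : Type*} [Field L] [Field k] {A : ValuationSubring L} {π : A →+* k}
  {F C C' : Type*} [Field F] [Algebra L F] [Field C] [Algebra k C] [Field C'] [Algebra k C']
  [IsFunctionField L F] [IsFunctionField k C] [IsFunctionField k C'] [IsAlgClosed L]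
  [IsAlgClosed k]

/-- Two reductions of `F` glued at finitely many crossings, for functions with poles on two
fixed disjoint divisors. -/
structure NodeSystem (D : RedDatum A π F C) (D' : RedDatum A π F C') (ι : Type*) [Fintype ι] where
  /-- the crossings on the first component -/
  x : ι → Place k C
  /-- the crossings on the second component -/
  y : ι → Place k C'
  x_inj : Function.Injective x
  y_inj : Function.Injective y
  nonempty : Nonempty ι
  /-- genus of `F` -/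
  g : ℤ
  /-- genus of the first component -/
  g₁ : ℤ
  /-- genus of the second component -/
  g₂ : ℤ
  /-- bound for Riemann-Roch -/
  c : ℕ
  hL : RRLarge L F g c
  hk : RRLarge k C g₁ c
  hk' : RRLarge k C' g₂ c
  genus_le : g ≤ g₁ + g₂ + (Fintype.card ι : ℤ) - 1
  /-- first auxiliary divisor -/
  B₁ : Divisor L F
  /-- second auxiliary divisor -/
  B₂ : Divisor L F
  B₁_nonneg : 0 ≤ B₁
  B₂_nonneg : 0 ≤ B₂
  B_disj : ∀ P, B₁ P = 0 ∨ B₂ P = 0
  /-- first reduction of `B₁` -/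
  p₁ : Divisor k C
  /-- first reduction of `B₂` -/
  p₂ : Divisor k C
  /-- second reduction of `B₁` -/
  q₁ : Divisor k C'
  /-- second reduction of `B₂` -/
  q₂ : Divisor k C'
  p₁_nonneg : 0 ≤ p₁
  p₂_nonneg : 0 ≤ p₂
  q₁_nonneg : 0 ≤ q₁
  q₂_nonneg : 0 ≤ q₂
  p_disj : ∀ v, p₁ v = 0 ∨ p₂ v = 0
  q_disj : ∀ v, q₁ v = 0 ∨ q₂ v = 0
  p₁_x : ∀ i, p₁ (x i) = 0
  p₂_x : ∀ i, p₂ (x i) = 0
  q₁_y : ∀ i, q₁ (y i) = 0
  q₂_y : ∀ i, q₂ (y i) = 0
  deg_p₁ : 1 ≤ Divisor.degree p₁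
  deg_p₂ : 1 ≤ Divisor.degree p₂
  deg_q₁ : 1 ≤ Divisor.degree q₁
  deg_q₂ : 1 ≤ Divisor.degree q₂
  deg₁ : Divisor.degree p₁ + Divisor.degree q₁ ≤ Divisor.degree B₁
  deg₂ : Divisor.degree p₂ + Divisor.degree q₂ ≤ Divisor.degree B₂
  red_mem : ∀ (n₁ n₂ : ℕ) (f : F) (a : C) (b : C'), f ∈ riemannRochSpace (n₁ • B₁ + n₂ • B₂) →
    D.Red f a → D'.Red f b →
      a ∈ riemannRochSpace (n₁ • p₁ + n₂ • p₂) ∧ b ∈ riemannRochSpace (n₁ • q₁ + n₂ • q₂)
  agree : ∀ (n₁ n₂ : ℕ) (f : F) (a : C) (b : C'), f ∈ riemannRochSpace (n₁ • B₁ + n₂ • B₂) →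
    D.Red f a → D'.Red f b → ∀ i, valAt (x i) a = valAt (y i) b

namespace NodeSystem

variable {D : RedDatum A π F C} {D' : RedDatum A π F C'} {ι : Type*} [Fintype ι]
  (N : NodeSystem D D' ι)

/-- `n₁ B₁ + n₂ B₂` -/
def Bd (n₁ n₂ : ℕ) : Divisor L F := n₁ • N.B₁ + n₂ • N.B₂

/-- `n₁ p₁ + n₂ p₂` -/
def Pd (n₁ n₂ : ℕ) : Divisor k C := n₁ • N.p₁ + n₂ • N.p₂

/-- `n₁ q₁ + n₂ q₂` -/
def Qd (n₁ n₂ : ℕ) : Divisor k C' := n₁ • N.q₁ + n₂ • N.q₂

/-- Multipliers of this total size suffice. -/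
def Big (n₁ n₂ : ℕ) : Prop := N.c + Fintype.card ι + 1 ≤ n₁ + n₂

theorem Bd_nonneg (n₁ n₂ : ℕ) : 0 ≤ N.Bd n₁ n₂ :=
  add_nonneg (nsmul_nonneg N.B₁_nonneg _) (nsmul_nonneg N.B₂_nonneg _)

theorem Bd_add (n₁ n₂ n₁' n₂' : ℕ) :
    N.Bd (n₁ + n₁') (n₂ + n₂') = N.Bd n₁ n₂ + N.Bd n₁' n₂' := by
  simp only [Bd, add_nsmul]; abel

theorem Bd_mul (m n₁ n₂ : ℕ) : N.Bd (m * n₁) (m * n₂) = m • N.Bd n₁ n₂ := by
  simp only [Bd, mul_nsmul', smul_add]

theorem Bd_mono {n₁ n₂ n₁' n₂' : ℕ} (h₁ : n₁ ≤ n₁') (h₂ : n₂ ≤ n₂') :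
    N.Bd n₁ n₂ ≤ N.Bd n₁' n₂' := by
  obtain ⟨a, rfl⟩ := Nat.exists_eq_add_of_le h₁
  obtain ⟨b, rfl⟩ := Nat.exists_eq_add_of_le h₂
  rw [Bd_add]
  exact le_add_of_nonneg_right (N.Bd_nonneg a b)

theorem Pd_x (n₁ n₂ : ℕ) (i : ι) : N.Pd n₁ n₂ (N.x i) = 0 := by
  simp [Pd, N.p₁_x, N.p₂_x]

theorem Qd_y (n₁ n₂ : ℕ) (i : ι) : N.Qd n₁ n₂ (N.y i) = 0 := by
  simp [Qd, N.q₁_y, N.q₂_y]

theorem Pd_mul (m n₁ n₂ : ℕ) : N.Pd (m * n₁) (m * n₂) = m • N.Pd n₁ n₂ := by
  simp only [Pd, mul_nsmul', smul_add]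

theorem Qd_mul (m n₁ n₂ : ℕ) : N.Qd (m * n₁) (m * n₂) = m • N.Qd n₁ n₂ := by
  simp only [Qd, mul_nsmul', smul_add]

theorem degree_Pd_le (n₁ n₂ : ℕ) :
    ((n₁ + n₂ : ℕ) : ℤ) ≤ Divisor.degree (N.Pd n₁ n₂) := by
  have h1 := mul_le_mul_of_nonneg_left N.deg_p₁ (Nat.cast_nonneg (α := ℤ) n₁)
  have h2 := mul_le_mul_of_nonneg_left N.deg_p₂ (Nat.cast_nonneg (α := ℤ) n₂)
  simp only [Pd, map_add, map_nsmul, nsmul_eq_mul]
  push_cast
  linarith

theorem degree_Qd_le (n₁ n₂ : ℕ) :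
    ((n₁ + n₂ : ℕ) : ℤ) ≤ Divisor.degree (N.Qd n₁ n₂) := by
  have h1 := mul_le_mul_of_nonneg_left N.deg_q₁ (Nat.cast_nonneg (α := ℤ) n₁)
  have h2 := mul_le_mul_of_nonneg_left N.deg_q₂ (Nat.cast_nonneg (α := ℤ) n₂)
  simp only [Qd, map_add, map_nsmul, nsmul_eq_mul]
  push_cast
  linarith

theorem degree_Pd_add_Qd_le (n₁ n₂ : ℕ) :
    Divisor.degree (N.Pd n₁ n₂) + Divisor.degree (N.Qd n₁ n₂) ≤ Divisor.degree (N.Bd n₁ n₂) := by
  have h1 := mul_le_mul_of_nonneg_left N.deg₁ (Nat.cast_nonneg (α := ℤ) n₁)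
  have h2 := mul_le_mul_of_nonneg_left N.deg₂ (Nat.cast_nonneg (α := ℤ) n₂)
  simp only [Pd, Qd, Bd, map_add, map_nsmul, nsmul_eq_mul]
  linarith

variable (ζ : ι → k) in
/-- Pairs of functions agreeing up to the factor `ζ` at the crossings. -/
def nspace (n₁ n₂ : ℕ) : Submodule k (C × C') where
  carrier := {p | p.1 ∈ riemannRochSpace (N.Pd n₁ n₂) ∧ p.2 ∈ riemannRochSpace (N.Qd n₁ n₂) ∧
    ∀ i, valAt (N.y i) p.2 = ζ i * valAt (N.x i) p.1}
  zero_mem' := ⟨zero_mem _, zero_mem _, fun i => by simp⟩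
  add_mem' := fun ⟨ha, hb, h⟩ ⟨ha', hb', h'⟩ => ⟨add_mem ha ha', add_mem hb hb', fun i => by
    rw [Prod.fst_add, Prod.snd_add, valAt_add (regular_of_mem_rr (N.Qd_y _ _ i) hb)
      (regular_of_mem_rr (N.Qd_y _ _ i) hb'), valAt_add (regular_of_mem_rr (N.Pd_x _ _ i) ha)
      (regular_of_mem_rr (N.Pd_x _ _ i) ha'), h i, h' i, mul_add]⟩
  smul_mem' := fun t p ⟨ha, hb, h⟩ => ⟨Submodule.smul_mem _ t ha, Submodule.smul_mem _ t hb,
    fun i => by
      rw [Prod.smul_fst, Prod.smul_snd, valAt_smul t (regular_of_mem_rr (N.Qd_y _ _ i) hb),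
        valAt_smul t (regular_of_mem_rr (N.Pd_x _ _ i) ha), h i]
      ring⟩

theorem mem_nspace {ζ : ι → k} {n₁ n₂ : ℕ} {p : C × C'} :
    p ∈ N.nspace ζ n₁ n₂ ↔ p.1 ∈ riemannRochSpace (N.Pd n₁ n₂) ∧
      p.2 ∈ riemannRochSpace (N.Qd n₁ n₂) ∧
      ∀ i, valAt (N.y i) p.2 = ζ i * valAt (N.x i) p.1 := Iff.rfl

theorem exists_mem_nspace (ζ : ι → k) {n₁ n₂ : ℕ} (hn : N.Big n₁ n₂) (t : ι → k) :
    ∃ p ∈ N.nspace ζ n₁ n₂, ∀ i, valAt (N.x i) p.1 = t i := by
  have hb := N.degree_Pd_le n₁ n₂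
  have hb' := N.degree_Qd_le n₁ n₂
  unfold Big at hn
  obtain ⟨a, ha, hat⟩ := exists_valAt_eq N.hk N.x_inj (N.Pd_x n₁ n₂) (by omega) t
  obtain ⟨b, hb'', hbt⟩ := exists_valAt_eq N.hk' N.y_inj (N.Qd_y n₁ n₂) (by omega)
    fun i => ζ i * t i
  exact ⟨(a, b), ⟨ha, hb'', fun i => by rw [hbt, hat]⟩, hat⟩

theorem finrank_nspace_le (ζ : ι → k) {n₁ n₂ : ℕ} (hn : N.Big n₁ n₂) :
    Module.Finite k (N.nspace ζ n₁ n₂) ∧ (Module.finrank k (N.nspace ζ n₁ n₂) : ℤ) ≤
      Divisor.degree (N.Pd n₁ n₂) + Divisor.degree (N.Qd n₁ n₂) + 2 - N.g₁ - N.g₂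
        - Fintype.card ι := by
  set P := riemannRochSpace (N.Pd n₁ n₂)
  set Q := riemannRochSpace (N.Qd n₁ n₂)
  let Φ : (P × Q) →ₗ[k] (ι → k) :=
    { toFun := fun p i => valAt (N.y i) (p.2 : C') - ζ i * valAt (N.x i) (p.1 : C)
      map_add' := fun p r => funext fun i => by
        simp only [Prod.fst_add, Prod.snd_add, Submodule.coe_add, Pi.add_apply]
        rw [valAt_add (regular_of_mem_rr (N.Qd_y _ _ i) p.2.2)
          (regular_of_mem_rr (N.Qd_y _ _ i) r.2.2),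
          valAt_add (regular_of_mem_rr (N.Pd_x _ _ i) p.1.2)
          (regular_of_mem_rr (N.Pd_x _ _ i) r.1.2)]
        ring
      map_smul' := fun t p => funext fun i => by
        simp only [Prod.smul_fst, Prod.smul_snd, Submodule.coe_smul, Pi.smul_apply, smul_eq_mul,
          RingHom.id_apply]
        rw [valAt_smul t (regular_of_mem_rr (N.Qd_y _ _ i) p.2.2),
          valAt_smul t (regular_of_mem_rr (N.Pd_x _ _ i) p.1.2)]
        ring }
  have hdP := N.degree_Pd_le n₁ n₂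
  have hdQ := N.degree_Qd_le n₁ n₂
  unfold Big at hn
  have hsurj : LinearMap.range Φ = ⊤ := LinearMap.range_eq_top.2 fun t => by
    obtain ⟨b, hb, hbt⟩ := exists_valAt_eq N.hk' N.y_inj (N.Qd_y n₁ n₂) (by omega) t
    exact ⟨(0, ⟨b, hb⟩), funext fun i => by simp [Φ, hbt]⟩
  have hrank := Φ.finrank_range_add_finrank_ker
  rw [hsurj, finrank_top, Module.finrank_pi, Module.finrank_prod] at hrank
  let ψ : N.nspace ζ n₁ n₂ →ₗ[k] LinearMap.ker Φ :=
    { toFun := fun p => ⟨(⟨p.1.1, p.2.1⟩, ⟨p.1.2, p.2.2.1⟩),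
        LinearMap.mem_ker.2 (funext fun i => sub_eq_zero.2 (p.2.2.2 i))⟩
      map_add' := fun _ _ => rfl
      map_smul' := fun _ _ => rfl }
  have hψ : Function.Injective ψ := fun a b h => by
    have h1 := congrArg (fun z : LinearMap.ker Φ => (z.1.1 : C)) h
    have h2 := congrArg (fun z : LinearMap.ker Φ => (z.1.2 : C')) h
    exact Subtype.ext (Prod.ext h1 h2)
  have : Module.Finite k (N.nspace ζ n₁ n₂) := Module.Finite.of_injective ψ hψ
  refine ⟨this, ?_⟩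
  have h1 := LinearMap.finrank_le_finrank_of_injective hψ
  have h2 : (Module.finrank k P : ℤ) = _ := N.hk (N.Pd n₁ n₂) (by omega)
  have h3 : (Module.finrank k Q : ℤ) = _ := N.hk' (N.Qd n₁ n₂) (by omega)
  omega

/-- A torsion class whose function reduces to nonzero constants on both components. -/
def IsFlat (m : ℕ) (X : Divisor L F) : Prop :=
  Divisor.degree X = 0 ∧ ∃ f : F, f ≠ 0 ∧ divisorOf f = m • X ∧
    ∃ t t' : k, t ≠ 0 ∧ t' ≠ 0 ∧ D.Red f (algebraMap k C t) ∧ D'.Red f (algebraMap k C' t')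

/-- The pairs of reductions of `L(B + X)` are those agreeing up to `ζ`. -/
def HasJump (X : Divisor L F) (ζ : ι → k) : Prop :=
  ∀ n₁ n₂, N.Big n₁ n₂ →
    pairSpace D D' (riemannRochSpace (N.Bd n₁ n₂ + X)) = N.nspace ζ n₁ n₂

theorem pairSpace_eq_of_le {X : Divisor L F} (hX : Divisor.degree X = 0) {ζ : ι → k} {n₁ n₂ : ℕ}
    (hn : N.Big n₁ n₂)
    (h : pairSpace D D' (riemannRochSpace (N.Bd n₁ n₂ + X)) ≤ N.nspace ζ n₁ n₂) :
    pairSpace D D' (riemannRochSpace (N.Bd n₁ n₂ + X)) = N.nspace ζ n₁ n₂ := by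
  obtain ⟨hfin, hle⟩ := N.finrank_nspace_le ζ hn
  refine Submodule.eq_of_le_of_finrank_le h ?_
  rw [finrank_pairSpace]
  have hd := N.degree_Pd_add_Qd_le n₁ n₂
  have hdP := N.degree_Pd_le n₁ n₂
  have hdQ := N.degree_Qd_le n₁ n₂
  have hg := N.genus_le
  unfold Big at hn
  have h1 := N.hL (N.Bd n₁ n₂ + X) (by rw [map_add, hX]; omega)
  rw [map_add, hX] at h1
  omega

theorem hasJump_zero : N.HasJump 0 1 := fun n₁ n₂ hn => by
  refine N.pairSpace_eq_of_le (map_zero _) hn ?_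
  rintro ⟨a, b⟩ ⟨f, hf, hr, hr'⟩
  rw [add_zero] at hf
  obtain ⟨ha, hb⟩ := N.red_mem _ _ f a b hf hr hr'
  exact ⟨ha, hb, fun i => by simp [(N.agree _ _ f a b hf hr hr' i).symm]⟩

theorem exists_jump_aux {m : ℕ} (hm : 0 < m) {X : Divisor L F} {f₀ : F} (hf₀ : f₀ ≠ 0)
    (hdiv : divisorOf f₀ = m • X) {t t' : k} (ht : t ≠ 0) (ht' : t' ≠ 0)
    (hr : D.Red f₀ (algebraMap k C t)) (hr' : D'.Red f₀ (algebraMap k C' t')) (n₁ n₂ : ℕ) :
    ∃ ζ : ι → k, (∀ i, ζ i ^ m = t / t') ∧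
      pairSpace D D' (riemannRochSpace (N.Bd n₁ n₂ + X)) ≤ N.nspace ζ n₁ n₂ := by
  classical
  set W := riemannRochSpace (N.Bd n₁ n₂ + X)
  have key : ∀ p ∈ pairSpace D D' W,
      p.1 ∈ riemannRochSpace (N.Pd n₁ n₂) ∧ p.2 ∈ riemannRochSpace (N.Qd n₁ n₂) ∧
      ∀ i, valAt (N.y i) p.2 ^ m = t / t' * valAt (N.x i) p.1 ^ m := by
    rintro ⟨a, b⟩ ⟨f, hf, ha, hb⟩
    have hmem : f ^ m * f₀ ∈ riemannRochSpace (N.Bd (m * n₁) (m * n₂)) := by
      rw [N.Bd_mul, mem_rr_iff]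
      intro v
      have h1 : OrdGe v ((m : ℤ) * (-(N.Bd n₁ n₂ + X) v)) (f ^ m) := by
        rcases eq_or_ne f 0 with rfl | hf0
        · rw [zero_pow hm.ne']; exact ordGe_zero _
        refine ordGe_of_le_ord ?_
        rw [FunctionField.ord_pow]
        exact mul_le_mul_of_nonneg_left ((mem_rr_iff.1 hf v).le_ord hf0) (Nat.cast_nonneg m)
      have h2 : v.ord f₀ = (m : ℤ) * X v := by
        simpa using congrArg (fun Y : Divisor L F => Y v) hdiv
      refine (h1.mul (ordGe_ord f₀)).mono ?_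
      simp only [Finsupp.add_apply, Finsupp.smul_apply, nsmul_eq_mul, h2]
      linarith
    have hra := (ha.pow m).mul hr
    have hrb := (hb.pow m).mul hr'
    obtain ⟨hA', hB'⟩ := N.red_mem _ _ _ _ _ hmem hra hrb
    have hA : a ∈ riemannRochSpace (N.Pd n₁ n₂) := mem_rr_of_pow_mul_mem hm ht (by rw [← N.Pd_mul]; exact hA')
    have hB : b ∈ riemannRochSpace (N.Qd n₁ n₂) := mem_rr_of_pow_mul_mem hm ht' (by rw [← N.Qd_mul]; exact hB')
    refine ⟨hA, hB, fun i => ?_⟩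
    have hax := regular_of_mem_rr (N.Pd_x n₁ n₂ i) hA
    have hby := regular_of_mem_rr (N.Qd_y n₁ n₂ i) hB
    have h := N.agree _ _ _ _ _ hmem hra hrb i
    rw [valAt_mul (valAt_pow hax m).1 (ordGe_algebraMap t),
      valAt_mul (valAt_pow hby m).1 (ordGe_algebraMap t'), (valAt_pow hax m).2,
      (valAt_pow hby m).2, valAt_algebraMap, valAt_algebraMap] at h
    field_simp
    linear_combination -h
  have hone : ∀ i, ∃ z : k, z ^ m = t / t' ∧
      ∀ p ∈ pairSpace D D' W, valAt (N.y i) p.2 = z * valAt (N.x i) p.1 := by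
    intro i
    by_cases hall : ∀ p ∈ pairSpace D D' W, valAt (N.x i) p.1 = 0
    · obtain ⟨z, hz⟩ := IsAlgClosed.exists_pow_nat_eq (t / t') hm
      refine ⟨z, hz, fun p hp => ?_⟩
      have h := (key p hp).2.2 i
      rw [hall p hp, zero_pow hm.ne', mul_zero] at h
      rw [hall p hp, mul_zero]
      exact eq_zero_of_pow_eq_zero h
    · push Not at hall
      obtain ⟨p₀, hp₀, hne⟩ := hall
      have h0 := (key p₀ hp₀).2.2 i
      set u₀ := valAt (N.x i) p₀.1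
      set w₀ := valAt (N.y i) p₀.2
      have hz : (w₀ / u₀) ^ m = t / t' := by
        rw [div_pow, h0, mul_div_cancel_right₀ _ (pow_ne_zero _ hne)]
      refine ⟨w₀ / u₀, hz, fun p hp => ?_⟩
      set s := -valAt (N.x i) p.1 / u₀ with hs
      have hp' := (key _ (add_mem hp (Submodule.smul_mem _ s hp₀))).2.2 i
      rw [Prod.fst_add, Prod.snd_add, Prod.smul_fst, Prod.smul_snd,
        valAt_add (regular_of_mem_rr (N.Qd_y _ _ i) (key p hp).2.1)
          (regular_of_mem_rr (N.Qd_y _ _ i) (Submodule.smul_mem _ s (key p₀ hp₀).2.1)),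
        valAt_add (regular_of_mem_rr (N.Pd_x _ _ i) (key p hp).1)
          (regular_of_mem_rr (N.Pd_x _ _ i) (Submodule.smul_mem _ s (key p₀ hp₀).1)),
        valAt_smul s (regular_of_mem_rr (N.Qd_y _ _ i) (key p₀ hp₀).2.1),
        valAt_smul s (regular_of_mem_rr (N.Pd_x _ _ i) (key p₀ hp₀).1)] at hp'
      have hzero : valAt (N.x i) p.1 + s * u₀ = 0 := by rw [hs]; field_simp; ring
      rw [hzero, zero_pow hm.ne', mul_zero] at hp'
      have := eq_zero_of_pow_eq_zero hp'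
      rw [hs] at this
      field_simp at this ⊢
      linear_combination this
  choose ζ hζ hlin using hone
  exact ⟨ζ, hζ, fun p hp => ⟨(key p hp).1, (key p hp).2.1, fun i => hlin i p hp⟩⟩

theorem eq_of_pairSpace_le {X : Divisor L F} {ζ ξ : ι → k} {n₁ n₂ n₁' n₂' : ℕ}
    (hn : N.Big n₁ n₂) (h₁ : n₁ ≤ n₁') (h₂ : n₂ ≤ n₂')
    (h : pairSpace D D' (riemannRochSpace (N.Bd n₁ n₂ + X)) = N.nspace ζ n₁ n₂)
    (h' : pairSpace D D' (riemannRochSpace (N.Bd n₁' n₂' + X)) ≤ N.nspace ξ n₁' n₂') :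
    ξ = ζ := by
  obtain ⟨p, hp, hpt⟩ := N.exists_mem_nspace ζ hn 1
  have hp' := h' (pairSpace_mono (riemannRochSpace_mono
    (add_le_add_left (N.Bd_mono h₁ h₂) X)) (h ▸ hp : p ∈ _))
  funext i
  have e1 := hp.2.2 i
  have e2 := hp'.2.2 i
  rw [hpt, Pi.one_apply, mul_one] at e1 e2
  rw [← e1, ← e2]

theorem HasJump.unique {X : Divisor L F} {ζ ξ : ι → k} (h : N.HasJump X ζ)
    (h' : N.HasJump X ξ) : ξ = ζ :=
  N.eq_of_pairSpace_le (n₁ := N.c + Fintype.card ι + 1) (n₂ := 0) (by simp [Big]) le_rfl le_rfl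
    (h _ _ (by simp [Big])) (h' _ _ (by simp [Big])).le

/-- Flat classes have jumps. -/
theorem exists_hasJump {m : ℕ} (hm : 0 < m) {X : Divisor L F} (hdeg : Divisor.degree X = 0)
    {f₀ : F} (hf₀ : f₀ ≠ 0) (hdiv : divisorOf f₀ = m • X) {t t' : k} (ht : t ≠ 0) (ht' : t' ≠ 0)
    (hr : D.Red f₀ (algebraMap k C t)) (hr' : D'.Red f₀ (algebraMap k C' t')) :
    ∃ ζ : ι → k, N.HasJump X ζ ∧ ∀ i, ζ i ^ m = t / t' := by
  choose ζ hζ hle using fun n₁ n₂ => N.exists_jump_aux hm hf₀ hdiv ht ht' hr hr' n₁ n₂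
  set b := N.c + Fintype.card ι + 1
  refine ⟨ζ b 0, fun n₁ n₂ hn => ?_, fun i => hζ _ _ i⟩
  have heq := fun (n₁ n₂ : ℕ) (hn : N.Big n₁ n₂) =>
    N.pairSpace_eq_of_le hdeg hn (hle n₁ n₂)
  have hb : N.Big b 0 := by simp [Big, b]
  have e1 := N.eq_of_pairSpace_le (n₁' := n₁ + b) (n₂' := n₂) hn (by omega) le_rfl (heq _ _ hn)
    (hle _ _)
  have e2 := N.eq_of_pairSpace_le (n₁' := n₁ + b) (n₂' := n₂) hb (by omega) (Nat.zero_le _)
    (heq _ _ hb) (hle _ _)
  rw [← e2, e1]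
  exact heq _ _ hn

theorem IsFlat.exists_hasJump {m : ℕ} (hm : 0 < m) {X : Divisor L F}
    (h : IsFlat (D := D) (D' := D') m X) :
    ∃ ζ : ι → k, N.HasJump X ζ ∧ ∀ i, ζ i ≠ 0 := by
  obtain ⟨hdeg, f, hf, hdiv, t, t', ht, ht', hr, hr'⟩ := h
  obtain ⟨ζ, hζ, hpow⟩ := N.exists_hasJump hm hdeg hf hdiv ht ht' hr hr'
  exact ⟨ζ, hζ, fun i h0 => div_ne_zero ht ht' (by rw [← hpow i, h0, zero_pow hm.ne'])⟩

theorem IsFlat.add {m : ℕ} {X Y : Divisor L F} (h : IsFlat (D := D) (D' := D') m X)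
    (h' : IsFlat (D := D) (D' := D') m Y) : IsFlat (D := D) (D' := D') m (X + Y) := by
  obtain ⟨hX, f, hf, hdf, t, t', ht, ht', hr, hr'⟩ := h
  obtain ⟨hY, g, hg, hdg, s, s', hs, hs', hq, hq'⟩ := h'
  refine ⟨by rw [map_add, hX, hY, add_zero], f * g, mul_ne_zero hf hg,
    by rw [divisorOf_mul hf hg, hdf, hdg, smul_add], t * s, t' * s', mul_ne_zero ht hs,
    mul_ne_zero ht' hs', ?_, ?_⟩
  · rw [map_mul]; exact hr.mul hq
  · rw [map_mul]; exact hr'.mul hq'

theorem IsFlat.neg {m : ℕ} {X : Divisor L F} (h : IsFlat (D := D) (D' := D') m X) :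
    IsFlat (D := D) (D' := D') m (-X) := by
  obtain ⟨hX, f, hf, hdf, t, t', ht, ht', hr, hr'⟩ := h
  refine ⟨by rw [map_neg, hX, neg_zero], f⁻¹, inv_ne_zero hf,
    by rw [divisorOf_inv, hdf, smul_neg], t⁻¹, t'⁻¹, inv_ne_zero ht, inv_ne_zero ht', ?_, ?_⟩
  · rw [map_inv₀]; exact hr.inv (by simpa using ht)
  · rw [map_inv₀]; exact hr'.inv (by simpa using ht')

/-- Jumps are additive. -/
theorem HasJump.add_eq {X Y : Divisor L F} {ζ ξ η : ι → k} (hX : N.HasJump X ζ)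
    (hY : N.HasJump Y ξ) (hXY : N.HasJump (X + Y) η) : η = ζ * ξ := by
  set b := N.c + Fintype.card ι + 1
  have hb : N.Big b 0 := by simp [Big, b]
  have hb2 : N.Big (b + b) (0 + 0) := by simp [Big, b]
  obtain ⟨p, hp, hpt⟩ := N.exists_mem_nspace ζ hb 1
  obtain ⟨p', hp', hpt'⟩ := N.exists_mem_nspace ξ hb 1
  have hp₀ := hp
  have hp₀' := hp'
  rw [← hX b 0 hb] at hp
  rw [← hY b 0 hb] at hp'
  obtain ⟨f, hf, hr, hs⟩ := hp
  obtain ⟨f', hf', hr', hs'⟩ := hp'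
  have hmul : (p.1 * p'.1, p.2 * p'.2) ∈ N.nspace η (b + b) (0 + 0) := by
    rw [← hXY _ _ hb2]
    refine ⟨f * f', ?_, hr.mul hr', hs.mul hs'⟩
    rw [N.Bd_add, add_add_add_comm]
    exact mul_mem_rr hf hf'
  funext i
  have e := hmul.2.2 i
  dsimp only at e
  rw [valAt_mul (regular_of_mem_rr (N.Qd_y _ _ i) hp₀.2.1)
      (regular_of_mem_rr (N.Qd_y _ _ i) hp₀'.2.1),
    valAt_mul (regular_of_mem_rr (N.Pd_x _ _ i) hp₀.1) (regular_of_mem_rr (N.Pd_x _ _ i) hp₀'.1),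
    hp₀.2.2 i, hp₀'.2.2 i, hpt, hpt'] at e
  simpa using e.symm

theorem HasJump.sub_eq {m : ℕ} (hm : 0 < m) {X Y : Divisor L F} {ζ ξ : ι → k}
    (hfX : IsFlat (D := D) (D' := D') m X) (hfY : IsFlat (D := D) (D' := D') m Y)
    (hX : N.HasJump X ζ) (hY : N.HasJump Y ξ) : N.HasJump (X - Y) (ζ / ξ) := by
  have h : IsFlat (D := D) (D' := D') m (X - Y) := by
    simpa [sub_eq_add_neg] using hfX.add hfY.neg
  obtain ⟨η, hη, -⟩ := IsFlat.exists_hasJump N hm h
  obtain ⟨ξ', hξ', hne⟩ := IsFlat.exists_hasJump N hm hfY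
  obtain rfl := hY.unique N hξ'
  have := HasJump.add_eq N hη hY (η := ζ) (by rwa [sub_add_cancel])
  convert hη using 1
  funext i
  rw [this, Pi.div_apply, Pi.mul_apply, mul_div_cancel_right₀ _ (hne i)]

theorem HasJump.nsmul_eq {m : ℕ} (hm : 0 < m) {X : Divisor L F} {ζ : ι → k}
    (hfX : IsFlat (D := D) (D' := D') m X) (hX : N.HasJump X ζ) (n : ℕ) :
    IsFlat (D := D) (D' := D') m (n • X) ∧ N.HasJump (n • X) (ζ ^ n) := by
  induction n with
  | zero =>
    refine ⟨⟨by simp, 1, one_ne_zero, by ext v; simp, 1, 1, one_ne_zero, one_ne_zero, ?_, ?_⟩, ?_⟩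
    · rw [map_one]; exact red_one
    · rw [map_one]; exact red_one
    · simpa using N.hasJump_zero
  | succ n ih =>
    obtain ⟨ih1, ih2⟩ := ih
    have h : IsFlat (D := D) (D' := D') m ((n + 1) • X) := by
      rw [succ_nsmul]; exact ih1.add hfX
    refine ⟨h, ?_⟩
    obtain ⟨η, hη, -⟩ := IsFlat.exists_hasJump N hm h
    have := HasJump.add_eq N ih2 hX (η := η) (by rwa [← succ_nsmul])
    rwa [pow_succ, ← this]

end NodeSystem

end FLTAgent.Semistable
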