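import Fermat.Agent.Semistable.PTorsNorm

/-!
# Approximation by powers on the two components

An element with both reductions one whose two norms are `p`-th powers is congruent, to any
precision, to a `p`-th power on each of the two components.
-/

set_option autoImplicit false
set_option linter.unusedSectionVars false

noncomputable section

namespace FLTAgent.Semistable

open FLTAgent.GoodRed FLTAgent.GoodRed.RedDatum

variable {L k : Type*} [Field L] [Field k] {A : ValuationSubring L} {π : A →+* k}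

theorem PTors.exists_common_dvd {ι : Type*} (s : Finset ι) (c : ι → A) {ϖ : A}
    (hϖ : (ϖ : L) ∈ A.nonunits) (hc : ∀ i ∈ s, (c i : L) ∈ A.nonunits) :
    ∃ γ : A, (γ : L) ∈ A.nonunits ∧ γ ∣ ϖ ∧ ∀ i ∈ s, γ ∣ c i := by
  classical
  induction s using Finset.induction with
  | empty => exact ⟨ϖ, hϖ, dvd_rfl, by simp⟩
  | insert a s ha ih =>
    obtain ⟨γ, hγ, hγϖ, hγs⟩ := ih fun i hi => hc i (Finset.mem_insert_of_mem hi)
    rcases ValuationRing.dvd_total γ (c a) with h | h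
    · exact ⟨γ, hγ, hγϖ, fun i hi => by
        rcases Finset.mem_insert.1 hi with rfl | hi
        exacts [h, hγs i hi]⟩
    · exact ⟨c a, hc a (Finset.mem_insert_self a s), h.trans hγϖ, fun i hi => by
        rcases Finset.mem_insert.1 hi with rfl | hi
        exacts [dvd_rfl, h.trans (hγs i hi)]⟩

theorem PTors.not_dvd_one {γ : A} (hγ : (γ : L) ∈ A.nonunits) : ¬ γ ∣ 1 := fun h =>
  ValuationSubring.coe_mem_nonunits_iff.1 hγ (isUnit_of_dvd_one h)

section Approx

variable {F C C' : Type*} [Field F] [Algebra L F] [Field C] [Algebra k C] [Field C'] [Algebra k C']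
  {D : RedDatum A π F C} {D' : RedDatum A π F C'}

/-- Iteration of the two improvement steps. -/
theorem exists_pow_approx (hA : IsRankOne A) {p : ℕ} {f : F} {d γ : A}
    (hγ : (γ : L) ∈ A.nonunits) (hd : (d : L) ≠ 0) (hγd : γ ∣ d)
    (h0 : Close D γ f 1) (h0' : Close D' γ f 1)
    (step : ∀ c : A, γ ∣ c → c ∣ d → ∀ h' : F, D.Red h' 1 → D'.Red h' 1 →
      Close D' c f (h' ^ p) → ∃ h : F, D.Red h 1 ∧ D'.Red h 1 ∧ Close D (c * γ) f (h ^ p))
    (step' : ∀ c : A, γ ∣ c → c ∣ d → ∀ h : F, D.Red h 1 → D'.Red h 1 →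
      Close D c f (h ^ p) → ∃ h' : F, D.Red h' 1 ∧ D'.Red h' 1 ∧ Close D' (c * γ) f (h' ^ p)) :
    ∃ h h' : F, (D.Red h 1 ∧ D'.Red h 1) ∧ (D.Red h' 1 ∧ D'.Red h' 1) ∧
      Close D d f (h ^ p) ∧ Close D' d f (h' ^ p) := by
  classical
  have key : ∀ n : ℕ, γ ^ n ∣ d → ∃ h h' : F, (D.Red h 1 ∧ D'.Red h 1) ∧
      (D.Red h' 1 ∧ D'.Red h' 1) ∧ Close D (γ ^ n * γ) f (h ^ p) ∧ Close D' (γ ^ n * γ) f (h' ^ p) := by
    intro n
    induction n with
    | zero => exact fun _ => ⟨1, 1, ⟨red_one, red_one⟩, ⟨red_one, red_one⟩, by simpa using h0, by simpa using h0'⟩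
    | succ n ih =>
      intro hn
      obtain ⟨h, h', hh, hh', hc, hc'⟩ := ih ((pow_dvd_pow γ (Nat.le_succ n)).trans hn)
      obtain ⟨h₁, ha, hb, hc₁⟩ := step _ (dvd_mul_left γ _) (pow_succ γ n ▸ hn) h' hh'.1 hh'.2 hc'
      obtain ⟨h₁', ha', hb', hc₁'⟩ := step' _ (dvd_mul_left γ _) (pow_succ γ n ▸ hn) h hh.1 hh.2 hc
      exact ⟨h₁, h₁', ⟨ha, hb⟩, ⟨ha', hb'⟩, by rwa [pow_succ], by rwa [pow_succ]⟩
  obtain ⟨N, hN⟩ := exists_pow_dvd hA hγ hd
  have hex : ∃ n, ¬ γ ^ (n + 1) ∣ d := by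
    refine ⟨N, fun hN' => PTors.not_dvd_one hγ ?_⟩
    have h1 : γ ^ N * γ ∣ γ ^ N * 1 := by rw [← pow_succ, mul_one]; exact hN'.trans hN
    refine (mul_dvd_mul_iff_left fun h => ?_).1 h1
    exact hd (by rw [eq_zero_of_pow_eq_zero h, zero_dvd_iff] at hγd; simp [hγd])
  have hn : γ ^ Nat.find hex ∣ d := by
    rcases Nat.eq_zero_or_pos (Nat.find hex) with h | h
    · rw [h, pow_zero]; exact one_dvd d
    · have := Nat.find_min hex (Nat.sub_lt h one_pos)
      rwa [not_not, Nat.sub_add_cancel (Nat.one_le_iff_ne_zero.2 h.ne')] at this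
  obtain ⟨h, h', hh, hh', hc, hc'⟩ := key _ hn
  have hdvd : d ∣ γ ^ Nat.find hex * γ := by
    rw [← pow_succ]
    exact (ValuationRing.dvd_total _ _).resolve_right (Nat.find_spec hex)
  exact ⟨h, h', hh, hh', hc.mono hdvd, hc'.mono hdvd⟩

end Approx

namespace OneSide

variable {E F C : Type*} [Field E] [Algebra L E] [Field F] [Algebra L F] [Algebra E F]
  [IsScalarTower L E F] [Field C] [Algebra k C]
  {DE : RedDatum A π E C} {D D' : RedDatum A π F C} {frob : C →ₐ[k] C} {q : ℕ}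
  (hS : OneSide DE D D' frob q)
include hS

/-- A uniform bound for traces of elements small on the first component. -/
theorem exists_trace_bound [CharP C q] (hw : ∀ z : C, ∃ w, frob w = z ^ q) {N : A}
    (hN : (N : L) ∈ A.nonunits) {e : F} (he : Close D N e 1) (he' : Close D' N e 0) :
    ∃ γ₀ : A, (γ₀ : L) ∈ A.nonunits ∧ γ₀ ∣ N ∧ ∀ γ : A, γ ∣ γ₀ → ∀ g : F, Close D γ g 0 →
      g ∈ D'.V → Close DE γ (Algebra.trace E F g) 0 := by
  classical
  have := hS.finiteDimensional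
  obtain ⟨B, bv, hBe, hy, hy', hind, hsmall⟩ := hS.exists_adapted_basis hN he he'
  have htr : ∀ i : Fin q, DE.Red (Algebra.trace E F (B (Sum.inr i))) 0 := fun i =>
    hS.red_trace hw (by simpa using hy (Sum.inr i)) (hy' (Sum.inr i))
  choose c hc hclose using fun i => exists_close_zero DE hN (htr i)
  obtain ⟨γ₀, hγ₀, hγ₀N, hγ₀c⟩ := PTors.exists_common_dvd Finset.univ c hN fun i _ => hc i
  refine ⟨γ₀, hγ₀, hγ₀N, fun γ hγ g hg hgV => ?_⟩
  have hrV : ∀ i, B.repr g i ∈ DE.V := hS.coeff_mem hy hy' hind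
    (by simp only [← Algebra.smul_def, B.sum_repr]; exact hg.mem_of_mem (zero_mem _))
    (by simp only [← Algebra.smul_def, B.sum_repr]; exact hgV)
  have hgsum : g = algebraMap E F (B.repr g (Sum.inl 0)) * B (Sum.inl 0) +
      ∑ i, algebraMap E F (B.repr g (Sum.inr i)) * B (Sum.inr i) := by
    have h := (B.sum_repr g).symm
    rwa [Fintype.sum_sum_type, Fintype.sum_unique, Fin.default_eq_zero,
      Algebra.smul_def, Finset.sum_congr rfl fun i _ => Algebra.smul_def _ _] at h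
  have hγN : γ ∣ N := hγ.trans hγ₀N
  have hr0 : Close DE γ (B.repr g (Sum.inl 0)) 0 := by
    refine hS.close_of_algebraMap ?_
    obtain ⟨z, hz⟩ := exists_red (hrV (Sum.inl 0))
    have h1 : Close D γ (algebraMap E F (B.repr g (Sum.inl 0)) * B (Sum.inl 0))
        (algebraMap E F (B.repr g (Sum.inl 0))) := by
      rw [hBe]
      simpa using ((he.mono hγN).mul_left (hS.red _ _ hz).mem)
    have h2 : Close D γ (∑ i, algebraMap E F (B.repr g (Sum.inr i)) * B (Sum.inr i)) 0 := by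
      have hc' : ∀ i, Close D γ (algebraMap E F (B.repr g (Sum.inr i)) * B (Sum.inr i)) 0 :=
        fun i => by
          obtain ⟨z, hz⟩ := exists_red (hrV (Sum.inr i))
          simpa using ((hsmall i).mono hγN).mul_left (hS.red _ _ hz).mem
      simpa using Close.sum Finset.univ fun i _ => hc' i
    have h3 := h1.add h2
    rw [← hgsum, add_zero] at h3
    exact h3.symm.trans hg
  rw [← B.sum_repr g, map_sum]
  have hterm : ∀ i, Close DE γ (Algebra.trace E F (B.repr g i • B i)) 0 := by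
    rintro (i | i) <;> rw [map_smul, smul_eq_mul]
    · rw [Subsingleton.elim i 0]
      obtain ⟨a, ha⟩ := exists_red (hy' (Sum.inl 0)).mem
      simpa using hr0.mul_right (hS.red_trace hw (hy (Sum.inl 0)) ha).mem
    · simpa using ((hclose i).mono (hγ.trans (hγ₀c i (Finset.mem_univ _)))).mul_left (hrV _)
  simpa using Close.sum Finset.univ fun i _ => hterm i

/-- One improvement step. -/
theorem approx_step [CharP C q] {p : ℕ} {N γ c : A} {e : F} (hN : (N : L) ∈ A.nonunits)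
    (he : Close D N e 1) (he' : Close D' N e 0) (hcn : (c : L) ∈ A.nonunits) (hc0 : (c : L) ≠ 0)
    (hγc : γ ∣ c) (hcγ : c * γ ∣ N)
    (htr : ∀ g : F, Close D γ g 0 → g ∈ D'.V → Close DE γ (Algebra.trace E F g) 0)
    {f : F} (hf : D.Red f 1) (hf' : D'.Red f 1) {H : E} (hH : DE.Red H 1)
    (hnorm : Algebra.norm E f = H ^ p) {h' : F} (hh'D : D.Red h' 1) (hh' : D'.Red h' 1)
    (happ : Close D' c f (h' ^ p)) :
    ∃ h : F, D.Red h 1 ∧ D'.Red h 1 ∧ Close D (c * γ) f (h ^ p) := by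
  classical
  have := hS.finiteDimensional
  have hcN : c ∣ N := (dvd_mul_right c γ).trans hcγ
  -- splitting a function between the two components
  have split : ∀ x : F, x ∈ D.V → x ∈ D'.V →
      Close D N (1 + (x - 1) * (1 - e)) 1 ∧ Close D' N (1 + (x - 1) * (1 - e)) x := fun x hx hx' => by
    constructor
    · simpa using (Close.refl (D := D) (c := N) (1 : F)).add
        (((Close.refl (1 : F)).sub he).mul_left (sub_mem hx (one_mem _)))
    · simpa using (Close.refl (D := D') (c := N) (1 : F)).add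
        (((Close.refl (1 : F)).sub he').mul_left (sub_mem hx' (one_mem _)))
  set f₂ := 1 + (f - 1) * (1 - e) with hf₂
  obtain ⟨hf₂D, hf₂D'⟩ := split f hf.mem hf'.mem
  rw [← hf₂] at hf₂D hf₂D'
  have hf₂r : D.Red f₂ 1 := hf₂D.red hN red_one
  have hf₂r' : D'.Red f₂ 1 := hf₂D'.red hN hf'
  set h₂ := 1 + (h' - 1) * (1 - e) with hh₂
  obtain ⟨hh₂D, hh₂D'⟩ := split h' hh'D.mem hh'.mem
  rw [← hh₂] at hh₂D hh₂D'
  have hh₂r : D.Red h₂ 1 := hh₂D.red hN red_one
  have hh₂r' : D'.Red h₂ 1 := hh₂D'.red hN hh'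
  have hP : h₂ ^ p ≠ 0 := pow_ne_zero _ (hh₂r.ne_zero one_ne_zero)
  -- the quotient `f₂ / h₂ ^ p`
  have hu : D.Red (h₂ ^ p)⁻¹ 1 := by simpa using (hh₂r.pow p).inv (by simp)
  have hu' : D'.Red (h₂ ^ p)⁻¹ 1 := by simpa using (hh₂r'.pow p).inv (by simp)
  have hqD : Close D N (f₂ * (h₂ ^ p)⁻¹) 1 := by
    have h1 := (hf₂D.trans (by simpa using (hh₂D.pow (one_mem _) p).symm)).mul_right hu.mem
    rwa [mul_inv_cancel₀ hP] at h1
  have hqD' : Close D' c (f₂ * (h₂ ^ p)⁻¹) 1 := by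
    have h1 := (((hf₂D'.mono hcN).trans happ).trans
      ((hh₂D'.mono hcN).pow hh'.mem p).symm).mul_right hu'.mem
    rwa [mul_inv_cancel₀ hP] at h1
  set g := (c : L)⁻¹ • (f₂ * (h₂ ^ p)⁻¹ - 1) with hg
  have hgeq : f₂ = h₂ ^ p * (1 + (c : L) • g) := by
    rw [hg, smul_smul, mul_inv_cancel₀ hc0, one_smul, add_sub_cancel, mul_comm f₂,
      mul_inv_cancel_left₀ hP]
  have hgV' : g ∈ D'.V := by
    obtain ⟨w, hw, hwe⟩ := hqD'
    rwa [hg, hwe, smul_smul, inv_mul_cancel₀ hc0, one_smul]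
  have hgD : Close D γ g 0 := by
    obtain ⟨d, hd⟩ := hcγ
    obtain ⟨w, hw, hwe⟩ := hqD
    refine ⟨(d : L) • w, PTors.smul_mem D d hw, ?_⟩
    rw [sub_zero, hg, hwe, hd, MulMemClass.coe_mul, MulMemClass.coe_mul, ← smul_smul, ← smul_smul,
      smul_smul (c : L)⁻¹, inv_mul_cancel₀ hc0, one_smul]
  obtain ⟨a, ha⟩ := exists_red (hgD.mem_of_mem (zero_mem _))
  obtain ⟨b, hb⟩ := exists_red hgV'
  have hN1 : Close DE (c * γ) (Algebra.norm E (1 + (c : L) • g)) 1 := by
    refine ((hS.norm_one_add_smul ha hb c).mono (mul_dvd_mul_left c hγc)).trans ?_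
    simpa using (Close.refl (D := DE) (c := c * γ) (1 : E)).add ((htr g hgD hgV').smul_left c)
  -- norms back in `F`
  have hK : DE.Red (Algebra.norm E h₂) 1 := by
    simpa using hS.red_norm hh₂r hh₂r' (w := 1) (by simp)
  set K := algebraMap E F (Algebra.norm E h₂)
  have hKr : D.Red K 1 := hS.red _ _ hK
  have hN₂ : Close D (c * γ) (algebraMap E F (Algebra.norm E f₂)) (K ^ p) := by
    rw [hgeq, map_mul, map_pow, map_mul, map_pow]
    simpa using ((hS.close_algebraMap hN1).1.mul_left (hKr.pow p).mem)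
  have hN₂r : D.Red (algebraMap E F (Algebra.norm E f₂)) 1 :=
    hS.red _ _ (by simpa using hS.red_norm hf₂r hf₂r' (w := 1) (by simp))
  -- the first component
  have hf₁ : D'.Red (f * f₂⁻¹) 1 := by simpa using hf'.mul (hf₂r'.inv one_ne_zero)
  have hf₁D' : Close D' N (f * f₂⁻¹) 1 := by
    have h1 := hf₂D'.symm.mul_right (hf₂r'.inv one_ne_zero).mem
    rwa [mul_inv_cancel₀ (hf₂r.ne_zero one_ne_zero)] at h1
  have hf₁D : Close D (c * γ) (f * f₂⁻¹) f := by
    have h1 := ((hf₂D.inv hN red_one one_ne_zero).mul_left hf.mem).mono hcγ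
    simpa using h1
  have hmain : Close D (c * γ) f (algebraMap E F (H ^ p) * (algebraMap E F (Algebra.norm E f₂))⁻¹) := by
    refine hf₁D.symm.trans ?_
    have h1 := ((hS.norm_close hN he he' (hf.mul (hf₂r.inv one_ne_zero)) hf₁D').mono hcγ).symm
    rwa [map_mul, eq_inv_of_mul_eq_one_left (show Algebra.norm E f₂⁻¹ * Algebra.norm E f₂ = 1 by
      rw [← map_mul, inv_mul_cancel₀ (hf₂r.ne_zero one_ne_zero), map_one]), map_mul, map_inv₀,
      hnorm] at h1
  refine ⟨algebraMap E F H * K⁻¹, by simpa using (hS.red _ _ hH).mul (hKr.inv one_ne_zero),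
    by simpa using (hS.red' _ _ hH).mul ((hS.red' _ _ hK).inv (by simp)), hmain.trans ?_⟩
  rw [map_pow, mul_pow, inv_pow]
  have hcn' : ((c * γ : A) : L) ∈ A.nonunits := by
    exact ValuationSubring.coe_mem_nonunits_iff.2 (Ideal.mul_mem_right γ _ (ValuationSubring.coe_mem_nonunits_iff.1 hcn))
  exact (hN₂.inv hcn' (by simpa using hKr.pow p) one_ne_zero).mul_left
    ((hS.red _ _ hH).pow p).mem

end OneSide

end FLTAgent.Semistable
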