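import Fermat.Agent.Semistable.TorsionInj

/-!
# Components of integral sums for a class with trivial jump

For a class with trivial jump which is not principal the spaces with poles on either auxiliary
divisor meet in zero, and an integral element of their sum has components of bounded size.
-/

set_option autoImplicit false
set_option linter.unusedSectionVars false

noncomputable section

open AlgebraicCurve

namespace FLTAgent.Semistable.NodeSystem

open FLTAgent.GoodRed FLTAgent.GoodRed.RedDatum FLTAgent.FunctionField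

variable {L k : Type*} [Field L] [Field k] {A : ValuationSubring L} {π : A →+* k}
  {F C C' : Type*} [Field F] [Algebra L F] [Field C] [Algebra k C] [Field C'] [Algebra k C']
  [IsFunctionField L F] [IsFunctionField k C] [IsFunctionField k C'] [IsAlgClosed L]
  [IsAlgClosed k] {D : RedDatum A π F C} {D' : RedDatum A π F C'} {ι : Type*} [Fintype ι]
  (N : NodeSystem D D' ι)

/-- Components of bounded size. -/
theorem exists_component_bound {E : Divisor L F} (hdeg : Divisor.degree E = 0)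
    (hne : ∀ h : F, h ≠ 0 → E ≠ divisorOf h) (hj : N.HasJump E 1) :
    (∀ n, Disjoint (riemannRochSpace (N.Bd n 0 + E)) (riemannRochSpace (N.Bd 0 n + E))) ∧
    ∃ c₀ : A, (c₀ : L) ≠ 0 ∧ ∀ n, N.c + Fintype.card ι + 1 ≤ n →
      ∀ x ∈ riemannRochSpace (N.Bd n 0 + E) ⊔ riemannRochSpace (N.Bd 0 n + E),
        x ∈ D.V → x ∈ D'.V → ∃ x₁ ∈ riemannRochSpace (N.Bd n 0 + E),
          ∃ x₂ ∈ riemannRochSpace (N.Bd 0 n + E), x₁ ∈ D.V ∧ (c₀ : L) • x = x₁ + x₂ := by
  classical
  -- the spaces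
  let W₁ : ℕ → Submodule L F := fun n => riemannRochSpace (N.Bd n 0 + E)
  let W₂ : ℕ → Submodule L F := fun n => riemannRochSpace (N.Bd 0 n + E)
  have hLE : riemannRochSpace E = ⊥ := by
    refine (Submodule.eq_bot_iff _).2 fun f hf => ?_
    by_contra hf0
    have h0 := eq_zero_of_degree_eq_zero ((mem_rr_iff_divisorOf hf0).1 hf)
      (by rw [map_add, degree_divisorOf, hdeg, add_zero])
    exact hne f⁻¹ (inv_ne_zero hf0) (by
      rw [divisorOf_inv]; exact eq_neg_of_add_eq_zero_right h0)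
  have hdisj : ∀ n, Disjoint (W₁ n) (W₂ n) := fun n => by
    rw [disjoint_iff, ← le_bot_iff, ← hLE]
    rintro f ⟨h1, h2⟩
    refine mem_rr_iff.2 fun v => ?_
    rcases N.B_disj v with h | h
    · simpa [W₁, Bd, h] using mem_rr_iff.1 h1 v
    · simpa [W₂, Bd, h] using mem_rr_iff.1 h2 v
  set b := N.c + Fintype.card ι + 1
  have hbig₁ : ∀ n, b ≤ n → N.Big n 0 := fun n hn => by simpa [Big, b] using hn
  have hbig₂ : ∀ n, b ≤ n → N.Big 0 n := fun n hn => by simpa [Big, b] using hn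
  have hW₁ : ∀ n, b ≤ n → pairSpace D D' (W₁ n) = N.nspace 1 n 0 := fun n hn => hj _ _ (hbig₁ n hn)
  have hW₂ : ∀ n, b ≤ n → pairSpace D D' (W₂ n) = N.nspace 1 0 n := fun n hn => hj _ _ (hbig₂ n hn)
  have hmono₁ : ∀ {n n'}, n ≤ n' → W₁ n ≤ W₁ n' := fun h =>
    riemannRochSpace_mono (add_le_add_left (N.Bd_mono h le_rfl) E)
  have hmono₂ : ∀ {n n'}, n ≤ n' → W₂ n ≤ W₂ n' := fun h =>
    riemannRochSpace_mono (add_le_add_left (N.Bd_mono le_rfl h) E)
  have hsumdim : ∀ n, Module.finrank L (W₁ n ⊔ W₂ n : Submodule L F) =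
      Module.finrank L (W₁ n) + Module.finrank L (W₂ n) := fun n => by
    have := Submodule.finrank_sup_add_finrank_inf_eq (W₁ n) (W₂ n)
    rwa [(hdisj n).eq_bot, finrank_bot, add_zero] at this
  -- dimension of the sum of the reductions
  have hRdim : ∀ n, b ≤ n →
      Module.finrank k (N.nspace 1 n 0 ⊔ N.nspace 1 0 n : Submodule k (C × C')) + 1 =
        Module.finrank L (W₁ n ⊔ W₂ n : Submodule L F) := fun n hn => by
    have := (N.finrank_nspace_le 1 (hbig₁ n hn)).1
    have := (N.finrank_nspace_le 1 (hbig₂ n hn)).1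
    have h1 := Submodule.finrank_sup_add_finrank_inf_eq (N.nspace 1 n 0) (N.nspace 1 0 n)
    have hinf : N.nspace 1 n 0 ⊓ N.nspace 1 0 n = Submodule.span k {((1 : C), (1 : C'))} :=
      le_antisymm (N.nspace_inf_le n) (Submodule.span_le.2 (Set.singleton_subset_iff.2
        ⟨N.one_one_mem_nspace n 0, N.one_one_mem_nspace 0 n⟩))
    rw [hinf, finrank_span_singleton (by simp : ((1 : C), (1 : C')) ≠ 0)] at h1
    have e1 : Module.finrank k (N.nspace 1 n 0) = Module.finrank L (W₁ n) := by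
      rw [← hW₁ n hn, finrank_pairSpace]
    have e2 : Module.finrank k (N.nspace 1 0 n) = Module.finrank L (W₂ n) := by
      rw [← hW₂ n hn, finrank_pairSpace]
    rw [hsumdim]
    omega
  -- the extra reduction
  obtain ⟨db, ⟨d, hd, hdr, hdr'⟩, hdn⟩ : ∃ p ∈ pairSpace D D' (W₁ b ⊔ W₂ b),
      p ∉ N.nspace 1 b 0 ⊔ N.nspace 1 0 b := by
    refine SetLike.exists_of_lt (lt_of_le_of_ne (sup_le ?_ ?_) fun h => ?_)
    · rw [← hW₁ b le_rfl]; exact pairSpace_mono le_sup_left
    · rw [← hW₂ b le_rfl]; exact pairSpace_mono le_sup_right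
    · have := hRdim b le_rfl
      rw [h, finrank_pairSpace] at this
      omega
  obtain ⟨a₁, ha₁, a₂, ha₂, ha⟩ := Submodule.mem_sup.1 hd
  have hdb : db ∈ N.nspace 1 b b := by
    rw [← hj b b (by simp [Big, b])]
    refine ⟨d, ?_, hdr, hdr'⟩
    exact (sup_le (riemannRochSpace_mono (add_le_add_left (N.Bd_mono le_rfl (Nat.zero_le _)) E))
      (riemannRochSpace_mono (add_le_add_left (N.Bd_mono (Nat.zero_le _) le_rfl) E))) hd
  have hdn' : ∀ n, b ≤ n → db ∉ N.nspace 1 n 0 ⊔ N.nspace 1 0 n := by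
    intro n hn hmem
    obtain ⟨α, hα, β, hβ, hsum⟩ := Submodule.mem_sup.1 hmem
    refine hdn (Submodule.mem_sup.2 ⟨α, ?_, β, ?_, hsum⟩)
    · refine ⟨?_, ?_, hα.2.2⟩
      · rw [N.Pd_left]
        refine mem_rr_left_of_add N.p_disj (b := β.1) (j := b) (n := n) (n' := n) ?_
          (by simpa [N.Pd_left] using hα.1) (by simpa [N.Pd_right] using hβ.1) N.p₁_nonneg
        rw [← Prod.fst_add, hsum]; exact hdb.1
      · rw [N.Qd_left]
        refine mem_rr_left_of_add N.q_disj (b := β.2) (j := b) (n := n) (n' := n) ?_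
          (by simpa [N.Qd_left] using hα.2.1) (by simpa [N.Qd_right] using hβ.2.1) N.q₁_nonneg
        rw [← Prod.snd_add, hsum]; exact hdb.2.1
    · refine ⟨?_, ?_, hβ.2.2⟩
      · rw [N.Pd_right]
        refine mem_rr_left_of_add (fun v => (N.p_disj v).symm) (b := α.1) (j := b) (n := n)
          (n' := n) ?_ (by simpa [N.Pd_right] using hβ.1) (by simpa [N.Pd_left] using hα.1)
          N.p₂_nonneg
        rw [← Prod.fst_add, add_comm β, hsum, add_comm (b • N.p₂)]; exact hdb.1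
      · rw [N.Qd_right]
        refine mem_rr_left_of_add (fun v => (N.q_disj v).symm) (b := α.2) (j := b) (n := n)
          (n' := n) ?_ (by simpa [N.Qd_right] using hβ.2.1) (by simpa [N.Qd_left] using hα.2.1)
          N.q₂_nonneg
        rw [← Prod.snd_add, add_comm β, hsum, add_comm (b • N.q₂)]; exact hdb.2.1
  -- the bound on components
  obtain ⟨c₁, hc₁, hc₁'⟩ := exists_smul_mem_V D a₁
  obtain ⟨c₂, hc₂, hc₂'⟩ := exists_smul_mem_V D a₂
  obtain ⟨c₃, hc₃, hc₃'⟩ := exists_smul_mem_V D' a₁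
  obtain ⟨c₄, hc₄, hc₄'⟩ := exists_smul_mem_V D' a₂
  set c₀ : A := c₁ * c₂ * c₃ * c₄ with hc₀
  have hc₀0 : (c₀ : L) ≠ 0 := by simp [hc₀, hc₁, hc₂, hc₃, hc₄]
  have hint : ∀ {G : Type _} [Field G] [Algebra L G] (V : ValuationSubring G) (c c' : A) (f : G),
      (∀ (a : A) {y : G}, y ∈ V → (a : L) • y ∈ V) → (c : L) • f ∈ V →
      ((c' * c : A) : L) • f ∈ V := fun V c c' f h hf => by
    simpa [mul_smul] using h c' hf
  have hca₁ : (c₀ : L) • a₁ ∈ D.V ∧ (c₀ : L) • a₁ ∈ D'.V :=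
    ⟨by have := hint D.V c₁ (c₂ * c₃ * c₄) a₁ (fun a _ => smul_mem_V D a) hc₁'
        rwa [show c₂ * c₃ * c₄ * c₁ = c₀ by rw [hc₀]; ring] at this,
     by have := hint D'.V c₃ (c₁ * c₂ * c₄) a₁ (fun a _ => smul_mem_V D' a) hc₃'
        rwa [show c₁ * c₂ * c₄ * c₃ = c₀ by rw [hc₀]; ring] at this⟩
  have hca₂ : (c₀ : L) • a₂ ∈ D.V ∧ (c₀ : L) • a₂ ∈ D'.V :=
    ⟨by have := hint D.V c₂ (c₁ * c₃ * c₄) a₂ (fun a _ => smul_mem_V D a) hc₂'
        rwa [show c₁ * c₃ * c₄ * c₂ = c₀ by rw [hc₀]; ring] at this,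
     by have := hint D'.V c₄ (c₁ * c₂ * c₃) a₂ (fun a _ => smul_mem_V D' a) hc₄'
        rwa [show c₁ * c₂ * c₃ * c₄ = c₀ by rw [hc₀]] at this⟩
  have hbound : ∀ n, b ≤ n → ∀ x ∈ W₁ n ⊔ W₂ n, x ∈ D.V → x ∈ D'.V →
      ∃ x₁ ∈ W₁ n, ∃ x₂ ∈ W₂ n, x₁ ∈ D.V ∧ (c₀ : L) • x = x₁ + x₂ := by
    intro n hn x hx hxV hxV'
    have := (N.finrank_nspace_le 1 (hbig₁ n hn)).1
    have := (N.finrank_nspace_le 1 (hbig₂ n hn)).1
    set R₁ := N.nspace 1 n 0
    set R₂ := N.nspace 1 0 n
    let b₁ := Module.finBasis k R₁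
    let b₂ := Module.finBasis k R₂
    let v : (Fin (Module.finrank k R₁) ⊕ Fin (Module.finrank k R₂)) ⊕ Unit → C × C' :=
      Sum.elim (Sum.elim (fun i => (b₁ i : C × C')) (fun i => (b₂ i : C × C'))) fun _ => db
    have hspan : Submodule.span k (Set.range v) = R₁ ⊔ R₂ ⊔ Submodule.span k {db} := by
      simp only [v, Set.Sum.elim_range, Submodule.span_union, Set.range_const]
      congr 2
      · have := congrArg (Submodule.map R₁.subtype) b₁.span_eq
        rwa [Submodule.map_span, ← Set.range_comp, Submodule.map_top, Submodule.range_subtype] at this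
      · have := congrArg (Submodule.map R₂.subtype) b₂.span_eq
        rwa [Submodule.map_span, ← Set.range_comp, Submodule.map_top, Submodule.range_subtype] at this
    obtain ⟨κ, idx, hidx, hκspan, hκind⟩ := exists_linearIndependent' k v
    have := Finite.of_injective idx hidx
    have := Fintype.ofFinite κ
    have hlift : ∀ j, ∃ y : F, D.Red y (v j).1 ∧ D'.Red y (v j).2 ∧
        (y ∈ W₁ n ∨ y ∈ W₂ n ∨ y = d) := by
      rintro ((i | i) | _)
      · obtain ⟨y, hy, h, h'⟩ := mem_pairSpace.1 ((hW₁ n hn).ge (b₁ i).2)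
        exact ⟨y, h, h', Or.inl hy⟩
      · obtain ⟨y, hy, h, h'⟩ := mem_pairSpace.1 ((hW₂ n hn).ge (b₂ i).2)
        exact ⟨y, h, h', Or.inr (Or.inl hy)⟩
      · exact ⟨d, hdr, hdr', Or.inr (Or.inr rfl)⟩
    choose y hy hy' hycase using fun j => hlift (idx j)
    have hdS : d ∈ W₁ n ⊔ W₂ n := sup_le_sup (hmono₁ hn) (hmono₂ hn) hd
    have hyS : ∀ j, y j ∈ W₁ n ⊔ W₂ n := fun j => by
      rcases hycase j with h | h | h
      · exact Submodule.mem_sup_left h
      · exact Submodule.mem_sup_right h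
      · rw [h]; exact hdS
    have hcard : Fintype.card κ = Module.finrank L (W₁ n ⊔ W₂ n : Submodule L F) := by
      rw [← finrank_span_eq_card hκind, hκspan, hspan, ← hRdim n hn]
      have h1 := Submodule.finrank_sup_add_finrank_inf_eq (R₁ ⊔ R₂) (Submodule.span k {db})
      rw [(Submodule.disjoint_span_singleton_of_notMem (hdn' n hn)).eq_bot, finrank_bot, add_zero,
        finrank_span_singleton (fun h0 => hdn' n hn (by rw [h0]; exact zero_mem _))] at h1
      exact h1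
    have hyind := linearIndependent_of_pair hy hy' hκind
    have hyspan : Submodule.span L (Set.range y) = W₁ n ⊔ W₂ n :=
      Submodule.eq_of_le_of_finrank_eq (Submodule.span_le.2 (Set.range_subset_iff.2 hyS))
        (by rw [finrank_span_eq_card hyind, hcard])
    obtain ⟨c, hc⟩ := (Submodule.mem_span_range_iff_exists_fun L).1 (hyspan.ge hx)
    have hcA := pair_coeff_mem hy hy' hκind (c := c) (by rwa [hc]) (by rwa [hc])
    have hone : ∀ j, ∃ x₁ ∈ W₁ n, ∃ x₂ ∈ W₂ n, x₁ ∈ D.V ∧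
        (c₀ : L) • c j • y j = x₁ + x₂ := by
      intro j
      have hV : ∀ {z : F}, z ∈ D.V → c j • z ∈ D.V := fun hz => smul_mem_V D ⟨c j, hcA j⟩ hz
      rcases hycase j with h | h | h
      · exact ⟨_, Submodule.smul_mem _ (c₀ : L) (Submodule.smul_mem _ (c j) h), 0, zero_mem _,
          smul_mem_V D c₀ (hV (hy j).mem), (add_zero _).symm⟩
      · exact ⟨0, zero_mem _, _, Submodule.smul_mem _ (c₀ : L) (Submodule.smul_mem _ (c j) h),
          zero_mem _, (zero_add _).symm⟩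
      · refine ⟨c j • (c₀ : L) • a₁, Submodule.smul_mem _ _ (Submodule.smul_mem _ _ (hmono₁ hn ha₁)),
          c j • (c₀ : L) • a₂, Submodule.smul_mem _ _ (Submodule.smul_mem _ _ (hmono₂ hn ha₂)),
          hV hca₁.1, ?_⟩
        rw [h, ← ha, smul_comm, smul_add, smul_add]
    choose x₁ hx₁ x₂ hx₂ hx₁V hxeq using hone
    refine ⟨∑ j, x₁ j, Submodule.sum_mem _ fun j _ => hx₁ j, ∑ j, x₂ j,
      Submodule.sum_mem _ fun j _ => hx₂ j, sum_mem fun j _ => hx₁V j, ?_⟩
    rw [← hc, Finset.smul_sum, ← Finset.sum_add_distrib]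
    exact Finset.sum_congr rfl fun j _ => hxeq j
  exact ⟨hdisj, c₀, hc₀0, hbound⟩

end FLTAgent.Semistable.NodeSystem
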