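import Fermat.Agent.Semistable.PTorsApprox
import Mathlib.RingTheory.RootsOfUnity.Lemmas
import Mathlib.Data.Nat.Choose.Dvd
import Mathlib.Data.Nat.Choose.Sum

/-!
# The threshold `p (ζ - 1)` and expansions of `p`-th powers
-/

set_option autoImplicit false
set_option linter.unusedSectionVars false

noncomputable section

namespace FLTAgent.Semistable.PTors

open FLTAgent.GoodRed FLTAgent.GoodRed.RedDatum

theorem exists_expand {R : Type*} [CommRing R] {p : ℕ} (hp : p.Prime) (x : R) :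
    ∃ w : R, (1 + x) ^ p = 1 + (p : R) * x + (p : R) * x ^ 2 * w + x ^ p := by
  obtain ⟨r, rfl⟩ := Nat.exists_eq_add_of_le hp.two_le
  refine ⟨∑ i ∈ Finset.range r, (((2 + r).choose (i + 2) / (2 + r) : ℕ) : R) * x ^ i, ?_⟩
  rw [add_comm (1 : R) x, add_pow, show 2 + r + 1 = r + 1 + 1 + 1 by omega, Finset.sum_range_succ,
    Finset.sum_range_succ', Finset.sum_range_succ', Finset.mul_sum,
    show r + 1 + 1 = 2 + r by omega]
  have hterm : ∀ i ∈ Finset.range r, x ^ (i + 1 + 1) * 1 ^ (2 + r - (i + 1 + 1)) *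
      ((2 + r).choose (i + 1 + 1) : R) = ((2 + r : ℕ) : R) * x ^ 2 *
        ((((2 + r).choose (i + 2) / (2 + r) : ℕ) : R) * x ^ i) := fun i hi => by
    rw [Finset.mem_range] at hi
    have hd : (2 + r) ∣ (2 + r).choose (i + 2) := hp.dvd_choose_self (by omega) (by omega)
    conv_lhs => rw [one_pow, mul_one, show i + 1 + 1 = i + 2 by omega, ← Nat.mul_div_cancel' hd,
      Nat.cast_mul, pow_add]
    ring
  rw [Finset.sum_congr rfl hterm]
  simp only [pow_zero, one_pow, Nat.choose_zero_right, Nat.choose_one_right, zero_add, pow_one,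
    Nat.sub_self, Nat.choose_self, Nat.cast_one, mul_one]
  ring

variable {L k : Type*} [Field L] [Field k] {A : ValuationSubring L} {π : A →+* k} {p : ℕ}
  [CharP k p] {ζ : A}

theorem residue_root (hp : p.Prime) (hζ : IsPrimitiveRoot ζ p) : π ζ = 1 := by
  have : Fact p.Prime := ⟨hp⟩
  refine frobenius_inj k p ?_
  simp only [frobenius_def, one_pow, ← map_pow, hζ.pow_eq_one, map_one]

theorem sub_one_mem_nonunits (hπ : IsResidueMap A π) (hp : p.Prime) (hζ : IsPrimitiveRoot ζ p) :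
    ((ζ - 1 : A) : L) ∈ A.nonunits := by
  rw [← hπ.eq_zero_iff, map_sub, residue_root hp hζ, map_one, sub_self]

theorem natCast_mem_nonunits (hπ : IsResidueMap A π) : ((p : A) : L) ∈ A.nonunits := by
  rw [← hπ.eq_zero_iff, map_natCast, CharP.cast_eq_zero]

theorem isUnit_of_residue (hπ : IsResidueMap A π) {a : A} (ha : π a ≠ 0) : IsUnit a := by
  by_contra h
  exact ha ((hπ.eq_zero_iff a).2 (ValuationSubring.coe_mem_nonunits_iff.2 h))

theorem residue_geom_sum (hp : p.Prime) (hζ : IsPrimitiveRoot ζ p) (n : ℕ) :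
    π (∑ i ∈ Finset.range n, ζ ^ i) = (n : k) := by
  simp [map_sum, map_pow, residue_root hp hζ]

/-- `p` is a unit times `(ζ - 1) ^ (p - 1)`. -/
theorem exists_unit_natCast (hπ : IsResidueMap A π) (hp : p.Prime) (hζ : IsPrimitiveRoot ζ p) :
    ∃ u : Aˣ, (p : A) = (ζ - 1) ^ (p - 1) * u := by
  obtain ⟨r, rfl⟩ : ∃ r, p = r + 1 := Nat.exists_eq_succ_of_ne_zero hp.ne_zero
  have h := hζ.prod_one_sub_pow_eq_order
  have hfac : ∀ i ∈ Finset.range r, 1 - ζ ^ (i + 1) = (ζ - 1) * -(∑ j ∈ Finset.range (i + 1), ζ ^ j) :=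
    fun i _ => by rw [mul_neg, mul_comm, geom_sum_mul, neg_sub]
  rw [Finset.prod_congr rfl hfac, Finset.prod_mul_distrib, Finset.prod_const, Finset.card_range] at h
  have hu : IsUnit (∏ i ∈ Finset.range r, -(∑ j ∈ Finset.range (i + 1), ζ ^ j)) := by
    refine IsUnit.prod_iff.2 fun i hi => (isUnit_of_residue hπ ?_).neg
    rw [residue_geom_sum hp hζ]
    intro h0
    rw [CharP.cast_eq_zero_iff k (r + 1)] at h0
    have := Nat.le_of_dvd (by omega) h0
    rw [Finset.mem_range] at hi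
    omega
  exact ⟨hu.unit, by rw [Nat.add_sub_cancel, IsUnit.unit_spec, h]; push_cast; ring⟩

variable (p ζ) in
/-- The threshold `p (ζ - 1)`. -/
def thr : A := (p : A) * (ζ - 1)

theorem associated_thr (hπ : IsResidueMap A π) (hp : p.Prime) (hζ : IsPrimitiveRoot ζ p) :
    Associated ((ζ - 1) ^ p) (thr p ζ) := by
  obtain ⟨u, hu⟩ := exists_unit_natCast hπ hp hζ
  exact ⟨u, by rw [thr, hu, mul_right_comm, ← pow_succ, Nat.sub_add_cancel hp.one_lt.le]⟩

theorem thr_dvd_sq (hπ : IsResidueMap A π) (hp : p.Prime) (hζ : IsPrimitiveRoot ζ p) :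
    thr p ζ ∣ (p : A) ^ 2 := by
  obtain ⟨u, hu⟩ := exists_unit_natCast hπ hp hζ
  rw [thr, sq]
  refine mul_dvd_mul_left _ (Dvd.intro ((ζ - 1) ^ (p - 2) * u) ?_)
  rw [← mul_assoc, ← pow_succ', show p - 2 + 1 = p - 1 by have := hp.two_le; omega, ← hu]

theorem thr_mem_nonunits (hπ : IsResidueMap A π) : ((thr p ζ : A) : L) ∈ A.nonunits := by
  rw [← hπ.eq_zero_iff, thr, map_mul, map_natCast, CharP.cast_eq_zero, zero_mul]

theorem sub_one_ne_zero (hp : p.Prime) (hζ : IsPrimitiveRoot ζ p) : ((ζ - 1 : A) : L) ≠ 0 := by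
  intro h
  exact hζ.ne_one hp.one_lt (sub_eq_zero.1 (Subtype.ext h))

theorem thr_ne_zero (hp : p.Prime) (hζ : IsPrimitiveRoot ζ p) (hpL : (p : L) ≠ 0) :
    ((thr p ζ : A) : L) ≠ 0 :=
  mul_ne_zero (by simpa using hpL) (sub_one_ne_zero hp hζ)

end FLTAgent.Semistable.PTors
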