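import Fermat.Agent.Semistable.PTorsCyclo
import Mathlib.FieldTheory.KummerExtension

/-!
# Roots of `u ^ p g = 1` above the threshold

Newton's method converges from any start better than `p (ζ - 1)`, and two roots differ by a power
of `ζ`.
-/

set_option autoImplicit false
set_option linter.unusedSectionVars false

noncomputable section

open Polynomial

namespace FLTAgent.Semistable

open FLTAgent.GoodRed FLTAgent.GoodRed.RedDatum

variable {L k : Type*} [Field L] [Field k] {A : ValuationSubring L} {π : A →+* k} {p : ℕ}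
  [CharP k p] {ζ : A} {F C : Type*} [Field F] [Algebra L F] [Field C] [Algebra k C]
  {D : RedDatum A π F C}

theorem Close.newton (hp : p.Prime) (hζ : IsPrimitiveRoot ζ p) (hpL : (p : L) ≠ 0) {E : A}
    {u g : F} (hu : D.Red u 1) (hg : g ∈ D.V)
    (h : Close D (PTors.thr p ζ * E) (u ^ p * g) 1) :
    let u' := u - (p : L)⁻¹ • (u * (u ^ p * g - 1))
    D.Red u' 1 ∧ Close D (PTors.thr p ζ * (E * E)) (u' ^ p * g) 1 := by
  intro u'
  obtain ⟨w, hw, e⟩ := h
  set x : A := (ζ - 1) * E with hx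
  set s := (x : L) • w with hs
  have hsV : s ∈ D.V := PTors.smul_mem D x hw
  have hpr : (p : L)⁻¹ • (u ^ p * g - 1) = s := by
    rw [e, hs, hx, smul_smul, PTors.thr]
    congr 1
    push_cast
    field_simp
  have hu' : u' = u * (1 - s) := by
    rw [← hpr, mul_sub, mul_one, mul_smul_comm]
  have hxn : (x : L) ∈ A.nonunits := by
    rw [← D.isResidue.eq_zero_iff, hx, map_mul,
      (D.isResidue.eq_zero_iff _).2 (PTors.sub_one_mem_nonunits D.isResidue hp hζ), zero_mul]
  have hsr : D.Red s 0 := by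
    obtain ⟨b, hb⟩ := exists_red hw
    have := red_smul x hb; rwa [(D.isResidue.eq_zero_iff _).2 hxn, zero_smul] at this
  refine ⟨by rw [hu']; simpa using hu.mul (red_one.sub hsr), ?_⟩
  set v : D.V := -⟨s, hsV⟩ with hv
  obtain ⟨w', hw'⟩ := PTors.exists_expand hp v
  have e' := congrArg (fun t : D.V => (t : F)) hw'
  simp only [hv] at e'
  push_cast at e'
  set r := u ^ p * g - 1 with hr
  have hrs : r = (p : F) * s := by
    rw [← hpr, ← map_natCast (algebraMap L F) p, ← Algebra.smul_def, smul_inv_smul₀ hpL]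
  have key : u' ^ p * g - 1 =
      -(r * r) + (1 + r) * ((p : F) * s ^ 2 * (w' : F) + (-s) ^ p) := by
    rw [hu', mul_pow, show u ^ p * (1 - s) ^ p * g = (1 + r) * (1 - s) ^ p by rw [hr]; ring,
      sub_eq_add_neg 1 s, e', hrs]
    ring
  have hrV : (1 + r) ∈ D.V := add_mem (one_mem _) (by rw [e]; exact PTors.smul_mem D _ hw)
  have hrc : Close D (PTors.thr p ζ * E) r 0 := ⟨w, hw, by rw [sub_zero, e]⟩
  have hsc : Close D x s 0 := ⟨w, hw, sub_zero _⟩
  have h1 : Close D (PTors.thr p ζ * (E * E)) (r * r) 0 :=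
    (hrc.zero_smul_mul hrc).mono ⟨PTors.thr p ζ, by ring⟩
  have h2 : Close D (PTors.thr p ζ * (E * E)) ((p : F) * s ^ 2 * (w' : F)) 0 := by
    have h := ((hsc.zero_pow 2).smul_left (p : A)).mul_right w'.2
    rw [smul_zero, zero_mul, SubringClass.coe_natCast, Algebra.smul_def, map_natCast] at h
    exact h.mono ⟨ζ - 1, by rw [hx, PTors.thr]; ring⟩
  have h3 : Close D (PTors.thr p ζ * (E * E)) ((-s) ^ p) 0 := by
    have hsn : Close D x (-s) 0 := by simpa using hsc.neg
    refine (hsn.zero_pow p).mono ?_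
    rw [hx, mul_pow, ← pow_two]
    exact mul_dvd_mul (PTors.associated_thr D.isResidue hp hζ).symm.dvd (pow_dvd_pow E hp.two_le)
  have h4 := h1.neg.add ((h2.add h3).mul_left hrV)
  rw [neg_zero, zero_add, zero_add, mul_zero, ← key] at h4
  simpa using h4.add (Close.refl (D := D) (c := PTors.thr p ζ * (E * E)) (1 : F))

theorem Close.exists_index (hp : p.Prime) (hζ : IsPrimitiveRoot ζ p)
    {E : A} (hE : (E : L) ∈ A.nonunits) {u₁ u₂ g : F} (h₁ : D.Red u₁ 1) (h₂ : D.Red u₂ 1)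
    (hg : D.Red g 1) (c₁ : Close D (PTors.thr p ζ * E) (u₁ ^ p * g) 1)
    (c₂ : Close D (PTors.thr p ζ * E) (u₂ ^ p * g) 1) :
    ∃ i, i < p ∧ Close D ((ζ - 1) * E) u₁ (((ζ : L) ^ i) • u₂) ∧
      D.Red (((ζ - 1 : A) : L)⁻¹ • (u₁ - u₂)) (i : C) := by
  classical
  have hπ := D.isResidue
  have hζ0 : ((ζ - 1 : A) : L) ≠ 0 := PTors.sub_one_ne_zero hp hζ
  set ρ := u₁ * u₂⁻¹ with hρ
  have hu₂ : u₂ ≠ 0 := h₂.ne_zero one_ne_zero
  have hρr : D.Red ρ 1 := by simpa using h₁.mul (h₂.inv one_ne_zero)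
  have hρc : Close D ((ζ - 1) ^ p * E) (ρ ^ p) 1 := by
    have h := ((c₁.trans c₂.symm).of_mul_right hg one_ne_zero).mul_right
      ((h₂.pow p).inv (by simp)).mem
    rw [← inv_pow, ← mul_pow, ← hρ, inv_pow, mul_inv_cancel₀ (pow_ne_zero _ hu₂)] at h
    exact h.mono ((PTors.associated_thr hπ hp hζ).mul_right E).dvd
  set ζV : D.V := ⟨algebraMap L F ζ, (D.mem_iff _).2 ζ.2⟩ with hζV
  have hζV' : IsPrimitiveRoot (ζV : F) p :=
    (hζ.map_of_injective (f := ((algebraMap L F).comp A.subtype : A →+* F))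
      ((algebraMap L F).injective.comp Subtype.val_injective) : _)
  have hres : D.res ζV = 1 := by
    rw [hζV, D.res_algebraMap, PTors.residue_root hp hζ, map_one]
  set cζ : D.V := ⟨algebraMap L F ((ζ - 1 : A) : L), (D.mem_iff _).2 (ζ - 1 : A).2⟩ with hcζ
  have hcζ' : cζ = ζV - 1 := Subtype.ext (by simp [hcζ, hζV])
  have hcζ0 : cζ ≠ 0 := fun h => hζ0 (by
    have := congrArg Subtype.val h
    simp only [hcζ] at this
    exact (map_eq_zero _).1 this)
  set S : ℕ → D.V := fun i => ∑ j ∈ Finset.range i, ζV ^ j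
  have hS : ∀ i, ζV ^ i - 1 = cζ * S i := fun i => by
    rw [hcζ', mul_comm]; exact (geom_sum_mul ζV i).symm
  have hSr : ∀ i, D.res (S i) = (i : C) := fun i => by simp [S, map_sum, hres]
  have hprod : (⟨ρ, hρr.mem⟩ : D.V) ^ p - 1 = ∏ i ∈ Finset.range p, (⟨ρ, hρr.mem⟩ - ζV ^ i) := by
    apply Subtype.ext
    have h := congrArg (Polynomial.eval ρ)
      (X_pow_sub_C_eq_prod hζV' hp.pos (α := (1 : F)) (a := 1) (one_pow p))
    simp only [eval_sub, eval_pow, eval_X, eval_C, eval_prod, mul_one] at h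
    push_cast
    exact h
  obtain ⟨w, hw, ew⟩ := hρc
  have hpe : (⟨ρ, hρr.mem⟩ : D.V) ^ p - 1 =
      cζ ^ p * ⟨(E : L) • w, PTors.smul_mem D E hw⟩ := Subtype.ext (by
    push_cast
    rw [ew, hcζ, Algebra.smul_def, Algebra.smul_def, MulMemClass.coe_mul, SubmonoidClass.coe_pow,
      map_mul, map_pow, mul_assoc])
  have hEw : D.res ⟨(E : L) • w, PTors.smul_mem D E hw⟩ = 0 := by
    obtain ⟨b, hb⟩ := exists_red hw
    have := red_smul E hb
    rw [(hπ.eq_zero_iff _).2 hE, zero_smul] at this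
    exact red_iff.1 this
  set z : D.V := ⟨ρ, hρr.mem⟩ - 1 with hz
  have hdvd : cζ ∣ z := by
    rcases ValuationRing.dvd_total cζ z with h | ⟨η, hη⟩
    · exact h
    by_cases hu : IsUnit η
    · exact ⟨(hu.unit⁻¹ : D.Vˣ), by rw [hη, mul_assoc, IsUnit.mul_val_inv, mul_one]⟩
    exfalso
    have hη0 : D.res η = 0 := by
      rw [D.res_eq_zero]; exact ValuationSubring.coe_mem_nonunits_iff.2 hu
    have hf : ∀ i ∈ Finset.range p, (⟨ρ, hρr.mem⟩ - ζV ^ i : D.V) = z * (1 - η * S i) :=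
      fun i _ => by
        rw [mul_sub, mul_one, ← mul_assoc, ← hη, ← hS, hz]; abel
    rw [Finset.prod_congr rfl hf, Finset.prod_mul_distrib, Finset.prod_const, Finset.card_range,
      hpe, hη, mul_pow, mul_assoc] at hprod
    have hz0 : z ≠ 0 := fun h => hcζ0 (by rw [hη, h, zero_mul])
    have h := congrArg D.res (mul_left_cancel₀ (pow_ne_zero p hz0) hprod)
    simp [map_prod, hη0, hEw] at h
  obtain ⟨w₁, hw₁⟩ := hdvd
  have hf : ∀ i ∈ Finset.range p, (⟨ρ, hρr.mem⟩ - ζV ^ i : D.V) = cζ * (w₁ - S i) :=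
    fun i _ => by rw [mul_sub, ← hw₁, ← hS, hz]; abel
  rw [Finset.prod_congr rfl hf, Finset.prod_mul_distrib, Finset.prod_const, Finset.card_range,
    hpe] at hprod
  have hE' := mul_left_cancel₀ (pow_ne_zero p hcζ0) hprod
  have h0 := congrArg D.res hE'
  rw [hEw, map_prod, eq_comm, Finset.prod_eq_zero_iff] at h0
  obtain ⟨i, hi, hi0⟩ := h0
  rw [map_sub, hSr, sub_eq_zero] at hi0
  have : CharP C p := charP_of_injective_algebraMap (algebraMap k C).injective p
  have hrest : D.res (∏ j ∈ (Finset.range p).erase i, (w₁ - S j)) ≠ 0 := by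
    rw [map_prod, Finset.prod_ne_zero_iff]
    intro j hj
    rw [Finset.mem_erase, Finset.mem_range] at hj
    rw [map_sub, hSr, hi0, sub_ne_zero, Ne, CharP.natCast_eq_natCast C p,
      Nat.ModEq, Nat.mod_eq_of_lt (Finset.mem_range.1 hi), Nat.mod_eq_of_lt hj.2]
    exact Ne.symm hj.1
  obtain ⟨P, hP⟩ : ∃ P : D.V, w₁ - S i = ⟨(E : L) • w, PTors.smul_mem D E hw⟩ * P := by
    rw [← Finset.mul_prod_erase _ _ hi] at hE'
    have hu : IsUnit (∏ j ∈ (Finset.range p).erase i, (w₁ - S j)) := by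
      by_contra h
      exact hrest ((D.res_eq_zero _).2 (ValuationSubring.coe_mem_nonunits_iff.2 h))
    exact ⟨(hu.unit⁻¹ : D.Vˣ), by rw [hE', mul_assoc, IsUnit.mul_val_inv, mul_one]⟩
  refine ⟨i, Finset.mem_range.1 hi, ?_, ?_⟩
  · have hρi : Close D ((ζ - 1) * E) ρ (algebraMap L F ((ζ : L) ^ i)) := by
      refine ⟨w * (P : F), mul_mem hw P.2, ?_⟩
      have h := congrArg (fun t : D.V => (t : F)) (hf i hi)
      rw [hP] at h
      simp only [hcζ, hζV, MulMemClass.coe_mul, AddSubgroupClass.coe_sub, SubmonoidClass.coe_pow] at h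
      rw [map_pow, h, Algebra.smul_def, Algebra.smul_def, MulMemClass.coe_mul, map_mul,
        AddSubgroupClass.coe_sub, OneMemClass.coe_one]
      ring
    have h := hρi.mul_right h₂.mem
    rwa [hρ, inv_mul_cancel_right₀ hu₂, ← Algebra.smul_def] at h
  · have h := (red_iff (D := D).2 hi0).mul h₂
    rw [mul_one] at h
    convert h using 1
    have hz' := congrArg (fun t : D.V => (t : F)) hw₁
    simp only [hcζ, hz, MulMemClass.coe_mul, AddSubgroupClass.coe_sub, OneMemClass.coe_one] at hz'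
    simp only [AddSubgroupClass.coe_sub, OneMemClass.coe_one] at hζ0 ⊢
    rw [show u₁ - u₂ = (ρ - 1) * u₂ by rw [sub_mul, hρ, inv_mul_cancel_right₀ hu₂, one_mul],
      hz', ← smul_mul_assoc, ← Algebra.smul_def, smul_smul, inv_mul_cancel₀ hζ0, one_smul]

end FLTAgent.Semistable
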