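import Fermat.Agent.Semistable.Nodal
import Fermat.Agent.GoodRed.Torsion

/-!
# A flat torsion class with trivial jump is principal

If not, the spaces with poles on either auxiliary divisor meet in zero, so an integral element of
their sum has components of bounded size; Newton's method for `f ^ m g = 1` inside each of the
two families gives two roots which agree to any precision, contradicting this bound.
-/

set_option autoImplicit false
set_option linter.unusedSectionVars false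

noncomputable section

open AlgebraicCurve

namespace FLTAgent.Semistable

open FLTAgent.GoodRed FLTAgent.GoodRed.RedDatum FLTAgent.FunctionField

variable {L k : Type*} [Field L] [Field k] {A : ValuationSubring L} {π : A →+* k}
  {F C C' : Type*} [Field F] [Algebra L F] [Field C] [Algebra k C] [Field C'] [Algebra k C']

section single

variable (D : RedDatum A π F C)

theorem smul_mem_V (c : A) {f : F} (hf : f ∈ D.V) : (c : L) • f ∈ D.V := by
  rw [Algebra.smul_def]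
  exact mul_mem ((D.mem_iff _).2 c.2) hf

theorem exists_smul_mem_V (f : F) : ∃ c : A, (c : L) ≠ 0 ∧ (c : L) • f ∈ D.V := by
  rcases eq_or_ne f 0 with rfl | hf
  · exact ⟨1, one_ne_zero, by rw [smul_zero]; exact zero_mem _⟩
  obtain ⟨a, z, ha, -, hr⟩ := D.exists_scale hf
  by_cases haA : a ∈ A
  · exact ⟨⟨a, haA⟩, ha, hr.mem⟩
  · refine ⟨1, one_ne_zero, ?_⟩
    have hinv : a⁻¹ ∈ A := (A.mem_or_inv_mem a).resolve_left haA
    have := smul_mem_V D ⟨a⁻¹, hinv⟩ hr.mem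
    simpa [smul_smul, inv_mul_cancel₀ ha] using this

theorem mem_of_smul_mem_of_red {f : F} {z : C} (hf : D.Red f z) (hz : z ≠ 0) {a : L}
    (h : a • f ∈ D.V) : a ∈ A := by
  by_contra ha
  have ha0 : a ≠ 0 := fun h0 => ha (h0 ▸ zero_mem _)
  have hn : a⁻¹ ∈ A.nonunits := by
    rw [ValuationSubring.inv_mem_nonunits_iff]; exact Or.inr ha
  obtain ⟨w, hw⟩ := exists_red h
  have h2 := red_smul ⟨a⁻¹, A.nonunits_subset hn⟩ hw
  rw [(D.isResidue.eq_zero_iff _).2 hn, zero_smul] at h2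
  change D.Red (a⁻¹ • a • f) 0 at h2
  rw [smul_smul, inv_mul_cancel₀ ha0, one_smul] at h2
  exact hz (hf.unique h2)

/-- One step of Newton's method for `f ^ m g = 1`. -/
theorem newton_step {m : ℕ} (hm : (m : k) ≠ 0) {f g : F} (hf : D.Red f 1)
    {e : A} (he0 : (e : L) ≠ 0) (he : (e : L) ∈ A.nonunits)
    (hr : (e : L)⁻¹ • (f ^ m * g - 1) ∈ D.V) :
    let f' := f - ((m : L)⁻¹) • (f * (f ^ m * g - 1))
    D.Red f' 1 ∧ ((e : L) ^ 2)⁻¹ • (f' ^ m * g - 1) ∈ D.V := by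
  intro f'
  set r := f ^ m * g - 1 with hrdef
  obtain ⟨w, hw⟩ := exists_red hr
  have hr0 : D.Red r 0 := by
    have h2 := red_smul e hw
    rw [(D.isResidue.eq_zero_iff _).2 he, zero_smul, smul_smul, mul_inv_cancel₀ he0, one_smul] at h2
    exact h2
  have hmA : π (m : A) ≠ 0 := by rwa [map_natCast]
  have hmi : (m : L)⁻¹ ∈ A := by simpa using D.isResidue.inv_mem hmA
  have hm0 : (m : L) ≠ 0 := fun h0 => hmA (by
    rw [show (m : A) = 0 from Subtype.ext (by simpa using h0), map_zero])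
  set s := (m : L)⁻¹ • r with hs
  have hs0 : D.Red s 0 := by simpa using red_smul ⟨_, hmi⟩ hr0
  have hf' : f' = f * (1 - s) := by
    rw [mul_sub, mul_one, hs, mul_smul_comm]
  refine ⟨?_, ?_⟩
  · rw [hf']; simpa using hf.mul (red_one.sub hs0)
  obtain ⟨z, hz⟩ := exists_pow_add_eq (1 : D.V) (-⟨s, hs0.mem⟩) m
  have hz' : (1 - s) ^ m = 1 - r + (z : F) * s ^ 2 := by
    have := congrArg (fun t : D.V => (t : F)) hz
    simp only [sub_eq_add_neg] at this ⊢
    push_cast at this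
    rw [this, one_pow, one_pow, mul_one, neg_sq, mul_neg, hs, Algebra.smul_def, map_inv₀,
      map_natCast, mul_inv_cancel_left₀]
    rw [← map_natCast (algebraMap L F) m]
    exact (map_ne_zero _).2 hm0
  have key : f' ^ m * g - 1 =
      r ^ 2 * (-1) + s ^ 2 * ((1 + r) * (z : F)) := by
    rw [hf', mul_pow, show f ^ m * (1 - s) ^ m * g = (1 + r) * (1 - s) ^ m by rw [hrdef]; ring, hz']
    ring
  rw [key, smul_add]
  have hr2 : ((e : L) ^ 2)⁻¹ • r ^ 2 = ((e : L)⁻¹ • r) ^ 2 := by rw [smul_pow, inv_pow]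
  refine add_mem ?_ ?_
  · rw [← smul_mul_assoc, hr2]
    exact mul_mem (pow_mem hr 2) (neg_mem (one_mem _))
  · rw [← smul_mul_assoc, hs, smul_pow, smul_comm, hr2]
    refine mul_mem ?_ (mul_mem (add_mem (one_mem _) hr0.mem) z.2)
    have := smul_mem_V D ⟨(m : L)⁻¹ ^ 2, pow_mem hmi 2⟩ (pow_mem hr 2)
    exact this

/-- Approximate roots of the same element agree. -/
theorem smul_sub_mem_V {m : ℕ} (hm : (m : k) ≠ 0) {f₁ f₂ g : F} {a : L} (r₁ : D.Red f₁ 1)
    (r₂ : D.Red f₂ 1) (rg : D.Red g 1) (i₁ : a • (f₁ ^ m * g - 1) ∈ D.V)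
    (i₂ : a • (f₂ ^ m * g - 1) ∈ D.V) : a • (f₁ - f₂) ∈ D.V := by
  set S := ∑ i ∈ Finset.range m, f₁ ^ i * f₂ ^ (m - 1 - i) with hS
  have hSr : D.Red S (m : C) := by
    have := Red.sum (D := D) (Finset.range m)
      (fun i _ => (r₁.pow i).mul (r₂.pow (m - 1 - i)))
    simpa using this
  have hmG : (m : C) ≠ 0 := by
    rw [← map_natCast (algebraMap k C) m]; exact (map_ne_zero _).2 hm
  have hprod := mul_mem (mul_mem (sub_mem i₁ i₂) (rg.inv one_ne_zero).mem) (hSr.inv hmG).mem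
  convert hprod using 1
  rw [← smul_sub, smul_mul_assoc, smul_mul_assoc]
  congr 1
  rw [sub_sub_sub_cancel_right, ← sub_mul, mul_inv_cancel_right₀ (rg.ne_zero one_ne_zero),
    ← geom_sum₂_mul, ← hS, mul_comm S, mul_inv_cancel_right₀ (hSr.ne_zero hmG)]

end single

namespace NodeSystem

variable [IsFunctionField L F] [IsFunctionField k C] [IsFunctionField k C'] [IsAlgClosed L]
  [IsAlgClosed k] {D : RedDatum A π F C} {D' : RedDatum A π F C'} {ι : Type*} [Fintype ι]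
  (N : NodeSystem D D' ι)

theorem mem_rr_left_of_add {K G : Type*} [Field K] [Field G] [Algebra K G] [IsFunctionField K G]
    {P Q : Divisor K G} (hPQ : ∀ v, P v = 0 ∨ Q v = 0) {i j n n' : ℕ}
    {a b : G} (hab : a + b ∈ riemannRochSpace (i • P + j • Q)) (ha : a ∈ riemannRochSpace (n • P))
    (hb : b ∈ riemannRochSpace (n' • Q)) (hP : 0 ≤ P) : a ∈ riemannRochSpace (i • P) := by
  rw [mem_rr_iff] at hab ha hb ⊢
  intro v
  have h1 := hab v
  have h2 := ha v
  have h3 := hb v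
  simp only [Finsupp.add_apply, Finsupp.smul_apply, nsmul_eq_mul] at h1 h2 h3 ⊢
  rcases hPQ v with h | h
  · simpa [h] using h2
  · rw [h] at h1 h3
    simp only [mul_zero, add_zero, neg_zero] at h1 h3
    have hv : (0 : ℤ) ≤ P v := hP v
    have := h1.sub (h3.mono (m := -((i : ℤ) * P v))
      (by have := mul_nonneg (Nat.cast_nonneg (α := ℤ) i) hv; omega))
    simpa using this

theorem Pd_left (n : ℕ) : N.Pd n 0 = n • N.p₁ := by simp [Pd]

theorem Pd_right (n : ℕ) : N.Pd 0 n = n • N.p₂ := by simp [Pd]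

theorem Qd_left (n : ℕ) : N.Qd n 0 = n • N.q₁ := by simp [Qd]

theorem Qd_right (n : ℕ) : N.Qd 0 n = n • N.q₂ := by simp [Qd]

theorem Pd_nonneg (n₁ n₂ : ℕ) : 0 ≤ N.Pd n₁ n₂ :=
  add_nonneg (nsmul_nonneg N.p₁_nonneg _) (nsmul_nonneg N.p₂_nonneg _)

theorem Qd_nonneg (n₁ n₂ : ℕ) : 0 ≤ N.Qd n₁ n₂ :=
  add_nonneg (nsmul_nonneg N.q₁_nonneg _) (nsmul_nonneg N.q₂_nonneg _)

theorem one_one_mem_nspace (n₁ n₂ : ℕ) : ((1 : C), (1 : C')) ∈ N.nspace 1 n₁ n₂ :=
  ⟨one_mem_rr (N.Pd_nonneg _ _), one_mem_rr (N.Qd_nonneg _ _), fun i => by simp⟩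

theorem exists_const_of_mem {K G : Type*} [Field K] [Field G] [Algebra K G] [IsFunctionField K G]
    [IsAlgClosed K] {P Q : Divisor K G} (hPQ : ∀ v, P v = 0 ∨ Q v = 0) {n n' : ℕ} {a : G}
    (ha : a ∈ riemannRochSpace (n • P)) (hb : a ∈ riemannRochSpace (n' • Q)) :
    ∃ t : K, algebraMap K G t = a := by
  rcases eq_or_ne a 0 with rfl | ha0
  · exact ⟨0, map_zero _⟩
  refine exists_eq_algebraMap_of_divisorOf_eq_zero (eq_zero_of_degree_eq_zero (fun v => ?_)
    (degree_divisorOf a))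
  have h2 := mem_rr_iff.1 ha v
  have h3 := mem_rr_iff.1 hb v
  simp only [Finsupp.smul_apply, nsmul_eq_mul] at h2 h3
  rw [divisorOf_apply, Finsupp.zero_apply]
  rcases hPQ v with h | h
  · simpa [h] using h2.le_ord ha0
  · simpa [h] using h3.le_ord ha0

theorem nspace_inf_le (n : ℕ) :
    N.nspace 1 n 0 ⊓ N.nspace 1 0 n ≤ Submodule.span k {((1 : C), (1 : C'))} := by
  rintro ⟨a, b⟩ ⟨⟨ha, hb, hv⟩, ⟨ha', hb', -⟩⟩
  rw [N.Pd_left] at ha; rw [N.Qd_left] at hb
  rw [N.Pd_right] at ha'; rw [N.Qd_right] at hb'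
  obtain ⟨t, ht⟩ := exists_const_of_mem N.p_disj ha ha'
  obtain ⟨s, hs⟩ := exists_const_of_mem N.q_disj hb hb'
  change algebraMap k C t = a at ht
  change algebraMap k C' s = b at hs
  subst ht; subst hs
  obtain ⟨i⟩ := N.nonempty
  have := hv i
  simp at this
  subst this
  exact Submodule.mem_span_singleton.2 ⟨s, by simp [Algebra.smul_def]⟩

/-- A flat class with trivial jump is principal. -/
theorem principal_of_jump_one (hA : IsRankOne A)
    (hA0 : ∃ ϖ : L, ϖ ≠ 0 ∧ ϖ ∈ A.nonunits) {m : ℕ} (hm : (m : k) ≠ 0) {E : Divisor L F}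
    (hflat : IsFlat (D := D) (D' := D') m E) (hj : N.HasJump E 1) :
    ∃ h : F, h ≠ 0 ∧ E = divisorOf h := by
  classical
  have hm0 : 0 < m := Nat.pos_of_ne_zero fun h => hm (by rw [h, Nat.cast_zero])
  by_contra hne
  push Not at hne
  obtain ⟨hdeg, g₀, hg₀, hdiv, t, t', ht, ht', hr, hr'⟩ := hflat
  -- normalisation
  obtain ⟨i₀⟩ := N.nonempty
  obtain ⟨ζ, hζ, hpow⟩ := N.exists_hasJump hm0 hdeg hg₀ hdiv ht ht' hr hr'
  have htt : t = t' := by
    have := hpow i₀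
    rw [hj.unique N hζ, Pi.one_apply, one_pow] at this
    exact (div_eq_one_iff_eq ht').1 this.symm
  subst htt
  obtain ⟨u, hu⟩ := D.isResidue.surj t⁻¹
  set g := (u : L) • g₀ with hg
  have hgr : D.Red g 1 := by
    have := red_smul u hr
    rwa [hu, Algebra.smul_def t⁻¹, ← map_mul, inv_mul_cancel₀ ht, map_one] at this
  have hgr' : D'.Red g 1 := by
    have := red_smul u hr'
    rwa [hu, Algebra.smul_def t⁻¹, ← map_mul, inv_mul_cancel₀ ht, map_one] at this
  have hu0 : (u : L) ≠ 0 := fun h => hgr.ne_zero one_ne_zero (by rw [hg, h, zero_smul])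
  have hgdiv : divisorOf g = m • E := by
    rw [hg, Algebra.smul_def, divisorOf_mul ((map_ne_zero _).2 hu0) hg₀, hdiv, add_eq_right]
    exact Finsupp.ext fun v => by simp
  -- the spaces
  let W₁ : ℕ → Submodule L F := fun n => riemannRochSpace (N.Bd n 0 + E)
  let W₂ : ℕ → Submodule L F := fun n => riemannRochSpace (N.Bd 0 n + E)
  have hLE : riemannRochSpace E = ⊥ := by
    refine (Submodule.eq_bot_iff _).2 fun f hf => ?_
    by_contra hf0
    have h0 := eq_zero_of_degree_eq_zero ((mem_rr_iff_divisorOf hf0).1 hf)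
      (by rw [map_add, degree_divisorOf, hdeg, add_zero])
    exact hne f⁻¹ (inv_ne_zero hf0) (by
      rw [divisorOf_inv]; exact eq_neg_of_add_eq_zero_right h0)
  have hdisj : ∀ n, Disjoint (W₁ n) (W₂ n) := fun n => by
    rw [disjoint_iff, ← le_bot_iff, ← hLE]
    rintro f ⟨h1, h2⟩
    refine mem_rr_iff.2 fun v => ?_
    rcases N.B_disj v with h | h
    · simpa [W₁, Bd, h] using mem_rr_iff.1 h1 v
    · simpa [W₂, Bd, h] using mem_rr_iff.1 h2 v
  set b := N.c + Fintype.card ι + 1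
  have hbig₁ : ∀ n, b ≤ n → N.Big n 0 := fun n hn => by simpa [Big, b] using hn
  have hbig₂ : ∀ n, b ≤ n → N.Big 0 n := fun n hn => by simpa [Big, b] using hn
  have hW₁ : ∀ n, b ≤ n → pairSpace D D' (W₁ n) = N.nspace 1 n 0 := fun n hn => hj _ _ (hbig₁ n hn)
  have hW₂ : ∀ n, b ≤ n → pairSpace D D' (W₂ n) = N.nspace 1 0 n := fun n hn => hj _ _ (hbig₂ n hn)
  have hmono₁ : ∀ {n n'}, n ≤ n' → W₁ n ≤ W₁ n' := fun h =>
    riemannRochSpace_mono (add_le_add_left (N.Bd_mono h le_rfl) E)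
  have hmono₂ : ∀ {n n'}, n ≤ n' → W₂ n ≤ W₂ n' := fun h =>
    riemannRochSpace_mono (add_le_add_left (N.Bd_mono le_rfl h) E)
  have hsumdim : ∀ n, Module.finrank L (W₁ n ⊔ W₂ n : Submodule L F) =
      Module.finrank L (W₁ n) + Module.finrank L (W₂ n) := fun n => by
    have := Submodule.finrank_sup_add_finrank_inf_eq (W₁ n) (W₂ n)
    rwa [(hdisj n).eq_bot, finrank_bot, add_zero] at this
  -- dimension of the sum of the reductions
  have hRdim : ∀ n, b ≤ n →
      Module.finrank k (N.nspace 1 n 0 ⊔ N.nspace 1 0 n : Submodule k (C × C')) + 1 =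
        Module.finrank L (W₁ n ⊔ W₂ n : Submodule L F) := fun n hn => by
    have := (N.finrank_nspace_le 1 (hbig₁ n hn)).1
    have := (N.finrank_nspace_le 1 (hbig₂ n hn)).1
    have h1 := Submodule.finrank_sup_add_finrank_inf_eq (N.nspace 1 n 0) (N.nspace 1 0 n)
    have hinf : N.nspace 1 n 0 ⊓ N.nspace 1 0 n = Submodule.span k {((1 : C), (1 : C'))} :=
      le_antisymm (N.nspace_inf_le n) (Submodule.span_le.2 (Set.singleton_subset_iff.2
        ⟨N.one_one_mem_nspace n 0, N.one_one_mem_nspace 0 n⟩))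
    rw [hinf, finrank_span_singleton (by simp : ((1 : C), (1 : C')) ≠ 0)] at h1
    have e1 : Module.finrank k (N.nspace 1 n 0) = Module.finrank L (W₁ n) := by
      rw [← hW₁ n hn, finrank_pairSpace]
    have e2 : Module.finrank k (N.nspace 1 0 n) = Module.finrank L (W₂ n) := by
      rw [← hW₂ n hn, finrank_pairSpace]
    rw [hsumdim]
    omega
  -- the extra reduction
  obtain ⟨db, ⟨d, hd, hdr, hdr'⟩, hdn⟩ : ∃ p ∈ pairSpace D D' (W₁ b ⊔ W₂ b),
      p ∉ N.nspace 1 b 0 ⊔ N.nspace 1 0 b := by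
    refine SetLike.exists_of_lt (lt_of_le_of_ne (sup_le ?_ ?_) fun h => ?_)
    · rw [← hW₁ b le_rfl]; exact pairSpace_mono le_sup_left
    · rw [← hW₂ b le_rfl]; exact pairSpace_mono le_sup_right
    · have := hRdim b le_rfl
      rw [h, finrank_pairSpace] at this
      omega
  obtain ⟨a₁, ha₁, a₂, ha₂, ha⟩ := Submodule.mem_sup.1 hd
  have hdb : db ∈ N.nspace 1 b b := by
    rw [← hj b b (by simp [Big, b])]
    refine ⟨d, ?_, hdr, hdr'⟩
    exact (sup_le (riemannRochSpace_mono (add_le_add_left (N.Bd_mono le_rfl (Nat.zero_le _)) E))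
      (riemannRochSpace_mono (add_le_add_left (N.Bd_mono (Nat.zero_le _) le_rfl) E))) hd
  have hdn' : ∀ n, b ≤ n → db ∉ N.nspace 1 n 0 ⊔ N.nspace 1 0 n := by
    intro n hn hmem
    obtain ⟨α, hα, β, hβ, hsum⟩ := Submodule.mem_sup.1 hmem
    refine hdn (Submodule.mem_sup.2 ⟨α, ?_, β, ?_, hsum⟩)
    · refine ⟨?_, ?_, hα.2.2⟩
      · rw [N.Pd_left]
        refine mem_rr_left_of_add N.p_disj (b := β.1) (j := b) (n := n) (n' := n) ?_
          (by simpa [N.Pd_left] using hα.1) (by simpa [N.Pd_right] using hβ.1) N.p₁_nonneg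
        rw [← Prod.fst_add, hsum]; exact hdb.1
      · rw [N.Qd_left]
        refine mem_rr_left_of_add N.q_disj (b := β.2) (j := b) (n := n) (n' := n) ?_
          (by simpa [N.Qd_left] using hα.2.1) (by simpa [N.Qd_right] using hβ.2.1) N.q₁_nonneg
        rw [← Prod.snd_add, hsum]; exact hdb.2.1
    · refine ⟨?_, ?_, hβ.2.2⟩
      · rw [N.Pd_right]
        refine mem_rr_left_of_add (fun v => (N.p_disj v).symm) (b := α.1) (j := b) (n := n)
          (n' := n) ?_ (by simpa [N.Pd_right] using hβ.1) (by simpa [N.Pd_left] using hα.1)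
          N.p₂_nonneg
        rw [← Prod.fst_add, add_comm β, hsum, add_comm (b • N.p₂)]; exact hdb.1
      · rw [N.Qd_right]
        refine mem_rr_left_of_add (fun v => (N.q_disj v).symm) (b := α.2) (j := b) (n := n)
          (n' := n) ?_ (by simpa [N.Qd_right] using hβ.2.1) (by simpa [N.Qd_left] using hα.2.1)
          N.q₂_nonneg
        rw [← Prod.snd_add, add_comm β, hsum, add_comm (b • N.q₂)]; exact hdb.2.1
  -- the bound on components
  obtain ⟨c₁, hc₁, hc₁'⟩ := exists_smul_mem_V D a₁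
  obtain ⟨c₂, hc₂, hc₂'⟩ := exists_smul_mem_V D a₂
  obtain ⟨c₃, hc₃, hc₃'⟩ := exists_smul_mem_V D' a₁
  obtain ⟨c₄, hc₄, hc₄'⟩ := exists_smul_mem_V D' a₂
  set c₀ : A := c₁ * c₂ * c₃ * c₄ with hc₀
  have hc₀0 : (c₀ : L) ≠ 0 := by simp [hc₀, hc₁, hc₂, hc₃, hc₄]
  have hint : ∀ {G : Type _} [Field G] [Algebra L G] (V : ValuationSubring G) (c c' : A) (f : G),
      (∀ (a : A) {y : G}, y ∈ V → (a : L) • y ∈ V) → (c : L) • f ∈ V →
      ((c' * c : A) : L) • f ∈ V := fun V c c' f h hf => by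
    simpa [mul_smul] using h c' hf
  have hca₁ : (c₀ : L) • a₁ ∈ D.V ∧ (c₀ : L) • a₁ ∈ D'.V :=
    ⟨by have := hint D.V c₁ (c₂ * c₃ * c₄) a₁ (fun a _ => smul_mem_V D a) hc₁'
        rwa [show c₂ * c₃ * c₄ * c₁ = c₀ by rw [hc₀]; ring] at this,
     by have := hint D'.V c₃ (c₁ * c₂ * c₄) a₁ (fun a _ => smul_mem_V D' a) hc₃'
        rwa [show c₁ * c₂ * c₄ * c₃ = c₀ by rw [hc₀]; ring] at this⟩
  have hca₂ : (c₀ : L) • a₂ ∈ D.V ∧ (c₀ : L) • a₂ ∈ D'.V :=
    ⟨by have := hint D.V c₂ (c₁ * c₃ * c₄) a₂ (fun a _ => smul_mem_V D a) hc₂'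
        rwa [show c₁ * c₃ * c₄ * c₂ = c₀ by rw [hc₀]; ring] at this,
     by have := hint D'.V c₄ (c₁ * c₂ * c₃) a₂ (fun a _ => smul_mem_V D' a) hc₄'
        rwa [show c₁ * c₂ * c₃ * c₄ = c₀ by rw [hc₀]] at this⟩
  have hbound : ∀ n, b ≤ n → ∀ x ∈ W₁ n ⊔ W₂ n, x ∈ D.V → x ∈ D'.V →
      ∃ x₁ ∈ W₁ n, ∃ x₂ ∈ W₂ n, x₁ ∈ D.V ∧ (c₀ : L) • x = x₁ + x₂ := by
    intro n hn x hx hxV hxV'
    have := (N.finrank_nspace_le 1 (hbig₁ n hn)).1
    have := (N.finrank_nspace_le 1 (hbig₂ n hn)).1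
    set R₁ := N.nspace 1 n 0
    set R₂ := N.nspace 1 0 n
    let b₁ := Module.finBasis k R₁
    let b₂ := Module.finBasis k R₂
    let v : (Fin (Module.finrank k R₁) ⊕ Fin (Module.finrank k R₂)) ⊕ Unit → C × C' :=
      Sum.elim (Sum.elim (fun i => (b₁ i : C × C')) (fun i => (b₂ i : C × C'))) fun _ => db
    have hspan : Submodule.span k (Set.range v) = R₁ ⊔ R₂ ⊔ Submodule.span k {db} := by
      simp only [v, Set.Sum.elim_range, Submodule.span_union, Set.range_const]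
      congr 2
      · have := congrArg (Submodule.map R₁.subtype) b₁.span_eq
        rwa [Submodule.map_span, ← Set.range_comp, Submodule.map_top, Submodule.range_subtype] at this
      · have := congrArg (Submodule.map R₂.subtype) b₂.span_eq
        rwa [Submodule.map_span, ← Set.range_comp, Submodule.map_top, Submodule.range_subtype] at this
    obtain ⟨κ, idx, hidx, hκspan, hκind⟩ := exists_linearIndependent' k v
    have := Finite.of_injective idx hidx
    have := Fintype.ofFinite κ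
    have hlift : ∀ j, ∃ y : F, D.Red y (v j).1 ∧ D'.Red y (v j).2 ∧
        (y ∈ W₁ n ∨ y ∈ W₂ n ∨ y = d) := by
      rintro ((i | i) | _)
      · obtain ⟨y, hy, h, h'⟩ := mem_pairSpace.1 ((hW₁ n hn).ge (b₁ i).2)
        exact ⟨y, h, h', Or.inl hy⟩
      · obtain ⟨y, hy, h, h'⟩ := mem_pairSpace.1 ((hW₂ n hn).ge (b₂ i).2)
        exact ⟨y, h, h', Or.inr (Or.inl hy)⟩
      · exact ⟨d, hdr, hdr', Or.inr (Or.inr rfl)⟩
    choose y hy hy' hycase using fun j => hlift (idx j)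
    have hdS : d ∈ W₁ n ⊔ W₂ n := sup_le_sup (hmono₁ hn) (hmono₂ hn) hd
    have hyS : ∀ j, y j ∈ W₁ n ⊔ W₂ n := fun j => by
      rcases hycase j with h | h | h
      · exact Submodule.mem_sup_left h
      · exact Submodule.mem_sup_right h
      · rw [h]; exact hdS
    have hcard : Fintype.card κ = Module.finrank L (W₁ n ⊔ W₂ n : Submodule L F) := by
      rw [← finrank_span_eq_card hκind, hκspan, hspan, ← hRdim n hn]
      have h1 := Submodule.finrank_sup_add_finrank_inf_eq (R₁ ⊔ R₂) (Submodule.span k {db})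
      rw [(Submodule.disjoint_span_singleton_of_notMem (hdn' n hn)).eq_bot, finrank_bot, add_zero,
        finrank_span_singleton (fun h0 => hdn' n hn (by rw [h0]; exact zero_mem _))] at h1
      exact h1
    have hyind := linearIndependent_of_pair hy hy' hκind
    have hyspan : Submodule.span L (Set.range y) = W₁ n ⊔ W₂ n :=
      Submodule.eq_of_le_of_finrank_eq (Submodule.span_le.2 (Set.range_subset_iff.2 hyS))
        (by rw [finrank_span_eq_card hyind, hcard])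
    obtain ⟨c, hc⟩ := (Submodule.mem_span_range_iff_exists_fun L).1 (hyspan.ge hx)
    have hcA := pair_coeff_mem hy hy' hκind (c := c) (by rwa [hc]) (by rwa [hc])
    have hone : ∀ j, ∃ x₁ ∈ W₁ n, ∃ x₂ ∈ W₂ n, x₁ ∈ D.V ∧
        (c₀ : L) • c j • y j = x₁ + x₂ := by
      intro j
      have hV : ∀ {z : F}, z ∈ D.V → c j • z ∈ D.V := fun hz => smul_mem_V D ⟨c j, hcA j⟩ hz
      rcases hycase j with h | h | h
      · exact ⟨_, Submodule.smul_mem _ (c₀ : L) (Submodule.smul_mem _ (c j) h), 0, zero_mem _,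
          smul_mem_V D c₀ (hV (hy j).mem), (add_zero _).symm⟩
      · exact ⟨0, zero_mem _, _, Submodule.smul_mem _ (c₀ : L) (Submodule.smul_mem _ (c j) h),
          zero_mem _, (zero_add _).symm⟩
      · refine ⟨c j • (c₀ : L) • a₁, Submodule.smul_mem _ _ (Submodule.smul_mem _ _ (hmono₁ hn ha₁)),
          c j • (c₀ : L) • a₂, Submodule.smul_mem _ _ (Submodule.smul_mem _ _ (hmono₂ hn ha₂)),
          hV hca₁.1, ?_⟩
        rw [h, ← ha, smul_comm, smul_add, smul_add]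
    choose x₁ hx₁ x₂ hx₂ hx₁V hxeq using hone
    refine ⟨∑ j, x₁ j, Submodule.sum_mem _ fun j _ => hx₁ j, ∑ j, x₂ j,
      Submodule.sum_mem _ fun j _ => hx₂ j, sum_mem fun j _ => hx₁V j, ?_⟩
    rw [← hc, Finset.smul_sum, ← Finset.sum_add_distrib]
    exact Finset.sum_congr rfl fun j _ => hxeq j
  -- approximate roots in the two families
  obtain ⟨ϖ, hϖ0, hϖn⟩ := hA0
  set e : A := c₀ * ⟨ϖ, A.nonunits_subset hϖn⟩ with he
  have he0 : (e : L) ≠ 0 := mul_ne_zero hc₀0 hϖ0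
  have hroot : ∀ (W : ℕ → Submodule L F) (B : Divisor L F),
      (∀ n, W n = riemannRochSpace (n • B + E)) → 0 ≤ B →
      (∃ f ∈ W b, D.Red f 1 ∧ D'.Red f 1) →
      ∃ n, b ≤ n ∧ ∃ f ∈ W n, D.Red f 1 ∧ D'.Red f 1 ∧
        (e : L)⁻¹ • (f ^ m * g - 1) ∈ D.V ∧ (e : L)⁻¹ • (f ^ m * g - 1) ∈ D'.V := by
    intro W B hW hB ⟨f, hf, hfr, hfr'⟩
    have h0 : D.Red (f ^ m * g - 1) 0 := by simpa using ((hfr.pow m).mul hgr).sub red_one
    have h0' : D'.Red (f ^ m * g - 1) 0 := by simpa using ((hfr'.pow m).mul hgr').sub red_one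
    rcases eq_or_ne (f ^ m * g - 1) 0 with hz | hz
    · exact ⟨b, le_rfl, f, hf, hfr, hfr', by rw [hz, smul_zero]; exact zero_mem _,
        by rw [hz, smul_zero]; exact zero_mem _⟩
    obtain ⟨c, hc, hcn, w, z, -, hw, hceq⟩ := exists_eq_nonunit_smul D h0 hz
    obtain ⟨c', hc', hcn', w', z', -, hw', hceq'⟩ := exists_eq_nonunit_smul D' h0' hz
    obtain ⟨e₁, he₁, he₁n, hmem, hmem'⟩ : ∃ e₁ : A, (e₁ : L) ≠ 0 ∧ (e₁ : L) ∈ A.nonunits ∧
        (e₁ : L)⁻¹ • (f ^ m * g - 1) ∈ D.V ∧ (e₁ : L)⁻¹ • (f ^ m * g - 1) ∈ D'.V := by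
      have hV : (c : L)⁻¹ • (f ^ m * g - 1) ∈ D.V := by
        rw [hceq, smul_smul, inv_mul_cancel₀ hc, one_smul]; exact hw.mem
      have hV' : (c' : L)⁻¹ • (f ^ m * g - 1) ∈ D'.V := by
        rw [hceq', smul_smul, inv_mul_cancel₀ hc', one_smul]; exact hw'.mem
      rcases le_total (A.valuation (c : L)) (A.valuation (c' : L)) with hle | hle
      · refine ⟨c', hc', hcn', ?_, hV'⟩
        have hdivA : (c : L) / c' ∈ A := by
          rw [← A.valuation_le_one_iff, map_div₀]; exact div_le_one_of_le₀ hle zero_le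
        have := smul_mem_V D ⟨_, hdivA⟩ hV
        simpa [smul_smul, div_mul_eq_mul_div, mul_inv_cancel₀ hc] using this
      · refine ⟨c, hc, hcn, hV, ?_⟩
        have hdivA : (c' : L) / c ∈ A := by
          rw [← A.valuation_le_one_iff, map_div₀]; exact div_le_one_of_le₀ hle zero_le
        have := smul_mem_V D' ⟨_, hdivA⟩ hV'
        simpa [smul_smul, div_mul_eq_mul_div, mul_inv_cancel₀ hc'] using this
    have hiter : ∀ j, ∃ n, b ≤ n ∧ ∃ f ∈ W n, D.Red f 1 ∧ D'.Red f 1 ∧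
        ((e₁ : L) ^ 2 ^ j)⁻¹ • (f ^ m * g - 1) ∈ D.V ∧
        ((e₁ : L) ^ 2 ^ j)⁻¹ • (f ^ m * g - 1) ∈ D'.V := by
      intro j
      induction j with
      | zero => exact ⟨b, le_rfl, f, hf, hfr, hfr', by simpa using hmem, by simpa using hmem'⟩
      | succ j ih =>
        obtain ⟨n, hn, f₁, hf₁, h₁, h₁', hm₁, hm₁'⟩ := ih
        have hej : ((e₁ ^ 2 ^ j : A) : L) ∈ A.nonunits := by
          rw [A.mem_nonunits_iff, SubmonoidClass.coe_pow, map_pow]
          exact pow_lt_one₀ zero_le (A.mem_nonunits_iff.1 he₁n) (pow_ne_zero _ two_ne_zero)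
        have hej0 : ((e₁ ^ 2 ^ j : A) : L) ≠ 0 := by simp [he₁]
        obtain ⟨s₁, s₂⟩ := newton_step D hm h₁ (g := g) hej0 hej (by simpa using hm₁)
        obtain ⟨s₁', s₂'⟩ := newton_step D' hm h₁' (g := g) hej0 hej (by simpa using hm₁')
        have hexp : (((e₁ ^ 2 ^ j : A) : L)) ^ 2 = (e₁ : L) ^ 2 ^ (j + 1) := by
          rw [SubmonoidClass.coe_pow, ← pow_mul, pow_succ]
        rw [hexp] at s₂ s₂'
        refine ⟨n + m * n, by omega, _, ?_, s₁, s₁', s₂, s₂'⟩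
        rw [hW] at hf₁ ⊢
        have hle : n • B + E ≤ (n + m * n) • B + E :=
          add_le_add_left (nsmul_le_nsmul_left hB (by omega)) E
        refine Submodule.sub_mem _ (riemannRochSpace_mono hle hf₁) (Submodule.smul_mem _ _ ?_)
        rw [add_nsmul, add_right_comm]
        refine mul_mem_rr hf₁ (Submodule.sub_mem _ ?_ (one_mem_rr (nsmul_nonneg hB _)))
        rw [mem_rr_iff]
        intro v
        have hf₁0 := h₁.ne_zero one_ne_zero
        have e1 := (mem_rr_iff.1 hf₁ v).le_ord hf₁0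
        have e2 : v.ord g = (m : ℤ) * E v := by
          simpa using congrArg (fun Y : Divisor L F => Y v) hgdiv
        refine ordGe_of_le_ord ?_
        rw [v.ord_mul (pow_ne_zero _ hf₁0) (hgr.ne_zero one_ne_zero), FunctionField.ord_pow, e2]
        simp only [Finsupp.add_apply, Finsupp.smul_apply, nsmul_eq_mul] at e1 ⊢
        push_cast
        have e3 := mul_le_mul_of_nonneg_left e1 (Nat.cast_nonneg (α := ℤ) m)
        linarith
    obtain ⟨N₀, hN₀⟩ := hA (e : L) (e₁ : L) he0 he₁n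
    obtain ⟨n, hn, f₁, hf₁, h₁, h₁', hm₁, hm₁'⟩ := hiter N₀
    have hq : (e₁ : L) ^ 2 ^ N₀ / e ∈ A := by
      rw [← A.valuation_le_one_iff, map_div₀, map_pow]
      refine div_le_one_of_le₀ (le_trans ?_ hN₀) zero_le
      exact pow_le_pow_right_of_le_one' (A.valuation_le_one e₁) Nat.lt_two_pow_self.le
    have hcancel : ((e₁ : L) ^ 2 ^ N₀ / e) * ((e₁ : L) ^ 2 ^ N₀)⁻¹ = (e : L)⁻¹ := by
      field_simp
    refine ⟨n, hn, f₁, hf₁, h₁, h₁', ?_, ?_⟩
    · have := smul_mem_V D ⟨_, hq⟩ hm₁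
      rwa [smul_smul, hcancel] at this
    · have := smul_mem_V D' ⟨_, hq⟩ hm₁'
      rwa [smul_smul, hcancel] at this
  obtain ⟨n₁, hn₁, f₁, hf₁, h₁, h₁', hm₁, hm₁'⟩ := hroot W₁ N.B₁
    (fun n => by simp [W₁, Bd]) N.B₁_nonneg
    (mem_pairSpace.1 ((hW₁ b le_rfl).ge (N.one_one_mem_nspace b 0)))
  obtain ⟨n₂, hn₂, f₂, hf₂, h₂, h₂', hm₂, hm₂'⟩ := hroot W₂ N.B₂
    (fun n => by simp [W₂, Bd]) N.B₂_nonneg
    (mem_pairSpace.1 ((hW₂ b le_rfl).ge (N.one_one_mem_nspace 0 b)))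
  set n := max n₁ n₂
  have hx₁ : (e : L)⁻¹ • f₁ ∈ W₁ n := Submodule.smul_mem _ _ (hmono₁ (le_max_left _ _) hf₁)
  have hx₂ : -((e : L)⁻¹ • f₂) ∈ W₂ n :=
    neg_mem (Submodule.smul_mem _ _ (hmono₂ (le_max_right _ _) hf₂))
  obtain ⟨y₁, hy₁, y₂, hy₂, hy₁V, hyeq⟩ := hbound n (le_trans hn₁ (le_max_left _ _))
    ((e : L)⁻¹ • (f₁ - f₂))
    (by rw [smul_sub, sub_eq_add_neg]; exact Submodule.add_mem_sup hx₁ hx₂)
    (smul_sub_mem_V D hm h₁ h₂ hgr hm₁ hm₂) (smul_sub_mem_V D' hm h₁' h₂' hgr' hm₁' hm₂')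
  have hy : y₁ = (c₀ : L) • (e : L)⁻¹ • f₁ := by
    have hsub : y₁ - (c₀ : L) • (e : L)⁻¹ • f₁ = (c₀ : L) • -((e : L)⁻¹ • f₂) - y₂ := by
      rw [sub_eq_sub_iff_add_eq_add, ← hyeq, smul_sub, smul_sub, smul_neg]
      abel
    refine sub_eq_zero.1 (Submodule.disjoint_def.1 (hdisj n) _
      (sub_mem hy₁ (Submodule.smul_mem _ _ hx₁)) ?_)
    rw [hsub]
    exact sub_mem (Submodule.smul_mem _ _ hx₂) hy₂
  rw [hy, smul_smul] at hy₁V
  have hinvA := mem_of_smul_mem_of_red D h₁ one_ne_zero hy₁V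
  have : ϖ⁻¹ ∈ A := by
    convert hinvA using 1
    have he' : (e : L) = (c₀ : L) * ϖ := by rw [he, MulMemClass.coe_mul]
    rw [he', mul_inv, mul_inv_cancel_left₀ hc₀0]
  rw [ValuationSubring.mem_nonunits_iff_or] at hϖn
  rcases hϖn with h | h
  · exact hϖ0 h
  · exact h this

end NodeSystem

end FLTAgent.Semistable
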