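import Fermat.Agent.Semistable.PTorsCyclo
import Fermat.Agent.Semistable.TorsionInj

/-!
# Approximate roots up to the threshold

If a flat class killed by `p` has trivial jump and its function is a `p`-th power modulo `p ^ 2` on
both components, then some function with controlled poles is a root modulo `p (ζ - 1)`.
-/

set_option autoImplicit false
set_option linter.unusedSectionVars false

noncomputable section

open AlgebraicCurve

namespace FLTAgent.Semistable

open FLTAgent.GoodRed FLTAgent.GoodRed.RedDatum FLTAgent.FunctionField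

theorem PTors.pow_mul_mem_rr {K G : Type*} [Field K] [Field G] [Algebra K G] [IsFunctionField K G]
    {m : ℕ} {B X : Divisor K G} {u g : G} (hu : u ∈ riemannRochSpace (B + X)) (hg : g ≠ 0)
    (hdiv : divisorOf g = m • X) : u ^ m * g ∈ riemannRochSpace (m • B) := by
  refine mem_rr_iff.2 fun v => ?_
  rcases eq_or_ne (u ^ m) 0 with h0 | h0
  · rw [h0, zero_mul]; exact ordGe_zero _
  rcases Nat.eq_zero_or_pos m with rfl | hm
  · refine ordGe_of_le_ord ?_
    have e2 : v.ord g = 0 := by simpa using congrArg (fun Y : Divisor K G => Y v) hdiv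
    rw [pow_zero, one_mul, e2]; simp
  have hu0 : u ≠ 0 := fun h => h0 (by rw [h, zero_pow hm.ne'])
  have e1 := mul_le_mul_of_nonneg_left ((mem_rr_iff.1 hu v).le_ord hu0) (Nat.cast_nonneg (α := ℤ) m)
  rw [← FunctionField.ord_pow] at e1
  have e2 : v.ord g = (m : ℤ) * X v := by
    simpa using congrArg (fun Y : Divisor K G => Y v) hdiv
  refine ordGe_of_le_ord ?_
  rw [v.ord_mul h0 hg, e2]
  simp only [Finsupp.add_apply, Finsupp.smul_apply, nsmul_eq_mul] at e1 ⊢
  linarith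

universe w

variable {L k : Type*} [Field L] [Field k] {A : ValuationSubring L} {π : A →+* k}
  {F : Type*} {C C' : Type w} [Field F] [Algebra L F] [Field C] [Algebra k C] [Field C'] [Algebra k C']

namespace Close

variable {D : RedDatum A π F C} {c d : A} {y z : F}

theorem cancel (hc : (c : L) ≠ 0) (h : Close D (c * d) ((c : L) • y) ((c : L) • z)) :
    Close D d y z := by
  obtain ⟨w, hw, e⟩ := h
  exact ⟨w, hw, smul_right_injective F hc
    (by simpa [smul_sub, smul_smul, MulMemClass.coe_mul] using e)⟩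

/-- `(1 + x) ^ p ≡ 1 + x ^ p` modulo `p x`. -/
theorem pow_one_add {p : ℕ} (hp : p.Prime) {x : A} {r : F} (hr : r ∈ D.V) :
    Close D ((p : A) * x) ((1 + (x : L) • r) ^ p) (1 + ((x ^ p : A) : L) • r ^ p) := by
  set v : D.V := ⟨algebraMap L F x, (D.mem_iff _).2 x.2⟩ with hv
  obtain ⟨w, hw⟩ := PTors.exists_expand hp (v * ⟨r, hr⟩)
  refine ⟨r * (1 + algebraMap L F x * r * (w : F)),
    mul_mem hr (add_mem (one_mem _) (mul_mem (mul_mem ((D.mem_iff _).2 x.2) hr) w.2)), ?_⟩
  have e := congrArg (fun t : D.V => (t : F)) hw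
  simp only [hv] at e
  push_cast at e
  simp only [Algebra.smul_def, MulMemClass.coe_mul, SubmonoidClass.coe_pow, map_mul, map_pow,
    SubringClass.coe_natCast, map_natCast] at e ⊢
  linear_combination e

end Close

namespace NodeSystem

variable [IsFunctionField L F] [IsFunctionField k C] [IsFunctionField k C'] [IsAlgClosed L]
  [IsAlgClosed k] {D : RedDatum A π F C} {D' : RedDatum A π F C'} {ι : Type*} [Fintype ι]
  (N : NodeSystem D D' ι) {p : ℕ} [CharP k p] {ζ : A}

include N in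
/-- A root modulo the threshold with poles bounded by `n₁ B₁ + n₂ B₂`. -/
theorem exists_threshold (hp : p.Prime) (hζ : IsPrimitiveRoot ζ p) (hpL : (p : L) ≠ 0)
    {X : Divisor L F} {g : F} (hgr : D.Red g 1) (hgr' : D'.Red g 1)
    (hdiv : divisorOf g = p • X) (hj : N.HasJump X 1) {hh : F} (hhr : D.Red hh 1)
    (hhr' : D'.Red hh 1) (hc : Close D ((p : A) ^ 2) g (hh ^ p))
    (hc' : Close D' ((p : A) ^ 2) g (hh ^ p)) {n₁ n₂ : ℕ} (hn : N.Big n₁ n₂) :
    ∃ u ∈ riemannRochSpace (N.Bd n₁ n₂ + X), D.Red u 1 ∧ D'.Red u 1 ∧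
      Close D (PTors.thr p ζ) (u ^ p * g) 1 ∧ Close D' (PTors.thr p ζ) (u ^ p * g) 1 := by
  classical
  have : Fact p.Prime := ⟨hp⟩
  have : CharP C p := charP_of_injective_algebraMap (algebraMap k C).injective p
  have : CharP C' p := charP_of_injective_algebraMap (algebraMap k C').injective p
  have hπ := D.isResidue
  have hh0 : hh ≠ 0 := hhr.ne_zero one_ne_zero
  have hg0 : g ≠ 0 := hgr.ne_zero one_ne_zero
  have h2 : PTors.thr p ζ ∣ (p : A) ^ 2 := PTors.thr_dvd_sq hπ hp hζ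
  set W := riemannRochSpace (N.Bd n₁ n₂ + X)
  set U := W.map (LinearMap.mulRight L hh)
  have hUe : Module.finrank L U = Module.finrank L W :=
    ((Submodule.equivMapOfInjective (LinearMap.mulRight L hh)
      (fun a b h => mul_right_cancel₀ hh0 (by simpa using h)) W).finrank_eq).symm
  have redu : ∀ {u : F}, D.Red (u * hh) 1 → D'.Red (u * hh) 1 → D.Red u 1 ∧ D'.Red u 1 :=
    fun {u} h h' => ⟨by simpa [hh0] using h.mul (hhr.inv one_ne_zero),
      by simpa [hh0] using h'.mul (hhr'.inv one_ne_zero)⟩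
  by_cases h1U : (1 : F) ∈ U
  · obtain ⟨u, hu, hu1⟩ := h1U
    change u * hh = 1 at hu1
    obtain ⟨hur, hur'⟩ := redu (by rw [hu1]; exact red_one) (by rw [hu1]; exact red_one)
    have e : u ^ p * hh ^ p = 1 := by rw [← mul_pow, hu1, one_pow]
    refine ⟨u, hu, hur, hur', ?_, ?_⟩
    · have := (hc.mul_left (u := u ^ p) (pow_mem hur.mem p)).mono h2
      rwa [e] at this
    · have := (hc'.mul_left (u := u ^ p) (pow_mem hur'.mem p)).mono h2
      rwa [e] at this
  -- a reduction outside the space of pairs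
  have hspace := hj n₁ n₂ hn
  have hW' : Module.finrank L (U ⊔ Submodule.span L {(1 : F)} : Submodule L F) =
      Module.finrank L W + 1 := by
    have h := Submodule.finrank_sup_add_finrank_inf_eq U (Submodule.span L {(1 : F)})
    rwa [(Submodule.disjoint_span_singleton_of_notMem h1U).eq_bot, finrank_bot, add_zero,
      finrank_span_singleton (one_ne_zero : (1 : F) ≠ 0), hUe] at h
  obtain ⟨⟨a, b⟩, ⟨r, hr, hra, hrb⟩, hnot⟩ : ∃ q ∈ pairSpace D D' (U ⊔ Submodule.span L {(1 : F)}),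
      q ∉ N.nspace 1 n₁ n₂ := by
    by_contra hall
    push Not at hall
    have := (N.finrank_nspace_le 1 hn).1
    have h := Submodule.finrank_mono (show pairSpace D D' (U ⊔ Submodule.span L {(1 : F)}) ≤
      N.nspace 1 n₁ n₂ from hall)
    rw [finrank_pairSpace, ← hspace, finrank_pairSpace, hW'] at h
    exact Nat.not_succ_le_self _ h
  obtain ⟨y, hy, z, hz, hyz⟩ := Submodule.mem_sup.1 hr
  obtain ⟨t, rfl⟩ := Submodule.mem_span_singleton.1 hz
  obtain ⟨u₁, hu₁, rfl⟩ := hy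
  change u₁ * hh + t • 1 = r at hyz
  have ht : t ∉ A := fun ht => hnot (by
    have h1 := hra.sub (red_smul ⟨t, ht⟩ red_one)
    have h1' := hrb.sub (red_smul ⟨t, ht⟩ red_one)
    rw [← hyz] at h1 h1'
    have h3 := h1.mul (hhr.inv one_ne_zero)
    have h3' := h1'.mul (hhr'.inv one_ne_zero)
    simp only [add_sub_cancel_right, mul_inv_cancel_right₀ hh0, inv_one, mul_one] at h3 h3'
    have hm : ((a - π ⟨t, ht⟩ • (1 : C)), (b - π ⟨t, ht⟩ • (1 : C'))) ∈ N.nspace 1 n₁ n₂ :=
      hspace ▸ ⟨u₁, hu₁, h3, h3'⟩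
    have hsum := add_mem hm (Submodule.smul_mem _ (π ⟨t, ht⟩) (N.one_one_mem_nspace n₁ n₂))
    simpa using hsum)
  have ht0 : t ≠ 0 := fun h => ht (h ▸ zero_mem _)
  have htn : t⁻¹ ∈ A.nonunits := by
    rw [ValuationSubring.inv_mem_nonunits_iff]; exact Or.inr ht
  set δ : A := -⟨t⁻¹, A.nonunits_subset htn⟩ with hδ
  have hδn : (δ : L) ∈ A.nonunits := by
    rw [← hπ.eq_zero_iff, hδ, map_neg, (hπ.eq_zero_iff _).2 htn, neg_zero]
  have hδ0 : (δ : L) ≠ 0 := by simp [hδ, ht0]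
  set u := (δ : L) • u₁ with hu
  have huh : u * hh = 1 + (δ : L) • r := by
    rw [hu, ← hyz, smul_add, smul_smul, smul_mul_assoc,
      show (δ : L) * t = -1 by simp [hδ, ht0], neg_one_smul]
    abel
  have hδr : D.Red ((δ : L) • r) 0 := by
    have := red_smul δ hra; rwa [(hπ.eq_zero_iff _).2 hδn, zero_smul] at this
  have hδr' : D'.Red ((δ : L) • r) 0 := by
    have := red_smul δ hrb; rwa [(hπ.eq_zero_iff _).2 hδn, zero_smul] at this
  obtain ⟨hur, hur'⟩ := redu (by rw [huh]; simpa using red_one.add hδr)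
    (by rw [huh]; simpa using red_one.add hδr')
  have hmem : u ∈ W := Submodule.smul_mem _ _ hu₁
  have expand : ∀ {C₁ : Type w} [Field C₁] [Algebra k C₁] (D₁ : RedDatum A π F C₁),
      D₁.Red u 1 → Close D₁ ((p : A) ^ 2) g (hh ^ p) → r ∈ D₁.V → ∀ c : A,
      c ∣ (p : A) ^ 2 → c ∣ (p : A) * δ →
      Close D₁ c (u ^ p * g) (1 + ((δ ^ p : A) : L) • r ^ p) := fun D₁ h₁ h₂ h₃ c hc2 hcδ => by
    have h := (h₂.mul_left (u := u ^ p) (pow_mem h₁.mem p)).mono hc2
    rw [← mul_pow, huh] at h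
    exact h.trans ((Close.pow_one_add hp h₃).mono hcδ)
  -- small steps reach the threshold
  by_cases hδζ : ζ - 1 ∣ δ
  · refine ⟨u, hmem, hur, hur', ?_, ?_⟩
    · have hpow : PTors.thr p ζ ∣ δ ^ p :=
        (PTors.associated_thr hπ hp hζ).dvd_iff_dvd_left.1 (pow_dvd_pow_of_dvd hδζ p)
      refine (expand D hur hc hra.mem _ h2 (mul_dvd_mul_left _ hδζ)).trans ?_
      simpa using (Close.refl (D := D) (1 : F)).add
        ((Close.mem_smul (c := δ ^ p) (pow_mem hra.mem p)).mono hpow)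
    · have hpow : PTors.thr p ζ ∣ δ ^ p :=
        (PTors.associated_thr hπ hp hζ).dvd_iff_dvd_left.1 (pow_dvd_pow_of_dvd hδζ p)
      refine (expand D' hur' hc' hrb.mem _ h2 (mul_dvd_mul_left _ hδζ)).trans ?_
      simpa using (Close.refl (D := D') (1 : F)).add
        ((Close.mem_smul (c := δ ^ p) (pow_mem hrb.mem p)).mono hpow)
  -- large steps contradict the jump
  exfalso
  obtain ⟨η, hη⟩ := (ValuationRing.dvd_total δ (ζ - 1)).resolve_right hδζ
  have hηn : (η : L) ∈ A.nonunits := by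
    rw [← hπ.eq_zero_iff]
    by_contra h
    exact hδζ (hη ▸ (PTors.isUnit_of_residue hπ h).mul_right_dvd.2 dvd_rfl)
  obtain ⟨v, hv⟩ := PTors.exists_unit_natCast hπ hp hζ
  have hdiv1 : δ ^ p * η ∣ (p : A) * δ := by
    obtain ⟨s, hs⟩ := Nat.exists_eq_add_of_le hp.two_le
    refine Dvd.intro (η ^ s * v) ?_
    rw [hv, hη, hs, show 2 + s - 1 = s + 1 by omega]
    ring
  have hdiv2 : δ ^ p * η ∣ (p : A) ^ 2 :=
    hdiv1.trans ((dvd_mul_right _ η).trans (by rw [mul_assoc, ← hη]; exact h2))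
  set Y := ((δ ^ p : A) : L)⁻¹ • (u ^ p * g - 1) with hY
  have hδp : ((δ ^ p : A) : L) ≠ 0 := by
    rw [SubmonoidClass.coe_pow]; exact pow_ne_zero _ hδ0
  have hYr : ∀ {C₁ : Type w} [Field C₁] [Algebra k C₁] (D₁ : RedDatum A π F C₁),
      D₁.Red u 1 → Close D₁ ((p : A) ^ 2) g (hh ^ p) → ∀ {a₁ : C₁}, D₁.Red r a₁ →
      D₁.Red Y (a₁ ^ p) := fun D₁ h₁ h₂ a₁ h₃ => by
    have h := (expand D₁ h₁ h₂ h₃.mem _ hdiv2 hdiv1).sub (Close.refl 1)
    rw [add_sub_cancel_left, ← smul_inv_smul₀ hδp (u ^ p * g - 1)] at h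
    exact (Close.cancel hδp h).red hηn (h₃.pow p)
  have hYmem : Y ∈ riemannRochSpace (N.Bd (p * n₁) (p * n₂)) := by
    rw [N.Bd_mul]
    exact Submodule.smul_mem _ _ (Submodule.sub_mem _ (PTors.pow_mul_mem_rr hmem hg0 hdiv)
      (one_mem_rr (nsmul_nonneg (N.Bd_nonneg _ _) p)))
  have hA := hYr D hur hc hra
  have hB := hYr D' hur' hc' hrb
  obtain ⟨ha, hb⟩ := N.red_mem _ _ _ _ _ hYmem hA hB
  have ha' : a ∈ riemannRochSpace (N.Pd n₁ n₂) := mem_rr_of_pow_mul_mem hp.pos (s := 1) one_ne_zero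
    (by rw [map_one, mul_one, ← N.Pd_mul]; exact ha)
  have hb' : b ∈ riemannRochSpace (N.Qd n₁ n₂) := mem_rr_of_pow_mul_mem hp.pos (s := 1) one_ne_zero
    (by rw [map_one, mul_one, ← N.Qd_mul]; exact hb)
  refine hnot ⟨ha', hb', fun i => ?_⟩
  have hag := N.agree _ _ _ _ _ hYmem hA hB i
  rw [(valAt_pow (regular_of_mem_rr (N.Pd_x _ _ i) ha') p).2,
    (valAt_pow (regular_of_mem_rr (N.Qd_y _ _ i) hb') p).2] at hag
  rw [Pi.one_apply, one_mul]
  exact frobenius_inj k p (by simpa [frobenius_def] using hag.symm)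

end NodeSystem

end FLTAgent.Semistable
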