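import Fermat.Agent.Semistable.PTorsNewton
import Fermat.Agent.Semistable.PTorsBound
import Fermat.Agent.Semistable.PTorsThreshold

/-!
# A class with an approximate root above the threshold is principal
-/

set_option autoImplicit false
set_option linter.unusedSectionVars false

noncomputable section

open AlgebraicCurve

namespace FLTAgent.Semistable.NodeSystem

open FLTAgent.GoodRed FLTAgent.GoodRed.RedDatum FLTAgent.FunctionField

variable {L k : Type*} [Field L] [Field k] {A : ValuationSubring L} {π : A →+* k}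
  {F C C' : Type*} [Field F] [Algebra L F] [Field C] [Algebra k C] [Field C'] [Algebra k C']
  [IsFunctionField L F] [IsFunctionField k C] [IsFunctionField k C'] [IsAlgClosed L]
  [IsAlgClosed k] {D : RedDatum A π F C} {D' : RedDatum A π F C'} {ι : Type*} [Fintype ι]
  (N : NodeSystem D D' ι) {p : ℕ} [CharP k p] {ζ : A}

/-- An approximate root of `u ^ p g = 1` above the threshold with poles on `B`. -/
def IsStart (D : RedDatum A π F C) (D' : RedDatum A π F C') (p : ℕ) (ζ : A) (B z : Divisor L F)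
    (g : F) (E : A) (n : ℕ) : Prop :=
  ∃ u ∈ riemannRochSpace (n • B + z), D.Red u 1 ∧ D'.Red u 1 ∧
    Close D (PTors.thr p ζ * E) (u ^ p * g) 1 ∧ Close D' (PTors.thr p ζ * E) (u ^ p * g) 1

theorem exists_isStart_small (hA : IsRankOne A) (hp : p.Prime) (hζ : IsPrimitiveRoot ζ p)
    (hpL : (p : L) ≠ 0) {B z : Divisor L F} (hB : 0 ≤ B) {g : F} (hg : D.Red g 1)
    (hg' : D'.Red g 1) (hdiv : divisorOf g = p • z) {E : A} (hE : (E : L) ∈ A.nonunits) {n : ℕ}
    (h : IsStart D D' p ζ B z g E n) {T : A} (hT : (T : L) ≠ 0) :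
    ∃ n', n ≤ n' ∧ IsStart D D' p ζ B z g T n' := by
  have hiter : ∀ j, ∃ n', n ≤ n' ∧ IsStart D D' p ζ B z g (E ^ 2 ^ j) n' := by
    intro j
    induction j with
    | zero => exact ⟨n, le_rfl, by rwa [pow_zero, pow_one]⟩
    | succ j ih =>
      obtain ⟨n', hn', u, hu, h₁, h₁', c₁, c₁'⟩ := ih
      obtain ⟨r₁, s₁⟩ := Close.newton hp hζ hpL h₁ hg.mem c₁
      obtain ⟨r₁', s₁'⟩ := Close.newton hp hζ hpL h₁' hg'.mem c₁'
      rw [← pow_add, ← two_mul, ← pow_succ'] at s₁ s₁'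
      refine ⟨n' + p * n', by omega, _, ?_, r₁, r₁', s₁, s₁'⟩
      refine Submodule.sub_mem _ (riemannRochSpace_mono
        (add_le_add_left (nsmul_le_nsmul_left hB (Nat.le_add_right _ _)) z) hu)
        (Submodule.smul_mem _ _ ?_)
      rw [add_nsmul, add_right_comm, mul_nsmul']
      refine mul_mem_rr hu (Submodule.sub_mem _
        (PTors.pow_mul_mem_rr hu (hg.ne_zero one_ne_zero) hdiv) (one_mem_rr ?_))
      exact nsmul_nonneg (nsmul_nonneg hB _) _
  obtain ⟨i, hi⟩ := exists_pow_dvd hA hE hT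
  obtain ⟨n', hn', u, hu, h₁, h₁', c₁, c₁'⟩ := hiter i
  have hd : PTors.thr p ζ * T ∣ PTors.thr p ζ * E ^ 2 ^ i :=
    mul_dvd_mul_left _ (hi.trans (pow_dvd_pow E Nat.lt_two_pow_self.le))
  exact ⟨n', hn', u, hu, h₁, h₁', c₁.mono hd, c₁'.mono hd⟩

/-- A class with trivial jump and approximate roots above the threshold is principal. -/
theorem principal_of_isStart (hA : IsRankOne A) (hA0 : ∃ ϖ : L, ϖ ≠ 0 ∧ ϖ ∈ A.nonunits)
    (hp : p.Prime) (hζ : IsPrimitiveRoot ζ p) (hpL : (p : L) ≠ 0) {z : Divisor L F}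
    (hdeg : Divisor.degree z = 0) {g : F} (hg : D.Red g 1) (hg' : D'.Red g 1)
    (hdiv : divisorOf g = p • z) (hj : N.HasJump z 1) {E : A} (hE : (E : L) ∈ A.nonunits)
    {n₁ n₂ : ℕ} (s₁ : IsStart D D' p ζ N.B₁ z g E n₁) (s₂ : IsStart D D' p ζ N.B₂ z g E n₂) :
    ∃ h : F, h ≠ 0 ∧ z = divisorOf h := by
  classical
  by_contra hne
  push Not at hne
  obtain ⟨hdisj, c₀, hc₀, hbound⟩ := N.exists_component_bound hdeg hne hj
  obtain ⟨ϖ, hϖ0, hϖn⟩ := hA0
  have hπ := D.isResidue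
  set T : A := c₀ * ⟨ϖ, A.nonunits_subset hϖn⟩ with hT
  have hT0 : (T : L) ≠ 0 := mul_ne_zero hc₀ hϖ0
  have hTn : (T : L) ∈ A.nonunits := by
    rw [← hπ.eq_zero_iff, hT, map_mul, (hπ.eq_zero_iff ⟨ϖ, A.nonunits_subset hϖn⟩).2 hϖn, mul_zero]
  obtain ⟨m₁, -, u₁, hu₁, h₁, h₁', c₁, c₁'⟩ :=
    exists_isStart_small hA hp hζ hpL N.B₁_nonneg hg hg' hdiv hE s₁ hT0
  obtain ⟨m₂, -, u₂, hu₂, h₂, h₂', c₂, c₂'⟩ :=
    exists_isStart_small hA hp hζ hpL N.B₂_nonneg hg hg' hdiv hE s₂ hT0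
  set b := N.c + Fintype.card ι + 1
  set n := m₁ + m₂ + b with hn
  have hW₁ : u₁ ∈ riemannRochSpace (N.Bd n 0 + z) := by
    refine riemannRochSpace_mono (add_le_add_left ?_ z) hu₁
    simpa [Bd] using nsmul_le_nsmul_left N.B₁_nonneg (show m₁ ≤ n by omega)
  have hW₂ : u₂ ∈ riemannRochSpace (N.Bd 0 n + z) := by
    refine riemannRochSpace_mono (add_le_add_left ?_ z) hu₂
    simpa [Bd] using nsmul_le_nsmul_left N.B₂_nonneg (show m₂ ≤ n by omega)
  obtain ⟨i, hi, hci, hri⟩ := Close.exists_index hp hζ hTn h₁ h₂ hg c₁ c₂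
  obtain ⟨i', hi', hci', hri'⟩ := Close.exists_index hp hζ hTn h₁' h₂' hg' c₁' c₂'
  -- the two indices agree at a crossing
  obtain rfl : i = i' := by
    have hmem : ((ζ - 1 : A) : L)⁻¹ • (u₁ - u₂) ∈ riemannRochSpace (N.Bd n n + z) :=
      Submodule.smul_mem _ _ (Submodule.sub_mem _
        (riemannRochSpace_mono (add_le_add_left (N.Bd_mono le_rfl (Nat.zero_le _)) z) hW₁)
        (riemannRochSpace_mono (add_le_add_left (N.Bd_mono (Nat.zero_le _) le_rfl) z) hW₂))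
    have hpair : ((i : C), (i' : C')) ∈ N.nspace 1 n n := by
      rw [← hj n n (by simp only [Big]; omega)]
      exact ⟨_, hmem, hri, hri'⟩
    obtain ⟨x⟩ := N.nonempty
    have h := hpair.2.2 x
    rw [Pi.one_apply, one_mul, ← map_natCast (algebraMap k C), ← map_natCast (algebraMap k C'),
      valAt_algebraMap, valAt_algebraMap, CharP.natCast_eq_natCast k p, Nat.ModEq,
      Nat.mod_eq_of_lt hi, Nat.mod_eq_of_lt hi'] at h
    exact h.symm
  obtain ⟨w, hw, ew⟩ := hci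
  obtain ⟨w', hw', ew'⟩ := hci'
  set e : A := (ζ - 1) * T with he
  have he0 : (e : L) ≠ 0 := mul_ne_zero (PTors.sub_one_ne_zero hp hζ) hT0
  have hww : w = w' := smul_right_injective F he0 (ew.symm.trans ew')
  subst hww
  have hu₂' : ((ζ : L) ^ i) • u₂ ∈ riemannRochSpace (N.Bd 0 n + z) :=
    Submodule.smul_mem _ _ hW₂
  have hx₁ : (e : L)⁻¹ • u₁ ∈ riemannRochSpace (N.Bd n 0 + z) := Submodule.smul_mem _ _ hW₁
  have hx₂ : -((e : L)⁻¹ • ((ζ : L) ^ i) • u₂) ∈ riemannRochSpace (N.Bd 0 n + z) :=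
    neg_mem (Submodule.smul_mem _ _ hu₂')
  have hwsum : w = (e : L)⁻¹ • u₁ + -((e : L)⁻¹ • ((ζ : L) ^ i) • u₂) := by
    rw [← sub_eq_add_neg, ← smul_sub, ew, inv_smul_smul₀ he0]
  obtain ⟨y₁, hy₁, y₂, hy₂, hy₁V, hyeq⟩ := hbound n (by omega) w
    (hwsum ▸ Submodule.add_mem_sup hx₁ hx₂) hw hw'
  have hy : y₁ = (c₀ : L) • (e : L)⁻¹ • u₁ := by
    refine sub_eq_zero.1 (Submodule.disjoint_def.1 (hdisj n) _
      (sub_mem hy₁ (Submodule.smul_mem _ _ hx₁)) ?_)
    have hsub : y₁ - (c₀ : L) • (e : L)⁻¹ • u₁ =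
        (c₀ : L) • -((e : L)⁻¹ • ((ζ : L) ^ i) • u₂) - y₂ := by
      rw [sub_eq_sub_iff_add_eq_add, ← hyeq, hwsum, smul_add]
      abel
    rw [hsub]
    exact sub_mem (Submodule.smul_mem _ _ hx₂) hy₂
  rw [hy, smul_smul] at hy₁V
  have hmemA := mem_of_smul_mem_of_red D h₁ one_ne_zero hy₁V
  have hkey : (ϖ : L)⁻¹ ∈ A := by
    have := mul_mem hmemA (ζ - 1 : A).2
    convert this using 1
    have h1 := PTors.sub_one_ne_zero hp hζ
    rw [he, hT, MulMemClass.coe_mul, MulMemClass.coe_mul]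
    field_simp
  rcases (ValuationSubring.mem_nonunits_iff_or A).1 hϖn with h | h
  exacts [hϖ0 h, h hkey]

end FLTAgent.Semistable.NodeSystem
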