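import Fermat.Agent.Semistable.PTorsKey

/-!
# The cyclotomic character on flat classes with principal push-forwards
-/

set_option autoImplicit false
set_option linter.unusedSectionVars false

noncomputable section

open AlgebraicCurve AlgebraicCurve.SemilinearAut

namespace FLTAgent.Semistable

open FLTAgent.GoodRed FLTAgent.GoodRed.RedDatum FLTAgent.FunctionField

universe w

variable {L k : Type*} [Field L] [Field k] {A : ValuationSubring L} {π : A →+* k}
  {E E' F : Type*} {C : Type w} [Field E] [Algebra L E] [Field E'] [Algebra L E'] [Field F]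
  [Algebra L F] [Algebra E F] [IsScalarTower L E F] [Algebra E' F] [IsScalarTower L E' F]
  [Field C] [Algebra k C]
  {DE : RedDatum A π E C} {DE' : RedDatum A π E' C} {D D' : RedDatum A π F C}
  {frob frob' : C →ₐ[k] C} {p : ℕ}

/-- A `p`-th root in `E` of an element reducing to one reduces to one. -/
theorem PTors.red_root [CharP C p] (hp : p.Prime) {H : E} (h : DE.Red (H ^ p) 1) : DE.Red H 1 := by
  have : Fact p.Prime := ⟨hp⟩
  have hH : H ∈ DE.V := by
    by_contra hn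
    have hinv : H⁻¹ ∈ DE.V.nonunits := by
      rw [ValuationSubring.inv_mem_nonunits_iff]; exact Or.inr hn
    obtain ⟨z, hz⟩ := exists_red (DE.V.nonunits_subset hinv)
    obtain rfl : z = 0 := hz.eq_zero_iff.2 hinv
    have hH0 : H ≠ 0 := fun h0 => hn (h0 ▸ zero_mem _)
    have h1 := h.mul (hz.pow p)
    rw [inv_pow, mul_inv_cancel₀ (pow_ne_zero _ hH0), zero_pow hp.ne_zero, mul_zero] at h1
    exact one_ne_zero (red_one.unique h1)
  obtain ⟨z, hz⟩ := exists_red hH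
  obtain rfl : z = 1 := frobenius_inj C p (by simpa [frobenius_def] using (hz.pow p).unique h)
  exact hz

variable [CharP k p] [IsAlgClosed L]

theorem OneSide.exists_root_norm (hS : OneSide DE D D' frob p) [CharP C p] {g : F}
    (hgr : D.Red g 1) (hgr' : D'.Red g 1) {c : L} {H : E}
    (h : Algebra.norm E g = algebraMap L E c * H ^ p) :
    ∃ H' : E, DE.Red H' 1 ∧ Algebra.norm E g = H' ^ p := by
  obtain ⟨c', hc'⟩ := IsAlgClosed.exists_pow_nat_eq c hS.prime.pos
  refine ⟨algebraMap L E c' * H, PTors.red_root hS.prime ?_, by rw [mul_pow, ← map_pow, hc', h]⟩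
  rw [mul_pow, ← map_pow, hc', ← h]
  simpa using hS.red_norm hgr hgr' (w := 1) (by simp)

/-- Functions whose two norms are `p`-th powers are `p`-th powers modulo `p ^ 2` on both
components. -/
theorem exists_approx (hS : OneSide DE D D' frob p) (hS' : OneSide DE' D' D frob' p)
    [CharP C p] (hw : ∀ z : C, ∃ w, frob w = z ^ p) (hw' : ∀ z : C, ∃ w, frob' w = z ^ p)
    (hpL : (p : L) ≠ 0) {g : F} (hgr : D.Red g 1) (hgr' : D'.Red g 1)
    (hn : ∃ (c : L) (H : E), Algebra.norm E g = algebraMap L E c * H ^ p)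
    (hn' : ∃ (c : L) (H : E'), Algebra.norm E' g = algebraMap L E' c * H ^ p) :
    ∃ hh : F, D.Red hh 1 ∧ D'.Red hh 1 ∧ Close D ((p : A) ^ 2) g (hh ^ p) ∧
      Close D' ((p : A) ^ 2) g (hh ^ p) := by
  classical
  obtain ⟨c₁, H₁, h₁⟩ := hn
  obtain ⟨c₂, H₂, h₂⟩ := hn'
  obtain ⟨H, hH, hnH⟩ := hS.exists_root_norm hgr hgr' h₁
  obtain ⟨H', hH', hnH'⟩ := hS'.exists_root_norm hgr' hgr h₂
  have hπ := D.isResidue
  set d : A := (p : A) ^ 2 with hd
  set N : A := (p : A) ^ 2 * (p : A) with hN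
  have hpn : ((p : A) : L) ∈ A.nonunits := PTors.natCast_mem_nonunits hπ
  have hd0 : (d : L) ≠ 0 := by simp [hd, hpL]
  have hN0 : (N : L) ≠ 0 := by simp [hN, hpL]
  have hNn : (N : L) ∈ A.nonunits := by
    rw [← hπ.eq_zero_iff, hN, map_mul, (hπ.eq_zero_iff _).2 hpn, mul_zero]
  obtain ⟨e₀, he₀, he₀'⟩ := hS.sep
  obtain ⟨e, he, he'⟩ := exists_sharp_idempotent hS.rankOne he₀ he₀' hN0 hNn
  have hf : Close D' N (1 - e) 1 := by simpa using (Close.refl (1 : F)).sub he'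
  have hf' : Close D N (1 - e) 0 := by simpa using (Close.refl (1 : F)).sub he
  obtain ⟨γ₁, hγ₁, -, htr₁⟩ := hS.exists_trace_bound hw hNn he he'
  obtain ⟨γ₂, hγ₂, -, htr₂⟩ := hS'.exists_trace_bound hw' hNn hf hf'
  obtain ⟨c₃, hc₃, hcl₃⟩ := exists_close_zero D hpn (y := g - 1) (by simpa using hgr.sub red_one)
  obtain ⟨c₄, hc₄, hcl₄⟩ := exists_close_zero D' hpn (y := g - 1) (by simpa using hgr'.sub red_one)
  obtain ⟨γ, hγ, hγp, hγs⟩ := PTors.exists_common_dvd (Finset.univ : Finset (Fin 4))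
    ![γ₁, γ₂, c₃, c₄] hpn (fun i _ => by fin_cases i <;> assumption)
  have hs : ∀ i, γ ∣ ![γ₁, γ₂, c₃, c₄] i := fun i => hγs i (Finset.mem_univ i)
  have h0 : Close D γ g 1 := by simpa using (hcl₃.mono (hs 2)).add (Close.refl (1 : F))
  have h0' : Close D' γ g 1 := by simpa using (hcl₄.mono (hs 3)).add (Close.refl (1 : F))
  have hcN : ∀ c : A, c ∣ d → c * γ ∣ N := fun c hc => mul_dvd_mul hc hγp
  have hcn : ∀ c : A, γ ∣ c → (c : L) ∈ A.nonunits := fun c ⟨u, hu⟩ => by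
    rw [← hπ.eq_zero_iff, hu, map_mul, (hπ.eq_zero_iff _).2 hγ, zero_mul]
  have hc0 : ∀ c : A, c ∣ d → (c : L) ≠ 0 := fun c ⟨u, hu⟩ h => hd0 (by
    rw [hu, MulMemClass.coe_mul, h, zero_mul])
  obtain ⟨h, h', hh, hh', hc, hc'⟩ := exists_pow_approx (p := p) hS.rankOne hγ hd0
    (hγp.trans (dvd_pow_self _ two_ne_zero)) h0 h0'
    (fun c hγc hcd x hx hx' hxc => hS.approx_step hNn he he' (hcn c hγc) (hc0 c hcd) hγc
      (hcN c hcd) (htr₁ γ (hs 0)) hgr hgr' hH hnH hx hx' hxc)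
    (fun c hγc hcd x hx hx' hxc => by
      obtain ⟨y, hy, hy', hyc⟩ := hS'.approx_step hNn hf hf' (hcn c hγc) (hc0 c hcd) hγc
        (hcN c hcd) (htr₂ γ (hs 1)) hgr' hgr hH' hnH' hx' hx hxc
      exact ⟨y, hy', hy, hyc⟩)
  have hdN : d ∣ N := dvd_mul_right _ _
  have heD := he.red hNn red_one
  have heD' := he'.red hNn red_zero
  refine ⟨h * e + h' * (1 - e), by simpa using (hh.1.mul heD).add (hh'.1.mul (red_one.sub heD)),
    by simpa using (hh.2.mul heD').add (hh'.2.mul (red_one.sub heD')), ?_, ?_⟩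
  · refine hc.trans ((Close.symm ?_).pow ?_ p)
    · simpa using ((he.mul_left hh.1.mem).add (hf'.mul_left hh'.1.mem)).mono hdN
    · exact add_mem (mul_mem hh.1.mem heD.mem) (mul_mem hh'.1.mem (sub_mem (one_mem _) heD.mem))
  · refine hc'.trans ((Close.symm ?_).pow ?_ p)
    · simpa using ((he'.mul_left hh.2.mem).add (hf.mul_left hh'.2.mem)).mono hdN
    · exact add_mem (mul_mem hh.2.mem heD'.mem) (mul_mem hh'.2.mem (sub_mem (one_mem _) heD'.mem))

namespace NodeSystem.NodeAut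

variable [IsFunctionField L F] [IsFunctionField k C] [IsAlgClosed k] {ι : Type*} [Fintype ι]
  {N : NodeSystem D D' ι} (T : NodeAut N) {ζ : A}

/-- Inertia acts by the cyclotomic character on flat classes killed by `p` whose two norms are
`p`-th powers. -/
theorem smul_sub_nsmul_of_norms (hA : IsRankOne A) (hA0 : ∃ ϖ : L, ϖ ≠ 0 ∧ ϖ ∈ A.nonunits)
    (hS : OneSide DE D D' frob p) (hS' : OneSide DE' D' D frob' p)
    (hw : ∀ z : C, ∃ w, frob w = z ^ p) (hw' : ∀ z : C, ∃ w, frob' w = z ^ p)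
    (hT : T.IsInertial) (hζ : IsPrimitiveRoot ζ p) (hpL : (p : L) ≠ 0) {χ : ℕ}
    (hχ : baseAut T.s (ζ : L) = (ζ : L) ^ χ) {X : Divisor L F}
    (hX : IsFlat (D := D) (D' := D') p X)
    (hn : ∀ g : F, divisorOf g = p • X →
      ∃ (c : L) (H : E), Algebra.norm E g = algebraMap L E c * H ^ p)
    (hn' : ∀ g : F, divisorOf g = p • X →
      ∃ (c : L) (H : E'), Algebra.norm E' g = algebraMap L E' c * H ^ p) :
    ∃ h : F, h ≠ 0 ∧ T.s • X - χ • X = divisorOf h := by
  have hp := hS.prime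
  have : CharP C p := charP_of_injective_algebraMap (algebraMap k C).injective p
  obtain ⟨hdeg, g, hg, hdiv, t, t', ht, ht', hr, hr'⟩ := hX
  obtain ⟨a, ha⟩ := IsAlgClosed.exists_pow_nat_eq t⁻¹ hp.pos
  obtain ⟨a', ha'⟩ := IsAlgClosed.exists_pow_nat_eq t'⁻¹ hp.pos
  obtain ⟨e₀, he₀, he₀'⟩ := hS.sep
  obtain ⟨w, hwr, hwr'⟩ := exists_pair_lift hA he₀ he₀' (algebraMap k C a) (algebraMap k C a')
  have ha0 : a ≠ 0 := fun h => inv_ne_zero ht (by rw [← ha, h, zero_pow hp.ne_zero])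
  have hw0 : w ≠ 0 := hwr.ne_zero ((map_ne_zero _).2 ha0)
  set g' := g * w ^ p
  set X' := X + divisorOf w with hX'
  have hgr : D.Red g' 1 := by
    have := hr.mul (hwr.pow p)
    rwa [← map_pow, ← map_mul, ha, mul_inv_cancel₀ ht, map_one] at this
  have hgr' : D'.Red g' 1 := by
    have := hr'.mul (hwr'.pow p)
    rwa [← map_pow, ← map_mul, ha', mul_inv_cancel₀ ht', map_one] at this
  have hdiv' : divisorOf g' = p • X' := by
    rw [divisorOf_mul hg (pow_ne_zero _ hw0), PTors.divisorOf_pow, hdiv, smul_add]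
  have hdeg' : Divisor.degree X' = 0 := by rw [map_add, hdeg, degree_divisorOf, add_zero]
  obtain ⟨c, H, hH⟩ := hn g hdiv
  obtain ⟨c', H', hH'⟩ := hn' g hdiv
  obtain ⟨hh, hhr, hhr', hc, hc'⟩ := exists_approx hS hS' hw hw' hpL hgr hgr'
    ⟨c, H * Algebra.norm E w, by rw [map_mul, map_pow, hH]; ring⟩
    ⟨c', H' * Algebra.norm E' w, by rw [map_mul, map_pow, hH']; ring⟩
  obtain ⟨h, hh0, heq⟩ := T.smul_sub_nsmul_of_approx hA hA0 hT hp hζ hpL hχ hdeg' hgr hgr' hdiv'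
    hhr hhr' hc hc'
  refine ⟨h * (w ^ χ * (toRingAut T.s w)⁻¹), mul_ne_zero hh0 (mul_ne_zero (pow_ne_zero _ hw0)
    (inv_ne_zero ((map_ne_zero _).2 hw0))), ?_⟩
  rw [divisorOf_mul hh0 (mul_ne_zero (pow_ne_zero _ hw0) (inv_ne_zero ((map_ne_zero _).2 hw0))),
    divisorOf_mul (pow_ne_zero _ hw0) (inv_ne_zero ((map_ne_zero _).2 hw0)), divisorOf_inv,
    PTors.divisorOf_pow, divisorOf_toRingAut, ← heq, hX', smul_add, smul_add]
  abel

end NodeSystem.NodeAut

end FLTAgent.Semistable
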