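import Fermat.Agent.GoodRed.Datum
import Fermat.Agent.GoodRed.Series
import Mathlib.LinearAlgebra.Finsupp.LinearCombination

/-!
# Simultaneous reduction for two reduction data on the same field

For a subspace `W` the pairs of reductions of the elements of `W` which are integral for both
valuations form a space of the same dimension as `W`.
-/

set_option autoImplicit false

noncomputable section

namespace FLTAgent.Semistable

open FLTAgent.GoodRed FLTAgent.GoodRed.RedDatum

variable {L k : Type*} [Field L] [Field k] {A : ValuationSubring L} {π : A →+* k}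
  {F C C' : Type*} [Field F] [Algebra L F] [Field C] [Algebra k C] [Field C'] [Algebra k C']
  {D : RedDatum A π F C} {D' : RedDatum A π F C'}

variable (D D') in
/-- Pairs of reductions of the elements of `W` integral for both data. -/
def pairSpace (W : Submodule L F) : Submodule k (C × C') where
  carrier := {p | ∃ y ∈ W, D.Red y p.1 ∧ D'.Red y p.2}
  zero_mem' := ⟨0, W.zero_mem, red_zero, red_zero⟩
  add_mem' := fun ⟨y, hy, h, h'⟩ ⟨z, hz, hh, hh'⟩ =>
    ⟨y + z, W.add_mem hy hz, h.add hh, h'.add hh'⟩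
  smul_mem' := fun t _ ⟨y, hy, h, h'⟩ => by
    obtain ⟨c, rfl⟩ := D.isResidue.surj t
    exact ⟨(c : L) • y, W.smul_mem _ hy, red_smul c h, red_smul c h'⟩

theorem mem_pairSpace {W : Submodule L F} {p : C × C'} :
    p ∈ pairSpace D D' W ↔ ∃ y ∈ W, D.Red y p.1 ∧ D'.Red y p.2 := Iff.rfl

theorem pairSpace_mono {W W' : Submodule L F} (h : W ≤ W') :
    pairSpace D D' W ≤ pairSpace D D' W' :=
  fun _ ⟨y, hy, hr, hr'⟩ => ⟨y, h hy, hr, hr'⟩

variable {ι : Type*} [Fintype ι] {e : ι → F} {eb : ι → C} {eb' : ι → C'}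

theorem pair_red_sum (he : ∀ i, D.Red (e i) (eb i)) (he' : ∀ i, D'.Red (e i) (eb' i))
    (c : ι → A) :
    D.Red (∑ i, (c i : L) • e i) (∑ i, π (c i) • (eb i, eb' i)).1 ∧
      D'.Red (∑ i, (c i : L) • e i) (∑ i, π (c i) • (eb i, eb' i)).2 := by
  rw [Prod.fst_sum, Prod.snd_sum]
  exact ⟨red_sum_smul he c, red_sum_smul he' c⟩

theorem linearIndependent_of_pair (he : ∀ i, D.Red (e i) (eb i))
    (he' : ∀ i, D'.Red (e i) (eb' i)) (hind : LinearIndependent k fun i => (eb i, eb' i)) :
    LinearIndependent L e := by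
  classical
  rw [Fintype.linearIndependent_iff]
  intro c hc i
  by_contra hi
  obtain ⟨j, hj, hjA⟩ := exists_max_valuation A c fun h => hi (congrFun h i)
  obtain ⟨h2, h2'⟩ := pair_red_sum he he' (fun i => (⟨c i / c j, hjA i⟩ : A))
  have h3 : ∑ i, (c i / c j) • e i = 0 := by
    rw [show (∑ i, (c i / c j) • e i) = (c j)⁻¹ • ∑ i, c i • e i by
      rw [Finset.smul_sum]
      exact Finset.sum_congr rfl fun i _ => by rw [smul_smul, div_eq_inv_mul], hc, smul_zero]
  rw [h3] at h2 h2'
  have h4 := Fintype.linearIndependent_iff.1 hind _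
    (Prod.ext (h2.unique red_zero) (h2'.unique red_zero)) j
  rw [show (⟨c j / c j, hjA j⟩ : A) = 1 from Subtype.ext (div_self hj), map_one] at h4
  exact one_ne_zero h4

/-- Elements with independent pairs of reductions are orthonormal. -/
theorem pair_coeff_mem (he : ∀ i, D.Red (e i) (eb i))
    (he' : ∀ i, D'.Red (e i) (eb' i)) (hind : LinearIndependent k fun i => (eb i, eb' i))
    {c : ι → L} (h : ∑ i, c i • e i ∈ D.V) (h' : ∑ i, c i • e i ∈ D'.V) : ∀ i, c i ∈ A := by
  classical
  rcases eq_or_ne c 0 with rfl | hc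
  · exact fun i => zero_mem _
  obtain ⟨j, hj, hjA⟩ := exists_max_valuation A c hc
  by_contra hnot
  push Not at hnot
  obtain ⟨i₀, hi₀⟩ := hnot
  have hjn : c j ∉ A := fun hh => hi₀ (by
    have := mul_mem (hjA i₀) hh
    rwa [div_mul_cancel₀ _ hj] at this)
  have hinvn : (c j)⁻¹ ∈ A.nonunits := by
    rw [ValuationSubring.inv_mem_nonunits_iff]; exact Or.inr hjn
  have hinv : (c j)⁻¹ ∈ A := A.nonunits_subset hinvn
  set a : ι → A := fun i => ⟨c i / c j, hjA i⟩ with ha
  have h3 : (c j)⁻¹ • ∑ i, c i • e i = ∑ i, (a i : L) • e i := by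
    rw [Finset.smul_sum]
    refine Finset.sum_congr rfl fun i _ => ?_
    rw [smul_smul, ← div_eq_inv_mul]
  obtain ⟨w, hw⟩ := exists_red h
  obtain ⟨w', hw'⟩ := exists_red h'
  have h1 := red_smul ⟨(c j)⁻¹, hinv⟩ hw
  have h1' := red_smul ⟨(c j)⁻¹, hinv⟩ hw'
  rw [(D.isResidue.eq_zero_iff _).2 hinvn, zero_smul] at h1 h1'
  change D.Red ((c j)⁻¹ • ∑ i, c i • e i) 0 at h1
  change D'.Red ((c j)⁻¹ • ∑ i, c i • e i) 0 at h1'
  rw [h3] at h1 h1'
  obtain ⟨h2, h2'⟩ := pair_red_sum he he' a
  have h4 := Fintype.linearIndependent_iff.1 hind (fun i => π (a i))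
    (Prod.ext (h2.unique h1) (h2'.unique h1')) j
  rw [show a j = 1 from Subtype.ext (div_self hj), map_one] at h4
  exact one_ne_zero h4

theorem finite_pairSpace_and_finrank (D : RedDatum A π F C) (D' : RedDatum A π F C')
    (W : Submodule L F) [Module.Finite L W] :
    Module.Finite k (pairSpace D D' W) ∧
      Module.finrank k (pairSpace D D' W) = Module.finrank L W := by
  classical
  have hle : pairSpace D D' W ≤
      LinearMap.range ((D.redSpace W).subtype.prodMap (D'.redSpace W).subtype) :=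
    fun p ⟨y, hy, h, h'⟩ => ⟨(⟨p.1, y, hy, h⟩, ⟨p.2, y, hy, h'⟩), rfl⟩
  have hfin : Module.Finite k (pairSpace D D' W) := Submodule.finiteDimensional_of_le hle
  refine ⟨hfin, le_antisymm ?_ ?_⟩
  · let b := Module.finBasis k (pairSpace D D' W)
    choose y hy hr hr' using fun i => (b i).2
    have hli : LinearIndependent L fun i => (⟨y i, hy i⟩ : W) :=
      LinearIndependent.of_comp W.subtype (linearIndependent_of_pair (e := y) hr hr'
        (b.linearIndependent.map' (pairSpace D D' W).subtype (Submodule.ker_subtype _)))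
    simpa using hli.fintype_card_le_finrank
  · obtain ⟨s, hs⟩ := (Module.Finite.iff_fg (N := W)).1 inferInstance
    obtain ⟨n, e, hind, hspan⟩ := D.orth s
    obtain ⟨n', e', hind', hspan'⟩ := D'.orth s
    have he : ∀ i, D.Red (e i : F) (D.res (e i)) := fun i => red_iff.2 rfl
    have he' : ∀ i, D'.Red (e' i : F) (D'.res (e' i)) := fun i => red_iff.2 rfl
    obtain ⟨φ, hφ⟩ : ∃ φ : (Fin (n + n') → L) →ₗ[L] F,
        ∀ a, φ a = ∑ i, a (Fin.castAdd n' i) • (e i : F) :=
      ⟨(Fintype.linearCombination L fun i => (e i : F)).comp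
        (LinearMap.funLeft L L (Fin.castAdd n')), fun a => rfl⟩
    obtain ⟨φ', hφ'⟩ : ∃ φ : (Fin (n + n') → L) →ₗ[L] F,
        ∀ a, φ a = ∑ i, a (Fin.natAdd n i) • (e' i : F) :=
      ⟨(Fintype.linearCombination L fun i => (e' i : F)).comp
        (LinearMap.funLeft L L (Fin.natAdd n)), fun a => rfl⟩
    let U : Submodule L (Fin (n + n') → L) := W.comap φ ⊓ LinearMap.ker (φ - φ')
    have hU : ∀ {v}, v ∈ U → φ v ∈ W ∧ φ v = φ' v := fun hv =>
      ⟨Submodule.mem_comap.1 hv.1, sub_eq_zero.1 (LinearMap.mem_ker.1 hv.2)⟩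
    have hdim : Module.finrank L W ≤ Module.finrank L U := by
      have hWU : W ≤ U.map φ := by
        intro w hw
        have hwspan : ∀ {m : ℕ} {u : Fin m → F}, (↑s : Set F) ⊆ Submodule.span L (Set.range u) →
            ∃ a : Fin m → L, ∑ i, a i • u i = w := fun h =>
          (Submodule.mem_span_range_iff_exists_fun L).1
            ((hs ▸ Submodule.span_le.2 h : W ≤ _) hw)
        obtain ⟨a, ha⟩ := hwspan hspan
        obtain ⟨a', ha'⟩ := hwspan hspan'
        have h1 : φ (Fin.append a a') = w := by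
          rw [hφ]; simpa using ha
        have h2 : φ' (Fin.append a a') = w := by
          rw [hφ']; simpa using ha'
        exact ⟨Fin.append a a', ⟨Submodule.mem_comap.2 (h1.symm ▸ hw),
          LinearMap.mem_ker.2 (by rw [LinearMap.sub_apply, h1, h2, sub_self])⟩, h1⟩
      exact (Submodule.finrank_mono hWU).trans (Submodule.finrank_map_le φ U)
    refine hdim.trans ((finrank_le_finrank_redCoord D.isResidue U).trans ?_)
    let g : (Fin n → k) →ₗ[k] C := Fintype.linearCombination k fun i => D.res (e i)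
    let g' : (Fin n' → k) →ₗ[k] C' := Fintype.linearCombination k fun i => D'.res (e' i)
    let G : (Fin (n + n') → k) →ₗ[k] C × C' :=
      (g.comp (LinearMap.funLeft k k (Fin.castAdd n'))).prod
        (g'.comp (LinearMap.funLeft k k (Fin.natAdd n)))
    have hG : Function.Injective G := by
      refine (injective_iff_map_eq_zero G).2 fun a ha => ?_
      obtain ⟨h1, h2⟩ := Prod.mk_eq_zero.1 ha
      funext i
      refine Fin.addCases (fun j => ?_) (fun j => ?_) i
      · refine Fintype.linearIndependent_iff.1 hind (fun j => a (Fin.castAdd n' j)) ?_ j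
        simpa [g, Fintype.linearCombination_apply, LinearMap.funLeft_apply] using h1
      · refine Fintype.linearIndependent_iff.1 hind' (fun j => a (Fin.natAdd n j)) ?_ j
        simpa [g', Fintype.linearCombination_apply, LinearMap.funLeft_apply] using h2
    rw [(Submodule.equivMapOfInjective G hG _).finrank_eq]
    refine Submodule.finrank_mono ?_
    rintro _ ⟨v, hv, rfl⟩
    obtain ⟨a, ha, rfl⟩ := mem_redCoord.1 hv
    obtain ⟨hW, heq⟩ := hU ha
    refine ⟨φ fun i => (a i : L), hW, ?_, ?_⟩
    · rw [hφ]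
      simpa [g, G, Fintype.linearCombination_apply, LinearMap.funLeft_apply] using
        red_sum_smul he fun i => a (Fin.castAdd n' i)
    · rw [heq, hφ']
      simpa [g', G, Fintype.linearCombination_apply, LinearMap.funLeft_apply] using
        red_sum_smul he' fun i => a (Fin.natAdd n i)

instance finite_pairSpace (D : RedDatum A π F C) (D' : RedDatum A π F C') (W : Submodule L F)
    [Module.Finite L W] : Module.Finite k (pairSpace D D' W) :=
  (finite_pairSpace_and_finrank D D' W).1

theorem finrank_pairSpace (D : RedDatum A π F C) (D' : RedDatum A π F C') (W : Submodule L F)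
    [Module.Finite L W] : Module.finrank k (pairSpace D D' W) = Module.finrank L W :=
  (finite_pairSpace_and_finrank D D' W).2

/-- An element with reduction zero is a nonunit scalar multiple of an integral one. -/
theorem exists_eq_nonunit_smul (D : RedDatum A π F C) {r : F} (hr : D.Red r 0) (hr0 : r ≠ 0) :
    ∃ c : A, (c : L) ≠ 0 ∧ (c : L) ∈ A.nonunits ∧ ∃ w z, z ≠ 0 ∧ D.Red w z ∧ r = (c : L) • w := by
  obtain ⟨a, z, ha, hz, hred⟩ := D.exists_scale hr0
  have hn : a ∉ A := fun haA => by
    have h2 := red_smul ⟨a, haA⟩ hr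
    rw [smul_zero] at h2
    exact hz (hred.unique h2)
  have hn' : a⁻¹ ∈ A.nonunits := by
    rw [ValuationSubring.inv_mem_nonunits_iff]; exact Or.inr hn
  exact ⟨⟨a⁻¹, A.nonunits_subset hn'⟩, inv_ne_zero ha, hn', a • r, z, hz, hred,
    by rw [smul_smul, inv_mul_cancel₀ ha, one_smul]⟩

/-- Multiplying by a high power of an element reducing to zero kills any element. -/
theorem exists_pow_mul_red_zero (D : RedDatum A π F C) (hA : IsRankOne A) {e : F}
    (he : D.Red e 0) (h : F) : ∃ N : ℕ, ∀ n, N ≤ n → D.Red (e ^ n * h) 0 := by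
  rcases eq_or_ne h 0 with rfl | hh
  · exact ⟨0, fun n _ => by simpa using red_zero⟩
  rcases eq_or_ne e 0 with rfl | he0
  · exact ⟨1, fun n hn => by rw [zero_pow (by omega), zero_mul]; exact red_zero⟩
  obtain ⟨c, hc0, hcn, w, z, -, hw, rfl⟩ := exists_eq_nonunit_smul D he he0
  obtain ⟨a, z', ha, -, hh'⟩ := D.exists_scale hh
  obtain ⟨N, hN⟩ := hA (a * (c : L)) (c : L) (mul_ne_zero ha hc0) hcn
  refine ⟨N, fun n hn => ?_⟩
  have hb : (c : L) ^ n / a ∈ A.nonunits := by
    rw [A.mem_nonunits_iff, map_div₀, map_pow]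
    have hva : A.valuation a ≠ 0 := (map_ne_zero A.valuation).2 ha
    have h1 : A.valuation (c : L) ^ n ≤ A.valuation a * A.valuation (c : L) := by
      refine le_trans ?_ (hN.trans (le_of_eq (map_mul _ _ _)))
      exact pow_le_pow_right_of_le_one' (A.valuation_le_one c) hn
    calc A.valuation (c : L) ^ n / A.valuation a
        ≤ A.valuation a * A.valuation (c : L) / A.valuation a :=
          div_le_div_of_nonneg_right h1 zero_le
      _ = A.valuation (c : L) := mul_div_cancel_left₀ _ hva
      _ < 1 := A.mem_nonunits_iff.1 hcn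
  have h2 := red_smul ⟨_, A.nonunits_subset hb⟩ ((hw.pow n).mul hh')
  rw [(D.isResidue.eq_zero_iff _).2 hb, zero_smul] at h2
  convert h2 using 1
  rw [smul_pow, smul_mul_assoc, mul_smul_comm, smul_smul]
  congr 1
  field_simp

/-- Weak approximation for two data, from an element separating them. -/
theorem exists_pair_lift (hA : IsRankOne A) {e : F} (he : D.Red e 1) (he' : D'.Red e 0)
    (a : C) (b : C') : ∃ y, D.Red y a ∧ D'.Red y b := by
  obtain ⟨h, hh⟩ := D.exists_lift a
  obtain ⟨h', hh'⟩ := D'.exists_lift b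
  have he1 : D.Red (1 - e) 0 := by simpa using red_one.sub he
  have he1' : D'.Red (1 - e) 1 := by simpa using red_one.sub he'
  obtain ⟨N, hN⟩ := exists_pow_mul_red_zero D hA he1 h'
  obtain ⟨N', hN'⟩ := exists_pow_mul_red_zero D' hA he' h
  refine ⟨e ^ (N + N') * h + (1 - e) ^ (N + N') * h', ?_, ?_⟩
  · simpa using ((he.pow (N + N')).mul hh).add (hN (N + N') (by omega))
  · simpa using (hN' (N + N') (by omega)).add ((he1'.pow (N + N')).mul hh')

end FLTAgent.Semistable
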